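import Mathlib
import Fermat.Prelude.Def_ExtCitation_AdmissibleExtension_v2
import Fermat.Prelude.Def_ExtCitation_KummerBridge
import Fermat.Prelude.Def_ClassGroup_GaloisAction

/-!
# S14: interface statements (all `Prop`-valued definitions, nothing is proved here)

Blueprint (helper5).  `K` is always a `p`-th cyclotomic field, `ζ` a primitive `p`-th root of
unity, `π = 1 - ζ`.  A Galois automorphism `σ` with `σ ζ = ζ ^ k` has "cyclotomic exponent" `k`.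
-/

set_option autoImplicit false

open scoped NumberField Pointwise nonZeroDivisors

namespace Fermat.Agent.S14

/-- The absolute Galois group of `ℚ`. -/
abbrev GQ : Type := AlgebraicClosure ℚ ≃ₐ[ℚ] AlgebraicClosure ℚ

/-! ## CORE: the arithmetic of the cyclotomic field -/

/-- `α` is an `ω²`-eigenvector modulo `p`-th powers. -/
def IsOmegaSqEigen (p : ℕ) {K : Type} [Field K] [CharZero K] (ζ α : K) : Prop :=
  ∀ (σ : K ≃ₐ[ℚ] K) (k : ℕ), σ ζ = ζ ^ k → ∃ γ : K, σ α = α ^ (k ^ 2) * γ ^ p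

/-- `α` is, at every non-trivial valuation subring of `K`, a unit times a `p`-th power. -/
def IsLocallyPthPowerTimesUnit (p : ℕ) {K : Type} [Field K] (α : K) : Prop :=
  ∀ B : ValuationSubring K, B ≠ ⊤ → ∃ y : K, y ≠ 0 ∧ B.valuation (α / y ^ p) = 1

/-- `α` is a `p`-th power modulo `π³` at the places above `p`. -/
def IsPthPowerModPiCube (p : ℕ) {K : Type} [Field K] (ζ α : K) : Prop :=
  ∀ B : ValuationSubring K, (p : K) ∈ B.nonunits →
    ∃ y : K, y ≠ 0 ∧ B.valuation (α / y ^ p - 1) ≤ B.valuation ((1 - ζ) ^ 3)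

/-- CORE (for `p ≥ 5`): an `ω²`-eigen element which is everywhere locally a unit times a
`p`-th power, and a `p`-th power mod `π³`, is a `p`-th power. -/
def CoreStatement (p : ℕ) : Prop :=
  ∀ (K : Type) [Field K] [NumberField K] [IsCyclotomicExtension {p} ℚ K] (ζ : K),
    IsPrimitiveRoot ζ p → ∀ α : K, α ≠ 0 →
    IsOmegaSqEigen p ζ α → IsLocallyPthPowerTimesUnit p α → IsPthPowerModPiCube p ζ α →
    ∃ γ : K, α = γ ^ p

/-- CORE for `p = 3` (no condition at `π` is needed). -/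
def CoreThreeStatement : Prop :=
  ∀ (K : Type) [Field K] [NumberField K] [IsCyclotomicExtension {3} ℚ K] (ζ : K),
    IsPrimitiveRoot ζ 3 → ∀ α : K, α ≠ 0 →
    IsOmegaSqEigen 3 ζ α → IsLocallyPthPowerTimesUnit 3 α →
    ∃ γ : K, α = γ ^ 3

/-! ### (UN) units -/

/-- (UN): an `ω²`-eigen unit which is a `p`-th power mod `π³` is a `p`-th power. -/
def UnitsStatement (p : ℕ) [NeZero p] : Prop :=
  ∀ (K : Type) [Field K] [NumberField K] [IsCyclotomicExtension {p} ℚ K] (ζ : K)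
    (hζ : IsPrimitiveRoot ζ p) (u : (𝓞 K)ˣ),
    IsOmegaSqEigen p ζ ((u : 𝓞 K) : K) →
    (∃ y : 𝓞 K, (u : 𝓞 K) - y ^ p ∈ Ideal.span {(1 - hζ.toInteger) ^ 3}) →
    ∃ v : (𝓞 K)ˣ, u = v ^ p

/-! ### The `ω²`-element `E₂* = ∏_{0<a<p} (1 - ζ^a)^(e_a)`, `e_a ≡ a⁻² mod p` -/

/-- The exponent `e_a ∈ {0, …, p-1}` with `e_a * a² ≡ 1 mod p`. -/
def omegaSqExp (p a : ℕ) : ℕ := (((a : ZMod p)⁻¹) ^ 2).val

/-- `E₂* = ∏_{0<a<p} (1 - ζ^a)^(e_a)`; it is `π^(multiple of p)` times a unit, and an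
`ω²`-eigenvector modulo `p`-th powers. -/
def omegaSqElt (p : ℕ) {R : Type*} [CommRing R] (ζ : R) : R :=
  ∏ a ∈ Finset.Ioo 0 p, (1 - ζ ^ a) ^ omegaSqExp p a

/-! ### (TH) Thaine's relation -/

/-- The ring automorphism of `𝓞 K` induced by `σ ∈ Gal(K/ℚ)`. -/
noncomputable abbrev galInt {K : Type} [Field K] [NumberField K] (σ : K ≃ₐ[ℚ] K) : 𝓞 K ≃+* 𝓞 K :=
  galRestrictionDatum ℤ ℚ K (𝓞 K) σ

/-- (TH) Thaine's relation: for a prime `ℓ ≡ 1 mod p` and a prime `λ ∣ ℓ` of `K`, there are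
exponents `n σ` and an integer `g` with `g ^ (n σ) ≡ 1 - ζ mod σ(λ)` for all `σ`, such that
`∏_σ σ(λ)^(n σ)` is, in the group of fractional ideals, a principal ideal times a `p`-th power. -/
def ThaineStatement (p : ℕ) [NeZero p] : Prop :=
  ∀ (K : Type) [Field K] [NumberField K] [IsCyclotomicExtension {p} ℚ K] (ζ : K)
    (hζ : IsPrimitiveRoot ζ p) (ℓ : ℕ), ℓ.Prime → ℓ % p = 1 →
    ∀ lam : Ideal (𝓞 K), lam.IsPrime → (ℓ : 𝓞 K) ∈ lam →
    ∃ (n : (K ≃ₐ[ℚ] K) → ℕ) (g : ℤ) (b₁ b₂ : 𝓞 K) (I₁ I₂ : Ideal (𝓞 K)),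
      b₁ ≠ 0 ∧ b₂ ≠ 0 ∧ I₁ ≠ ⊥ ∧ I₂ ≠ ⊥ ∧
      Ideal.span {b₁} * I₁ ^ p * ∏ σ : K ≃ₐ[ℚ] K, (lam.map (galInt σ : 𝓞 K →+* 𝓞 K)) ^ n σ =
        Ideal.span {b₂} * I₂ ^ p ∧
      ∀ σ : K ≃ₐ[ℚ] K, (g : 𝓞 K) ^ n σ - (1 - hζ.toInteger) ∈ lam.map (galInt σ : 𝓞 K →+* 𝓞 K)

/-- A class group character of exponent `p` on which `Gal(K/ℚ)` acts through `ω²`. -/
def IsOmegaSqChar (p : ℕ) {K : Type} [Field K] [NumberField K] (ζ : K)
    (ψ : ClassGroup (𝓞 K) →* ℂˣ) : Prop :=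
  (∀ x, ψ x ^ p = 1) ∧
  ∀ (σ : K ≃ₐ[ℚ] K) (k : ℕ), σ ζ = ζ ^ k →
    ∀ x, ψ (ClassGroup.mulEquiv (galInt σ) x) = ψ x ^ (k ^ 2)

/-- (TH2) consequence of (TH): for an `ω²`-character `ψ` of the class group and a prime `λ` of
degree one, prime to `p`, with `ψ(λ) ≠ 1`, the element `E₂*` is a `p`-th power modulo `λ`. -/
def ThaineCharStatement (p : ℕ) [NeZero p] : Prop :=
  ∀ (K : Type) [Field K] [NumberField K] [IsCyclotomicExtension {p} ℚ K] (ζ : K)
    (hζ : IsPrimitiveRoot ζ p) (ψ : ClassGroup (𝓞 K) →* ℂˣ), IsOmegaSqChar p ζ ψ →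
    ∀ lam : (Ideal (𝓞 K))⁰, (lam : Ideal (𝓞 K)).IsPrime →
      (Ideal.absNorm (lam : Ideal (𝓞 K))).Prime → Ideal.absNorm (lam : Ideal (𝓞 K)) ≠ p →
      ψ (ClassGroup.mk0 lam) ≠ 1 →
      ∃ x : 𝓞 K, x ^ p - omegaSqElt p hζ.toInteger ∈ (lam : Ideal (𝓞 K))

/-! ### (AN) the analytic input -/

/-- (AN): for a non-trivial class group character `ψ` of exponent `p` of a number field `K`
containing the `p`-th roots of unity, and `E ∈ 𝓞 K` which is not a `p`-th power in `K`, there is a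
prime `λ` of degree one, prime to `p`, with `ψ(λ) ≠ 1` and `E` not a `p`-th power modulo `λ`. -/
def AnalyticStatement : Prop :=
  ∀ (p : ℕ), p.Prime → 3 ≤ p → ∀ (K : Type) [Field K] [NumberField K] (ζ : K), IsPrimitiveRoot ζ p →
    ∀ (ψ : ClassGroup (𝓞 K) →* ℂˣ), (∀ x, ψ x ^ p = 1) → ψ ≠ 1 →
    ∀ E : 𝓞 K, (¬ ∃ x : K, x ^ p = (E : K)) →
    ∃ lam : (Ideal (𝓞 K))⁰, (lam : Ideal (𝓞 K)).IsPrime ∧
      (Ideal.absNorm (lam : Ideal (𝓞 K))).Prime ∧ Ideal.absNorm (lam : Ideal (𝓞 K)) ≠ p ∧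
      ψ (ClassGroup.mk0 lam) ≠ 1 ∧ ∀ x : 𝓞 K, x ^ p - E ∉ (lam : Ideal (𝓞 K))

/-! ### (CL) the `ω²`-part of the class group -/

/-- (CL): there is no non-trivial `ω²`-character of exponent `p` on the class group. -/
def ClassGroupStatement (p : ℕ) : Prop :=
  ∀ (K : Type) [Field K] [NumberField K] [IsCyclotomicExtension {p} ℚ K] (ζ : K),
    IsPrimitiveRoot ζ p → ∀ ψ : ClassGroup (𝓞 K) →* ℂˣ, IsOmegaSqChar p ζ ψ → ψ = 1

/-! ## RED: from the Galois representation to the cyclotomic field -/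

/-- The mod `p` cyclotomic character. -/
noncomputable abbrev chi (p : ℕ) [Fact p.Prime] : GQ →* (ZMod p)ˣ := ExtCitation.cycloChar p

/-- What remains of a non-split admissible extension: a "Selmer class", i.e. a function `c` on
`G_ℚ` whose restriction to `ker χ` is a non-zero homomorphism to `ℤ/p`, on which conjugation by
`τ` acts through `χ(τ)⁻¹`, with open kernel, trivial on inertia at `ℓ ≠ p` and on the
decomposition groups at `p`. -/
structure SelmerDatum (p : ℕ) [Fact p.Prime] where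
  c : GQ → ZMod p
  map_mul : ∀ σ τ, chi p σ = 1 → chi p τ = 1 → c (σ * τ) = c σ + c τ
  conj : ∀ τ σ, chi p σ = 1 → c (τ * σ * τ⁻¹) = (((chi p τ)⁻¹ : (ZMod p)ˣ) : ZMod p) * c σ
  isOpen_ker : IsOpen {σ : GQ | chi p σ = 1 ∧ c σ = 0}
  nontrivial : ∃ σ, chi p σ = 1 ∧ c σ ≠ 0
  unram : ∀ ℓ : ℕ, ℓ.Prime → ℓ ≠ p → ∀ A : ValuationSubring (AlgebraicClosure ℚ),
    A.LiesOverPrime ℓ → ∀ σ ∈ A.inertiaSubgroupIn ℚ, chi p σ = 1 ∧ c σ = 0
  split : ∀ A : ValuationSubring (AlgebraicClosure ℚ), A.LiesOverPrime p →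
    ∀ σ ∈ A.decompositionSubgroup ℚ, chi p σ = 1 → c σ = 0

/-- (RED-A) a non-split admissible extension gives a Selmer datum. -/
def SelmerDatumStatement (p : ℕ) [Fact p.Prime] : Prop :=
  ∀ (V : Type) [AddCommGroup V] [Module (ZMod p) V]
    [DistribMulAction GQ V] [SMulCommClass GQ (ZMod p) V] (C : Submodule (ZMod p) V),
    ExtCitation.IsAdmissibleExtensionCts p V C → ¬ ExtCitation.SplitsGlobally C →
    Nonempty (SelmerDatum p)

/-- (RED-B) Kummer generator: a Selmer datum is realised by a `p`-th root. -/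
def KummerGeneratorStatement (p : ℕ) [Fact p.Prime] : Prop :=
  ∀ (D : SelmerDatum p) (ζ : AlgebraicClosure ℚ), IsPrimitiveRoot ζ p →
    ∃ a : AlgebraicClosure ℚ, a ≠ 0 ∧ ∀ σ : GQ, chi p σ = 1 → σ a = ζ ^ (D.c σ).val * a

/-- (RED-C) if the inertia group at a place over `ℓ ≠ p` fixes a `p`-th root of `α ∈ K`, then `α`
is a unit times a `p`-th power of `K` at that place. -/
def UnramifiedValuationStatement : Prop :=
  ∀ (p : ℕ), p.Prime → ∀ (K : IntermediateField ℚ (AlgebraicClosure ℚ)) [FiniteDimensional ℚ K]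
    (a : AlgebraicClosure ℚ), a ≠ 0 → a ^ p ∈ K →
    ∀ (A : ValuationSubring (AlgebraicClosure ℚ)) (ℓ : ℕ), ℓ.Prime → ℓ ≠ p → A.LiesOverPrime ℓ →
    (∀ σ ∈ A.inertiaSubgroupIn ℚ, σ a = a) →
    ∃ y ∈ K, y ≠ 0 ∧ A.valuation (a ^ p / y ^ p) = 1

/-- (RED-D) a number field `K` is dense in its decomposition field: an element fixed by the
decomposition group of `A` over `K` can be approximated by elements of `K`. -/
def DecompositionApproxStatement : Prop :=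
  ∀ (K : IntermediateField ℚ (AlgebraicClosure ℚ)) [FiniteDimensional ℚ K]
    (x : AlgebraicClosure ℚ) (A : ValuationSubring (AlgebraicClosure ℚ)) (q : ℕ), q.Prime →
    A.LiesOverPrime q →
    (∀ σ ∈ A.decompositionSubgroup ℚ, (∀ y ∈ K, σ y = y) → σ x = x) →
    ∀ N : ℕ, ∃ y ∈ K, A.valuation (x - y) ≤ A.valuation (q : AlgebraicClosure ℚ) ^ N

/-- (RED) the reduction: CORE implies the Ext-vanishing. -/
def ReductionStatement (p : ℕ) [Fact p.Prime] : Prop :=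
  CoreStatement p → ExtCitation.ExtVanishingCts p

end Fermat.Agent.S14
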