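import Mathlib
import Fermat.Prelude.Def_FLTPrelim_Ramification
import Fermat.Agent.S54.ValRing

/-!
# RED-C, part 1: valuation subrings of `Qbar` versus primes of the ring of algebraic integers

For a valuation subring `A` of `Qbar` lying over a rational prime, `redC_prime A` is the prime
`{b | b integral, b ∈ A.nonunits}` of the ring `integralClosure ℤ Qbar`.  `A` is the localization
of the ring of algebraic integers at this prime (`redC_mem_iff`), so the decomposition group and
the inertia group of `A` can be read off on algebraic integers.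
-/

set_option autoImplicit false

open scoped Pointwise

namespace Fermat.Agent.S14

local notation "Qbar" => AlgebraicClosure ℚ
local notation "Bint" => integralClosure ℤ (AlgebraicClosure ℚ)

/-- Algebraic integers lie in every valuation subring. -/
theorem redC_int_mem (A : ValuationSubring Qbar) (b : Qbar) (hb : IsIntegral ℤ b) : b ∈ A := by
  have h1 : IsIntegral A b := hb.tower_top
  obtain ⟨y, hy⟩ := IsIntegrallyClosed.algebraMap_eq_of_integral h1
  rw [← hy]
  exact y.2

/-- The prime of the ring of algebraic integers defined by a valuation subring. -/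
def redC_prime (A : ValuationSubring Qbar) : Ideal Bint where
  carrier := {b | (b : Qbar) ∈ A.nonunits}
  zero_mem' := by
    show ((0 : Bint) : Qbar) ∈ A.nonunits
    simp
  add_mem' := by
    intro x y hx hy
    show ((x + y : Bint) : Qbar) ∈ A.nonunits
    have := A.nonunits.add_mem hx hy
    simpa using this
  smul_mem' := by
    intro c x hx
    show ((c • x : Bint) : Qbar) ∈ A.nonunits
    replace hx : (x : Qbar) ∈ A.nonunits := hx
    rw [ValuationSubring.mem_nonunits_iff] at hx ⊢
    have hc : A.valuation (c : Qbar) ≤ 1 :=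
      (A.valuation_le_one_iff _).2 (redC_int_mem A c c.2)
    have : ((c • x : Bint) : Qbar) = (c : Qbar) * (x : Qbar) := by simp
    rw [this, map_mul]
    calc A.valuation (c : Qbar) * A.valuation (x : Qbar)
        ≤ 1 * A.valuation (x : Qbar) := mul_le_mul_left hc _
      _ < 1 := by rw [one_mul]; exact hx

theorem redC_mem_prime (A : ValuationSubring Qbar) (b : Bint) :
    b ∈ redC_prime A ↔ A.valuation (b : Qbar) < 1 := by
  rw [← ValuationSubring.mem_nonunits_iff]
  rfl

theorem redC_int_val_le (A : ValuationSubring Qbar) (b : Bint) : A.valuation (b : Qbar) ≤ 1 :=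
  (A.valuation_le_one_iff _).2 (redC_int_mem A b b.2)

theorem redC_not_mem_prime (A : ValuationSubring Qbar) (b : Bint) :
    b ∉ redC_prime A ↔ A.valuation (b : Qbar) = 1 := by
  rw [redC_mem_prime, not_lt]
  constructor
  · intro h
    exact le_antisymm (redC_int_val_le A b) h
  · intro h
    exact h.ge

instance redC_prime_isPrime (A : ValuationSubring Qbar) : (redC_prime A).IsPrime := by
  refine ⟨?_, ?_⟩
  · intro h
    have h1 : (1 : Bint) ∈ redC_prime A := by rw [h]; trivial
    rw [redC_mem_prime] at h1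
    simp at h1
  · intro x y hxy
    by_contra hcon
    rw [not_or, redC_not_mem_prime, redC_not_mem_prime] at hcon
    rw [redC_mem_prime] at hxy
    have : ((x * y : Bint) : Qbar) = (x : Qbar) * (y : Qbar) := by simp
    rw [this, map_mul, hcon.1, hcon.2, one_mul] at hxy
    exact lt_irrefl _ hxy

theorem redC_isAlgebraic_int (x : Qbar) : IsAlgebraic ℤ x :=
  (IsFractionRing.isAlgebraic_iff ℤ ℚ (AlgebraicClosure ℚ)).mpr
    ((AlgebraicClosure.isAlgebraic ℚ).isAlgebraic x)

/-- `A` is the localization of the ring of algebraic integers at `redC_prime A`. -/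
theorem redC_mem_iff (A : ValuationSubring Qbar) {ℓ : ℕ} (hℓ : ℓ.Prime)
    (hA : A.LiesOverPrime ℓ) (x : Qbar) :
    x ∈ A ↔ ∃ s : Bint, A.valuation (s : Qbar) = 1 ∧ IsIntegral ℤ ((s : Qbar) * x) := by
  constructor
  · intro hx
    have hℓQ : ((ℓ : ℤ) : Bint) ∈ redC_prime A := by
      show (((ℓ : ℤ) : Bint) : Qbar) ∈ A.nonunits
      have : (((ℓ : ℤ) : Bint) : Qbar) = (ℓ : Qbar) := by simp
      rw [this]
      exact hA
    set A' : ValuationSubring Qbar :=
      Fermat.Agent.S54.locValuationSubring redC_isAlgebraic_int (redC_prime A) ℓ hℓ hℓQ with hA'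
    rcases A'.mem_or_inv_mem x with h | h
    · obtain ⟨s, hs, hsx⟩ := h
      exact ⟨s, (redC_not_mem_prime A s).1 hs, hsx⟩
    · obtain ⟨s, hs, hsx⟩ := h
      have hs1 := (redC_not_mem_prime A s).1 hs
      by_cases hx0 : x = 0
      · exact ⟨1, by simp, by simp [hx0, isIntegral_zero]⟩
      -- `b = s * x⁻¹` is integral, of valuation `≥ 1`, hence a unit
      have hxv : A.valuation x ≤ 1 := (A.valuation_le_one_iff _).2 hx
      have hbv : A.valuation ((s : Qbar) * x⁻¹) ≤ 1 :=
        (A.valuation_le_one_iff _).2 (redC_int_mem A _ hsx)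
      rw [map_mul, hs1, one_mul, map_inv₀] at hbv
      have hxv0 : A.valuation x ≠ 0 := (Valuation.ne_zero_iff _).2 hx0
      have hxv1 : A.valuation x = 1 := by
        refine le_antisymm hxv ?_
        have := (inv_le_one₀ (zero_lt_iff.2 hxv0)).1 hbv
        exact this
      refine ⟨⟨(s : Qbar) * x⁻¹, hsx⟩, ?_, ?_⟩
      · show A.valuation ((s : Qbar) * x⁻¹) = 1
        rw [map_mul, hs1, one_mul, map_inv₀, hxv1, inv_one]
      · show IsIntegral ℤ ((s : Qbar) * x⁻¹ * x)
        rw [mul_assoc, inv_mul_cancel₀ hx0, mul_one]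
        exact s.2
  · rintro ⟨s, hs, hsx⟩
    rw [← A.valuation_le_one_iff]
    have h1 : A.valuation ((s : Qbar) * x) ≤ 1 :=
      (A.valuation_le_one_iff _).2 (redC_int_mem A _ hsx)
    rwa [map_mul, hs, one_mul] at h1

/-! ### The Galois action -/

theorem redC_smul_nonunits (σ : Qbar ≃ₐ[ℚ] Qbar) (A : ValuationSubring Qbar) (x : Qbar) :
    x ∈ (σ • A).nonunits ↔ σ⁻¹ x ∈ A.nonunits := by
  rw [ValuationSubring.mem_nonunits_iff_or, ValuationSubring.mem_nonunits_iff_or,
    ValuationSubring.mem_pointwise_smul_iff_inv_smul_mem]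
  have h1 : σ⁻¹ • x⁻¹ = (σ⁻¹ x)⁻¹ := by
    show σ⁻¹ x⁻¹ = (σ⁻¹ x)⁻¹
    rw [map_inv₀]
  rw [h1]
  have h2 : σ⁻¹ x = 0 ↔ x = 0 := by
    constructor
    · intro h
      have := congrArg σ h
      simpa using this
    · intro h
      rw [h, map_zero]
  rw [h2]

theorem redC_smul_liesOver (σ : Qbar ≃ₐ[ℚ] Qbar) (A : ValuationSubring Qbar) {ℓ : ℕ}
    (hA : A.LiesOverPrime ℓ) : (σ • A).LiesOverPrime ℓ := by
  show (ℓ : Qbar) ∈ (σ • A).nonunits
  rw [redC_smul_nonunits, map_natCast]
  exact hA

theorem redC_prime_smul (σ : Qbar ≃ₐ[ℚ] Qbar) (A : ValuationSubring Qbar) (b : Bint) :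
    b ∈ redC_prime (σ • A) ↔ σ⁻¹ • b ∈ redC_prime A := by
  show (b : Qbar) ∈ (σ • A).nonunits ↔ ((σ⁻¹ • b : Bint) : Qbar) ∈ A.nonunits
  rw [redC_smul_nonunits]
  rfl

/-- A valuation subring lying over a rational prime is determined by its prime of the ring of
algebraic integers. -/
theorem redC_eq_of_prime_eq {A A' : ValuationSubring Qbar} {ℓ ℓ' : ℕ} (hℓ : ℓ.Prime)
    (hℓ' : ℓ'.Prime) (hA : A.LiesOverPrime ℓ) (hA' : A'.LiesOverPrime ℓ')
    (h : redC_prime A = redC_prime A') : A = A' := by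
  ext x
  rw [redC_mem_iff A hℓ hA, redC_mem_iff A' hℓ' hA']
  constructor
  · rintro ⟨s, hs, hsx⟩
    refine ⟨s, ?_, hsx⟩
    rw [← redC_not_mem_prime, ← h, redC_not_mem_prime]
    exact hs
  · rintro ⟨s, hs, hsx⟩
    refine ⟨s, ?_, hsx⟩
    rw [← redC_not_mem_prime, h, redC_not_mem_prime]
    exact hs

theorem redC_mem_decomposition (A : ValuationSubring Qbar) {ℓ : ℕ} (hℓ : ℓ.Prime)
    (hA : A.LiesOverPrime ℓ) (σ : Qbar ≃ₐ[ℚ] Qbar)
    (h : redC_prime (σ • A) = redC_prime A) : σ ∈ A.decompositionSubgroup ℚ := by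
  rw [MulAction.mem_stabilizer_iff]
  exact redC_eq_of_prime_eq hℓ hℓ (redC_smul_liesOver σ A hA) hA h

/-- An automorphism which is trivial on algebraic integers modulo `redC_prime A` stabilizes this
prime. -/
theorem redC_prime_smul_eq_of_sub_mem (A : ValuationSubring Qbar) (σ : Qbar ≃ₐ[ℚ] Qbar)
    (h : ∀ b : Bint, σ (b : Qbar) - b ∈ A.nonunits) : redC_prime (σ • A) = redC_prime A := by
  ext b
  rw [redC_prime_smul]
  show ((σ⁻¹ • b : Bint) : Qbar) ∈ A.nonunits ↔ (b : Qbar) ∈ A.nonunits
  have h1 := h (σ⁻¹ • b)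
  have h2 : σ ((σ⁻¹ • b : Bint) : Qbar) = (b : Qbar) := by
    show σ (σ⁻¹ (b : Qbar)) = b
    exact AlgEquiv.apply_symm_apply σ _
  rw [h2] at h1
  constructor
  · intro hc
    have := A.nonunits.add_mem h1 hc
    simpa using this
  · intro hb
    have := A.nonunits.sub_mem hb h1
    simpa using this

/-- Criterion for membership in the inertia group, read off on algebraic integers. -/
theorem redC_mem_inertia (A : ValuationSubring Qbar) {ℓ : ℕ} (hℓ : ℓ.Prime)
    (hA : A.LiesOverPrime ℓ) (σ : Qbar ≃ₐ[ℚ] Qbar)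
    (h : ∀ b : Bint, σ (b : Qbar) - b ∈ A.nonunits) : σ ∈ A.inertiaSubgroupIn ℚ := by
  have hD : σ ∈ A.decompositionSubgroup ℚ :=
    redC_mem_decomposition A hℓ hA σ (redC_prime_smul_eq_of_sub_mem A σ h)
  -- `σ` moves every element of `A` by a nonunit
  have key : ∀ y : Qbar, y ∈ A → A.valuation (σ y - y) < 1 := by
    intro y hy
    obtain ⟨s, hs, hsy⟩ := (redC_mem_iff A hℓ hA y).1 hy
    have hs0 : (s : Qbar) ≠ 0 := by
      intro h0
      rw [h0, map_zero] at hs
      exact zero_ne_one hs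
    have hds : A.valuation (σ (s : Qbar) - s) < 1 :=
      (ValuationSubring.mem_nonunits_iff A).1 (h s)
    have hdb : A.valuation (σ ((s : Qbar) * y) - (s : Qbar) * y) < 1 :=
      (ValuationSubring.mem_nonunits_iff A).1 (h ⟨(s : Qbar) * y, hsy⟩)
    have hσs : A.valuation (σ (s : Qbar)) = 1 := by
      have : σ (s : Qbar) = (s : Qbar) + (σ (s : Qbar) - s) := by ring
      rw [this, Valuation.map_add_eq_of_lt_left _ (by rw [hs]; exact hds), hs]
    have hσs0 : σ (s : Qbar) ≠ 0 := by
      intro h0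
      rw [h0, map_zero] at hσs
      exact zero_ne_one hσs
    have hyv : A.valuation y ≤ 1 := (A.valuation_le_one_iff _).2 hy
    have e : σ y - y = (σ (s : Qbar))⁻¹ *
        ((σ ((s : Qbar) * y) - (s : Qbar) * y) - (σ (s : Qbar) - s) * y) := by
      rw [map_mul]
      field_simp
      ring
    rw [e, map_mul, map_inv₀, hσs, inv_one, one_mul]
    refine lt_of_le_of_lt (Valuation.map_sub _ _ _) (max_lt hdb ?_)
    rw [map_mul]
    calc A.valuation (σ (s : Qbar) - s) * A.valuation y
        ≤ A.valuation (σ (s : Qbar) - s) * 1 := mul_le_mul_right hyv _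
      _ < 1 := by rw [mul_one]; exact hds
  refine ⟨⟨σ, hD⟩, ?_, rfl⟩
  show (⟨σ, hD⟩ : A.decompositionSubgroup ℚ) ∈ (MulSemiringAction.toRingAut
    (A.decompositionSubgroup ℚ) (IsLocalRing.ResidueField A)).ker
  rw [MonoidHom.mem_ker]
  ext x
  obtain ⟨y, rfl⟩ := IsLocalRing.residue_surjective x
  show (⟨σ, hD⟩ : A.decompositionSubgroup ℚ) • (IsLocalRing.residue A y) = IsLocalRing.residue A y
  rw [← IsLocalRing.ResidueField.residue_smul]
  rw [← sub_eq_zero, ← map_sub, IsLocalRing.residue_eq_zero_iff, A.valuation_lt_one_iff]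
  exact key y y.2

end Fermat.Agent.S14
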