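import Mathlib

/-!
# RED-C, part 2: valuations in a radical extension `K(a)`, `a ^ p ∈ K`, `v(a ^ p) ∉ v(K)^p`

If `v (a ^ p)` is not the valuation of a `p`-th power of `K`, then the monomials `c * a ^ i`
(`c ∈ K`, `i < p`) have pairwise distinct valuations.  Hence every automorphism fixing `K`
preserves the valuation on `K(a)`, and moves the elements of `K(a)` of valuation `≤ 1` by
elements of valuation `< 1`.
-/

set_option autoImplicit false

namespace Fermat.Agent.S14

section general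

variable {F Γ₀ : Type*} [Field F] [LinearOrderedCommGroupWithZero Γ₀] (v : Valuation F Γ₀)

/-- A finite sum of terms with pairwise distinct valuations has the valuation of its largest
term. -/
theorem redC_val_sum_aux (t : ℕ → F) :
    ∀ n, (∀ i < n, ∀ j < n, i ≠ j → t i ≠ 0 → t j ≠ 0 → v (t i) ≠ v (t j)) →
      (∀ i < n, v (t i) ≤ v (∑ j ∈ Finset.range n, t j)) ∧
      ((∑ j ∈ Finset.range n, t j) = 0 ∨
        ∃ i < n, t i ≠ 0 ∧ v (∑ j ∈ Finset.range n, t j) = v (t i)) := by
  intro n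
  induction n with
  | zero =>
    intro _
    exact ⟨fun i hi => absurd hi (Nat.not_lt_zero i), Or.inl (by simp)⟩
  | succ n ih =>
    intro hd
    have hd' : ∀ i < n, ∀ j < n, i ≠ j → t i ≠ 0 → t j ≠ 0 → v (t i) ≠ v (t j) :=
      fun i hi j hj => hd i (Nat.lt_succ_of_lt hi) j (Nat.lt_succ_of_lt hj)
    obtain ⟨ih1, ih2⟩ := ih hd'
    rw [Finset.sum_range_succ]
    by_cases htn : t n = 0
    · rw [htn, add_zero]
      refine ⟨?_, ?_⟩
      · intro i hi
        rcases Nat.lt_succ_iff_lt_or_eq.1 hi with h | h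
        · exact ih1 i h
        · rw [h, htn, map_zero]; exact zero_le
      · rcases ih2 with h | ⟨i, hi, hti, hv⟩
        · exact Or.inl h
        · exact Or.inr ⟨i, Nat.lt_succ_of_lt hi, hti, hv⟩
    · rcases ih2 with h | ⟨i₀, hi₀, hti₀, hv⟩
      · rw [h, zero_add]
        refine ⟨?_, Or.inr ⟨n, Nat.lt_succ_self n, htn, rfl⟩⟩
        intro i hi
        rcases Nat.lt_succ_iff_lt_or_eq.1 hi with h' | h'
        · have := ih1 i h'
          rw [h, map_zero] at this
          exact le_trans this zero_le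
        · rw [h']
      · have hne : v (∑ j ∈ Finset.range n, t j) ≠ v (t n) := by
          rw [hv]
          exact hd i₀ (Nat.lt_succ_of_lt hi₀) n (Nat.lt_succ_self n) (Nat.ne_of_lt hi₀) hti₀ htn
        have hmax := Valuation.map_add_of_distinct_val v hne
        refine ⟨?_, Or.inr ?_⟩
        · intro i hi
          rw [hmax]
          rcases Nat.lt_succ_iff_lt_or_eq.1 hi with h' | h'
          · exact le_trans (ih1 i h') (le_max_left _ _)
          · rw [h']; exact le_max_right _ _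
        · rcases le_total (v (t n)) (v (∑ j ∈ Finset.range n, t j)) with h' | h'
          · refine ⟨i₀, Nat.lt_succ_of_lt hi₀, hti₀, ?_⟩
            rw [hmax, max_eq_left h', hv]
          · refine ⟨n, Nat.lt_succ_self n, htn, ?_⟩
            rw [hmax, max_eq_right h']

theorem redC_val_sum_ge (t : ℕ → F) (n : ℕ)
    (hd : ∀ i < n, ∀ j < n, i ≠ j → t i ≠ 0 → t j ≠ 0 → v (t i) ≠ v (t j)) (i : ℕ) (hi : i < n) :
    v (t i) ≤ v (∑ j ∈ Finset.range n, t j) :=
  (redC_val_sum_aux v t n hd).1 i hi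

/-- Two sums with termwise equal valuations, pairwise distinct, have the same valuation. -/
theorem redC_val_sum_congr (t t' : ℕ → F) (n : ℕ)
    (hd : ∀ i < n, ∀ j < n, i ≠ j → t i ≠ 0 → t j ≠ 0 → v (t i) ≠ v (t j))
    (htt : ∀ i < n, v (t' i) = v (t i)) :
    v (∑ j ∈ Finset.range n, t' j) = v (∑ j ∈ Finset.range n, t j) := by
  have h0 : ∀ i < n, (t' i = 0 ↔ t i = 0) := by
    intro i hi
    rw [← Valuation.zero_iff v, ← Valuation.zero_iff v (x := t i), htt i hi]
  have hd' : ∀ i < n, ∀ j < n, i ≠ j → t' i ≠ 0 → t' j ≠ 0 → v (t' i) ≠ v (t' j) := by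
    intro i hi j hj hij h1 h2
    rw [htt i hi, htt j hj]
    exact hd i hi j hj hij (fun h => h1 ((h0 i hi).2 h)) (fun h => h2 ((h0 j hj).2 h))
  apply le_antisymm
  · apply Valuation.map_sum_le
    intro i hi
    rw [htt i (Finset.mem_range.1 hi)]
    exact redC_val_sum_ge v t n hd i (Finset.mem_range.1 hi)
  · apply Valuation.map_sum_le
    intro i hi
    rw [← htt i (Finset.mem_range.1 hi)]
    exact redC_val_sum_ge v t' n hd' i (Finset.mem_range.1 hi)

end general

section radical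

variable {F L Γ₀ : Type*} [Field F] [Field L] [Algebra F L] [LinearOrderedCommGroupWithZero Γ₀]
  (v : Valuation L Γ₀) (K : IntermediateField F L)

/-- If `v a` is not the valuation of an element of `K`, the monomials `c * a ^ i`, `i < p`, have
pairwise distinct valuations. -/
theorem redC_val_monomial_ne {p : ℕ} (hp : p.Prime) {a : L} (ha : a ≠ 0) (hα : a ^ p ∈ K)
    (hno : ∀ y ∈ K, y ≠ 0 → v y ≠ v a)
    {c c' : L} (hc : c ∈ K) (hc' : c' ∈ K) (hc0 : c ≠ 0) (hc'0 : c' ≠ 0) {i j : ℕ}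
    (hij : i < j) (hj : j < p) : v (c * a ^ i) ≠ v (c' * a ^ j) := by
  intro h
  obtain ⟨d, rfl⟩ : ∃ d, j = i + d := ⟨j - i, by omega⟩
  have hd0 : 0 < d := by omega
  have hdp : d < p := by omega
  have hcop : Nat.Coprime p d :=
    (Nat.Prime.coprime_iff_not_dvd hp).2 (Nat.not_dvd_of_pos_of_lt hd0 hdp)
  obtain ⟨s, t, hst⟩ := (Nat.isCoprime_iff_coprime.2 hcop)
  have hva : v a ≠ 0 := (Valuation.ne_zero_iff v).2 ha
  have hvc' : v c' ≠ 0 := (Valuation.ne_zero_iff v).2 hc'0
  have hvai : v a ^ i ≠ 0 := pow_ne_zero _ hva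
  -- `v (c / c') = v a ^ d`
  have h1 : v (c / c') = v a ^ d := by
    rw [map_mul, map_mul, map_pow, map_pow, pow_add] at h
    rw [map_div₀, div_eq_iff hvc']
    have h2 : v c * v a ^ i = (v a ^ d * v c') * v a ^ i := by
      rw [h]
      simp only [mul_comm, mul_left_comm]
    exact mul_right_cancel₀ hvai h2
  set y : L := (c / c') ^ t * (a ^ p) ^ s with hy
  have hyK : y ∈ K := mul_mem (zpow_mem (div_mem hc hc') t) (zpow_mem hα s)
  have hy0 : y ≠ 0 :=
    mul_ne_zero (zpow_ne_zero _ (div_ne_zero hc0 hc'0)) (zpow_ne_zero _ (pow_ne_zero _ ha))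
  refine hno y hyK hy0 ?_
  rw [hy, map_mul, map_zpow₀, map_zpow₀, h1, map_pow, ← zpow_natCast (v a) d,
    ← zpow_natCast (v a) p, ← zpow_mul, ← zpow_mul, ← zpow_add₀ hva]
  have : (d : ℤ) * t + (p : ℤ) * s = 1 := by rw [← hst]; ring
  rw [this, zpow_one]

/-- Elements of `K(a)` are `K`-linear combinations of `1, a, …, a ^ (p - 1)`. -/
theorem redC_exists_expansion {p : ℕ} (hp : 0 < p) {a : L} (hα : a ^ p ∈ K) {x : L}
    (hx : x ∈ IntermediateField.adjoin K ({a} : Set L)) :
    ∃ c : ℕ → L, (∀ i, c i ∈ K) ∧ x = ∑ i ∈ Finset.range p, c i * a ^ i := by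
  classical
  set α : K := ⟨a ^ p, hα⟩ with hαdef
  set q : Polynomial K := Polynomial.X ^ p - Polynomial.C α with hq
  have hqm : q.Monic := Polynomial.monic_X_pow_sub_C α hp.ne'
  have hqa : Polynomial.aeval a q = 0 := by
    rw [hq, map_sub, map_pow, Polynomial.aeval_X, Polynomial.aeval_C]
    show a ^ p - (α : L) = 0
    simp [hαdef]
  have hint : IsIntegral K a := ⟨q, hqm, by rw [← Polynomial.aeval_def]; exact hqa⟩
  have hx' : x ∈ (IntermediateField.adjoin K ({a} : Set L)).toSubalgebra := hx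
  rw [IntermediateField.adjoin_simple_toSubalgebra_of_isAlgebraic hint.isAlgebraic,
    Algebra.adjoin_singleton_eq_range_aeval] at hx'
  obtain ⟨f, rfl⟩ := hx'
  set r := f %ₘ q with hr
  have hfr : Polynomial.aeval a f = Polynomial.aeval a r := by
    have := Polynomial.modByMonic_add_div f q
    conv_lhs => rw [← this]
    rw [map_add, map_mul, hqa, zero_mul, add_zero]
  have hdeg : r.natDegree < p := by
    have h1 : q.natDegree = p := Polynomial.natDegree_X_pow_sub_C
    have h2 := Polynomial.natDegree_modByMonic_lt f hqm (by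
      intro h
      have := congrArg Polynomial.natDegree h
      rw [h1, Polynomial.natDegree_one] at this
      omega)
    rw [h1] at h2
    exact h2
  refine ⟨fun i => ((r.coeff i : K) : L), fun i => (r.coeff i).2, ?_⟩
  show (Polynomial.aeval a) f = _
  rw [hfr, Polynomial.aeval_eq_sum_range' hdeg]
  refine Finset.sum_congr rfl fun i _ => ?_
  rw [Algebra.smul_def]
  rfl

variable {v K}

/-- An automorphism fixing `K` multiplies `a` by a `p`-th root of unity. -/
theorem redC_root_of_unity {p : ℕ} {a : L} (ha : a ≠ 0) (hα : a ^ p ∈ K) (ρ : L ≃ₐ[F] L)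
    (hρ : ∀ y ∈ K, ρ y = y) : ∃ ζ : L, ζ ^ p = 1 ∧ ρ a = ζ * a := by
  refine ⟨ρ a / a, ?_, by field_simp⟩
  rw [div_pow, ← map_pow, hρ _ hα, div_self (pow_ne_zero _ ha)]

theorem redC_val_root_of_unity {p : ℕ} (hp : 0 < p) {ζ : L} (hζ : ζ ^ p = 1) : v ζ = 1 := by
  have h1 : v ζ ^ p = 1 := by rw [← map_pow, hζ, map_one]
  rcases pow_eq_one_iff.1 h1 with h | h
  · exact h
  · exact absurd h hp.ne'

/-- An automorphism fixing `K` preserves the valuation on `K(a)`. -/
theorem redC_val_map_eq {p : ℕ} (hp : p.Prime) {a : L} (ha : a ≠ 0) (hα : a ^ p ∈ K)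
    (hno : ∀ y ∈ K, y ≠ 0 → v y ≠ v a) (ρ : L ≃ₐ[F] L) (hρ : ∀ y ∈ K, ρ y = y)
    {x : L} (hx : x ∈ IntermediateField.adjoin K ({a} : Set L)) :
    v (ρ x) = v x ∧ (v x ≤ 1 → v (ρ x - x) < 1) := by
  obtain ⟨c, hcK, rfl⟩ := redC_exists_expansion K hp.pos hα hx
  obtain ⟨ζ, hζ, hρa⟩ := redC_root_of_unity ha hα ρ hρ
  have hvζ : ∀ i : ℕ, v (ζ ^ i) = 1 := fun i => by
    rw [map_pow, redC_val_root_of_unity hp.pos hζ, one_pow]
  have hρx : ρ (∑ i ∈ Finset.range p, c i * a ^ i) =
      ∑ i ∈ Finset.range p, ζ ^ i * (c i * a ^ i) := by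
    rw [map_sum]
    refine Finset.sum_congr rfl fun i _ => ?_
    rw [map_mul, map_pow, hρ _ (hcK i), hρa]
    ring
  -- distinctness of the valuations of the terms
  have hd : ∀ i < p, ∀ j < p, i ≠ j → c i * a ^ i ≠ 0 → c j * a ^ j ≠ 0 →
      v (c i * a ^ i) ≠ v (c j * a ^ j) := by
    intro i hi j hj hij h1 h2
    have hci : c i ≠ 0 := fun h => h1 (by rw [h, zero_mul])
    have hcj : c j ≠ 0 := fun h => h2 (by rw [h, zero_mul])
    rcases Nat.lt_or_gt_of_ne hij with h | h
    · exact redC_val_monomial_ne v K hp ha hα hno (hcK i) (hcK j) hci hcj h hj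
    · exact (redC_val_monomial_ne v K hp ha hα hno (hcK j) (hcK i) hcj hci h hi).symm
  refine ⟨?_, ?_⟩
  · rw [hρx]
    refine redC_val_sum_congr v (fun i => c i * a ^ i) (fun i => ζ ^ i * (c i * a ^ i)) p hd ?_
    intro i _
    show v (ζ ^ i * (c i * a ^ i)) = v (c i * a ^ i)
    rw [map_mul, hvζ, one_mul]
  · intro hx1
    rw [hρx, ← Finset.sum_sub_distrib]
    refine Valuation.map_sum_lt v one_ne_zero ?_
    intro i hi
    have hi' := Finset.mem_range.1 hi
    have hle : v (c i * a ^ i) ≤ 1 :=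
      le_trans (redC_val_sum_ge v (fun i => c i * a ^ i) p hd i hi') hx1
    have e : ζ ^ i * (c i * a ^ i) - c i * a ^ i = (ζ ^ i - 1) * (c i * a ^ i) := by ring
    rw [e, map_mul]
    rcases Nat.eq_zero_or_pos i with h0 | hpos
    · rw [h0, pow_zero, sub_self, map_zero, zero_mul]
      exact zero_lt_one
    · have hζ1 : v (ζ ^ i - 1) ≤ 1 := by
        refine le_trans (Valuation.map_sub v _ _) ?_
        rw [hvζ, map_one, max_self]
      by_cases hci : c i = 0
      · rw [hci, zero_mul, map_zero, mul_zero]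
        exact zero_lt_one
      have hne : v (c i * a ^ i) ≠ 1 := by
        have := redC_val_monomial_ne v K hp ha hα hno (one_mem K) (hcK i) one_ne_zero hci hpos hi'
        rw [pow_zero, mul_one, map_one] at this
        exact this.symm
      have hlt : v (c i * a ^ i) < 1 := lt_of_le_of_ne hle hne
      calc v (ζ ^ i - 1) * v (c i * a ^ i) ≤ 1 * v (c i * a ^ i) := mul_le_mul_left hζ1 _
        _ < 1 := by rw [one_mul]; exact hlt

end radical

end Fermat.Agent.S14
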