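import Mathlib
import Fermat.Agent.S14.Defs
import Fermat.Agent.S14.UnramValBridge
import Fermat.Agent.S14.UnramValSum

/-!
# RED-C: `UnramifiedValuationStatement`

If the inertia group at a place `A` of `Qbar` fixes `a`, and `a ^ p ∈ K`, then the valuation of `a`
is the valuation of an element of `K`.  Otherwise the valuation of `A` extends uniquely from `K`
to `M = K(a)` with trivial residue extension; a `K`-automorphism moving `a` can then be corrected
by elements of `Gal(Qbar/M)` first into the decomposition group and then into the inertia group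
of `A`, while still moving `a`.
-/

set_option autoImplicit false

open scoped Pointwise

namespace Fermat.Agent.S14

local notation "Qbar" => AlgebraicClosure ℚ
local notation "Bint" => integralClosure ℤ (AlgebraicClosure ℚ)

theorem redC_isGalois : IsGalois ℚ Qbar := by
  have halg : Algebra.IsAlgebraic ℚ (AlgebraicClosure ℚ) := AlgebraicClosure.isAlgebraic ℚ
  have hclos : IsAlgClosure ℚ (AlgebraicClosure ℚ) := AlgebraicClosure.instIsAlgClosure ℚ
  infer_instance

/-- The intermediate field `K(a)`, as an intermediate field of `Qbar / ℚ`. -/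
noncomputable def redC_M (K : IntermediateField ℚ Qbar) (a : Qbar) : IntermediateField ℚ Qbar :=
  (IntermediateField.adjoin K ({a} : Set Qbar)).restrictScalars ℚ

theorem redC_mem_M (K : IntermediateField ℚ Qbar) (a x : Qbar) :
    x ∈ redC_M K a ↔ x ∈ IntermediateField.adjoin K ({a} : Set Qbar) := Iff.rfl

theorem redC_K_le_M (K : IntermediateField ℚ Qbar) (a : Qbar) {y : Qbar} (hy : y ∈ K) :
    y ∈ redC_M K a := by
  rw [redC_mem_M]
  exact (IntermediateField.adjoin K ({a} : Set Qbar)).algebraMap_mem ⟨y, hy⟩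

theorem redC_a_mem_M (K : IntermediateField ℚ Qbar) (a : Qbar) : a ∈ redC_M K a := by
  rw [redC_mem_M]
  exact IntermediateField.mem_adjoin_simple_self K a

/-- There is a `K`-automorphism moving `a`, unless `a ∈ K`. -/
theorem redC_exists_moving (K : IntermediateField ℚ Qbar) (a : Qbar) (ha : a ∉ K) :
    ∃ τ : Qbar ≃ₐ[ℚ] Qbar, (∀ y ∈ K, τ y = y) ∧ τ a ≠ a := by
  haveI := redC_isGalois
  by_contra hcon
  push Not at hcon
  apply ha
  have h1 : a ∈ IntermediateField.fixedField K.fixingSubgroup := by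
    rw [IntermediateField.mem_fixedField_iff]
    intro τ hτ
    exact hcon τ ((IntermediateField.mem_fixingSubgroup_iff K τ).1 hτ)
  rwa [InfiniteGalois.fixedField_fixingSubgroup] at h1

/-- Elements fixed by `Gal(Qbar / M)` lie in `M`. -/
theorem redC_mem_of_fixed (M : IntermediateField ℚ Qbar) (x : Qbar)
    (hx : ∀ g ∈ M.fixingSubgroup, g x = x) : x ∈ M := by
  haveI := redC_isGalois
  have h1 : x ∈ IntermediateField.fixedField M.fixingSubgroup := by
    rw [IntermediateField.mem_fixedField_iff]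
    exact hx
  rwa [InfiniteGalois.fixedField_fixingSubgroup] at h1

/-- Transitivity: two places of `Qbar` which agree on the algebraic integers of `M` are conjugate
under `Gal(Qbar / M)`. -/
theorem redC_exists_conj (M : IntermediateField ℚ Qbar) (A A' : ValuationSubring Qbar)
    (h : ∀ b : Bint, (b : Qbar) ∈ M → ((b : Qbar) ∈ A'.nonunits ↔ (b : Qbar) ∈ A.nonunits)) :
    ∃ g ∈ M.fixingSubgroup, redC_prime A = redC_prime (g • A') := by
  classical
  haveI := redC_isGalois
  set H : Subgroup (Qbar ≃ₐ[ℚ] Qbar) := M.fixingSubgroup with hH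
  haveI hcomp : CompactSpace H :=
    isCompact_iff_compactSpace.1 (InfiniteGalois.fixingSubgroup_isClosed M).isCompact
  letI : TopologicalSpace Bint := ⊥
  haveI hdisc : DiscreteTopology Bint := ⟨rfl⟩
  haveI hcont : ContinuousSMul H Bint := by
    rw [continuousSMul_iff_stabilizer_isOpen]
    intro x
    have h1 := stabilizer_isOpen_of_isIntegral (K := ℚ) (L := Qbar) (x : Qbar)
    have h2 : ((MulAction.stabilizer H x : Subgroup H) : Set H) =
        (Subtype.val : H → (Qbar ≃ₐ[ℚ] Qbar)) ⁻¹'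
          ((MulAction.stabilizer (Qbar ≃ₐ[ℚ] Qbar) (x : Qbar) : Subgroup _) : Set _) := by
      ext g
      simp only [SetLike.mem_coe, MulAction.mem_stabilizer_iff, Set.mem_preimage]
      constructor
      · intro hg
        exact congrArg (fun z : Bint => (z : Qbar)) hg
      · intro hg
        exact Subtype.ext hg
    rw [h2]
    exact h1.preimage continuous_subtype_val
  haveI hcomm : SMulCommClass H (FixedPoints.subring Bint H) Bint :=
    ⟨fun g a b => by
      have ha : g • (a : Bint) = a := a.2 g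
      show g • ((a : Bint) * b) = (a : Bint) * (g • b)
      rw [smul_mul', ha]⟩
  haveI hinv : Algebra.IsInvariant (FixedPoints.subring Bint H) Bint H :=
    ⟨fun b hb => ⟨⟨b, hb⟩, rfl⟩⟩
  have hPQ : Ideal.under (FixedPoints.subring Bint H) (redC_prime A') =
      Ideal.under (FixedPoints.subring Bint H) (redC_prime A) := by
    ext x
    rw [Ideal.mem_comap, Ideal.mem_comap]
    have hxM : (((x : Bint) : Qbar)) ∈ M := by
      apply redC_mem_of_fixed M
      intro g hg
      have := x.2 ⟨g, hg⟩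
      exact congrArg (fun z : Bint => (z : Qbar)) this
    exact h (x : Bint) hxM
  obtain ⟨g, hg⟩ := Algebra.IsInvariant.exists_smul_of_under_eq_of_profinite
    (A := FixedPoints.subring Bint H) (B := Bint) (G := H) (redC_prime A') (redC_prime A) hPQ
  refine ⟨g.1, g.2, ?_⟩
  rw [hg]
  ext b
  rw [Ideal.mem_pointwise_smul_iff_inv_smul_mem, redC_prime_smul]
  rfl

/-- Correction into the inertia group: an automorphism `σ₁` in the decomposition group of `A`
which is trivial modulo `A.nonunits` on the algebraic integers of `M` agrees, modulo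
`A.nonunits`, with an element of `Gal(Qbar / M)`. -/
theorem redC_exists_inertia_corr (M : IntermediateField ℚ Qbar) (A : ValuationSubring Qbar)
    (σ₁ : Qbar ≃ₐ[ℚ] Qbar) (hσ₁ : redC_prime (σ₁ • A) = redC_prime A)
    (h : ∀ b : Bint, (b : Qbar) ∈ M → σ₁ (b : Qbar) - b ∈ A.nonunits) :
    ∃ g ∈ M.fixingSubgroup, ∀ b : Bint, (g⁻¹ * σ₁) (b : Qbar) - b ∈ A.nonunits := by
  classical
  haveI := redC_isGalois
  set H : Subgroup (Qbar ≃ₐ[ℚ] Qbar) := M.fixingSubgroup with hH
  haveI hcomp : CompactSpace H :=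
    isCompact_iff_compactSpace.1 (InfiniteGalois.fixingSubgroup_isClosed M).isCompact
  letI : TopologicalSpace Bint := ⊥
  haveI hdisc : DiscreteTopology Bint := ⟨rfl⟩
  haveI hcont : ContinuousSMul H Bint := by
    rw [continuousSMul_iff_stabilizer_isOpen]
    intro x
    have h1 := stabilizer_isOpen_of_isIntegral (K := ℚ) (L := Qbar) (x : Qbar)
    have h2 : ((MulAction.stabilizer H x : Subgroup H) : Set H) =
        (Subtype.val : H → (Qbar ≃ₐ[ℚ] Qbar)) ⁻¹'
          ((MulAction.stabilizer (Qbar ≃ₐ[ℚ] Qbar) (x : Qbar) : Subgroup _) : Set _) := by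
      ext g
      simp only [SetLike.mem_coe, MulAction.mem_stabilizer_iff, Set.mem_preimage]
      constructor
      · intro hg
        exact congrArg (fun z : Bint => (z : Qbar)) hg
      · intro hg
        exact Subtype.ext hg
    rw [h2]
    exact h1.preimage continuous_subtype_val
  haveI hcomm : SMulCommClass H (FixedPoints.subring Bint H) Bint :=
    ⟨fun g a b => by
      have ha : g • (a : Bint) = a := a.2 g
      show g • ((a : Bint) * b) = (a : Bint) * (g • b)
      rw [smul_mul', ha]⟩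
  haveI hinv : Algebra.IsInvariant (FixedPoints.subring Bint H) Bint H :=
    ⟨fun b hb => ⟨⟨b, hb⟩, rfl⟩⟩
  set Q : Ideal Bint := redC_prime A with hQ
  set P₀ : Ideal (FixedPoints.subring Bint H) := Q.under (FixedPoints.subring Bint H) with hP₀
  haveI hlies : Q.LiesOver P₀ := ⟨rfl⟩
  -- the automorphism of `Bint ⧸ Q` induced by `σ₁`
  have hsmul : ∀ b : Bint, σ₁⁻¹ • b ∈ Q ↔ b ∈ Q := by
    intro b
    rw [← redC_prime_smul, hσ₁]
  set e : Bint ≃+* Bint := MulSemiringAction.toRingEquiv (Qbar ≃ₐ[ℚ] Qbar) Bint σ₁ with he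
  have hmap : Q = Ideal.map (e : Bint →+* Bint) Q := by
    ext b
    constructor
    · intro hb
      refine (Ideal.mem_map_of_equiv e b).2 ⟨σ₁⁻¹ • b, (hsmul b).2 hb, ?_⟩
      show σ₁ • (σ₁⁻¹ • b) = b
      rw [smul_inv_smul]
    · intro hb
      obtain ⟨y, hy, rfl⟩ := (Ideal.mem_map_of_equiv e b).1 hb
      rw [← hsmul]
      show σ₁⁻¹ • (σ₁ • y) ∈ Q
      rw [inv_smul_smul]
      exact hy
  set φr : (Bint ⧸ Q) ≃+* (Bint ⧸ Q) := Ideal.quotientEquiv Q Q e hmap with hφr
  have hφr_mk : ∀ b : Bint, φr (Ideal.Quotient.mk Q b) = Ideal.Quotient.mk Q (σ₁ • b) := by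
    intro b
    rw [hφr, Ideal.quotientEquiv_mk]
    rfl
  let φ : (Bint ⧸ Q) ≃ₐ[(FixedPoints.subring Bint H) ⧸ P₀] (Bint ⧸ Q) :=
    AlgEquiv.ofRingEquiv (f := φr) (by
      intro r
      obtain ⟨x, rfl⟩ := Ideal.Quotient.mk_surjective r
      rw [Ideal.Quotient.algebraMap_mk_of_liesOver, hφr_mk, Ideal.Quotient.eq]
      have hxM : (((x : Bint) : Qbar)) ∈ M := by
        apply redC_mem_of_fixed M
        intro g hg
        have := x.2 ⟨g, hg⟩
        exact congrArg (fun z : Bint => (z : Qbar)) this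
      exact h (x : Bint) hxM)
  obtain ⟨g, hg⟩ := Ideal.Quotient.stabilizerHom_surjective_of_profinite
    (G := H) P₀ Q φ
  refine ⟨g.1.1, g.1.2, ?_⟩
  intro b
  have h1 := DFunLike.congr_fun hg (Ideal.Quotient.mk Q b)
  rw [Ideal.Quotient.stabilizerHom_apply] at h1
  have h2 : φ (Ideal.Quotient.mk Q b) = Ideal.Quotient.mk Q (σ₁ • b) := hφr_mk b
  rw [h2, Ideal.Quotient.eq] at h1
  -- `h1 : g • b - σ₁ • b ∈ Q`
  have hgQ : g.1 • Q = Q := g.2
  have h3 : (g.1)⁻¹ • (g.1 • b - σ₁ • b) ∈ Q := by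
    have : (g.1)⁻¹ • (g.1 • b - σ₁ • b) ∈ (g.1)⁻¹ • Q := Ideal.smul_mem_pointwise_smul _ _ _ h1
    have h4 : (g.1)⁻¹ • Q = Q := inv_smul_eq_iff.2 hgQ.symm
    rwa [h4] at this
  rw [smul_sub, inv_smul_smul] at h3
  have h5 : (b - (g.1)⁻¹ • (σ₁ • b) : Bint) ∈ Q := h3
  have h6 := Q.neg_mem h5
  rw [neg_sub] at h6
  exact h6

/-- (RED-C) if the inertia group at a place over `ℓ` fixes a `p`-th root of `α ∈ K`, then `α` is
a unit times a `p`-th power of `K` at that place. -/
theorem unramifiedValuation : UnramifiedValuationStatement := by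
  intro p hp K _ a ha hα A ℓ hℓ _ hA hI
  by_cases hex : ∃ y ∈ K, y ≠ 0 ∧ A.valuation y = A.valuation a
  · obtain ⟨y, hyK, hy0, hy⟩ := hex
    refine ⟨y, hyK, hy0, ?_⟩
    rw [map_div₀, map_pow, map_pow, hy, div_self]
    exact pow_ne_zero _ ((Valuation.ne_zero_iff _).2 ha)
  exfalso
  have hno : ∀ y ∈ K, y ≠ 0 → A.valuation y ≠ A.valuation a :=
    fun y hy hy0 h => hex ⟨y, hy, hy0, h⟩
  have haK : a ∉ K := fun h => hno a h ha rfl
  obtain ⟨τ, hτK, hτa⟩ := redC_exists_moving K a haK
  -- valuations on `M = K(a)` are preserved by `K`-automorphisms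
  have hval : ∀ (ρ : Qbar ≃ₐ[ℚ] Qbar), (∀ y ∈ K, ρ y = y) → ∀ x ∈ redC_M K a,
      A.valuation (ρ x) = A.valuation x ∧ (A.valuation x ≤ 1 → A.valuation (ρ x - x) < 1) :=
    fun ρ hρ x hx => redC_val_map_eq hp ha hα hno ρ hρ ((redC_mem_M K a x).1 hx)
  have hτinvK : ∀ y ∈ K, τ⁻¹ y = y := by
    intro y hy
    have h1 : τ⁻¹ (τ y) = y := by
      show τ.symm (τ y) = y
      exact τ.symm_apply_apply y
    rwa [hτK y hy] at h1
  -- transitivity: move `τ` into the decomposition group
  have h5 : ∀ b : Bint, (b : Qbar) ∈ redC_M K a →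
      ((b : Qbar) ∈ (τ • A).nonunits ↔ (b : Qbar) ∈ A.nonunits) := by
    intro b hb
    rw [redC_smul_nonunits, ValuationSubring.mem_nonunits_iff, ValuationSubring.mem_nonunits_iff,
      (hval τ⁻¹ hτinvK _ hb).1]
  obtain ⟨g, hg, hgA⟩ := redC_exists_conj (redC_M K a) A (τ • A) h5
  have hgfix : ∀ x ∈ redC_M K a, g x = x :=
    (IntermediateField.mem_fixingSubgroup_iff (redC_M K a) g).1 hg
  have hσ₁A : redC_prime ((g * τ) • A) = redC_prime A := by
    rw [hgA, mul_smul]
  have hσ₁K : ∀ y ∈ K, (g * τ) y = y := by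
    intro y hy
    show g (τ y) = y
    rw [hτK y hy, hgfix y (redC_K_le_M K a hy)]
  -- correction into the inertia group
  have h6 : ∀ b : Bint, (b : Qbar) ∈ redC_M K a → (g * τ) (b : Qbar) - b ∈ A.nonunits := by
    intro b hb
    rw [ValuationSubring.mem_nonunits_iff]
    exact (hval (g * τ) hσ₁K _ hb).2 (redC_int_val_le A b)
  obtain ⟨g₂, hg₂, hg₂b⟩ := redC_exists_inertia_corr (redC_M K a) A (g * τ) hσ₁A h6
  have hg₂fix : ∀ x ∈ redC_M K a, g₂ x = x :=
    (IntermediateField.mem_fixingSubgroup_iff (redC_M K a) g₂).1 hg₂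
  have hσI : (g₂⁻¹ * (g * τ)) ∈ A.inertiaSubgroupIn ℚ := redC_mem_inertia A hℓ hA _ hg₂b
  have h7 : (g₂⁻¹ * (g * τ)) a = a := hI _ hσI
  apply hτa
  have haM := redC_a_mem_M K a
  have h8 : g₂⁻¹ (g (τ a)) = a := h7
  have h9 : g (τ a) = a := by
    have h := congrArg g₂ h8
    rw [hg₂fix a haM] at h
    have e : g₂ (g₂⁻¹ (g (τ a))) = g (τ a) := by
      show g₂ (g₂.symm (g (τ a))) = g (τ a)
      rw [AlgEquiv.apply_symm_apply]
    rw [e] at h
    exact h
  have h10 : g (τ a) = g a := by rw [h9, hgfix a haM]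
  exact g.injective h10

end Fermat.Agent.S14
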