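import Mathlib
import Fermat.Agent.S14.Defs

/-!
# S14, RED-E (part 1): valuation-theoretic lemmas

Chevalley extension of valuation subrings along `K ⊆ Qbar`, transfer of valuation inequalities,
existence of a residue characteristic, the archimedean property of valuations of `Qbar`.
-/

set_option autoImplicit false
set_option linter.unusedSectionVars false

namespace Fermat.Agent.S14

open scoped Pointwise

section general

variable {K L : Type*} [Field K] [Field L]

/-- Valuation inequalities in terms of membership. -/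
theorem redE_valuation_le_iff_div_mem (A : ValuationSubring L) (x y : L) (hy : y ≠ 0) :
    A.valuation x ≤ A.valuation y ↔ x / y ∈ A := by
  rw [← A.valuation_le_one_iff, map_div₀]
  have hy0 : A.valuation y ≠ 0 := (Valuation.ne_zero_iff _).2 hy
  rw [div_le_one₀ (zero_lt_iff.mpr hy0)]

/-- Transfer of valuation inequalities along a comap. -/
theorem redE_valuation_le_comap_iff (A : ValuationSubring L) (f : K →+* L) (x y : K) :
    (A.comap f).valuation x ≤ (A.comap f).valuation y ↔
      A.valuation (f x) ≤ A.valuation (f y) := by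
  by_cases hy : y = 0
  · subst hy
    simp only [map_zero, le_zero_iff, Valuation.zero_iff]
    exact (map_eq_zero_iff f f.injective).symm
  · have hfy : f y ≠ 0 := (map_ne_zero_iff f f.injective).2 hy
    rw [redE_valuation_le_iff_div_mem _ _ _ hy, redE_valuation_le_iff_div_mem _ _ _ hfy,
      ValuationSubring.mem_comap, map_div₀]

theorem redE_valuation_eq_one_comap_iff (A : ValuationSubring L) (f : K →+* L) (x : K) :
    (A.comap f).valuation x = 1 ↔ A.valuation (f x) = 1 := by
  have h1 := redE_valuation_le_comap_iff A f x 1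
  have h2 := redE_valuation_le_comap_iff A f 1 x
  simp only [map_one] at h1 h2
  constructor
  · intro h
    exact le_antisymm (h1.1 h.le) (h2.1 h.ge)
  · intro h
    exact le_antisymm (h1.2 h.le) (h2.2 h.ge)

theorem redE_valuation_lt_one_comap_iff (A : ValuationSubring L) (f : K →+* L) (x : K) :
    (A.comap f).valuation x < 1 ↔ A.valuation (f x) < 1 := by
  have h2 := redE_valuation_le_comap_iff A f 1 x
  simp only [map_one] at h2
  rw [← not_le, ← not_le, h2]

/-- Chevalley's extension theorem: every valuation subring of `K` is the trace of a valuation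
subring of `L`. -/
theorem redE_exists_comap_eq (f : K →+* L) (B : ValuationSubring K) :
    ∃ A : ValuationSubring L, A.comap f = B := by
  obtain ⟨A, hA, hloc⟩ := IsLocalRing.exists_factor_valuationRing (f.comp B.subtype)
  refine ⟨A, ?_⟩
  ext x
  rw [ValuationSubring.mem_comap]
  constructor
  · intro hx
    by_contra hxB
    have hx0 : x ≠ 0 := fun h => hxB (h ▸ B.zero_mem)
    have hinv : x⁻¹ ∈ B := (B.mem_or_inv_mem x).resolve_left hxB
    -- `x⁻¹` is a unit of `A`, hence of `B`
    have hu : IsUnit (((f.comp B.subtype).codRestrict A.toSubring hA) ⟨x⁻¹, hinv⟩) := by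
      rw [isUnit_iff_exists_inv]
      refine ⟨⟨f x, hx⟩, ?_⟩
      apply Subtype.ext
      change f x⁻¹ * f x = 1
      rw [← map_mul, inv_mul_cancel₀ hx0, map_one]
    have hu' : IsUnit (⟨x⁻¹, hinv⟩ : B) := hloc.map_nonunit _ hu
    obtain ⟨y, hy⟩ := isUnit_iff_exists_inv.mp hu'
    have hy' : x⁻¹ * (y : K) = 1 := congrArg Subtype.val hy
    have : (y : K) = x := by
      field_simp at hy'
      exact hy'.symm ▸ rfl
    exact hxB (this ▸ y.2)
  · intro hx
    exact hA ⟨x, hx⟩

end general

section algClosure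

local notation "Qbar" => AlgebraicClosure ℚ

theorem redE_natCast_mem (A : ValuationSubring Qbar) (n : ℕ) : (n : Qbar) ∈ A :=
  natCast_mem A n

theorem redE_intCast_mem (A : ValuationSubring Qbar) (n : ℤ) : (n : Qbar) ∈ A :=
  intCast_mem A n

/-- Elements of `Qbar` integral over `ℤ` lie in every valuation subring. -/
theorem redE_mem_of_isIntegral (A : ValuationSubring Qbar) (x : Qbar) (hx : IsIntegral ℤ x) :
    x ∈ A := by
  have h1 : IsIntegral A x := by
    obtain ⟨f, hf, hfx⟩ := hx
    refine ⟨f.map (algebraMap ℤ A), hf.map _, ?_⟩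
    rw [← hfx, Polynomial.eval₂_map]
    congr 1
  obtain ⟨y, hy⟩ := (IsIntegrallyClosed.isIntegral_iff (R := A) (K := Qbar)).mp h1
  rw [← hy]
  exact y.2

/-- Integers prime to `q` are units at every place over `q`. -/
theorem redE_valuation_intCast_eq_one (A : ValuationSubring Qbar) {q : ℕ} (hq : q.Prime)
    (hA : A.LiesOverPrime q) (n : ℤ) (hn : ¬ (q : ℤ) ∣ n) :
    A.valuation (n : Qbar) = 1 := by
  have hqv : A.valuation (q : Qbar) < 1 := (ValuationSubring.mem_nonunits_iff A).1 hA
  have hint : ∀ k : ℤ, A.valuation (k : Qbar) ≤ 1 := fun k =>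
    (A.valuation_le_one_iff _).2 (intCast_mem A k)
  have hcop : IsCoprime (q : ℤ) n :=
    (Prime.coprime_iff_not_dvd (Nat.prime_iff_prime_int.1 hq)).2 hn
  obtain ⟨a, b, hab⟩ := hcop
  rcases lt_or_eq_of_le (hint n) with hlt | heq
  · exfalso
    have h1 : A.valuation ((a : Qbar) * (q : Qbar) + (b : Qbar) * (n : Qbar)) < 1 := by
      apply Valuation.map_add_lt
      · rw [map_mul]
        calc A.valuation (a : Qbar) * A.valuation (q : Qbar)
            ≤ 1 * A.valuation (q : Qbar) := mul_le_mul_left (hint a) _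
          _ < 1 := by rw [one_mul]; exact hqv
      · rw [map_mul]
        calc A.valuation (b : Qbar) * A.valuation (n : Qbar)
            ≤ 1 * A.valuation (n : Qbar) := mul_le_mul_left (hint b) _
          _ < 1 := by rw [one_mul]; exact hlt
    have h2 : ((a : Qbar) * (q : Qbar) + (b : Qbar) * (n : Qbar)) = 1 := by
      have := congrArg (fun z : ℤ => (z : Qbar)) hab
      push_cast at this
      exact this
    rw [h2, map_one] at h1
    exact lt_irrefl _ h1
  · exact heq

/-- The valuation of a nonzero integer is a power of the valuation of `q`. -/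
theorem redE_valuation_intCast_pow (A : ValuationSubring Qbar) {q : ℕ} (hq : q.Prime)
    (hA : A.LiesOverPrime q) (t : ℤ) (ht : t ≠ 0) :
    ∃ m : ℕ, A.valuation (t : Qbar) = A.valuation (q : Qbar) ^ m := by
  have hq' : Prime (q : ℤ) := Nat.prime_iff_prime_int.1 hq
  have hfin : FiniteMultiplicity (q : ℤ) t :=
    FiniteMultiplicity.of_prime_left hq' ht
  obtain ⟨c, hc, hnd⟩ := hfin.exists_eq_pow_mul_and_not_dvd
  refine ⟨multiplicity (q : ℤ) t, ?_⟩
  have h1 := redE_valuation_intCast_eq_one A hq hA c hnd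
  have h2 : (t : Qbar) = (q : Qbar) ^ (multiplicity (q : ℤ) t) * (c : Qbar) := by
    have := congrArg (fun z : ℤ => (z : Qbar)) hc
    push_cast at this
    exact this
  rw [h2, map_mul, map_pow, h1, mul_one]

/-- For every nonzero `x`, some nonzero integer `b` has `v(b) ≤ v(x)`. -/
theorem redE_exists_int_valuation_le (A : ValuationSubring Qbar) (x : Qbar) (hx : x ≠ 0) :
    ∃ b : ℤ, b ≠ 0 ∧ A.valuation (b : Qbar) ≤ A.valuation x := by
  have halg : IsAlgebraic ℤ x⁻¹ := by
    have h1 : IsAlgebraic ℚ x⁻¹ := (AlgebraicClosure.isAlgebraic ℚ).isAlgebraic _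
    exact (IsFractionRing.isAlgebraic_iff ℤ ℚ Qbar).mpr h1
  obtain ⟨b, hb, hint⟩ := halg.exists_integral_multiple
  refine ⟨b, hb, ?_⟩
  have hmem : b • x⁻¹ ∈ A := redE_mem_of_isIntegral A _ hint
  rw [zsmul_eq_mul, ← A.valuation_le_one_iff, map_mul, map_inv₀] at hmem
  have hx0 : A.valuation x ≠ 0 := (Valuation.ne_zero_iff _).2 hx
  have := mul_le_mul_left hmem (A.valuation x)
  rwa [mul_assoc, inv_mul_cancel₀ hx0, mul_one, one_mul] at this

/-- The archimedean property: powers of `v(q)` become smaller than any `v(x)`, `x ≠ 0`. -/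
theorem redE_exists_pow_lt (A : ValuationSubring Qbar) {q : ℕ} (hq : q.Prime)
    (hA : A.LiesOverPrime q) (x : Qbar) (hx : x ≠ 0) :
    ∃ N : ℕ, A.valuation (q : Qbar) ^ N < A.valuation x := by
  obtain ⟨b, hb, hbx⟩ := redE_exists_int_valuation_le A x hx
  obtain ⟨m, hm⟩ := redE_valuation_intCast_pow A hq hA b hb
  have hqv : A.valuation (q : Qbar) < 1 := (ValuationSubring.mem_nonunits_iff A).1 hA
  have hq0 : A.valuation (q : Qbar) ≠ 0 :=
    (Valuation.ne_zero_iff _).2 (Nat.cast_ne_zero.mpr hq.ne_zero)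
  refine ⟨m + 1, lt_of_lt_of_le ?_ (hm ▸ hbx)⟩
  rw [pow_succ]
  have hpos : 0 < A.valuation (q : Qbar) ^ m := zero_lt_iff.mpr (pow_ne_zero _ hq0)
  calc A.valuation (q : Qbar) ^ m * A.valuation (q : Qbar)
      < A.valuation (q : Qbar) ^ m * 1 := by
        exact mul_lt_mul_of_pos_left hqv hpos
    _ = A.valuation (q : Qbar) ^ m := mul_one _

/-- A positive integer which is a non-unit of `A` has a prime factor which is a non-unit. -/
theorem redE_exists_prime_of_natCast_lt_one (A : ValuationSubring Qbar) :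
    ∀ m : ℕ, m ≠ 0 → A.valuation (m : Qbar) < 1 → ∃ ℓ : ℕ, ℓ.Prime ∧ A.LiesOverPrime ℓ := by
  intro m
  induction m using Nat.strong_induction_on with
  | _ m ih =>
    intro hm0 hm
    have hm1 : m ≠ 1 := by
      rintro rfl
      simp at hm
    have hprime : (Nat.minFac m).Prime := Nat.minFac_prime hm1
    by_cases h : A.valuation ((Nat.minFac m : ℕ) : Qbar) < 1
    · exact ⟨Nat.minFac m, hprime, (ValuationSubring.mem_nonunits_iff A).2 h⟩
    · have h1 : A.valuation ((Nat.minFac m : ℕ) : Qbar) = 1 :=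
        le_antisymm ((A.valuation_le_one_iff _).2 (natCast_mem A _)) (not_lt.mp h)
      have hdvd : Nat.minFac m ∣ m := Nat.minFac_dvd m
      obtain ⟨k, hk⟩ := hdvd
      have hk0 : k ≠ 0 := by
        rintro rfl
        exact hm0 (by simpa using hk)
      have hklt : k < m := by
        rw [hk]
        have := hprime.one_lt
        nlinarith [Nat.pos_of_ne_zero hk0]
      have hkv : A.valuation (k : Qbar) < 1 := by
        have : (m : Qbar) = ((Nat.minFac m : ℕ) : Qbar) * (k : Qbar) := by
          conv_lhs => rw [hk]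
          push_cast; ring
        rw [this, map_mul, h1, one_mul] at hm
        exact hm
      exact ih k hklt hk0 hkv

/-- Every non-trivial valuation subring of `Qbar` lies over a prime number. -/
theorem redE_exists_prime_of_ne_top (A : ValuationSubring Qbar) (hA : A ≠ ⊤) :
    ∃ ℓ : ℕ, ℓ.Prime ∧ A.LiesOverPrime ℓ := by
  obtain ⟨x, hx⟩ : ∃ x : Qbar, x ∉ A := by
    by_contra hcon
    push Not at hcon
    exact hA (eq_top_iff.mpr fun x _ => hcon x)
  have hx0 : x ≠ 0 := fun h => hx (h ▸ A.zero_mem)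
  have hxinv : A.valuation x⁻¹ < 1 := by
    have h1 : ¬ A.valuation x ≤ 1 := fun h => hx ((A.valuation_le_one_iff _).1 h)
    rw [not_le] at h1
    rw [map_inv₀]
    exact inv_lt_one_of_one_lt₀ h1
  obtain ⟨b, hb, hbx⟩ := redE_exists_int_valuation_le A x⁻¹ (inv_ne_zero hx0)
  have hbv : A.valuation ((b.natAbs : ℕ) : Qbar) < 1 := by
    have h1 : A.valuation ((b.natAbs : ℕ) : Qbar) = A.valuation (b : Qbar) := by
      rcases Int.natAbs_eq b with h | h
      · conv_rhs => rw [h]
        simp
      · conv_rhs => rw [h]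
        simp
    rw [h1]
    exact lt_of_le_of_lt hbx hxinv
  exact redE_exists_prime_of_natCast_lt_one A b.natAbs (Int.natAbs_ne_zero.mpr hb) hbv

/-- `v(p) ≤ v(1 - ζ)^(p-1)` for a primitive `p`-th root of unity `ζ`. -/
theorem redE_valuation_prime_le (A : ValuationSubring Qbar) {p : ℕ} (hp : p.Prime) (ζ : Qbar)
    (hζ : IsPrimitiveRoot ζ p) :
    A.valuation (p : Qbar) ≤ A.valuation (1 - ζ) ^ (p - 1) := by
  obtain ⟨n, rfl⟩ : ∃ n, p = n + 1 := ⟨p - 1, (Nat.succ_pred_eq_of_pos hp.pos).symm⟩
  have hprod := hζ.prod_one_sub_pow_eq_order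
  have hζint : IsIntegral ℤ ζ := hζ.isIntegral hp.pos
  have hζA : ζ ∈ A := redE_mem_of_isIntegral A ζ hζint
  have hfac : ∀ k : ℕ, A.valuation (1 - ζ ^ (k + 1)) ≤ A.valuation (1 - ζ) := by
    intro k
    have h1 : (1 - ζ ^ (k + 1)) = (1 - ζ) * ∑ i ∈ Finset.range (k + 1), ζ ^ i := by
      have := mul_neg_geom_sum ζ (k + 1)
      rw [← this]
    rw [h1, map_mul]
    have h2 : (∑ i ∈ Finset.range (k + 1), ζ ^ i) ∈ A :=
      A.toSubring.sum_mem fun i _ => A.toSubring.pow_mem hζA i
    calc A.valuation (1 - ζ) * A.valuation (∑ i ∈ Finset.range (k + 1), ζ ^ i)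
        ≤ A.valuation (1 - ζ) * 1 := by
          gcongr
          exact (A.valuation_le_one_iff _).2 h2
      _ = A.valuation (1 - ζ) := mul_one _
  have hcast : ((n + 1 : ℕ) : Qbar) = (n : Qbar) + 1 := by push_cast; rfl
  rw [hcast, ← hprod, map_prod, Nat.add_sub_cancel]
  calc ∏ k ∈ Finset.range n, A.valuation (1 - ζ ^ (k + 1))
      ≤ ∏ _k ∈ Finset.range n, A.valuation (1 - ζ) :=
        Finset.prod_le_prod' fun k _ => hfac k
    _ = A.valuation (1 - ζ) ^ n := by rw [Finset.prod_const, Finset.card_range]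

end algClosure

end Fermat.Agent.S14
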