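import Mathlib
import Fermat.Agent.S14.Defs

/-!
# S14, (AN-D): the density pigeonhole

From
* (H1) `∑_P N(P)^(-s) = log (1/(s-1)) + O(1)` on `(1, 2]` for every number field,
* (H2) the primes of residue degree `≥ 2` contribute `O(1)`,
* (H3) `Re ∑_P ψ(P) N(P)^(-s) ≤ O(1)` for every non-trivial class group character `ψ`,
* (H4) Kummer splitting,

we deduce the analytic statement `AnalyticStatement` of `Defs.lean`: for a non-trivial class
group character `ψ` of exponent `p` and `E` not a `p`-th power there is a prime `λ` of degree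
one, prime to `p`, with `ψ(λ) ≠ 1` and `E` not a `p`-th power modulo `λ`.
-/

set_option autoImplicit false
set_option linter.style.haveILetI false
set_option linter.unusedVariables false
set_option linter.unusedSectionVars false

open scoped NumberField nonZeroDivisors
open IsDedekindDomain

namespace Fermat.Agent.S14

/-! ## The abstract pigeonhole -/

/-- `D(s) = log (1 / (s - 1))`. -/
noncomputable def anD_D (s : ℝ) : ℝ := Real.log (1 / (s - 1))

lemma anD_D_exp (M : ℝ) : anD_D (1 + Real.exp (-M)) = M := by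
  unfold anD_D
  rw [add_sub_cancel_left, one_div, ← Real.exp_neg, neg_neg, Real.log_exp]

lemma anD_tsum_finite_le {ι : Type*} (f : ι → ℝ) (hf0 : ∀ i, 0 ≤ f i) (hf1 : ∀ i, f i ≤ 1)
    (F : Set ι) (hF : F.Finite) : ∑' i : F, f i ≤ hF.toFinset.card := by
  rw [tsum_subtype F f]
  rw [tsum_eq_sum (s := hF.toFinset)]
  · calc ∑ i ∈ hF.toFinset, F.indicator f i ≤ ∑ i ∈ hF.toFinset, (1 : ℝ) := by
          refine Finset.sum_le_sum fun i hi => ?_
          rw [Set.indicator_of_mem ((Set.Finite.mem_toFinset hF).mp hi)]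
          exact hf1 i
      _ = hF.toFinset.card := by rw [Finset.sum_const, nsmul_eq_mul, mul_one]
  · intro i hi
    rw [Set.indicator_of_notMem]
    intro h
    exact hi ((Set.Finite.mem_toFinset hF).mpr h)

lemma anD_tsum_le_of_subset {ι : Type*} (f : ι → ℝ) (hf0 : ∀ i, 0 ≤ f i) (hf : Summable f)
    (G A B F : Set ι) (hsub : ∀ i ∈ G, i ∈ A ∨ i ∈ B ∨ i ∈ F) :
    ∑' i : G, f i ≤ ∑' i : A, f i + ∑' i : B, f i + ∑' i : F, f i := by
  rw [tsum_subtype G f, tsum_subtype A f, tsum_subtype B f, tsum_subtype F f]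
  rw [← Summable.tsum_add (hf.indicator A) (hf.indicator B),
    ← Summable.tsum_add ((hf.indicator A).add (hf.indicator B)) (hf.indicator F)]
  refine Summable.tsum_le_tsum (fun i => ?_) (hf.indicator G)
    (((hf.indicator A).add (hf.indicator B)).add (hf.indicator F))
  have hA := Set.indicator_nonneg (s := A) (f := f) (fun i _ => hf0 i) i
  have hB := Set.indicator_nonneg (s := B) (f := f) (fun i _ => hf0 i) i
  have hF := Set.indicator_nonneg (s := F) (f := f) (fun i _ => hf0 i) i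
  by_cases hi : i ∈ G
  · rw [Set.indicator_of_mem hi]
    rcases hsub i hi with h | h | h
    · rw [Set.indicator_of_mem h]
      linarith
    · rw [Set.indicator_of_mem h (f := f)]
      linarith
    · rw [Set.indicator_of_mem h (f := f)]
      linarith
  · rw [Set.indicator_of_notMem hi]
    linarith

/-- The abstract pigeonhole: if the "mass" of `G` is at least `D - c`, the masses of `A` and `B`
are at most `D / p + c` with `p > 2`, and `F` is finite, then `G` is not covered by `A`, `B`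
and `F`. -/
theorem anD_pigeonhole {ι : Type*} (w : ι → ℝ → ℝ) (hw : ∀ i s, 0 ≤ w i s)
    (hw1 : ∀ i s, 1 < s → w i s ≤ 1)
    (hsum : ∀ s, 1 < s → s ≤ 2 → Summable (fun i => w i s))
    (G A B F : Set ι) (hF : F.Finite) (p : ℝ) (hp : 2 < p)
    (hG : ∃ c, ∀ s, 1 < s → s ≤ 2 → anD_D s - c ≤ ∑' i : G, w i s)
    (hA : ∃ c, ∀ s, 1 < s → s ≤ 2 → ∑' i : A, w i s ≤ anD_D s / p + c)
    (hB : ∃ c, ∀ s, 1 < s → s ≤ 2 → ∑' i : B, w i s ≤ anD_D s / p + c) :
    ∃ i ∈ G, i ∉ A ∧ i ∉ B ∧ i ∉ F := by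
  by_contra hcon
  have hsub : ∀ i ∈ G, i ∈ A ∨ i ∈ B ∨ i ∈ F := by
    intro i hi
    by_contra h
    rw [not_or, not_or] at h
    exact hcon ⟨i, hi, h.1, h.2.1, h.2.2⟩
  obtain ⟨cG, hG⟩ := hG
  obtain ⟨cA, hA⟩ := hA
  obtain ⟨cB, hB⟩ := hB
  have hkey : ∀ s, 1 < s → s ≤ 2 →
      anD_D s - cG ≤ anD_D s / p + cA + (anD_D s / p + cB) + hF.toFinset.card := by
    intro s hs hs2
    have h1 := hG s hs hs2
    have h2 := anD_tsum_le_of_subset (fun i => w i s) (fun i => hw i s) (hsum s hs hs2)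
      G A B F hsub
    have h3 := anD_tsum_finite_le (fun i => w i s) (fun i => hw i s) (fun i => hw1 i s hs) F hF
    linarith [hA s hs hs2, hB s hs hs2]
  set C : ℝ := cG + cA + cB + hF.toFinset.card with hC
  have hp0 : (0 : ℝ) < p := by linarith
  have hq : 0 < 1 - 2 / p := by
    rw [sub_pos, div_lt_one hp0]
    exact hp
  set M : ℝ := max 0 (C / (1 - 2 / p)) + 1 with hM
  have hM0 : 0 < M := by
    have := le_max_left 0 (C / (1 - 2 / p))
    linarith
  have hMC : C / (1 - 2 / p) < M := by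
    have := le_max_right 0 (C / (1 - 2 / p))
    linarith
  have hs1 : 1 < 1 + Real.exp (-M) := by
    have := Real.exp_pos (-M)
    linarith
  have hs2 : 1 + Real.exp (-M) ≤ 2 := by
    have : Real.exp (-M) ≤ 1 := by
      rw [Real.exp_le_one_iff]
      linarith
    linarith
  have h := hkey _ hs1 hs2
  rw [anD_D_exp] at h
  have h' : M * (1 - 2 / p) ≤ C := by
    have e : M * (1 - 2 / p) = M - (M / p + M / p) := by
      field_simp
      ring
    rw [e, hC]
    linarith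
  have h'' : M ≤ C / (1 - 2 / p) := by
    rw [le_div_iff₀ hq]
    exact h'
  linarith

/-! ## The hypotheses -/

section Hyps

/-- The norm of a prime, as a real number. -/
noncomputable abbrev anD_nrm {K : Type} [Field K] [NumberField K]
    (P : HeightOneSpectrum (𝓞 K)) : ℝ := (Ideal.absNorm P.asIdeal : ℝ)

/-- The ideal class of a prime. -/
noncomputable abbrev anD_cls {K : Type} [Field K] [NumberField K]
    (P : HeightOneSpectrum (𝓞 K)) : ClassGroup (𝓞 K) :=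
  ClassGroup.mk0 ⟨P.asIdeal, mem_nonZeroDivisors_of_ne_zero P.ne_bot⟩

/-- (H1) `∑_P N(P)^(-s) = log (1 / (s - 1)) + O(1)` on `(1, 2]`. -/
def AnDPrimeSumStatement : Prop :=
  ∀ (K : Type) [Field K] [NumberField K], ∃ c : ℝ, ∀ s : ℝ, 1 < s → s ≤ 2 →
    Summable (fun P : HeightOneSpectrum (𝓞 K) => anD_nrm P ^ (-s)) ∧
    |∑' P : HeightOneSpectrum (𝓞 K), anD_nrm P ^ (-s) - Real.log (1 / (s - 1))| ≤ c

/-- (H2) the primes of residue degree `≥ 2` contribute `O(1)`. -/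
def AnDHigherDegreeStatement : Prop :=
  ∀ (K : Type) [Field K] [NumberField K], ∃ c : ℝ, ∀ s : ℝ, 1 < s → s ≤ 2 →
    ∑' P : {P : HeightOneSpectrum (𝓞 K) // ¬ (Ideal.absNorm P.asIdeal).Prime},
      anD_nrm P.1 ^ (-s) ≤ c

/-- (H3) prime sums twisted by a non-trivial class group character are bounded above. -/
def AnDCharSumStatement : Prop :=
  ∀ (K : Type) [Field K] [NumberField K] (ψ : ClassGroup (𝓞 K) →* ℂˣ), ψ ≠ 1 →
    ∃ c : ℝ, ∀ s : ℝ, 1 < s → s ≤ 2 →
      (∑' P : HeightOneSpectrum (𝓞 K),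
        ((ψ (anD_cls P) : ℂˣ) : ℂ) * ((anD_nrm P ^ (-s) : ℝ) : ℂ)).re ≤ c

/-- (H4) Kummer splitting: the primes of degree one modulo which `E` is a `p`-th power split
completely in an extension of degree `p`. -/
def AnDKummerSplitStatement : Prop :=
  ∀ (p : ℕ), p.Prime → ∀ (K : Type) [Field K] [NumberField K] (ζ : K), IsPrimitiveRoot ζ p →
    ∀ E : 𝓞 K, (¬ ∃ x : K, x ^ p = (E : K)) →
    ∃ (K' : Type) (_ : Field K') (_ : NumberField K') (_ : Algebra K K'),
      ∀ lam : Ideal (𝓞 K), lam.IsPrime → (Ideal.absNorm lam).Prime → Ideal.absNorm lam ≠ p →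
        E ∉ lam → (∃ x : 𝓞 K, x ^ p - E ∈ lam) →
        ∃ Q : Fin p → Ideal (𝓞 K'), Function.Injective Q ∧
          ∀ i, (Q i).IsPrime ∧ Ideal.absNorm (Q i) = Ideal.absNorm lam ∧
            (Q i).comap (algebraMap (𝓞 K) (𝓞 K')) = lam

end Hyps

/-! ## The three bounds -/

section Bounds

variable {K : Type} [Field K] [NumberField K]

lemma anD_one_le_nrm (P : HeightOneSpectrum (𝓞 K)) : 1 ≤ anD_nrm P := by
  have h : Ideal.absNorm P.asIdeal ≠ 0 := by
    rw [Ne, Ideal.absNorm_eq_zero_iff]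
    exact P.ne_bot
  have : 1 ≤ Ideal.absNorm P.asIdeal := Nat.one_le_iff_ne_zero.mpr h
  exact_mod_cast this

lemma anD_w_nonneg (P : HeightOneSpectrum (𝓞 K)) (s : ℝ) : 0 ≤ anD_nrm P ^ (-s) :=
  Real.rpow_nonneg (by positivity) _

lemma anD_w_le_one (P : HeightOneSpectrum (𝓞 K)) (s : ℝ) (hs : 1 < s) : anD_nrm P ^ (-s) ≤ 1 :=
  Real.rpow_le_one_of_one_le_of_nonpos (anD_one_le_nrm P) (by linarith)

/-- The primes of degree one have mass `≥ D - c`. -/
lemma anD_bound_G (h1 : AnDPrimeSumStatement) (h2 : AnDHigherDegreeStatement) :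
    ∃ c, ∀ s, 1 < s → s ≤ 2 → anD_D s - c ≤
      ∑' P : ({P : HeightOneSpectrum (𝓞 K) | (Ideal.absNorm P.asIdeal).Prime} : Set _),
        anD_nrm P.1 ^ (-s) := by
  obtain ⟨c1, hc1⟩ := h1 K
  obtain ⟨c2, hc2⟩ := h2 K
  refine ⟨c1 + c2, fun s hs hs2 => ?_⟩
  obtain ⟨hS, hb⟩ := hc1 s hs hs2
  have hsplit := hS.tsum_subtype_add_tsum_subtype_compl
    {P : HeightOneSpectrum (𝓞 K) | (Ideal.absNorm P.asIdeal).Prime}
  have hcompl : ∑' P : ({P : HeightOneSpectrum (𝓞 K) |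
      (Ideal.absNorm P.asIdeal).Prime}ᶜ : Set _), anD_nrm P.1 ^ (-s) ≤ c2 := hc2 s hs hs2
  have := abs_le.mp hb
  unfold anD_D
  linarith [this.1, this.2]

/-- Powers `ψ ^ j`, `0 < j < p`, of a non-trivial character of exponent `p` are non-trivial. -/
lemma anD_pow_ne_one {p : ℕ} (hp : p.Prime) (ψ : ClassGroup (𝓞 K) →* ℂˣ)
    (hψp : ∀ x, ψ x ^ p = 1) (hψ : ψ ≠ 1) {j : ℕ} (hj0 : 0 < j) (hjp : j < p) : ψ ^ j ≠ 1 := by
  intro h
  apply hψ
  ext x
  have h1 : ψ x ^ j = 1 := by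
    have := DFunLike.congr_fun h x
    simpa using this
  have h2 := pow_gcd_eq_one.mpr ⟨h1, hψp x⟩
  have hcop : Nat.gcd j p = 1 :=
    (Nat.coprime_of_lt_prime (Nat.pos_iff_ne_zero.mp hj0) hjp hp).symm
  rw [hcop, pow_one] at h2
  simp [h2]

/-- Orthogonality: `∑_{j < p} z ^ j` for a `p`-th root of unity `z`. -/
lemma anD_geom_sum {p : ℕ} (hp : p.Prime) (z : ℂ) (hz : z ^ p = 1) :
    ∑ j ∈ Finset.range p, z ^ j = if z = 1 then (p : ℂ) else 0 := by
  split_ifs with h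
  · subst h
    simp
  · rw [geom_sum_eq h, hz, sub_self, zero_div]

/-- The primes on which `ψ` is trivial have mass `≤ D / p + c`. -/
lemma anD_bound_A (h1 : AnDPrimeSumStatement) (h3 : AnDCharSumStatement)
    {p : ℕ} (hp : p.Prime) (ψ : ClassGroup (𝓞 K) →* ℂˣ)
    (hψp : ∀ x, ψ x ^ p = 1) (hψ : ψ ≠ 1) :
    ∃ c, ∀ s, 1 < s → s ≤ 2 →
      ∑' P : ({P : HeightOneSpectrum (𝓞 K) | ψ (anD_cls P) = 1} : Set _),
        anD_nrm P.1 ^ (-s) ≤ anD_D s / (p : ℝ) + c := by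
  classical
  obtain ⟨c1, hc1⟩ := h1 K
  -- the constants for the non-trivial powers of `ψ`
  have hex : ∀ j : ℕ, ∃ c : ℝ, (0 < j ∧ j < p) → ∀ s : ℝ, 1 < s → s ≤ 2 →
      (∑' P : HeightOneSpectrum (𝓞 K),
        (((ψ ^ j) (anD_cls P) : ℂˣ) : ℂ) * ((anD_nrm P ^ (-s) : ℝ) : ℂ)).re ≤ c := by
    intro j
    by_cases hj : 0 < j ∧ j < p
    · obtain ⟨c, hc⟩ := h3 K (ψ ^ j) (anD_pow_ne_one hp ψ hψp hψ hj.1 hj.2)
      exact ⟨c, fun _ => hc⟩
    · exact ⟨0, fun h => absurd h hj⟩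
  choose cj hcj using hex
  have hp0 : (0 : ℝ) < p := by exact_mod_cast hp.pos
  refine ⟨(c1 + ∑ j ∈ Finset.range p, |cj j|) / p, fun s hs hs2 => ?_⟩
  obtain ⟨hS, hb⟩ := hc1 s hs hs2
  set A : Set (HeightOneSpectrum (𝓞 K)) := {P | ψ (anD_cls P) = 1} with hA
  -- the twisted summands
  set f : ℕ → HeightOneSpectrum (𝓞 K) → ℂ := fun j P =>
    (((ψ ^ j) (anD_cls P) : ℂˣ) : ℂ) * ((anD_nrm P ^ (-s) : ℝ) : ℂ) with hf
  have hnorm : ∀ j P, ‖f j P‖ ≤ anD_nrm P ^ (-s) := by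
    intro j P
    rw [hf]
    simp only
    rw [norm_mul, Complex.norm_real, Real.norm_of_nonneg (anD_w_nonneg P s)]
    have hu : ‖(((ψ ^ j) (anD_cls P) : ℂˣ) : ℂ)‖ = 1 := by
      have hpow : (((ψ ^ j) (anD_cls P) : ℂˣ) : ℂ) ^ p = 1 := by
        rw [MonoidHom.pow_apply, ← Units.val_pow_eq_pow_val, ← pow_mul, mul_comm, pow_mul,
          hψp, one_pow, Units.val_one]
      exact Complex.norm_eq_one_of_pow_eq_one hpow hp.ne_zero
    rw [hu, one_mul]
  have hfS : ∀ j, Summable (f j) := fun j => Summable.of_norm_bounded hS (hnorm j)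
  -- pointwise orthogonality
  have hpt : ∀ P, ∑ j ∈ Finset.range p, f j P =
      (((p : ℝ) * A.indicator (fun P => anD_nrm P ^ (-s)) P : ℝ) : ℂ) := by
    intro P
    have hz : ((ψ (anD_cls P) : ℂˣ) : ℂ) ^ p = 1 := by
      rw [← Units.val_pow_eq_pow_val, hψp, Units.val_one]
    have e : ∀ j, f j P = ((ψ (anD_cls P) : ℂˣ) : ℂ) ^ j * ((anD_nrm P ^ (-s) : ℝ) : ℂ) := by
      intro j
      rw [hf]
      simp only
      rw [MonoidHom.pow_apply, Units.val_pow_eq_pow_val]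
    simp_rw [e]
    rw [← Finset.sum_mul, anD_geom_sum hp _ hz]
    by_cases hP : ψ (anD_cls P) = 1
    · have hPA : P ∈ A := hP
      rw [Set.indicator_of_mem hPA, if_pos (by rw [hP, Units.val_one])]
      push_cast
      ring
    · have hPA : P ∉ A := hP
      have hne : ((ψ (anD_cls P) : ℂˣ) : ℂ) ≠ 1 := by
        intro h
        exact hP (Units.ext h)
      rw [Set.indicator_of_notMem hPA, if_neg hne]
      simp
  -- sum over `P`
  have hsumP : ∑' P, ∑ j ∈ Finset.range p, f j P = ∑ j ∈ Finset.range p, ∑' P, f j P :=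
    Summable.tsum_finsetSum fun j _ => hfS j
  have hre : (p : ℝ) * ∑' P : A, anD_nrm P.1 ^ (-s) =
      ∑ j ∈ Finset.range p, (∑' P, f j P).re := by
    rw [tsum_subtype A (fun P => anD_nrm P ^ (-s)), ← Summable.tsum_mul_left _ (hS.indicator A)]
    have h4 : (∑' P, ∑ j ∈ Finset.range p, f j P).re =
        ∑' P, (p : ℝ) * A.indicator (fun P => anD_nrm P ^ (-s)) P := by
      simp_rw [hpt]
      rw [Complex.re_tsum]
      · simp only [Complex.ofReal_re]
      · exact (Complex.summable_ofReal.mpr ((hS.indicator A).mul_left (p : ℝ)))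
    rw [← h4, hsumP, Complex.re_sum]
  -- bound each term
  have hterm : ∀ j ∈ Finset.range p, (∑' P, f j P).re ≤
      (if j = 0 then anD_D s + c1 else 0) + |cj j| := by
    intro j hj
    by_cases hj0 : j = 0
    · subst hj0
      rw [if_pos rfl]
      have e0 : ∀ P, f 0 P = ((anD_nrm P ^ (-s) : ℝ) : ℂ) := by
        intro P
        rw [hf]
        simp
      simp_rw [e0]
      rw [Complex.re_tsum (Complex.summable_ofReal.mpr hS)]
      simp only [Complex.ofReal_re]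
      have := abs_le.mp hb
      have habs := abs_nonneg (cj 0)
      unfold anD_D
      linarith [this.2]
    · rw [if_neg hj0, zero_add]
      have hjp : j < p := Finset.mem_range.mp hj
      exact (hcj j ⟨Nat.pos_of_ne_zero hj0, hjp⟩ s hs hs2).trans (le_abs_self _)
  have htotal : (p : ℝ) * ∑' P : A, anD_nrm P.1 ^ (-s) ≤
      anD_D s + c1 + ∑ j ∈ Finset.range p, |cj j| := by
    rw [hre]
    refine (Finset.sum_le_sum hterm).trans ?_
    rw [Finset.sum_add_distrib, Finset.sum_ite_eq' (Finset.range p) 0]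
    rw [if_pos (Finset.mem_range.mpr hp.pos)]
  rw [← add_div, le_div_iff₀ hp0]
  rw [mul_comm]
  linarith

/-- The set of primes of degree one, prime to `p E`, modulo which `E` is a `p`-th power. -/
def anD_B (p : ℕ) (E : 𝓞 K) : Set (HeightOneSpectrum (𝓞 K)) :=
  {P | (Ideal.absNorm P.asIdeal).Prime ∧ Ideal.absNorm P.asIdeal ≠ p ∧ E ∉ P.asIdeal ∧
    ∃ x : 𝓞 K, x ^ p - E ∈ P.asIdeal}

/-- The primes of degree one modulo which `E` is a `p`-th power have mass `≤ D / p + c`. -/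
lemma anD_bound_B (h1 : AnDPrimeSumStatement) (h4 : AnDKummerSplitStatement)
    {p : ℕ} (hp : p.Prime) (ζ : K) (hζ : IsPrimitiveRoot ζ p) (E : 𝓞 K)
    (hE : ¬ ∃ x : K, x ^ p = (E : K)) :
    ∃ c, ∀ s, 1 < s → s ≤ 2 →
      ∑' P : (anD_B p E : Set (HeightOneSpectrum (𝓞 K))),
        anD_nrm P.1 ^ (-s) ≤ anD_D s / (p : ℝ) + c := by
  classical
  obtain ⟨K', _, _, _, hK'⟩ := h4 p hp K ζ hζ E hE
  obtain ⟨c1, hc1⟩ := h1 K'
  obtain ⟨c0, hc0⟩ := h1 K
  have hp0 : (0 : ℝ) < p := by exact_mod_cast hp.pos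
  -- the primes above
  have hex : ∀ P : (anD_B p E : Set (HeightOneSpectrum (𝓞 K))),
      ∃ Q : Fin p → Ideal (𝓞 K'), Function.Injective Q ∧
        ∀ i, (Q i).IsPrime ∧ Ideal.absNorm (Q i) = Ideal.absNorm P.1.asIdeal ∧
          (Q i).comap (algebraMap (𝓞 K) (𝓞 K')) = P.1.asIdeal := fun P =>
    hK' P.1.asIdeal P.1.isPrime P.2.1 P.2.2.1 P.2.2.2.1 P.2.2.2.2
  choose Q hQinj hQ using hex
  have hQne : ∀ P i, Q P i ≠ ⊥ := by
    intro P i h
    have h2 := (hQ P i).2.1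
    rw [h, Ideal.absNorm_bot] at h2
    exact P.2.1.ne_zero h2.symm
  let Φ : {P : HeightOneSpectrum (𝓞 K) // P ∈ anD_B p E} × Fin p → HeightOneSpectrum (𝓞 K') :=
    fun x => ⟨Q x.1 x.2, (hQ x.1 x.2).1, hQne x.1 x.2⟩
  have hΦ : Function.Injective Φ := by
    rintro ⟨P, i⟩ ⟨P', i'⟩ h
    have h1 : Q P i = Q P' i' := congrArg HeightOneSpectrum.asIdeal h
    have h2 : P.1.asIdeal = P'.1.asIdeal := by
      rw [← (hQ P i).2.2, ← (hQ P' i').2.2, h1]
    have h3 : P = P' := Subtype.ext (HeightOneSpectrum.ext h2)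
    subst h3
    have h4 : i = i' := hQinj P h1
    rw [h4]
  refine ⟨c1 / p, fun s hs hs2 => ?_⟩
  obtain ⟨hS', hb'⟩ := hc1 s hs hs2
  obtain ⟨hS, -⟩ := hc0 s hs hs2
  have hle := tsum_comp_le_tsum_of_inj hS' (fun P => anD_w_nonneg P s) hΦ
  have hcomp : ∀ x, ((fun P : HeightOneSpectrum (𝓞 K') => anD_nrm P ^ (-s)) ∘ Φ) x =
      anD_nrm x.1.1 ^ (-s) := by
    rintro ⟨P, i⟩
    show ((Ideal.absNorm (Q P i) : ℕ) : ℝ) ^ (-s) = _
    rw [(hQ P i).2.1]
  have hsummable : Summable ((fun P : HeightOneSpectrum (𝓞 K') => anD_nrm P ^ (-s)) ∘ Φ) :=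
    hS'.comp_injective hΦ
  have htsum : tsum ((fun P : HeightOneSpectrum (𝓞 K') => anD_nrm P ^ (-s)) ∘ Φ) =
      (p : ℝ) * ∑' P : (anD_B p E : Set (HeightOneSpectrum (𝓞 K))), anD_nrm P.1 ^ (-s) := by
    rw [hsummable.tsum_prod]
    have : ∀ P : (anD_B p E : Set (HeightOneSpectrum (𝓞 K))),
        ∑' i : Fin p, ((fun P : HeightOneSpectrum (𝓞 K') => anD_nrm P ^ (-s)) ∘ Φ) (P, i) =
          (p : ℝ) * anD_nrm P.1 ^ (-s) := by
      intro P
      rw [tsum_fintype]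
      simp_rw [hcomp]
      rw [Finset.sum_const, Finset.card_univ, Fintype.card_fin, nsmul_eq_mul]
    simp_rw [this]
    rw [Summable.tsum_mul_left]
    exact hS.subtype _
  rw [htsum] at hle
  have := abs_le.mp hb'
  rw [← add_div, le_div_iff₀ hp0, mul_comm]
  unfold anD_D
  linarith [this.2]

/-- The set of primes dividing `p E` is finite. -/
lemma anD_finite_F {p : ℕ} (hp : p.Prime) (E : 𝓞 K) (hE : E ≠ 0) :
    {P : HeightOneSpectrum (𝓞 K) | Ideal.absNorm P.asIdeal = p ∨ E ∈ P.asIdeal}.Finite := by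
  have hpE : ((p : 𝓞 K) * E) ≠ 0 :=
    mul_ne_zero (by exact_mod_cast hp.ne_zero) hE
  have hI : Ideal.span {(p : 𝓞 K) * E} ≠ 0 := by
    rw [Ne, Ideal.zero_eq_bot, Ideal.span_singleton_eq_bot]
    exact hpE
  refine (Ideal.finite_factors hI).subset ?_
  intro P hP
  change P.asIdeal ∣ Ideal.span {(p : 𝓞 K) * E}
  rw [Ideal.dvd_iff_le, Ideal.span_singleton_le_iff_mem]
  rcases hP with h | h
  · have := Ideal.absNorm_mem P.asIdeal
    rw [h] at this
    exact Ideal.mul_mem_right _ _ this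
  · exact Ideal.mul_mem_left _ _ h

end Bounds

/-! ## The analytic statement -/

/-- **(AN-D)** the analytic statement from (H1)-(H4). -/
theorem analytic_of_hyps (h1 : AnDPrimeSumStatement) (h2 : AnDHigherDegreeStatement)
    (h3 : AnDCharSumStatement) (h4 : AnDKummerSplitStatement) : AnalyticStatement := by
  intro p hp hp3 K _ _ ζ hζ ψ hψp hψ E hE
  have hE0 : E ≠ 0 := by
    intro h
    exact hE ⟨0, by rw [h, zero_pow hp.ne_zero]; simp⟩
  obtain ⟨c0, hc0⟩ := h1 K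
  obtain ⟨P, hPG, hPA, hPB, hPF⟩ := anD_pigeonhole
    (fun (P : HeightOneSpectrum (𝓞 K)) s => anD_nrm P ^ (-s))
    (fun P s => anD_w_nonneg P s) (fun P s hs => anD_w_le_one P s hs)
    (fun s hs hs2 => (hc0 s hs hs2).1)
    {P | (Ideal.absNorm P.asIdeal).Prime} {P | ψ (anD_cls P) = 1} (anD_B p E)
    {P | Ideal.absNorm P.asIdeal = p ∨ E ∈ P.asIdeal} (anD_finite_F hp E hE0) (p : ℝ)
    (by exact_mod_cast (show 2 < p by omega))
    (anD_bound_G h1 h2) (anD_bound_A h1 h3 hp ψ hψp hψ) (anD_bound_B h1 h4 hp ζ hζ E hE)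
  change ¬ (Ideal.absNorm P.asIdeal = p ∨ E ∈ P.asIdeal) at hPF
  rw [not_or] at hPF
  refine ⟨⟨P.asIdeal, mem_nonZeroDivisors_of_ne_zero P.ne_bot⟩, P.isPrime, hPG, hPF.1, hPA, ?_⟩
  intro x hx
  exact hPB ⟨hPG, hPF.1, hPF.2, x, hx⟩

end Fermat.Agent.S14
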