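import Mathlib

/-!
# S14, package (AN3): Kummer splitting

Let `K` be a number field containing a primitive `p`-th root of unity `ζ` (`p` prime) and let
`E ∈ 𝓞 K` be not a `p`-th power in `K`.  Then `K' = K(E^(1/p))` is a number field of degree `p`
over `K`, and every prime `lam` of `𝓞 K` of degree one, prime to `p * E`, modulo which `E` is a
`p`-th power, has `p` distinct primes of `𝓞 K'` above it, all of the same absolute norm.

No conductor hypothesis / Kummer-Dedekind is needed: the `p` primes are produced by lying-over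
from the `p` evaluation homomorphisms `(𝓞 K)[X] → 𝓞 K ⧸ lam`, `X ↦ x ζ ^ i`, and the fundamental
identity `∑ e f = p` forces `e = f = 1`.
-/

set_option autoImplicit false

open scoped NumberField
open Polynomial

namespace Fermat.Agent.S14

/-- If `θ ^ p = E` with `X ^ p - E` irreducible over `K`, every polynomial over `𝓞 K`
killing `θ` is divisible by `X ^ p - E`. -/
theorem an3_dvd_of_aeval_eq_zero {p : ℕ} {K K' : Type} [Field K] [NumberField K] [Field K']
    [NumberField K'] [Algebra K K'] (E : 𝓞 K) (θ : 𝓞 K')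
    (hθ : θ ^ p = algebraMap (𝓞 K) (𝓞 K') E)
    (hirr : Irreducible (X ^ p - C (E : K) : K[X])) (hp : p ≠ 0)
    (g : (𝓞 K)[X]) (hg : aeval θ g = 0) : (X ^ p - C E : (𝓞 K)[X]) ∣ g := by
  have hmonic : (X ^ p - C E : (𝓞 K)[X]).Monic := monic_X_pow_sub_C E hp
  have hmonicK : (X ^ p - C (E : K) : K[X]).Monic := monic_X_pow_sub_C _ hp
  rw [← Polynomial.map_dvd_map (algebraMap (𝓞 K) K)
    (FaithfulSMul.algebraMap_injective (𝓞 K) K) hmonic]
  have hmap : (X ^ p - C E : (𝓞 K)[X]).map (algebraMap (𝓞 K) K) = X ^ p - C (E : K) := by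
    simp
  rw [hmap]
  have hroot : aeval (algebraMap (𝓞 K') K' θ) (X ^ p - C (E : K) : K[X]) = 0 := by
    simp only [map_sub, map_pow, aeval_X, aeval_C]
    rw [← map_pow, hθ, sub_eq_zero, ← IsScalarTower.algebraMap_apply,
      ← IsScalarTower.algebraMap_apply]
  have hmin : minpoly K (algebraMap (𝓞 K') K' θ) = X ^ p - C (E : K) :=
    (minpoly.eq_of_irreducible_of_monic hirr hroot hmonicK).symm
  rw [← hmin]
  apply minpoly.dvd
  rw [aeval_map_algebraMap, aeval_algebraMap_apply, hg, map_zero]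

/-- A prime of `𝓞 K'` over `lam` containing `θ - c`, for every root `c` of `X ^ p - E`
modulo `lam`. -/
theorem an3_exists_prime_over {p : ℕ} {K K' : Type} [Field K] [NumberField K] [Field K']
    [NumberField K'] [Algebra K K'] (E : 𝓞 K) (θ : 𝓞 K')
    (hθ : θ ^ p = algebraMap (𝓞 K) (𝓞 K') E)
    (hirr : Irreducible (X ^ p - C (E : K) : K[X])) (hp : p ≠ 0)
    (lam : Ideal (𝓞 K)) [lam.IsPrime] (c : 𝓞 K) (hc : c ^ p - E ∈ lam) :
    ∃ Q : Ideal (𝓞 K'), Q.IsPrime ∧ Q.comap (algebraMap (𝓞 K) (𝓞 K')) = lam ∧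
      θ - algebraMap (𝓞 K) (𝓞 K') c ∈ Q := by
  -- evaluation at `c` modulo `lam`
  let φ : (𝓞 K)[X] →+* (𝓞 K) ⧸ lam := (Ideal.Quotient.mk lam).comp (evalRingHom c)
  let f : (𝓞 K)[X] →+* 𝓞 K' := (aeval θ : (𝓞 K)[X] →ₐ[𝓞 K] 𝓞 K').toRingHom
  have hfC : ∀ r : 𝓞 K, f (C r) = algebraMap (𝓞 K) (𝓞 K') r := fun r => by
    simp [f]
  have hfX : f X = θ := by simp [f]
  have hφC : ∀ r : 𝓞 K, φ (C r) = Ideal.Quotient.mk lam r := fun r => by
    simp [φ]
  have hφX : φ X = Ideal.Quotient.mk lam c := by simp [φ]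
  have hPprime : (RingHom.ker φ).IsPrime := RingHom.ker_isPrime φ
  have hker : RingHom.ker f ≤ RingHom.ker φ := by
    intro g hg
    rw [RingHom.mem_ker] at hg ⊢
    obtain ⟨q, rfl⟩ := an3_dvd_of_aeval_eq_zero E θ hθ hirr hp g hg
    rw [map_mul, map_sub, map_pow, hφX, hφC, ← map_pow, ← map_sub,
      Ideal.Quotient.eq_zero_iff_mem.mpr hc, zero_mul]
  let _ : Algebra (𝓞 K)[X] (𝓞 K') := f.toAlgebra
  have : IsScalarTower (𝓞 K) (𝓞 K)[X] (𝓞 K') := IsScalarTower.of_algebraMap_eq (fun r => by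
    change _ = f (C r)
    rw [hfC])
  have : Algebra.IsIntegral (𝓞 K)[X] (𝓞 K') := Algebra.IsIntegral.tower_top (𝓞 K)
  obtain ⟨Q, -, hQprime, hQ⟩ := Ideal.exists_ideal_over_prime_of_isIntegral (RingHom.ker φ)
    (⊥ : Ideal (𝓞 K')) (by
      change Ideal.comap f ⊥ ≤ _
      exact hker)
  change Ideal.comap f Q = _ at hQ
  refine ⟨Q, hQprime, ?_, ?_⟩
  · ext r
    rw [Ideal.mem_comap, ← hfC, ← Ideal.mem_comap, hQ, RingHom.mem_ker, hφC,
      Ideal.Quotient.eq_zero_iff_mem]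
  · have : (X - C c : (𝓞 K)[X]) ∈ RingHom.ker φ := by
      rw [RingHom.mem_ker, map_sub, hφX, hφC, sub_self]
    rw [← hQ, Ideal.mem_comap, map_sub, hfX, hfC] at this
    exact this

/-- Modulo a prime not containing `p`, the powers `ζ ^ i`, `i < p`, are distinct. -/
theorem an3_zeta_pow_sub_not_mem {p : ℕ} (hp : p.Prime) {R : Type} [CommRing R] [IsDomain R]
    (ζ : R) (hζ : IsPrimitiveRoot ζ p) (lam : Ideal R) [lam.IsPrime]
    (hpl : (p : R) ∉ lam) {i j : ℕ} (hi : i < p) (hj : j < p) (hij : i ≠ j) :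
    ζ ^ i - ζ ^ j ∉ lam := by
  wlog h : i < j generalizing i j
  · have hji : j < i := lt_of_le_of_ne (not_lt.mp h) (Ne.symm hij)
    intro hmem
    apply this hj hi (Ne.symm hij) hji
    have : ζ ^ j - ζ ^ i = -(ζ ^ i - ζ ^ j) := by ring
    rw [this]
    exact lam.neg_mem hmem
  intro hmem
  -- in the quotient, `ζ ^ (j - i) = 1`
  let q := Ideal.Quotient.mk lam
  have h1 : q ζ ^ p = 1 := by rw [← map_pow, hζ.pow_eq_one, map_one]
  have hunit : IsUnit (q ζ) := IsUnit.of_pow_eq_one h1 hp.ne_zero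
  have h2 : q ζ ^ i = q ζ ^ j := by
    rw [← map_pow, ← map_pow, ← sub_eq_zero, ← map_sub]
    exact Ideal.Quotient.eq_zero_iff_mem.mpr hmem
  have h3 : q ζ ^ (j - i) = 1 := by
    have : q ζ ^ i * q ζ ^ (j - i) = q ζ ^ i * 1 := by
      rw [← pow_add, Nat.add_sub_cancel' h.le, mul_one, h2]
    exact (hunit.pow i).mul_left_cancel this
  have hcop : Nat.Coprime (j - i) p := by
    rw [Nat.coprime_comm, Nat.Prime.coprime_iff_not_dvd hp]
    intro hdvd
    have := Nat.le_of_dvd (by omega) hdvd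
    omega
  have h4 : q ζ = 1 := by
    have := (pow_gcd_eq_one (a := q ζ) (m := j - i) (n := p)).mpr ⟨h3, h1⟩
    rwa [hcop, pow_one] at this
  apply hpl
  have h5 := congrArg q (hζ.geom_sum_eq_zero hp.one_lt)
  rw [map_sum, map_zero] at h5
  simp only [map_pow, h4, one_pow, Finset.sum_const, Finset.card_range, nsmul_eq_mul,
    mul_one] at h5
  rw [← map_natCast q] at h5
  exact Ideal.Quotient.eq_zero_iff_mem.mp h5

/-- **Kummer splitting, core form.**  `K'/K` of degree `p`, `θ ∈ 𝓞 K'` with `θ ^ p = E`,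
`X ^ p - E` irreducible over `K`, `ζ ∈ 𝓞 K` a primitive `p`-th root of unity; `lam` a non-zero
prime of `𝓞 K` not containing `p` or `E`, modulo which `E` is a `p`-th power.  Then there are `p`
distinct primes of `𝓞 K'` over `lam`, each of absolute norm `N(lam)`. -/
theorem an3_primes_over {p : ℕ} (hp : p.Prime) {K K' : Type} [Field K] [NumberField K] [Field K']
    [NumberField K'] [Algebra K K'] (hdeg : Module.finrank K K' = p)
    (ζ : 𝓞 K) (hζ : IsPrimitiveRoot ζ p)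
    (E : 𝓞 K) (θ : 𝓞 K') (hθ : θ ^ p = algebraMap (𝓞 K) (𝓞 K') E)
    (hirr : Irreducible (X ^ p - C (E : K) : K[X]))
    (lam : Ideal (𝓞 K)) [hlam : lam.IsPrime] (hlam0 : lam ≠ ⊥) (hpl : (p : 𝓞 K) ∉ lam)
    (hE : E ∉ lam) (x : 𝓞 K) (hx : x ^ p - E ∈ lam) :
    ∃ P : Fin p → Ideal (𝓞 K'), Function.Injective P ∧ ∀ i, (P i).IsPrime ∧
      (P i).comap (algebraMap (𝓞 K) (𝓞 K')) = lam ∧
      Ideal.absNorm (P i) = Ideal.absNorm lam := by
  have hxl : x ∉ lam := by
    intro hxl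
    apply hE
    have : E = x ^ p - (x ^ p - E) := by ring
    rw [this]
    exact lam.sub_mem (lam.pow_mem_of_mem hxl p hp.pos) hx
  have hc : ∀ i : Fin p, (x * ζ ^ (i : ℕ)) ^ p - E ∈ lam := by
    intro i
    have : (x * ζ ^ (i : ℕ)) ^ p = x ^ p := by
      rw [mul_pow, ← pow_mul, mul_comm (i : ℕ) p, pow_mul, hζ.pow_eq_one, one_pow, mul_one]
    rw [this]; exact hx
  choose Q hQprime hQover hQmem using fun i : Fin p =>
    an3_exists_prime_over E θ hθ hirr hp.ne_zero lam (x * ζ ^ (i : ℕ)) (hc i)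
  have hinj : Function.Injective Q := by
    intro i j hij
    by_contra hne
    have hne' : (i : ℕ) ≠ (j : ℕ) := fun h => hne (Fin.ext h)
    have h1 : algebraMap (𝓞 K) (𝓞 K') (x * ζ ^ (j : ℕ)) -
        algebraMap (𝓞 K) (𝓞 K') (x * ζ ^ (i : ℕ)) ∈ Q i := by
      have hi := hQmem i
      have hj := hQmem j
      rw [← hij] at hj
      have := (Q i).sub_mem hi hj
      simpa using this
    rw [← map_sub, ← Ideal.mem_comap, hQover i] at h1
    have h2 : x * (ζ ^ (j : ℕ) - ζ ^ (i : ℕ)) ∈ lam := by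
      have : x * (ζ ^ (j : ℕ) - ζ ^ (i : ℕ)) = x * ζ ^ (j : ℕ) - x * ζ ^ (i : ℕ) := by ring
      rw [this]; exact h1
    rcases hlam.mem_or_mem h2 with h3 | h3
    · exact hxl h3
    · exact an3_zeta_pow_sub_not_mem hp ζ hζ lam hpl j.2 i.2 (Ne.symm hne') h3
  refine ⟨Q, hinj, fun i => ⟨hQprime i, hQover i, ?_⟩⟩
  -- the fundamental identity `∑ e f = p`
  have hliesOver : ∀ i, (Q i).LiesOver lam := fun i => ⟨(hQover i).symm⟩
  let g : Fin p → lam.primesOver (𝓞 K') := fun i => ⟨Q i, hQprime i, hliesOver i⟩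
  have hginj : Function.Injective g := fun i j h => hinj (congrArg Subtype.val h)
  have : lam.IsMaximal := hlam.isMaximal hlam0
  have hsum := Ideal.sum_ramification_inertia_eq_finrank lam (𝓞 K')
  have hfr : Module.finrank (𝓞 K) (𝓞 K') = p := by
    rw [← hdeg]
    exact (IsFractionRing.finrank_eq (𝓞 K) K (𝓞 K') K').symm
  rw [hfr] at hsum
  have hpos : ∀ q : lam.primesOver (𝓞 K'),
      1 ≤ q.1.ramificationIdx (𝓞 K) * q.1.inertiaDeg (𝓞 K) := by
    intro q
    have := q.2.1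
    exact Nat.succ_le_of_lt (Nat.mul_pos (Ideal.ramificationIdx_pos q.1 (𝓞 K))
      (Ideal.inertiaDeg_pos q.1 (𝓞 K)))
  have hle : ∑ i : Fin p, (g i).1.ramificationIdx (𝓞 K) * (g i).1.inertiaDeg (𝓞 K) ≤ p := by
    have h1 : ∑ i : Fin p, (g i).1.ramificationIdx (𝓞 K) * (g i).1.inertiaDeg (𝓞 K) ≤
        ∑ q : lam.primesOver (𝓞 K'), q.1.ramificationIdx (𝓞 K) * q.1.inertiaDeg (𝓞 K) := by
      rw [← Finset.sum_image (f := fun q : lam.primesOver (𝓞 K') =>
        q.1.ramificationIdx (𝓞 K) * q.1.inertiaDeg (𝓞 K)) (fun i _ j _ h => hginj h)]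
      exact Finset.sum_le_sum_of_subset (Finset.subset_univ _)
    exact h1.trans hsum.le
  have hge : ∀ i : Fin p, 1 ≤ (g i).1.ramificationIdx (𝓞 K) * (g i).1.inertiaDeg (𝓞 K) :=
    fun i => hpos (g i)
  have heq : ∀ i : Fin p, (g i).1.ramificationIdx (𝓞 K) * (g i).1.inertiaDeg (𝓞 K) = 1 := by
    by_contra hcon
    push Not at hcon
    obtain ⟨i₀, hi₀⟩ := hcon
    have hlt : ∑ i : Fin p, 1 <
        ∑ i : Fin p, (g i).1.ramificationIdx (𝓞 K) * (g i).1.inertiaDeg (𝓞 K) :=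
      Finset.sum_lt_sum (fun i _ => hge i)
        ⟨i₀, Finset.mem_univ _, lt_of_le_of_ne (hge i₀) (Ne.symm hi₀)⟩
    simp at hlt
    omega
  have hf : (Q i).inertiaDeg (𝓞 K) = 1 := Nat.eq_one_of_mul_eq_one_left (heq i)
  have := hQprime i
  have := hliesOver i
  have := Ideal.absNorm_pow_inertiaDeg lam (Q i)
  rw [hf, pow_one] at this
  exact this.symm

/-- A prime of `𝓞 K` whose absolute norm is a prime number different from `p` does not
contain `p`. -/
theorem an3_natCast_not_mem {p : ℕ} {K : Type} [Field K] [NumberField K]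
    (lam : Ideal (𝓞 K)) [hlam : lam.IsPrime] (hl : (Ideal.absNorm lam).Prime)
    (hne : Ideal.absNorm lam ≠ p) (hp : p.Prime) : (p : 𝓞 K) ∉ lam := by
  intro hmem
  have hℓ : ((Ideal.absNorm lam : ℕ) : 𝓞 K) ∈ lam := Ideal.absNorm_mem lam
  have hcop : Nat.Coprime p (Ideal.absNorm lam) :=
    (Nat.coprime_primes hp hl).mpr (Ne.symm hne)
  obtain ⟨a, b, hab⟩ := (Nat.isCoprime_iff_coprime.mpr hcop)
  have h1 : ((a * (p : ℤ) + b * (Ideal.absNorm lam : ℤ) : ℤ) : 𝓞 K) ∈ lam := by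
    push_cast
    exact lam.add_mem (lam.mul_mem_left _ hmem) (lam.mul_mem_left _ hℓ)
  rw [hab, Int.cast_one] at h1
  exact hlam.ne_top ((Ideal.eq_top_iff_one lam).mpr h1)

/-- **(AN3) Kummer splitting.**  For `E ∈ 𝓞 K` not a `p`-th power in `K ∋ ζ_p`, there is a number
field `K'` of degree `p` over `K` (namely `K(E^(1/p))`) such that every prime `lam` of `𝓞 K` of
degree one (prime absolute norm `≠ p`), not containing `E`, modulo which `E` is a `p`-th power, has
`p` distinct primes of `𝓞 K'` above it, each of absolute norm `N(lam)`. -/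
theorem an3_kummerSplit {p : ℕ} (hp : p.Prime) (K : Type) [Field K] [NumberField K] (ζ : K)
    (hζ : IsPrimitiveRoot ζ p) (E : 𝓞 K) (hE : ¬ ∃ x : K, x ^ p = (E : K)) :
    ∃ (K' : Type) (_ : Field K') (_ : NumberField K') (_ : Algebra K K'),
      Module.finrank K K' = p ∧
      ∀ lam : Ideal (𝓞 K), lam.IsPrime → (Ideal.absNorm lam).Prime → Ideal.absNorm lam ≠ p →
        (∃ x : 𝓞 K, x ^ p - E ∈ lam) → E ∉ lam →
        ∃ P : Fin p → Ideal (𝓞 K'), Function.Injective P ∧ ∀ i, (P i).IsPrime ∧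
          Ideal.absNorm (P i) = Ideal.absNorm lam ∧
          (P i).comap (algebraMap (𝓞 K) (𝓞 K')) = lam := by
  have hirr : Irreducible (X ^ p - C (E : K) : K[X]) :=
    X_pow_sub_C_irreducible_of_prime hp (fun b hb => hE ⟨b, hb⟩)
  haveI : Fact (Irreducible (X ^ p - C (E : K) : K[X])) := ⟨hirr⟩
  haveI : NeZero p := ⟨hp.ne_zero⟩
  let K' := AdjoinRoot (X ^ p - C (E : K) : K[X])
  letI : Field K' := AdjoinRoot.instField
  haveI : CharZero K' := charZero_of_injective_algebraMap (algebraMap K K').injective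
  haveI : FiniteDimensional K K' := (AdjoinRoot.powerBasis hirr.ne_zero).finite
  haveI : FiniteDimensional ℚ K' := Module.Finite.trans K K'
  haveI : NumberField K' := ⟨⟩
  have hdeg : Module.finrank K K' = p := by
    rw [(AdjoinRoot.powerBasis hirr.ne_zero).finrank, AdjoinRoot.powerBasis_dim,
      natDegree_X_pow_sub_C]
  refine ⟨K', inferInstance, inferInstance, inferInstance, hdeg, ?_⟩
  intro lam hlam hl hne hx hElam
  obtain ⟨x, hx⟩ := hx
  -- the root `θ`
  have hroot : (AdjoinRoot.root (X ^ p - C (E : K) : K[X])) ^ p = algebraMap K K' (E : K) := by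
    have := AdjoinRoot.eval₂_root (X ^ p - C (E : K) : K[X])
    simp only [eval₂_sub, eval₂_pow, eval₂_X, eval₂_C] at this
    exact sub_eq_zero.mp this
  have hint : IsIntegral ℤ (AdjoinRoot.root (X ^ p - C (E : K) : K[X])) := by
    apply IsIntegral.of_pow hp.pos
    rw [hroot]
    exact (NumberField.RingOfIntegers.isIntegral_coe E).map (IsScalarTower.toAlgHom ℤ K K')
  let θ : 𝓞 K' := ⟨AdjoinRoot.root (X ^ p - C (E : K) : K[X]), hint⟩
  have hθ : θ ^ p = algebraMap (𝓞 K) (𝓞 K') E := by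
    apply NumberField.RingOfIntegers.ext
    change (AdjoinRoot.root (X ^ p - C (E : K) : K[X])) ^ p = _
    rw [hroot]
    rfl
  have hlam0 : lam ≠ ⊥ := by
    rintro rfl
    rw [Ideal.absNorm_bot] at hl
    exact Nat.not_prime_zero hl
  have hpl : (p : 𝓞 K) ∉ lam := an3_natCast_not_mem lam hl hne hp
  obtain ⟨P, hPinj, hP⟩ := an3_primes_over hp hdeg hζ.toInteger hζ.toInteger_isPrimitiveRoot
    E θ hθ hirr lam hlam0 hpl hElam x hx
  exact ⟨P, hPinj, fun i => ⟨(hP i).1, (hP i).2.2, (hP i).2.1⟩⟩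

end Fermat.Agent.S14
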