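import Mathlib
import Fermat.Agent.S14.DensityPigeon
import Fermat.Agent.S14.KummerSplit

/-!
# S14, (AN-D): glue for the hypotheses of the density pigeonhole

* `anD_kummerSplitStatement`: (H4) from `an3_kummerSplit`.
-/

set_option autoImplicit false

open scoped NumberField nonZeroDivisors
open IsDedekindDomain

namespace Fermat.Agent.S14

/-- (H4) Kummer splitting, in the shape used by `analytic_of_hyps`. -/
theorem anD_kummerSplitStatement : AnDKummerSplitStatement := by
  intro p hp K _ _ ζ hζ E hE
  obtain ⟨K', i1, i2, i3, -, h⟩ := an3_kummerSplit hp K ζ hζ E hE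
  exact ⟨K', i1, i2, i3, fun lam hlam hprime hne hEl hx => h lam hlam hprime hne hx hEl⟩

/-- (AN-D) the analytic statement from (H1)-(H3). -/
theorem analytic_of_hyps' (h1 : AnDPrimeSumStatement) (h2 : AnDHigherDegreeStatement)
    (h3 : AnDCharSumStatement) : AnalyticStatement :=
  analytic_of_hyps h1 h2 h3 anD_kummerSplitStatement

end Fermat.Agent.S14
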