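import Mathlib

/-!
# S14 / AN-A0 + A3: the ideal sum `∑ N(I)^(-s)`, the bridge to `dedekindZeta`, and
`log ζ_K(s) = log (1/(s-1)) + O(1)` on `(1, 2]`

Unconditional (uses Mathlib's ideal counting asymptotics and the class number formula).
-/

namespace Fermat.Agent.S14

open Filter Topology NumberField IsDedekindDomain Ideal nonZeroDivisors

variable (K : Type*) [Field K] [NumberField K]

/-- Ideal counting asymptotics (extracted from Mathlib's proof of the class number formula). -/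
theorem anLog_tendsto_count :
    Tendsto (fun n : ℕ ↦ (∑ k ∈ Finset.Icc 1 n,
      (Nat.card {I : Ideal (𝓞 K) // absNorm I = k} : ℝ)) / (n : ℝ)) atTop
      (𝓝 (dedekindZeta_residue K)) := by
  refine ((Ideal.tendsto_norm_le_div_atTop₀ K).comp tendsto_natCast_atTop_atTop).congr fun n ↦ ?_
  simp only [Function.comp_apply, Nat.cast_le, ← Nat.cast_sum]
  congr
  rw [← add_left_inj 1, ← card_norm_le_eq_card_norm_le_add_one,
    show Finset.Icc 1 n = Finset.Ioc 0 n from Finset.Icc_succ_left_eq_Ioc _ _,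
    show 1 = Nat.card {I : Ideal (𝓞 K) // absNorm I = 0} by simp [Ideal.absNorm_eq_zero_iff],
    Finset.sum_Ioc_add_eq_sum_Icc (n.zero_le),
    ← Finset.card_preimage_eq_sum_card_image_eq (fun k _ ↦ finite_setOfPred_absNorm_eq k)]
  simp [Set.coe_eq_subtype]

theorem anLog_lseriesSummable {s : ℝ} (hs : 1 < s) :
    LSeriesSummable (fun n ↦ ((Nat.card {I : Ideal (𝓞 K) // absNorm I = n} : ℝ) : ℂ))
      (s : ℂ) := by
  refine LSeriesSummable_of_sum_norm_bigO_and_nonneg ?_ (fun _ ↦ Nat.cast_nonneg _)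
    zero_le_one (by simpa using hs)
  exact Asymptotics.isBigO_atTop_natCast_rpow_of_tendsto_div_rpow (a := dedekindZeta_residue K)
    (by simpa using anLog_tendsto_count K)

/-- The real Dirichlet coefficients-times-power sequence `a_n n^(-s)`. -/
noncomputable def anLog_dterm (s : ℝ) (n : ℕ) : ℝ :=
  (Nat.card {I : Ideal (𝓞 K) // absNorm I = n} : ℝ) * (n : ℝ) ^ (-s)

theorem anLog_dterm_nonneg (s : ℝ) (n : ℕ) : 0 ≤ anLog_dterm K s n :=
  mul_nonneg (Nat.cast_nonneg _) (Real.rpow_nonneg (Nat.cast_nonneg _) _)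

theorem anLog_dterm_eq_term {s : ℝ} (hs : s ≠ 0) (n : ℕ) :
    ((anLog_dterm K s n : ℝ) : ℂ) =
      LSeries.term (fun n ↦ ((Nat.card {I : Ideal (𝓞 K) // absNorm I = n} : ℝ) : ℂ)) (s : ℂ) n := by
  rw [LSeries.term_of_ne_zero' (by exact_mod_cast hs), anLog_dterm, Complex.ofReal_mul,
    Real.rpow_neg (Nat.cast_nonneg _), Complex.ofReal_inv,
    Complex.ofReal_cpow (Nat.cast_nonneg _), div_eq_mul_inv]
  push_cast
  rfl

theorem anLog_summable_dterm {s : ℝ} (hs : 1 < s) : Summable (anLog_dterm K s) := by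
  have h := anLog_lseriesSummable K hs
  rw [LSeriesSummable] at h
  rw [← Complex.summable_ofReal]
  refine h.congr (fun n => ?_)
  exact (anLog_dterm_eq_term K (by linarith) n).symm

theorem anLog_tsum_dterm {s : ℝ} (hs : 1 < s) :
    ((∑' n, anLog_dterm K s n : ℝ) : ℂ) = dedekindZeta K (s : ℂ) := by
  rw [Complex.ofReal_tsum, dedekindZeta, LSeries]
  refine tsum_congr (fun n => ?_)
  rw [anLog_dterm_eq_term K (by linarith) n]
  refine LSeries.term_congr (fun _ => ?_) _ _
  simp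

/-! ### Fiberwise summation over all ideals -/

/-- `I ↦ N(I)^(-s)` on all ideals (the zero ideal contributes `0`). -/
noncomputable def anLog_allTerm (s : ℝ) (I : Ideal (𝓞 K)) : ℝ := (absNorm I : ℝ) ^ (-s)

theorem anLog_allTerm_nonneg (s : ℝ) (I : Ideal (𝓞 K)) : 0 ≤ anLog_allTerm K s I :=
  Real.rpow_nonneg (Nat.cast_nonneg _) _

theorem anLog_finite_fiber (n : ℕ) : Finite {I : Ideal (𝓞 K) // absNorm I = n} :=
  (finite_setOfPred_absNorm_eq (S := 𝓞 K) n).to_subtype

theorem anLog_tsum_fiber (s : ℝ) (n : ℕ) :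
    ∑' I : {I : Ideal (𝓞 K) // absNorm I = n}, anLog_allTerm K s I.1 = anLog_dterm K s n := by
  have := anLog_finite_fiber K n
  have := Fintype.ofFinite {I : Ideal (𝓞 K) // absNorm I = n}
  rw [tsum_fintype, anLog_dterm]
  have : ∀ I : {I : Ideal (𝓞 K) // absNorm I = n}, anLog_allTerm K s I.1 = (n : ℝ) ^ (-s) := by
    intro I
    rw [anLog_allTerm, I.2]
  rw [Finset.sum_congr rfl (fun I _ => this I), Finset.sum_const, nsmul_eq_mul,
    Finset.card_univ, Nat.card_eq_fintype_card]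

theorem anLog_summable_sigma {s : ℝ} (hs : 1 < s) :
    Summable (fun p : (Σ n : ℕ, {I : Ideal (𝓞 K) // absNorm I = n}) =>
      anLog_allTerm K s p.2.1) := by
  have h := summable_sigma_of_nonneg (β := fun n : ℕ => {I : Ideal (𝓞 K) // absNorm I = n})
    (f := fun p => anLog_allTerm K s p.2.1) (fun p => anLog_allTerm_nonneg K s p.2.1)
  rw [h]
  refine ⟨fun n => ?_, ?_⟩
  · have := anLog_finite_fiber K n
    exact Summable.of_finite
  refine (summable_congr (fun n => ?_)).mpr (anLog_summable_dterm K hs)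
  exact anLog_tsum_fiber K s n

theorem anLog_summable_all {s : ℝ} (hs : 1 < s) : Summable (anLog_allTerm K s) := by
  have h := anLog_summable_sigma K hs
  have := (Equiv.sigmaFiberEquiv (fun I : Ideal (𝓞 K) => absNorm I)).summable_iff
    (f := anLog_allTerm K s)
  exact this.mp h

theorem anLog_tsum_all {s : ℝ} (hs : 1 < s) :
    ∑' I : Ideal (𝓞 K), anLog_allTerm K s I = ∑' n, anLog_dterm K s n := by
  rw [← (Equiv.sigmaFiberEquiv (fun I : Ideal (𝓞 K) => absNorm I)).tsum_eq (anLog_allTerm K s)]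
  have h := Summable.tsum_sigma' (γ := fun n : ℕ => {I : Ideal (𝓞 K) // absNorm I = n})
    (f := fun p => anLog_allTerm K s p.2.1)
    (fun n => by
      have := anLog_finite_fiber K n
      exact Summable.of_finite)
    (anLog_summable_sigma K hs)
  refine h.trans (tsum_congr (fun n => ?_))
  exact anLog_tsum_fiber K s n

/-- (A0) summability of `∑ N(I)^(-s)` over the nonzero ideals, `s > 1`. -/
theorem anLog_summable_ideal {s : ℝ} (hs : 1 < s) :
    Summable fun I : (Ideal (𝓞 K))⁰ => (absNorm (I : Ideal (𝓞 K)) : ℝ) ^ (-s) :=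
  (anLog_summable_all K hs).subtype _

theorem anLog_tsum_ideal_eq_all {s : ℝ} (hs : 1 < s) :
    ∑' I : (Ideal (𝓞 K))⁰, (absNorm (I : Ideal (𝓞 K)) : ℝ) ^ (-s) =
      ∑' I : Ideal (𝓞 K), anLog_allTerm K s I := by
  have hsupp : Function.support (anLog_allTerm K s) ⊆
      ((Ideal (𝓞 K))⁰ : Set (Ideal (𝓞 K))) := by
    intro I hI
    rw [Function.mem_support] at hI
    refine mem_nonZeroDivisors_of_ne_zero ?_
    rintro rfl
    apply hI
    rw [anLog_allTerm, Ideal.zero_eq_bot, Ideal.absNorm_bot, Nat.cast_zero,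
      Real.zero_rpow (by linarith)]
  exact tsum_subtype_eq_of_support_subset hsupp

/-- The bridge: `∑ N(I)^(-s)` over the nonzero ideals is `dedekindZeta K s`. -/
theorem anLog_zeta_eq {s : ℝ} (hs : 1 < s) :
    ((∑' I : (Ideal (𝓞 K))⁰, (absNorm (I : Ideal (𝓞 K)) : ℝ) ^ (-s) : ℝ) : ℂ) =
      dedekindZeta K (s : ℂ) := by
  rw [anLog_tsum_ideal_eq_all K hs, anLog_tsum_all K hs, anLog_tsum_dterm K hs]

end Fermat.Agent.S14
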