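import Mathlib
import Fermat.Agent.S14.EulerLogZeta

/-!
# S14 / AN-A3: `log ζ_K(s) = log (1/(s-1)) + O(1)` on `(1, 2]`

Unconditional: from Mathlib's class number formula
`NumberField.tendsto_sub_one_mul_dedekindZeta_nhdsGT` and monotonicity of `ζ_K` on `(1, ∞)`.
-/

namespace Fermat.Agent.S14

open Filter Topology NumberField IsDedekindDomain Ideal nonZeroDivisors

variable (K : Type*) [Field K] [NumberField K]

/-- `ζ_K(s) = ∑ N(I)^(-s)` over the nonzero ideals, as a real function of the real variable. -/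
noncomputable def anLog_zeta (s : ℝ) : ℝ :=
  ∑' I : (Ideal (𝓞 K))⁰, (absNorm (I : Ideal (𝓞 K)) : ℝ) ^ (-s)

theorem anLog_zeta_def (s : ℝ) :
    anLog_zeta K s = ∑' I : (Ideal (𝓞 K))⁰, (absNorm (I : Ideal (𝓞 K)) : ℝ) ^ (-s) := rfl

theorem anLog_one_le_zeta_real {s : ℝ} (hs : 1 < s) : 1 ≤ anLog_zeta K s := by
  have h := (anLog_summable_ideal K hs).le_tsum (1 : (Ideal (𝓞 K))⁰)
    (fun J _ => Real.rpow_nonneg (Nat.cast_nonneg _) _)
  simpa [anLog_zeta] using h

theorem anLog_zeta_pos_real {s : ℝ} (hs : 1 < s) : 0 < anLog_zeta K s :=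
  lt_of_lt_of_le one_pos (anLog_one_le_zeta_real K hs)

theorem anLog_zeta_anti {s t : ℝ} (ht : 1 < t) (hts : t ≤ s) :
    anLog_zeta K s ≤ anLog_zeta K t := by
  refine (anLog_summable_ideal K (lt_of_lt_of_le ht hts)).tsum_le_tsum (fun I => ?_)
    (anLog_summable_ideal K ht)
  have h1 : (1 : ℝ) ≤ (absNorm (I : Ideal (𝓞 K)) : ℝ) := by
    exact_mod_cast absNorm_pos_of_nonZeroDivisors I
  exact Real.rpow_le_rpow_of_exponent_le h1 (by linarith)

theorem anLog_tendsto_residue :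
    Tendsto (fun s : ℝ => (s - 1) * anLog_zeta K s) (𝓝[>] 1)
      (𝓝 (dedekindZeta_residue K)) := by
  have h := (Complex.continuous_re.tendsto _).comp (tendsto_sub_one_mul_dedekindZeta_nhdsGT K)
  rw [Complex.ofReal_re] at h
  refine h.congr' ?_
  filter_upwards [eventually_mem_nhdsWithin] with s hs
  have hs1 : 1 < s := hs
  rw [Function.comp_apply, ← anLog_zeta_eq K hs1, ← anLog_zeta_def]
  rw [← Complex.ofReal_one, ← Complex.ofReal_sub, ← Complex.ofReal_mul, Complex.ofReal_re]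

theorem anLog_tendsto_log :
    Tendsto (fun s : ℝ => Real.log ((s - 1) * anLog_zeta K s)) (𝓝[>] 1)
      (𝓝 (Real.log (dedekindZeta_residue K))) :=
  ((Real.continuousAt_log (dedekindZeta_residue_ne_zero K)).tendsto).comp
    (anLog_tendsto_residue K)

theorem anLog_log_mul {s : ℝ} (hs : 1 < s) :
    Real.log ((s - 1) * anLog_zeta K s) =
      Real.log (anLog_zeta K s) - Real.log (1 / (s - 1)) := by
  rw [Real.log_mul (by linarith) (anLog_zeta_pos_real K hs).ne', one_div, Real.log_inv]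
  ring

/-- Near `1`: `|log ζ_K(s) - log (1/(s-1))| ≤ |log ρ| + 1` on some interval `(1, u)`. -/
theorem anLog_bound_near_one :
    ∃ u : ℝ, 1 < u ∧ ∀ s : ℝ, 1 < s → s < u →
      |Real.log (anLog_zeta K s) - Real.log (1 / (s - 1))| ≤
        |Real.log (dedekindZeta_residue K)| + 1 := by
  have h := (anLog_tendsto_log K).eventually (Metric.ball_mem_nhds _ one_pos)
  obtain ⟨u, hu, hsub⟩ := mem_nhdsGT_iff_exists_Ioo_subset.mp h
  refine ⟨u, hu, fun s hs1 hsu => ?_⟩
  have hmem : dist (Real.log ((s - 1) * anLog_zeta K s))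
      (Real.log (dedekindZeta_residue K)) < 1 := hsub ⟨hs1, hsu⟩
  rw [Real.dist_eq, anLog_log_mul K hs1] at hmem
  have h1 := abs_sub_abs_le_abs_sub
    (Real.log (anLog_zeta K s) - Real.log (1 / (s - 1))) (Real.log (dedekindZeta_residue K))
  linarith

/-- Away from `1`: on `[u, 2]` with `1 < u ≤ 2` both logs are nonnegative and bounded. -/
theorem anLog_bound_away {u : ℝ} (hu : 1 < u) {s : ℝ} (hus : u ≤ s) (hs2 : s ≤ 2) :
    |Real.log (anLog_zeta K s) - Real.log (1 / (s - 1))| ≤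
      Real.log (anLog_zeta K u) + Real.log (1 / (u - 1)) := by
  have hs1 : 1 < s := lt_of_lt_of_le hu hus
  have hZ1 : 0 ≤ Real.log (anLog_zeta K s) := Real.log_nonneg (anLog_one_le_zeta_real K hs1)
  have hZ2 : Real.log (anLog_zeta K s) ≤ Real.log (anLog_zeta K u) :=
    Real.log_le_log (anLog_zeta_pos_real K hs1) (anLog_zeta_anti K hu hus)
  have hpos : (0 : ℝ) < s - 1 := by linarith
  have hupos : (0 : ℝ) < u - 1 := by linarith
  have hL1 : 0 ≤ Real.log (1 / (s - 1)) := by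
    apply Real.log_nonneg
    rw [le_div_iff₀ hpos]
    linarith
  have hL2 : Real.log (1 / (s - 1)) ≤ Real.log (1 / (u - 1)) := by
    apply Real.log_le_log (by positivity)
    exact one_div_le_one_div_of_le hupos (by linarith)
  rw [abs_le]
  constructor <;> linarith

/-- (A3) `log ζ_K(s) = log (1/(s-1)) + O(1)` on `(1, 2]`. -/
theorem anLog_log_zeta_bounds :
    ∃ c : ℝ, ∀ s : ℝ, 1 < s → s ≤ 2 →
      |Real.log (∑' I : (Ideal (𝓞 K))⁰, (absNorm (I : Ideal (𝓞 K)) : ℝ) ^ (-s)) -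
        Real.log (1 / (s - 1))| ≤ c := by
  obtain ⟨u, hu, hnear⟩ := anLog_bound_near_one K
  set u' := min u 2 with hu'
  have hu'1 : 1 < u' := lt_min hu (by norm_num)
  refine ⟨max (|Real.log (dedekindZeta_residue K)| + 1)
    (Real.log (anLog_zeta K u') + Real.log (1 / (u' - 1))), fun s hs1 hs2 => ?_⟩
  rw [← anLog_zeta_def]
  rcases lt_or_ge s u' with h | h
  · exact (hnear s hs1 (lt_of_lt_of_le h (min_le_left _ _))).trans (le_max_left _ _)
  · exact (anLog_bound_away K hu'1 h hs2).trans (le_max_right _ _)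

end Fermat.Agent.S14
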