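import Mathlib

/-!
# S14 / AN-A2d: primes of residue degree `≥ 2` contribute a bounded amount

For a number field `K` the sum of `N(P)^(-s)` over the prime ideals `P` whose absolute norm is
not a prime number is bounded by `[K : ℚ] * ∑ m^(-2)`, uniformly for `s ≥ 1`.
Unconditional (no Euler product needed).
-/

namespace Fermat.Agent.S14

open Filter Topology NumberField IsDedekindDomain Ideal nonZeroDivisors

variable {K : Type*} [Field K] [NumberField K]

/-- The rational prime below a prime ideal `P` of `𝓞 K`. -/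
noncomputable def anLog_primeBelow (P : HeightOneSpectrum (𝓞 K)) : ℕ :=
  ringChar (𝓞 K ⧸ P.asIdeal)

omit [NumberField K] in
theorem anLog_natCast_mem_iff (P : HeightOneSpectrum (𝓞 K)) (m : ℕ) :
    (m : 𝓞 K) ∈ P.asIdeal ↔ anLog_primeBelow P ∣ m := by
  rw [← Ideal.Quotient.eq_zero_iff_mem, map_natCast, ringChar.spec, anLog_primeBelow]

theorem anLog_primeBelow_prime (P : HeightOneSpectrum (𝓞 K)) : (anLog_primeBelow P).Prime := by
  have : P.asIdeal.IsPrime := P.isPrime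
  have : IsDomain (𝓞 K ⧸ P.asIdeal) := Ideal.Quotient.isDomain _
  rcases CharP.char_is_prime_or_zero (𝓞 K ⧸ P.asIdeal) (ringChar (𝓞 K ⧸ P.asIdeal)) with h | h
  · exact h
  · exfalso
    have h1 := (anLog_natCast_mem_iff P (absNorm P.asIdeal)).mp (Ideal.absNorm_mem _)
    rw [anLog_primeBelow, h, zero_dvd_iff, Ideal.absNorm_eq_zero_iff] at h1
    exact P.ne_bot h1

omit [NumberField K] in
theorem anLog_primeBelow_mem (P : HeightOneSpectrum (𝓞 K)) :
    ((anLog_primeBelow P : ℕ) : 𝓞 K) ∈ P.asIdeal :=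
  (anLog_natCast_mem_iff P _).mpr dvd_rfl

theorem anLog_absNorm_dvd_pow (P : HeightOneSpectrum (𝓞 K)) :
    absNorm P.asIdeal ∣ anLog_primeBelow P ^ Module.finrank ℤ (𝓞 K) := by
  rw [← Ideal.absNorm_span_natCast (S := 𝓞 K)]
  apply Ideal.absNorm_dvd_absNorm_of_le
  rw [Ideal.span_singleton_le_iff_mem]
  exact anLog_primeBelow_mem P

theorem anLog_absNorm_eq_pow (P : HeightOneSpectrum (𝓞 K)) :
    ∃ k : ℕ, 1 ≤ k ∧ absNorm P.asIdeal = anLog_primeBelow P ^ k := by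
  obtain ⟨k, -, hk⟩ := (Nat.dvd_prime_pow (anLog_primeBelow_prime P)).mp (anLog_absNorm_dvd_pow P)
  refine ⟨k, ?_, hk⟩
  rcases Nat.eq_zero_or_pos k with h0 | h0
  · exfalso
    rw [h0, pow_zero, Ideal.absNorm_eq_one_iff] at hk
    exact P.isPrime.ne_top hk
  · exact h0

theorem anLog_primeBelow_le_absNorm (P : HeightOneSpectrum (𝓞 K)) :
    anLog_primeBelow P ≤ absNorm P.asIdeal := by
  obtain ⟨k, hk1, hk⟩ := anLog_absNorm_eq_pow P
  rw [hk]
  calc anLog_primeBelow P = anLog_primeBelow P ^ 1 := (pow_one _).symm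
    _ ≤ anLog_primeBelow P ^ k := Nat.pow_le_pow_right (anLog_primeBelow_prime P).pos hk1

theorem anLog_sq_le_absNorm_of_not_prime (P : HeightOneSpectrum (𝓞 K))
    (h : ¬ (absNorm P.asIdeal).Prime) : anLog_primeBelow P ^ 2 ≤ absNorm P.asIdeal := by
  obtain ⟨k, hk1, hk⟩ := anLog_absNorm_eq_pow P
  have hk2 : 2 ≤ k := by
    rcases Nat.lt_or_ge k 2 with h2 | h2
    · exfalso
      have : k = 1 := by omega
      rw [this, pow_one] at hk
      exact h (hk ▸ anLog_primeBelow_prime P)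
    · exact h2
  rw [hk]
  exact Nat.pow_le_pow_right (anLog_primeBelow_prime P).pos hk2

/-- At most `[K : ℚ]` primes of `𝓞 K` lie above a given rational prime. -/
theorem anLog_card_fiber_le (T : Finset (HeightOneSpectrum (𝓞 K))) (q : ℕ)
    (hT : ∀ P ∈ T, anLog_primeBelow P = q) : T.card ≤ Module.finrank ℤ (𝓞 K) := by
  rcases T.eq_empty_or_nonempty with h0 | ⟨P₀, hP₀⟩
  · simp [h0]
  have hq : q.Prime := hT P₀ hP₀ ▸ anLog_primeBelow_prime P₀
  have hinj : Function.Injective (fun P : HeightOneSpectrum (𝓞 K) => P.asIdeal) :=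
    fun P Q h => HeightOneSpectrum.ext h
  have hdvd : ∏ P ∈ T, P.asIdeal ∣ Ideal.span {((q : ℕ) : 𝓞 K)} := by
    have := Finset.prod_primes_dvd (s := T.map ⟨_, hinj⟩) (Ideal.span {((q : ℕ) : 𝓞 K)})
      (by
        intro a ha
        obtain ⟨P, -, rfl⟩ := Finset.mem_map.mp ha
        exact P.prime)
      (by
        intro a ha
        obtain ⟨P, hP, rfl⟩ := Finset.mem_map.mp ha
        rw [Function.Embedding.coeFn_mk, Ideal.dvd_iff_le, Ideal.span_singleton_le_iff_mem,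
          ← hT P hP]
        exact anLog_primeBelow_mem P)
    rwa [Finset.prod_map] at this
  have hnorm : ∏ P ∈ T, absNorm P.asIdeal ∣ q ^ Module.finrank ℤ (𝓞 K) := by
    rw [← Ideal.absNorm_span_natCast (S := 𝓞 K), ← map_prod]
    exact map_dvd _ hdvd
  have hle : q ^ T.card ≤ ∏ P ∈ T, absNorm P.asIdeal := by
    rw [← Finset.prod_const]
    exact Finset.prod_le_prod (fun _ _ => Nat.zero_le _)
      (fun P hP => hT P hP ▸ anLog_primeBelow_le_absNorm P)
  have hle2 : q ^ T.card ≤ q ^ Module.finrank ℤ (𝓞 K) :=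
    hle.trans (Nat.le_of_dvd (pow_pos hq.pos _) hnorm)
  exact (Nat.pow_le_pow_iff_right hq.one_lt).mp hle2

/-- The constant in (A2d). -/
noncomputable def anLog_cDeg (K : Type*) [Field K] [NumberField K] : ℝ :=
  (Module.finrank ℤ (𝓞 K) : ℝ) * ∑' m : ℕ, ((m : ℝ) ^ 2)⁻¹

theorem anLog_cDeg_nonneg : 0 ≤ anLog_cDeg K :=
  mul_nonneg (Nat.cast_nonneg _) (tsum_nonneg fun _ => inv_nonneg.mpr (sq_nonneg _))

theorem anLog_term_le_inv_sq (P : HeightOneSpectrum (𝓞 K)) (h : ¬ (absNorm P.asIdeal).Prime)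
    {s : ℝ} (hs : 1 ≤ s) :
    (absNorm P.asIdeal : ℝ) ^ (-s) ≤ (((anLog_primeBelow P : ℕ) : ℝ) ^ 2)⁻¹ := by
  have hq := (anLog_primeBelow_prime P).pos
  have h2 : ((anLog_primeBelow P : ℕ) : ℝ) ^ 2 ≤ (absNorm P.asIdeal : ℝ) := by
    exact_mod_cast anLog_sq_le_absNorm_of_not_prime P h
  have hqpos : (0 : ℝ) < ((anLog_primeBelow P : ℕ) : ℝ) ^ 2 := by positivity
  have hNpos : (0 : ℝ) < (absNorm P.asIdeal : ℝ) := lt_of_lt_of_le hqpos h2
  have h1N : (1 : ℝ) ≤ (absNorm P.asIdeal : ℝ) := by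
    have : 1 ≤ absNorm P.asIdeal := by
      have := Nat.cast_pos (α := ℝ).mp hNpos
      omega
    exact_mod_cast this
  calc (absNorm P.asIdeal : ℝ) ^ (-s) ≤ (absNorm P.asIdeal : ℝ) ^ (-1 : ℝ) :=
        Real.rpow_le_rpow_of_exponent_le h1N (by linarith)
    _ = (absNorm P.asIdeal : ℝ)⁻¹ := Real.rpow_neg_one _
    _ ≤ (((anLog_primeBelow P : ℕ) : ℝ) ^ 2)⁻¹ := inv_anti₀ hqpos h2

theorem anLog_card_filter_le
    (T : Finset {P : HeightOneSpectrum (𝓞 K) // ¬ (absNorm P.asIdeal).Prime}) (q : ℕ)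
    [DecidablePred fun P : {P : HeightOneSpectrum (𝓞 K) // ¬ (absNorm P.asIdeal).Prime} =>
      anLog_primeBelow P.1 = q] :
    ((T.filter (fun P => anLog_primeBelow P.1 = q)).card : ℝ) ≤
      (Module.finrank ℤ (𝓞 K) : ℝ) := by
  have hcard := anLog_card_fiber_le
    ((T.filter (fun P => anLog_primeBelow P.1 = q)).map ⟨Subtype.val, Subtype.val_injective⟩)
    q (by
      intro P hP
      obtain ⟨P', hP', rfl⟩ := Finset.mem_map.mp hP
      exact (Finset.mem_filter.mp hP').2)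
  rw [Finset.card_map] at hcard
  exact Nat.cast_le.mpr hcard

theorem anLog_finSum_inv_sq_le
    (T : Finset {P : HeightOneSpectrum (𝓞 K) // ¬ (absNorm P.asIdeal).Prime}) :
    ∑ P ∈ T, (((anLog_primeBelow P.1 : ℕ) : ℝ) ^ 2)⁻¹ ≤ anLog_cDeg K := by
  classical
  have hsum : Summable (fun m : ℕ => ((m : ℝ) ^ 2)⁻¹) :=
    Real.summable_nat_pow_inv.mpr (by norm_num)
  set g : {P : HeightOneSpectrum (𝓞 K) // ¬ (absNorm P.asIdeal).Prime} → ℕ :=
    fun P => anLog_primeBelow P.1 with hg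
  set F : ℕ → ℝ := fun q => ((q : ℝ) ^ 2)⁻¹ with hF
  have hF0 : ∀ q, 0 ≤ F q := fun q => inv_nonneg.mpr (sq_nonneg _)
  have h1 : ∑ P ∈ T, F (g P) = ∑ q ∈ T.image g, ∑ P ∈ T with g P = q, F q :=
    (Finset.sum_fiberwise_of_maps_to' (g := g)
      (fun P hP => Finset.mem_image_of_mem _ hP) F).symm
  have h2 : ∀ q ∈ T.image g, ∑ P ∈ T with g P = q, F q ≤
      (Module.finrank ℤ (𝓞 K) : ℝ) * F q := by
    intro q _
    rw [Finset.sum_const, nsmul_eq_mul]
    exact mul_le_mul_of_nonneg_right (anLog_card_filter_le T q) (hF0 q)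
  have h3 : ∑ q ∈ T.image g, F q ≤ ∑' m : ℕ, F m :=
    hsum.sum_le_tsum _ (fun q _ => hF0 q)
  calc ∑ P ∈ T, F (g P) = ∑ q ∈ T.image g, ∑ P ∈ T with g P = q, F q := h1
    _ ≤ ∑ q ∈ T.image g, (Module.finrank ℤ (𝓞 K) : ℝ) * F q := Finset.sum_le_sum h2
    _ = (Module.finrank ℤ (𝓞 K) : ℝ) * ∑ q ∈ T.image g, F q := by rw [Finset.mul_sum]
    _ ≤ (Module.finrank ℤ (𝓞 K) : ℝ) * ∑' m : ℕ, F m :=
        mul_le_mul_of_nonneg_left h3 (Nat.cast_nonneg _)

theorem anLog_finSum_not_prime_le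
    (T : Finset {P : HeightOneSpectrum (𝓞 K) // ¬ (absNorm P.asIdeal).Prime})
    {s : ℝ} (hs : 1 ≤ s) :
    ∑ P ∈ T, (absNorm P.1.asIdeal : ℝ) ^ (-s) ≤ anLog_cDeg K :=
  (Finset.sum_le_sum (fun P _ => anLog_term_le_inv_sq P.1 P.2 hs)).trans
    (anLog_finSum_inv_sq_le T)

/-- (A2d) summability part. -/
theorem anLog_summable_not_prime {s : ℝ} (hs : 1 ≤ s) :
    Summable fun P : {P : HeightOneSpectrum (𝓞 K) // ¬ (absNorm P.asIdeal).Prime} =>
      (absNorm P.1.asIdeal : ℝ) ^ (-s) :=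
  summable_of_sum_le (fun _ => Real.rpow_nonneg (Nat.cast_nonneg _) _)
    (fun T => anLog_finSum_not_prime_le T hs)

/-- (A2d) the primes whose norm is not a prime number contribute a bounded amount. -/
theorem anLog_primeSum_not_prime_le {s : ℝ} (hs : 1 ≤ s) :
    ∑' P : {P : HeightOneSpectrum (𝓞 K) // ¬ (absNorm P.asIdeal).Prime},
      (absNorm P.1.asIdeal : ℝ) ^ (-s) ≤ anLog_cDeg K :=
  Real.tsum_le_of_sum_le (fun _ => Real.rpow_nonneg (Nat.cast_nonneg _) _)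
    (fun T => anLog_finSum_not_prime_le T hs)

/-- (A2d), existential form. -/
theorem anLog_primeSum_not_prime_norm_le (K : Type*) [Field K] [NumberField K] :
    ∃ c : ℝ, ∀ s : ℝ, 1 ≤ s →
      Summable (fun P : {P : HeightOneSpectrum (𝓞 K) // ¬ (absNorm P.asIdeal).Prime} =>
        (absNorm P.1.asIdeal : ℝ) ^ (-s)) ∧
      ∑' P : {P : HeightOneSpectrum (𝓞 K) // ¬ (absNorm P.asIdeal).Prime},
        (absNorm P.1.asIdeal : ℝ) ^ (-s) ≤ c :=
  ⟨anLog_cDeg K, fun _ hs => ⟨anLog_summable_not_prime hs, anLog_primeSum_not_prime_le hs⟩⟩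

end Fermat.Agent.S14
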