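import Mathlib

/-!
# S14, block (AN-A): Euler products over prime ideals and logarithmic bounds

For a number field `K` we prove the Euler product for completely multiplicative functions on
nonzero ideals dominated by `N(I)^(-s)`, `s > 1`, and deduce elementary bounds relating sums over
prime ideals to logarithms of the zeta function and of class group `L`-functions.  No complex
logarithm is used.
-/

set_option autoImplicit false

open scoped NumberField nonZeroDivisors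
open IsDedekindDomain Filter Topology

noncomputable section

namespace Fermat.Agent.S14

variable {K : Type} [Field K] [NumberField K]

set_option linter.unusedSectionVars false

/-! ### Summability of `N(I)^(-s)` -/

section summability

variable (K)

/-- The number of ideals of norm `n`. -/
theorem anA_tendsto_count :
    Tendsto (fun n : ℕ ↦ (∑ k ∈ Finset.Icc 1 n,
      (Nat.card {I : Ideal (𝓞 K) // Ideal.absNorm I = k} : ℝ)) / (n : ℝ)) atTop
      (𝓝 (NumberField.dedekindZeta_residue K)) := by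
  refine ((NumberField.Ideal.tendsto_norm_le_div_atTop₀ K).comp
    tendsto_natCast_atTop_atTop).congr fun n ↦ ?_
  simp only [Function.comp_apply, Nat.cast_le, ← Nat.cast_sum]
  congr
  rw [← add_left_inj 1, ← Ideal.card_norm_le_eq_card_norm_le_add_one,
    show Finset.Icc 1 n = Finset.Ioc 0 n from Finset.Icc_succ_left_eq_Ioc _ _,
    show 1 = Nat.card {I : Ideal (𝓞 K) // Ideal.absNorm I = 0} by simp [Ideal.absNorm_eq_zero_iff],
    Finset.sum_Ioc_add_eq_sum_Icc (n.zero_le),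
    ← Finset.card_preimage_eq_sum_card_image_eq (fun k _ ↦ Ideal.finite_setOfPred_absNorm_eq k)]
  simp [Set.coe_eq_subtype]

theorem anA_lseriesSummable {s : ℝ} (hs : 1 < s) :
    LSeriesSummable (fun n ↦ ((Nat.card {I : Ideal (𝓞 K) // Ideal.absNorm I = n} : ℝ) : ℂ)) s := by
  refine LSeriesSummable_of_sum_norm_bigO_and_nonneg ?_ (fun _ ↦ Nat.cast_nonneg _) zero_le_one
    (by simpa using hs)
  exact Asymptotics.isBigO_atTop_natCast_rpow_of_tendsto_div_rpow
    (by simpa using anA_tendsto_count K)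

/-- The real Dirichlet series of the ideal counting function is summable for `s > 1`. -/
theorem anA_summable_count {s : ℝ} (hs : 1 < s) :
    Summable fun n : ℕ ↦ (Nat.card {I : Ideal (𝓞 K) // Ideal.absNorm I = n} : ℝ) * (n : ℝ) ^ (-s) := by
  have h := (anA_lseriesSummable K hs).norm
  refine h.congr fun n => ?_
  rw [LSeries.norm_term_eq]
  by_cases hn : n = 0
  · subst hn
    have hs0 : -s ≠ 0 := by linarith
    simp [Real.zero_rpow hs0]
  · rw [if_neg hn, Complex.norm_real, Real.norm_of_nonneg (Nat.cast_nonneg _),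
      Complex.ofReal_re, Real.rpow_neg (Nat.cast_nonneg _), div_eq_mul_inv]

/-- The fibres of the norm on nonzero ideals are finite. -/
theorem anA_finite_fibre (n : ℕ) :
    Finite {I : (Ideal (𝓞 K))⁰ // Ideal.absNorm (I : Ideal (𝓞 K)) = n} := by
  have h : {I : (Ideal (𝓞 K))⁰ | Ideal.absNorm (I : Ideal (𝓞 K)) ≤ n}.Finite :=
    Ideal.finite_setOfPred_absNorm_le₀ n
  exact (h.subset fun I (hI : Ideal.absNorm (I : Ideal (𝓞 K)) = n) => le_of_eq hI).to_subtype

theorem anA_card_fibre_le (n : ℕ) :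
    Nat.card {I : (Ideal (𝓞 K))⁰ // Ideal.absNorm (I : Ideal (𝓞 K)) = n} ≤
      Nat.card {I : Ideal (𝓞 K) // Ideal.absNorm I = n} := by
  have : Finite {I : Ideal (𝓞 K) // Ideal.absNorm I = n} :=
    (Ideal.finite_setOfPred_absNorm_eq n).to_subtype
  refine Nat.card_le_card_of_injective
    (fun I => (⟨(I.1 : Ideal (𝓞 K)), I.2⟩ : {I : Ideal (𝓞 K) // Ideal.absNorm I = n})) ?_
  intro I J h
  have h' : ((I : (Ideal (𝓞 K))⁰) : Ideal (𝓞 K)) = ((J : (Ideal (𝓞 K))⁰) : Ideal (𝓞 K)) :=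
    congrArg (fun x : {I : Ideal (𝓞 K) // Ideal.absNorm I = n} => (x : Ideal (𝓞 K))) h
  exact Subtype.ext (Subtype.ext h')

/-- **Summability** of `N(I)^(-s)` over the nonzero ideals, `s > 1`. -/
theorem anA_summable_ideal {s : ℝ} (hs : 1 < s) :
    Summable fun I : (Ideal (𝓞 K))⁰ => (Ideal.absNorm (I : Ideal (𝓞 K)) : ℝ) ^ (-s) := by
  rw [← (Equiv.sigmaFiberEquiv
    (fun I : (Ideal (𝓞 K))⁰ => Ideal.absNorm (I : Ideal (𝓞 K)))).summable_iff]
  rw [summable_sigma_of_nonneg (fun x => by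
    simp only [Function.comp_apply]
    positivity)]
  have hfib : ∀ n : ℕ, (fun y : {I : (Ideal (𝓞 K))⁰ // Ideal.absNorm (I : Ideal (𝓞 K)) = n} =>
      ((fun I : (Ideal (𝓞 K))⁰ => (Ideal.absNorm (I : Ideal (𝓞 K)) : ℝ) ^ (-s)) ∘
        (Equiv.sigmaFiberEquiv (fun I : (Ideal (𝓞 K))⁰ => Ideal.absNorm (I : Ideal (𝓞 K)))))
        ⟨n, y⟩) = fun _ => (n : ℝ) ^ (-s) := by
    intro n
    funext y
    simp only [Function.comp_apply, Equiv.sigmaFiberEquiv_apply]
    rw [y.2]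
  refine ⟨fun n => ?_, ?_⟩
  · have := anA_finite_fibre K n
    exact Summable.of_finite
  · refine (anA_summable_count K hs).of_nonneg_of_le (fun n => tsum_nonneg fun y => ?_)
      (fun n => ?_)
    · simp only [Function.comp_apply]
      positivity
    · rw [hfib n, tsum_const, nsmul_eq_mul]
      exact mul_le_mul_of_nonneg_right (by exact_mod_cast anA_card_fibre_le K n) (by positivity)


end summability

/-! ### Primes as nonzero ideals, the sieve sets -/

/-- A height one prime as a nonzero ideal. -/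
def anA_prime (P : HeightOneSpectrum (𝓞 K)) : (Ideal (𝓞 K))⁰ :=
  ⟨P.asIdeal, mem_nonZeroDivisors_iff_ne_zero.mpr P.ne_bot⟩

@[simp] theorem anA_prime_coe (P : HeightOneSpectrum (𝓞 K)) :
    ((anA_prime P : (Ideal (𝓞 K))⁰) : Ideal (𝓞 K)) = P.asIdeal := rfl

theorem anA_prime_injective : Function.Injective (anA_prime (K := K)) := fun _ _ h =>
  HeightOneSpectrum.ext (congrArg Subtype.val h)

/-- The nonzero ideals not divisible by any prime of `T`. -/
def anA_sieve (T : Finset (HeightOneSpectrum (𝓞 K))) : Set (Ideal (𝓞 K))⁰ :=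
  {I | ∀ P ∈ T, ¬ (I : Ideal (𝓞 K)) ≤ P.asIdeal}

theorem anA_sieve_empty : anA_sieve (∅ : Finset (HeightOneSpectrum (𝓞 K))) = Set.univ := by
  ext I
  simp [anA_sieve]

theorem anA_le_prime_iff_eq {P Q : HeightOneSpectrum (𝓞 K)} :
    Q.asIdeal ≤ P.asIdeal ↔ Q = P := by
  constructor
  · intro h
    exact HeightOneSpectrum.ext (Q.isMaximal.eq_of_le P.isPrime.ne_top h)
  · rintro rfl
    exact le_rfl

theorem anA_mul_mem_sieve_iff {T : Finset (HeightOneSpectrum (𝓞 K))}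
    {Q : HeightOneSpectrum (𝓞 K)} (hQ : Q ∉ T) (J : (Ideal (𝓞 K))⁰) :
    anA_prime Q * J ∈ anA_sieve T ↔ J ∈ anA_sieve T := by
  simp only [anA_sieve, Set.mem_ofPred_eq, Submonoid.coe_mul, anA_prime_coe]
  refine forall₂_congr fun P hP => ?_
  rw [P.isPrime.mul_le, not_or]
  constructor
  · exact fun h => h.2
  · intro h
    refine ⟨fun hle => hQ ?_, h⟩
    rw [anA_le_prime_iff_eq.mp hle]
    exact hP

theorem anA_mul_prime_injective (Q : HeightOneSpectrum (𝓞 K)) :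
    Function.Injective fun J : (Ideal (𝓞 K))⁰ => anA_prime Q * J := by
  intro I J h
  have h' : Q.asIdeal * (I : Ideal (𝓞 K)) = Q.asIdeal * (J : Ideal (𝓞 K)) :=
    congrArg Subtype.val h
  exact Subtype.ext (mul_left_cancel₀ Q.ne_bot h')

theorem anA_exists_eq_mul_of_le {Q : HeightOneSpectrum (𝓞 K)} {I : (Ideal (𝓞 K))⁰}
    (h : (I : Ideal (𝓞 K)) ≤ Q.asIdeal) : ∃ J : (Ideal (𝓞 K))⁰, I = anA_prime Q * J := by
  obtain ⟨J, hJ⟩ := Ideal.dvd_iff_le.mpr h
  have hJ0 : J ≠ 0 := by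
    rintro rfl
    rw [mul_zero] at hJ
    exact (mem_nonZeroDivisors_iff_ne_zero.mp I.2) hJ
  exact ⟨⟨J, mem_nonZeroDivisors_iff_ne_zero.mpr hJ0⟩, Subtype.ext hJ⟩

/-! ### The sieve identity -/

theorem anA_sieve_step (f : (Ideal (𝓞 K))⁰ →* ℂ) (hf : Summable fun I => ‖f I‖)
    (T : Finset (HeightOneSpectrum (𝓞 K))) (Q : HeightOneSpectrum (𝓞 K)) (hQ : Q ∉ T) :
    ∑' I, (anA_sieve (Finset.cons Q T hQ)).indicator f I =
      (1 - f (anA_prime Q)) * ∑' I, (anA_sieve T).indicator f I := by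
  have hfs : Summable f := hf.of_norm
  set A : Set (Ideal (𝓞 K))⁰ := anA_sieve T with hA
  set B : Set (Ideal (𝓞 K))⁰ := anA_sieve (Finset.cons Q T hQ) with hB
  set C : Set (Ideal (𝓞 K))⁰ := {I | I ∈ A ∧ (I : Ideal (𝓞 K)) ≤ Q.asIdeal} with hC
  have hsplit : ∀ I, A.indicator f I = B.indicator f I + C.indicator f I := by
    intro I
    by_cases hIA : I ∈ A
    · by_cases hIQ : (I : Ideal (𝓞 K)) ≤ Q.asIdeal
      · have hIB : I ∉ B := fun h => h Q (Finset.mem_cons_self Q T) hIQ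
        have hIC : I ∈ C := ⟨hIA, hIQ⟩
        simp [Set.indicator_of_mem hIA, Set.indicator_of_notMem hIB, Set.indicator_of_mem hIC]
      · have hIB : I ∈ B := by
          intro P hP
          rcases Finset.mem_cons.mp hP with rfl | hP
          · exact hIQ
          · exact hIA P hP
        have hIC : I ∉ C := fun h => hIQ h.2
        simp [Set.indicator_of_mem hIA, Set.indicator_of_mem hIB, Set.indicator_of_notMem hIC]
    · have hIB : I ∉ B := fun h => hIA fun P hP => h P (Finset.mem_cons.mpr (Or.inr hP))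
      have hIC : I ∉ C := fun h => hIA h.1
      simp [Set.indicator_of_notMem hIA, Set.indicator_of_notMem hIB,
        Set.indicator_of_notMem hIC]
  have hCsum : ∑' I, C.indicator f I = f (anA_prime Q) * ∑' I, A.indicator f I := by
    have hsupp : Function.support (C.indicator f) ⊆
        Set.range fun J : (Ideal (𝓞 K))⁰ => anA_prime Q * J := by
      intro I hI
      have hIC : I ∈ C := by
        by_contra h
        exact hI (Set.indicator_of_notMem h f)
      obtain ⟨J, hJ⟩ := anA_exists_eq_mul_of_le hIC.2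
      exact ⟨J, hJ.symm⟩
    rw [← (anA_mul_prime_injective Q).tsum_eq hsupp, ← tsum_mul_left]
    refine tsum_congr fun J => ?_
    by_cases hJ : J ∈ A
    · have hmem : anA_prime Q * J ∈ C := by
        refine ⟨(anA_mul_mem_sieve_iff hQ J).mpr hJ, ?_⟩
        simp only [Submonoid.coe_mul, anA_prime_coe]
        exact Ideal.mul_le_left
      rw [Set.indicator_of_mem hmem, Set.indicator_of_mem hJ, map_mul]
    · have hmem : anA_prime Q * J ∉ C := fun h => hJ ((anA_mul_mem_sieve_iff hQ J).mp h.1)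
      rw [Set.indicator_of_notMem hmem, Set.indicator_of_notMem hJ, mul_zero]
  have hsum : ∑' I, A.indicator f I = ∑' I, B.indicator f I + ∑' I, C.indicator f I := by
    rw [← (hfs.indicator B).tsum_add (hfs.indicator C)]
    exact tsum_congr hsplit
  rw [hCsum] at hsum
  linear_combination -hsum

theorem anA_sieve_tsum (f : (Ideal (𝓞 K))⁰ →* ℂ) (hf : Summable fun I => ‖f I‖)
    (T : Finset (HeightOneSpectrum (𝓞 K))) :
    ∑' I, (anA_sieve T).indicator f I =
      (∏ P ∈ T, (1 - f (anA_prime P))) * ∑' I, f I := by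
  induction T using Finset.cons_induction with
  | empty => simp [anA_sieve_empty]
  | cons Q T hQ ih => rw [anA_sieve_step f hf T Q hQ, ih, Finset.prod_cons, mul_assoc]

theorem anA_coe_one : (((1 : (Ideal (𝓞 K))⁰)) : Ideal (𝓞 K)) = ⊤ := by
  rw [Submonoid.coe_one, Ideal.one_eq_top]

theorem anA_one_mem_sieve (T : Finset (HeightOneSpectrum (𝓞 K))) :
    (1 : (Ideal (𝓞 K))⁰) ∈ anA_sieve T := by
  intro P _ h
  rw [anA_coe_one] at h
  exact P.isPrime.ne_top (top_le_iff.mp h)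

theorem anA_exists_prime_le {I : (Ideal (𝓞 K))⁰} (hI : I ≠ 1) :
    ∃ P : HeightOneSpectrum (𝓞 K), (I : Ideal (𝓞 K)) ≤ P.asIdeal := by
  have hne : (I : Ideal (𝓞 K)) ≠ ⊤ := fun h => hI (Subtype.ext (by rw [h, anA_coe_one]))
  obtain ⟨M, hM, hIM⟩ := Ideal.exists_le_maximal _ hne
  refine ⟨⟨M, hM.isPrime, ?_⟩, hIM⟩
  rintro rfl
  exact (mem_nonZeroDivisors_iff_ne_zero.mp I.2) (le_bot_iff.mp hIM)

/-- The sieved sums tend to `f 1 = 1`. -/
theorem anA_sieve_tendsto (f : (Ideal (𝓞 K))⁰ →* ℂ) (hf : Summable fun I => ‖f I‖) :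
    Tendsto (fun T : Finset (HeightOneSpectrum (𝓞 K)) => ∑' I, (anA_sieve T).indicator f I)
      atTop (𝓝 1) := by
  classical
  have hfs : Summable f := hf.of_norm
  rw [Metric.tendsto_atTop]
  intro ε hε
  have htail := tendsto_tsum_compl_atTop_zero (fun I : (Ideal (𝓞 K))⁰ => ‖f I‖)
  rw [Metric.tendsto_atTop] at htail
  obtain ⟨F₀, hF₀⟩ := htail ε hε
  have hF := hF₀ F₀ le_rfl
  rw [Real.dist_eq, sub_zero] at hF
  -- the primes to be sieved out
  let pf : {I : (Ideal (𝓞 K))⁰ // I ∈ F₀.filter (· ≠ 1)} → HeightOneSpectrum (𝓞 K) := fun I =>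
    Classical.choose (anA_exists_prime_le (Finset.mem_filter.mp I.2).2)
  have hpf : ∀ I : {I : (Ideal (𝓞 K))⁰ // I ∈ F₀.filter (· ≠ 1)},
      ((I : (Ideal (𝓞 K))⁰) : Ideal (𝓞 K)) ≤ (pf I).asIdeal := fun I =>
    Classical.choose_spec (anA_exists_prime_le (Finset.mem_filter.mp I.2).2)
  refine ⟨(F₀.filter (· ≠ 1)).attach.image pf, fun T hT => ?_⟩
  -- the set of ideals contributing to the tail
  set D : Set (Ideal (𝓞 K))⁰ := {I | I ∈ anA_sieve T ∧ I ≠ 1} with hD
  have hDF : D ⊆ {I | I ∉ F₀} := by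
    rintro I ⟨hIT, hI1⟩ hIF
    have hmem : I ∈ F₀.filter (· ≠ 1) := Finset.mem_filter.mpr ⟨hIF, hI1⟩
    have hP : pf ⟨I, hmem⟩ ∈ T :=
      hT (Finset.mem_image.mpr ⟨⟨I, hmem⟩, Finset.mem_attach _ _, rfl⟩)
    exact hIT _ hP (hpf ⟨I, hmem⟩)
  have hsplit : ∀ I, (anA_sieve T).indicator f I =
      ({1} : Set (Ideal (𝓞 K))⁰).indicator f I + D.indicator f I := by
    intro I
    by_cases hI1 : I = 1
    · subst hI1
      have h1 : (1 : (Ideal (𝓞 K))⁰) ∉ D := fun h => h.2 rfl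
      simp [Set.indicator_of_mem (anA_one_mem_sieve T), Set.indicator_of_notMem h1]
    · have h1 : I ∉ ({1} : Set (Ideal (𝓞 K))⁰) := hI1
      by_cases hIT : I ∈ anA_sieve T
      · have h2 : I ∈ D := ⟨hIT, hI1⟩
        simp [Set.indicator_of_mem hIT, Set.indicator_of_notMem h1, Set.indicator_of_mem h2]
      · have h2 : I ∉ D := fun h => hIT h.1
        simp [Set.indicator_of_notMem hIT, Set.indicator_of_notMem h1,
          Set.indicator_of_notMem h2]
  have hsum : ∑' I, (anA_sieve T).indicator f I = 1 + ∑' I, D.indicator f I := by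
    rw [tsum_congr hsplit, (hfs.indicator _).tsum_add (hfs.indicator D)]
    congr 1
    rw [← tsum_subtype, tsum_singleton (1 : (Ideal (𝓞 K))⁰) f, map_one]
  rw [hsum, dist_eq_norm, add_sub_cancel_left]
  calc ‖∑' I, D.indicator f I‖ ≤ ∑' I, ‖D.indicator f I‖ :=
        norm_tsum_le_tsum_norm (by
          simp_rw [norm_indicator_eq_indicator_norm]
          exact hf.indicator D)
    _ = ∑' I, D.indicator (fun I => ‖f I‖) I := by
        simp_rw [norm_indicator_eq_indicator_norm]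
    _ ≤ ∑' I, {I | I ∉ F₀}.indicator (fun I => ‖f I‖) I := by
        refine (hf.indicator D).tsum_le_tsum (fun I => ?_) (hf.indicator _)
        exact Set.indicator_le_indicator_of_subset hDF (fun _ => norm_nonneg _) I
    _ = ∑' a : {x // x ∉ F₀}, ‖f a‖ := by
        rw [← tsum_subtype {I | I ∉ F₀} (fun I => ‖f I‖)]
        rfl
    _ < ε := lt_of_abs_lt hF

/-- **Euler product** for a completely multiplicative function on the nonzero ideals with
summable norm. -/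
theorem anA_eulerProduct (f : (Ideal (𝓞 K))⁰ →* ℂ) (hf : Summable fun I => ‖f I‖)
    (hlt : ∀ P : HeightOneSpectrum (𝓞 K), ‖f (anA_prime P)‖ < 1) :
    (∑' I, f I) ≠ 0 ∧
    Tendsto (fun T : Finset (HeightOneSpectrum (𝓞 K)) => ∏ P ∈ T, (1 - f (anA_prime P))⁻¹)
      atTop (𝓝 (∑' I, f I)) := by
  have hne : ∀ P : HeightOneSpectrum (𝓞 K), 1 - f (anA_prime P) ≠ 0 := by
    intro P h
    have h1 : f (anA_prime P) = 1 := (sub_eq_zero.mp h).symm
    have := hlt P
    rw [h1, norm_one] at this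
    exact lt_irrefl _ this
  have hT := anA_sieve_tendsto f hf
  simp_rw [anA_sieve_tsum f hf] at hT
  have hS : (∑' I, f I) ≠ 0 := by
    intro h0
    simp_rw [h0, mul_zero] at hT
    exact zero_ne_one (tendsto_nhds_unique tendsto_const_nhds hT)
  refine ⟨hS, ?_⟩
  have h2 : Tendsto (fun T : Finset (HeightOneSpectrum (𝓞 K)) =>
      (∑' I, f I) * ((∏ P ∈ T, (1 - f (anA_prime P))) * ∑' I, f I)⁻¹) atTop
      (𝓝 ((∑' I, f I) * 1⁻¹)) :=
    tendsto_const_nhds.mul (hT.inv₀ one_ne_zero)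
  rw [inv_one, mul_one] at h2
  refine h2.congr fun T => ?_
  rw [Finset.prod_inv_distrib]
  have hprod : (∏ P ∈ T, (1 - f (anA_prime P))) ≠ 0 :=
    Finset.prod_ne_zero_iff.mpr fun P _ => hne P
  field_simp

/-- **Euler product**, in the form: `‖f I‖ ≤ N(I)^(-s)` with `s > 1`. -/
theorem anA_eulerProduct_of_le {s : ℝ} (hs : 1 < s) (f : (Ideal (𝓞 K))⁰ →* ℂ)
    (hle : ∀ I : (Ideal (𝓞 K))⁰, ‖f I‖ ≤ (Ideal.absNorm (I : Ideal (𝓞 K)) : ℝ) ^ (-s)) :
    (∑' I, f I) ≠ 0 ∧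
    Tendsto (fun T : Finset (HeightOneSpectrum (𝓞 K)) => ∏ P ∈ T, (1 - f (anA_prime P))⁻¹)
      atTop (𝓝 (∑' I, f I)) := by
  refine anA_eulerProduct f ?_ fun P => ?_
  · exact (anA_summable_ideal K hs).of_nonneg_of_le (fun I => norm_nonneg _) hle
  · refine (hle (anA_prime P)).trans_lt ?_
    rw [anA_prime_coe]
    have h0 : Ideal.absNorm P.asIdeal ≠ 0 := by
      rw [Ne, Ideal.absNorm_eq_zero_iff]
      exact P.ne_bot
    have h1 : Ideal.absNorm P.asIdeal ≠ 1 := by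
      rw [Ne, Ideal.absNorm_eq_one_iff]
      exact P.isPrime.ne_top
    have h2 : (1 : ℝ) < (Ideal.absNorm P.asIdeal : ℝ) := by
      have : 1 < Ideal.absNorm P.asIdeal := by omega
      exact_mod_cast this
    exact Real.rpow_lt_one_of_one_lt_of_neg h2 (by linarith)

/-! ### The zeta function and the class group `L`-functions -/

section functions

variable (K)

/-- The zeta function `∑ N(I)^(-s)` over the nonzero ideals (real variable). -/
def anA_zeta (s : ℝ) : ℝ :=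
  ∑' I : (Ideal (𝓞 K))⁰, (Ideal.absNorm (I : Ideal (𝓞 K)) : ℝ) ^ (-s)

/-- The `L`-function of a class group character (real variable). -/
def anA_L (ψ : ClassGroup (𝓞 K) →* ℂˣ) (s : ℝ) : ℂ :=
  ∑' I : (Ideal (𝓞 K))⁰, (ψ (ClassGroup.mk0 I) : ℂ) *
    (((Ideal.absNorm (I : Ideal (𝓞 K)) : ℝ) ^ (-s) : ℝ) : ℂ)

/-- The class of a height one prime. -/
def anA_primeClass (P : HeightOneSpectrum (𝓞 K)) : ClassGroup (𝓞 K) :=
  ClassGroup.mk0 (anA_prime P)

/-- `N(I)^(-s)` as a completely multiplicative function. -/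
def anA_normPow (s : ℝ) : (Ideal (𝓞 K))⁰ →* ℝ where
  toFun I := (Ideal.absNorm (I : Ideal (𝓞 K)) : ℝ) ^ (-s)
  map_one' := by simp
  map_mul' I J := by
    simp only [Submonoid.coe_mul, map_mul, Nat.cast_mul]
    exact Real.mul_rpow (Nat.cast_nonneg _) (Nat.cast_nonneg _)

/-- `ψ(I) N(I)^(-s)` as a completely multiplicative function. -/
def anA_term (ψ : ClassGroup (𝓞 K) →* ℂˣ) (s : ℝ) : (Ideal (𝓞 K))⁰ →* ℂ :=
  ((Units.coeHom ℂ).comp (ψ.comp ClassGroup.mk0)) *
    ((Complex.ofRealHom : ℝ →+* ℂ).toMonoidHom.comp (anA_normPow K s))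

theorem anA_term_apply (ψ : ClassGroup (𝓞 K) →* ℂˣ) (s : ℝ) (I : (Ideal (𝓞 K))⁰) :
    anA_term K ψ s I = (ψ (ClassGroup.mk0 I) : ℂ) *
      (((Ideal.absNorm (I : Ideal (𝓞 K)) : ℝ) ^ (-s) : ℝ) : ℂ) := rfl

theorem anA_norm_char (ψ : ClassGroup (𝓞 K) →* ℂˣ) (x : ClassGroup (𝓞 K)) :
    ‖(ψ x : ℂ)‖ = 1 := by
  have h : (ψ x : ℂ) ^ (Fintype.card (ClassGroup (𝓞 K))) = 1 := by
    rw [← Units.val_pow_eq_pow_val, ← map_pow, pow_card_eq_one, map_one, Units.val_one]
  exact Complex.norm_eq_one_of_pow_eq_one h Fintype.card_ne_zero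

theorem anA_norm_term (ψ : ClassGroup (𝓞 K) →* ℂˣ) (s : ℝ) (I : (Ideal (𝓞 K))⁰) :
    ‖anA_term K ψ s I‖ = (Ideal.absNorm (I : Ideal (𝓞 K)) : ℝ) ^ (-s) := by
  rw [anA_term_apply, norm_mul, anA_norm_char, one_mul, Complex.norm_real,
    Real.norm_of_nonneg (by positivity)]

theorem anA_summable_term (ψ : ClassGroup (𝓞 K) →* ℂˣ) {s : ℝ} (hs : 1 < s) :
    Summable fun I => ‖anA_term K ψ s I‖ := by
  simp_rw [anA_norm_term]
  exact anA_summable_ideal K hs

theorem anA_L_eq_tsum (ψ : ClassGroup (𝓞 K) →* ℂˣ) (s : ℝ) :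
    anA_L K ψ s = ∑' I, anA_term K ψ s I := rfl

theorem anA_two_le_absNorm (P : HeightOneSpectrum (𝓞 K)) : 2 ≤ Ideal.absNorm P.asIdeal := by
  have h0 : Ideal.absNorm P.asIdeal ≠ 0 := by
    rw [Ne, Ideal.absNorm_eq_zero_iff]
    exact P.ne_bot
  have h1 : Ideal.absNorm P.asIdeal ≠ 1 := by
    rw [Ne, Ideal.absNorm_eq_one_iff]
    exact P.isPrime.ne_top
  omega

/-- `x_P = N(P)^(-s)` lies in `(0, 1/2]` for `s ≥ 1`. -/
theorem anA_x_pos (P : HeightOneSpectrum (𝓞 K)) (s : ℝ) :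
    0 < (Ideal.absNorm P.asIdeal : ℝ) ^ (-s) := by
  have := anA_two_le_absNorm K P
  positivity

theorem anA_x_le_half (P : HeightOneSpectrum (𝓞 K)) {s : ℝ} (hs : 1 ≤ s) :
    (Ideal.absNorm P.asIdeal : ℝ) ^ (-s) ≤ 1 / 2 := by
  have h2 : (2 : ℝ) ≤ (Ideal.absNorm P.asIdeal : ℝ) := by exact_mod_cast anA_two_le_absNorm K P
  have h0 : (0 : ℝ) < (Ideal.absNorm P.asIdeal : ℝ) := by linarith
  rw [Real.rpow_neg h0.le, one_div]
  refine inv_anti₀ (by norm_num) ?_
  calc (2 : ℝ) ≤ (Ideal.absNorm P.asIdeal : ℝ) := h2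
    _ = (Ideal.absNorm P.asIdeal : ℝ) ^ (1 : ℝ) := (Real.rpow_one _).symm
    _ ≤ (Ideal.absNorm P.asIdeal : ℝ) ^ s :=
        Real.rpow_le_rpow_of_exponent_le (by linarith) hs

theorem anA_summable_prime {s : ℝ} (hs : 1 < s) :
    Summable fun P : HeightOneSpectrum (𝓞 K) => (Ideal.absNorm P.asIdeal : ℝ) ^ (-s) := by
  have h := (anA_summable_ideal K hs).comp_injective (anA_prime_injective (K := K))
  refine h.congr fun P => ?_
  simp only [Function.comp_apply, anA_prime_coe]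

theorem anA_lt_one_term (ψ : ClassGroup (𝓞 K) →* ℂˣ) {s : ℝ} (hs : 1 < s)
    (P : HeightOneSpectrum (𝓞 K)) : ‖anA_term K ψ s (anA_prime P)‖ < 1 := by
  rw [anA_norm_term, anA_prime_coe]
  have := anA_x_le_half K P hs.le
  linarith

/-- The Euler product of the `L`-function of a class group character. -/
theorem anA_L_eulerProduct (ψ : ClassGroup (𝓞 K) →* ℂˣ) {s : ℝ} (hs : 1 < s) :
    anA_L K ψ s ≠ 0 ∧
    Tendsto (fun T : Finset (HeightOneSpectrum (𝓞 K)) =>
      ∏ P ∈ T, (1 - (ψ (anA_primeClass K P) : ℂ) *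
        (((Ideal.absNorm P.asIdeal : ℝ) ^ (-s) : ℝ) : ℂ))⁻¹) atTop (𝓝 (anA_L K ψ s)) :=
  anA_eulerProduct (anA_term K ψ s) (anA_summable_term K ψ hs) (anA_lt_one_term K ψ hs)

/-- The Euler product of the zeta function. -/
theorem anA_zeta_eulerProduct {s : ℝ} (hs : 1 < s) :
    Tendsto (fun T : Finset (HeightOneSpectrum (𝓞 K)) =>
      ∏ P ∈ T, (1 - (Ideal.absNorm P.asIdeal : ℝ) ^ (-s))⁻¹) atTop (𝓝 (anA_zeta K s)) := by
  have h := (anA_L_eulerProduct K 1 hs).2
  have hL : anA_L K 1 s = ((anA_zeta K s : ℝ) : ℂ) := by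
    rw [anA_L, anA_zeta, Complex.ofReal_tsum]
    refine tsum_congr fun I => ?_
    simp
  rw [hL] at h
  have h2 := (Complex.continuous_re.tendsto _).comp h
  rw [Complex.ofReal_re] at h2
  refine h2.congr fun T => ?_
  simp only [Function.comp_apply, MonoidHom.one_apply, Units.val_one, one_mul]
  rw [← Complex.ofReal_re (∏ P ∈ T, (1 - (Ideal.absNorm P.asIdeal : ℝ) ^ (-s))⁻¹)]
  congr 1
  push_cast
  rfl

/-! ### Elementary inequalities -/

theorem anA_exp_le_inv_one_sub {x : ℝ} (hx1 : x < 1) : Real.exp x ≤ (1 - x)⁻¹ := by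
  have h1 : 0 < 1 - x := by linarith
  have h2 : 1 - x ≤ Real.exp (-x) := by
    have := Real.add_one_le_exp (-x)
    linarith
  rw [Real.exp_neg] at h2
  have h3 : 0 < Real.exp x := Real.exp_pos x
  rw [le_inv_comm₀ h3 h1]
  exact h2

theorem anA_inv_one_sub_le_exp {x : ℝ} (hx : x ≤ 1 / 2) :
    (1 - x)⁻¹ ≤ Real.exp (x + 2 * x ^ 2) := by
  have h1 : 0 < 1 - x := by linarith
  have h2 : 1 + (x + 2 * x ^ 2) ≤ Real.exp (x + 2 * x ^ 2) := by
    have := Real.add_one_le_exp (x + 2 * x ^ 2)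
    linarith
  rw [inv_le_iff_one_le_mul₀' h1]
  have h3 : 1 ≤ (1 - x) * (1 + (x + 2 * x ^ 2)) := by
    have : (1 - x) * (1 + (x + 2 * x ^ 2)) = 1 + x ^ 2 * (1 - 2 * x) := by ring
    rw [this]
    have : 0 ≤ x ^ 2 * (1 - 2 * x) := mul_nonneg (sq_nonneg x) (by linarith)
    linarith
  exact h3.trans (mul_le_mul_of_nonneg_left h2 h1.le)

theorem anA_norm_one_sub_le_exp (z : ℂ) :
    ‖1 - z‖ ≤ Real.exp (-z.re + ‖z‖ ^ 2 / 2) := by
  have h1 : ‖1 - z‖ ^ 2 = 1 + (-2 * z.re + ‖z‖ ^ 2) := by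
    rw [Complex.sq_norm, Complex.sq_norm, Complex.normSq_apply, Complex.normSq_apply]
    simp only [Complex.sub_re, Complex.one_re, Complex.sub_im, Complex.one_im]
    ring
  have h2 : ‖1 - z‖ ^ 2 ≤ Real.exp (-z.re + ‖z‖ ^ 2 / 2) ^ 2 := by
    rw [h1, ← Real.exp_nat_mul]
    have := Real.add_one_le_exp (-2 * z.re + ‖z‖ ^ 2)
    have h3 : ((2 : ℕ) : ℝ) * (-z.re + ‖z‖ ^ 2 / 2) = -2 * z.re + ‖z‖ ^ 2 := by
      push_cast; ring
    rw [h3]
    linarith
  exact (pow_le_pow_iff_left₀ (norm_nonneg _) (Real.exp_pos _).le two_ne_zero).mp h2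

/-! ### Bounds for prime sums -/

/-- The constant `∑ N(P)^(-2)`. -/
def anA_const : ℝ := ∑' P : HeightOneSpectrum (𝓞 K), (Ideal.absNorm P.asIdeal : ℝ) ^ (-(2 : ℝ))

theorem anA_const_nonneg : 0 ≤ anA_const K := tsum_nonneg fun P => (anA_x_pos K P 2).le

theorem anA_sq_le (P : HeightOneSpectrum (𝓞 K)) {s : ℝ} (hs : 1 ≤ s) :
    ((Ideal.absNorm P.asIdeal : ℝ) ^ (-s)) ^ 2 ≤ (Ideal.absNorm P.asIdeal : ℝ) ^ (-(2 : ℝ)) := by
  have h2 : (2 : ℝ) ≤ (Ideal.absNorm P.asIdeal : ℝ) := by exact_mod_cast anA_two_le_absNorm K P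
  have h0 : (0 : ℝ) ≤ (Ideal.absNorm P.asIdeal : ℝ) := by linarith
  rw [← Real.rpow_natCast, ← Real.rpow_mul h0]
  refine Real.rpow_le_rpow_of_exponent_le (by linarith) ?_
  push_cast
  linarith

theorem anA_sum_sq_le (T : Finset (HeightOneSpectrum (𝓞 K))) {s : ℝ} (hs : 1 ≤ s) :
    ∑ P ∈ T, ((Ideal.absNorm P.asIdeal : ℝ) ^ (-s)) ^ 2 ≤ anA_const K :=
  (Finset.sum_le_sum fun P _ => anA_sq_le K P hs).trans
    ((anA_summable_prime K (by norm_num : (1 : ℝ) < 2)).sum_le_tsum T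
      fun P _ => (anA_x_pos K P 2).le)

theorem anA_zeta_pos {s : ℝ} (hs : 1 < s) : 0 < anA_zeta K s := by
  have h := anA_summable_ideal K hs
  have h1 := h.sum_le_tsum {1} fun I _ => by positivity
  have h2 : (0 : ℝ) < ∑ I ∈ ({1} : Finset (Ideal (𝓞 K))⁰),
      (Ideal.absNorm (I : Ideal (𝓞 K)) : ℝ) ^ (-s) := by
    rw [Finset.sum_singleton]
    simp
  exact h2.trans_le h1

/-- (A2a) the sum over all primes is at most `log ζ`. -/
theorem anA_primeSum_le_log_zeta {s : ℝ} (hs : 1 < s) :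
    ∑' P : HeightOneSpectrum (𝓞 K), (Ideal.absNorm P.asIdeal : ℝ) ^ (-s) ≤
      Real.log (anA_zeta K s) := by
  classical
  refine Real.tsum_le_of_sum_le (fun P => (anA_x_pos K P s).le) fun T₀ => ?_
  rw [Real.le_log_iff_exp_le (anA_zeta_pos K hs)]
  refine ge_of_tendsto (anA_zeta_eulerProduct K hs) ?_
  filter_upwards [eventually_ge_atTop T₀] with T hT
  have hx1 : ∀ P : HeightOneSpectrum (𝓞 K), (Ideal.absNorm P.asIdeal : ℝ) ^ (-s) < 1 :=
    fun P => (anA_x_le_half K P hs.le).trans_lt (by norm_num)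
  calc Real.exp (∑ P ∈ T₀, (Ideal.absNorm P.asIdeal : ℝ) ^ (-s))
      ≤ Real.exp (∑ P ∈ T, (Ideal.absNorm P.asIdeal : ℝ) ^ (-s)) :=
        Real.exp_le_exp.mpr (Finset.sum_le_sum_of_subset_of_nonneg hT
          fun P _ _ => (anA_x_pos K P s).le)
    _ = ∏ P ∈ T, Real.exp ((Ideal.absNorm P.asIdeal : ℝ) ^ (-s)) := Real.exp_sum _ _
    _ ≤ ∏ P ∈ T, (1 - (Ideal.absNorm P.asIdeal : ℝ) ^ (-s))⁻¹ :=
        Finset.prod_le_prod (fun P _ => (Real.exp_pos _).le)
          fun P _ => anA_exp_le_inv_one_sub (hx1 P)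

/-- (A2b) `log ζ` is at most the sum over all primes plus a constant. -/
theorem anA_log_zeta_le {s : ℝ} (hs : 1 < s) :
    Real.log (anA_zeta K s) ≤
      ∑' P : HeightOneSpectrum (𝓞 K), (Ideal.absNorm P.asIdeal : ℝ) ^ (-s) +
        2 * anA_const K := by
  rw [Real.log_le_iff_le_exp (anA_zeta_pos K hs)]
  refine le_of_tendsto' (anA_zeta_eulerProduct K hs) fun T => ?_
  calc ∏ P ∈ T, (1 - (Ideal.absNorm P.asIdeal : ℝ) ^ (-s))⁻¹
      ≤ ∏ P ∈ T, Real.exp ((Ideal.absNorm P.asIdeal : ℝ) ^ (-s) +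
          2 * ((Ideal.absNorm P.asIdeal : ℝ) ^ (-s)) ^ 2) := by
        refine Finset.prod_le_prod (fun P _ => ?_) fun P _ =>
          anA_inv_one_sub_le_exp (anA_x_le_half K P hs.le)
        have := anA_x_le_half K P hs.le
        exact inv_nonneg.mpr (by linarith)
    _ = Real.exp (∑ P ∈ T, ((Ideal.absNorm P.asIdeal : ℝ) ^ (-s) +
          2 * ((Ideal.absNorm P.asIdeal : ℝ) ^ (-s)) ^ 2)) := (Real.exp_sum _ _).symm
    _ ≤ Real.exp (∑' P : HeightOneSpectrum (𝓞 K), (Ideal.absNorm P.asIdeal : ℝ) ^ (-s) +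
          2 * anA_const K) := by
        refine Real.exp_le_exp.mpr ?_
        rw [Finset.sum_add_distrib, ← Finset.mul_sum]
        have h1 := (anA_summable_prime K hs).sum_le_tsum T fun P _ => (anA_x_pos K P s).le
        have h2 := anA_sum_sq_le K T hs.le
        linarith

/-- (A2c) the real part of the prime sum twisted by a class group character is at most
`log ‖L‖` plus a constant; in particular `L(s, ψ) ≠ 0`. -/
theorem anA_re_primeSum_le_log_L (ψ : ClassGroup (𝓞 K) →* ℂˣ) {s : ℝ} (hs : 1 < s) :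
    anA_L K ψ s ≠ 0 ∧
    ∑' P : HeightOneSpectrum (𝓞 K),
      (ψ (anA_primeClass K P) : ℂ).re * (Ideal.absNorm P.asIdeal : ℝ) ^ (-s) ≤
        Real.log ‖anA_L K ψ s‖ + anA_const K := by
  obtain ⟨hL0, hL⟩ := anA_L_eulerProduct K ψ hs
  refine ⟨hL0, ?_⟩
  have hLpos : 0 < ‖anA_L K ψ s‖ := norm_pos_iff.mpr hL0
  -- summability of the real parts
  have hre : ∀ P : HeightOneSpectrum (𝓞 K), |(ψ (anA_primeClass K P) : ℂ).re| ≤ 1 := fun P =>
    (Complex.abs_re_le_norm _).trans (anA_norm_char K ψ _).le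
  have hsum : Summable fun P : HeightOneSpectrum (𝓞 K) =>
      (ψ (anA_primeClass K P) : ℂ).re * (Ideal.absNorm P.asIdeal : ℝ) ^ (-s) := by
    refine Summable.of_norm_bounded (anA_summable_prime K hs) fun P => ?_
    rw [Real.norm_eq_abs, abs_mul, abs_of_pos (anA_x_pos K P s)]
    exact mul_le_of_le_one_left (anA_x_pos K P s).le (hre P)
  rw [← sub_le_iff_le_add, Real.le_log_iff_exp_le hLpos]
  have h1 : Tendsto (fun T : Finset (HeightOneSpectrum (𝓞 K)) =>
      Real.exp (∑ P ∈ T, (ψ (anA_primeClass K P) : ℂ).re *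
        (Ideal.absNorm P.asIdeal : ℝ) ^ (-s) - anA_const K)) atTop
      (𝓝 (Real.exp (∑' P : HeightOneSpectrum (𝓞 K),
        (ψ (anA_primeClass K P) : ℂ).re * (Ideal.absNorm P.asIdeal : ℝ) ^ (-s) -
          anA_const K))) :=
    (Real.continuous_exp.tendsto _).comp (hsum.hasSum.sub_const _)
  refine le_of_tendsto_of_tendsto' h1 (hL.norm) fun T => ?_
  rw [norm_prod]
  calc Real.exp (∑ P ∈ T, (ψ (anA_primeClass K P) : ℂ).re *
        (Ideal.absNorm P.asIdeal : ℝ) ^ (-s) - anA_const K)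
      ≤ Real.exp (∑ P ∈ T, ((ψ (anA_primeClass K P) : ℂ).re *
          (Ideal.absNorm P.asIdeal : ℝ) ^ (-s) -
          ((Ideal.absNorm P.asIdeal : ℝ) ^ (-s)) ^ 2 / 2)) := by
        refine Real.exp_le_exp.mpr ?_
        rw [Finset.sum_sub_distrib, ← Finset.sum_div]
        have h2 := anA_sum_sq_le K T hs.le
        have h3 : 0 ≤ ∑ P ∈ T, ((Ideal.absNorm P.asIdeal : ℝ) ^ (-s)) ^ 2 :=
          Finset.sum_nonneg fun P _ => sq_nonneg _
        have h4 := anA_const_nonneg K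
        linarith
    _ = ∏ P ∈ T, Real.exp ((ψ (anA_primeClass K P) : ℂ).re *
          (Ideal.absNorm P.asIdeal : ℝ) ^ (-s) -
          ((Ideal.absNorm P.asIdeal : ℝ) ^ (-s)) ^ 2 / 2) := Real.exp_sum _ _
    _ ≤ ∏ P ∈ T, ‖(1 - (ψ (anA_primeClass K P) : ℂ) *
          (((Ideal.absNorm P.asIdeal : ℝ) ^ (-s) : ℝ) : ℂ))⁻¹‖ := by
        refine Finset.prod_le_prod (fun P _ => (Real.exp_pos _).le) fun P _ => ?_
        set z : ℂ := (ψ (anA_primeClass K P) : ℂ) *
          (((Ideal.absNorm P.asIdeal : ℝ) ^ (-s) : ℝ) : ℂ) with hz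
        have hzre : z.re = (ψ (anA_primeClass K P) : ℂ).re *
            (Ideal.absNorm P.asIdeal : ℝ) ^ (-s) := by
          rw [hz, Complex.re_mul_ofReal]
        have hznorm : ‖z‖ = (Ideal.absNorm P.asIdeal : ℝ) ^ (-s) := by
          rw [hz, norm_mul, anA_norm_char, one_mul, Complex.norm_real,
            Real.norm_of_nonneg (anA_x_pos K P s).le]
        have hz1 : 1 - z ≠ 0 := by
          intro h
          have h1 : z = 1 := (sub_eq_zero.mp h).symm
          have h2 : ‖z‖ = 1 := by rw [h1, norm_one]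
          have := anA_x_le_half K P hs.le
          rw [hznorm] at h2
          linarith
        rw [norm_inv, ← hzre, ← hznorm]
        have h5 := anA_norm_one_sub_le_exp z
        have h6 : 0 < ‖1 - z‖ := norm_pos_iff.mpr hz1
        rw [le_inv_comm₀ (Real.exp_pos _) h6, ← Real.exp_neg]
        have h7 : -(z.re - ‖z‖ ^ 2 / 2) = -z.re + ‖z‖ ^ 2 / 2 := by ring
        rw [h7]
        exact h5

end functions

end Fermat.Agent.S14
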