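import Mathlib
import Fermat.Agent.S14.DensityPigeon
import Fermat.Agent.S14.EulerProd
import Fermat.Agent.S14.EulerLogDeg
import Fermat.Agent.S14.EulerLogAsymp

/-!
# S14 / AN-A: the hypotheses (H1) and (H2) of the density pigeonhole

* `anLog_primeSumStatement : AnDPrimeSumStatement`  (H1)
  `∑_P N(P)^(-s) = log (1/(s-1)) + O(1)` on `(1, 2]`;
* `anLog_higherDegreeStatement : AnDHigherDegreeStatement`  (H2)
  the primes of non-prime norm contribute `O(1)`;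
* `anLog_zeta_le_div`: `ζ_K(s) ≤ c / (s - 1)` on `(1, 2]`.
-/

namespace Fermat.Agent.S14

open scoped NumberField nonZeroDivisors
open IsDedekindDomain

/-- (H2) the primes of residue degree `≥ 2` contribute `O(1)`. -/
theorem anLog_higherDegreeStatement : AnDHigherDegreeStatement := by
  intro K _ _
  exact ⟨anLog_cDeg K, fun s hs _ => anLog_primeSum_not_prime_le hs.le⟩

/-- (H1) `∑_P N(P)^(-s) = log (1 / (s - 1)) + O(1)` on `(1, 2]`. -/
theorem anLog_primeSumStatement : AnDPrimeSumStatement := by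
  intro K _ _
  obtain ⟨c, hc⟩ := anLog_log_zeta_bounds K
  refine ⟨c + 2 * anA_const K, fun s hs1 hs2 => ⟨anA_summable_prime K hs1, ?_⟩⟩
  have h1 := anA_primeSum_le_log_zeta K hs1
  have h2 := anA_log_zeta_le K hs1
  have h3 := hc s hs1 hs2
  have hc2 := anA_const_nonneg K
  unfold anA_zeta at h1 h2
  rw [abs_le] at h3 ⊢
  constructor
  · linarith [h3.1]
  · linarith [h3.2]

/-- `ζ_K(s) ≤ c / (s - 1)` on `(1, 2]`. -/
theorem anLog_zeta_le_div (K : Type*) [Field K] [NumberField K] :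
    ∃ c : ℝ, 0 < c ∧ ∀ s : ℝ, 1 < s → s ≤ 2 →
      ∑' I : (Ideal (𝓞 K))⁰, (Ideal.absNorm (I : Ideal (𝓞 K)) : ℝ) ^ (-s) ≤ c / (s - 1) := by
  obtain ⟨c, hc⟩ := anLog_log_zeta_bounds K
  refine ⟨Real.exp c, Real.exp_pos c, fun s hs1 hs2 => ?_⟩
  have h3 := (abs_le.mp (hc s hs1 hs2)).2
  have hpos : (0 : ℝ) < s - 1 := by linarith
  have hZ := anLog_zeta_pos_real K hs1
  rw [anLog_zeta_def] at hZ
  have h4 : Real.log (∑' I : (Ideal (𝓞 K))⁰, (Ideal.absNorm (I : Ideal (𝓞 K)) : ℝ) ^ (-s)) ≤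
      Real.log (Real.exp c / (s - 1)) := by
    rw [Real.log_div (Real.exp_pos c).ne' hpos.ne', Real.log_exp]
    rw [one_div, Real.log_inv] at h3
    linarith
  exact (Real.log_le_log_iff hZ (div_pos (Real.exp_pos c) hpos)).mp h4

/-- `1 / (c (s - 1)) ≤ ζ_K(s)` on `(1, 2]`. -/
theorem anLog_div_le_zeta (K : Type*) [Field K] [NumberField K] :
    ∃ c : ℝ, 0 < c ∧ ∀ s : ℝ, 1 < s → s ≤ 2 →
      1 / (c * (s - 1)) ≤ ∑' I : (Ideal (𝓞 K))⁰, (Ideal.absNorm (I : Ideal (𝓞 K)) : ℝ) ^ (-s) := by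
  obtain ⟨c, hc⟩ := anLog_log_zeta_bounds K
  refine ⟨Real.exp c, Real.exp_pos c, fun s hs1 hs2 => ?_⟩
  have h3 := (abs_le.mp (hc s hs1 hs2)).1
  have hpos : (0 : ℝ) < s - 1 := by linarith
  have hZ := anLog_zeta_pos_real K hs1
  rw [anLog_zeta_def] at hZ
  have hpos2 : (0 : ℝ) < 1 / (Real.exp c * (s - 1)) := by positivity
  have h4 : Real.log (1 / (Real.exp c * (s - 1))) ≤
      Real.log (∑' I : (Ideal (𝓞 K))⁰, (Ideal.absNorm (I : Ideal (𝓞 K)) : ℝ) ^ (-s)) := by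
    rw [one_div, Real.log_inv, Real.log_mul (Real.exp_pos c).ne' hpos.ne', Real.log_exp]
    rw [one_div, Real.log_inv] at h3
    linarith
  exact (Real.log_le_log_iff hpos2 hZ).mp h4

end Fermat.Agent.S14
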