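import Mathlib
import Fermat.Agent.S14.DensityGlue
import Fermat.Agent.S14.EulerLogFinal

/-!
# S14 / AN: glue for (H3) and the final reduction of `AnalyticStatement` to the `L`-bound

* `AnLogLBoundStatement`: the class group `L`-functions of non-trivial characters are bounded
  on `(1, 2]` (this is AN-B, `an2_lbound`), as a `Prop`;
* `anLog_charSumStatement : AnLogLBoundStatement → AnDCharSumStatement`  (H3);
* `anLog_analytic_of_lbound : AnLogLBoundStatement → AnalyticStatement`.
-/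

namespace Fermat.Agent.S14

open scoped NumberField nonZeroDivisors
open IsDedekindDomain

/-- The `L`-bound (AN-B): `‖L(s, ψ)‖ ≤ C` on `(1, 2]` for every non-trivial class group
character `ψ`. -/
def AnLogLBoundStatement : Prop :=
  ∀ (K : Type) [Field K] [NumberField K] (ψ : ClassGroup (𝓞 K) →* ℂˣ), ψ ≠ 1 →
    ∃ C : ℝ, ∀ s : ℝ, 1 < s → s ≤ 2 → ‖anA_L K ψ s‖ ≤ C

theorem anLog_summable_char_prime {K : Type} [Field K] [NumberField K]
    (ψ : ClassGroup (𝓞 K) →* ℂˣ) {s : ℝ} (hs : 1 < s) :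
    Summable (fun P : HeightOneSpectrum (𝓞 K) =>
      ((ψ (anD_cls P) : ℂˣ) : ℂ) * ((anD_nrm P ^ (-s) : ℝ) : ℂ)) := by
  refine Summable.of_norm_bounded (anA_summable_prime K hs) (fun P => ?_)
  rw [norm_mul, anA_norm_char, one_mul, Complex.norm_real,
    Real.norm_of_nonneg (anA_x_pos K P s).le]

theorem anLog_re_char_prime {K : Type} [Field K] [NumberField K]
    (ψ : ClassGroup (𝓞 K) →* ℂˣ) {s : ℝ} (hs : 1 < s) :
    (∑' P : HeightOneSpectrum (𝓞 K),
      ((ψ (anD_cls P) : ℂˣ) : ℂ) * ((anD_nrm P ^ (-s) : ℝ) : ℂ)).re =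
    ∑' P : HeightOneSpectrum (𝓞 K),
      (ψ (anA_primeClass K P) : ℂ).re * (Ideal.absNorm P.asIdeal : ℝ) ^ (-s) := by
  rw [Complex.re_tsum (anLog_summable_char_prime ψ hs)]
  refine tsum_congr (fun P => ?_)
  rw [Complex.re_mul_ofReal]
  rfl

/-- (H3) from the `L`-bound. -/
theorem anLog_charSumStatement (hL : AnLogLBoundStatement) : AnDCharSumStatement := by
  intro K _ _ ψ hψ
  obtain ⟨C, hC⟩ := hL K ψ hψ
  refine ⟨Real.log (max C 1) + anA_const K, fun s hs1 hs2 => ?_⟩
  obtain ⟨hne, hle⟩ := anA_re_primeSum_le_log_L K ψ hs1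
  rw [anLog_re_char_prime ψ hs1]
  have hpos : 0 < ‖anA_L K ψ s‖ := norm_pos_iff.mpr hne
  have hlog : Real.log ‖anA_L K ψ s‖ ≤ Real.log (max C 1) :=
    Real.log_le_log hpos ((hC s hs1 hs2).trans (le_max_left _ _))
  linarith

/-- The analytic statement of `Defs.lean` follows from the `L`-bound alone. -/
theorem anLog_analytic_of_lbound (hL : AnLogLBoundStatement) : AnalyticStatement :=
  analytic_of_hyps' anLog_primeSumStatement anLog_higherDegreeStatement
    (anLog_charSumStatement hL)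

end Fermat.Agent.S14
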