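import Mathlib

/-!
# S14 / AN-B2: abstract coset comparison for lattice sums

Let `L' ≤ L` be discrete subgroups of a finite dimensional real normed space `E`, with
`[L : L'] = m` finite.  If `g : E → ℝ` decays like `‖x‖ ^ (-d)` on `L` and is Lipschitz at scale
`‖x‖` with constant `‖x‖ ^ (-d - 1)`, then

  `|∑_{x ∈ L} g x - m * ∑_{x ∈ L'} g x| ≤ M`

with `M` depending only on `L`, `L'`, the constants `A`, `B` and the range `(n, D]` of the
exponent `d` (and *not* on `g` or `d`).  No measure theory, no integrals.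
-/

set_option autoImplicit false

namespace Fermat.Agent.S14

open scoped BigOperators

section Cosets

variable {G : Type*} [AddCommGroup G] (H : AddSubgroup G)

/-- The bijection `G ≃ (G ⧸ H) × H`, `x ↦ (x mod H, x - out (x mod H))`. -/
noncomputable def anB2_cosetEquiv : G ≃ (G ⧸ H) × H where
  toFun x := ((x : G ⧸ H), ⟨x - ((x : G ⧸ H)).out, by
    rw [← QuotientAddGroup.eq_zero_iff, QuotientAddGroup.mk_sub, QuotientAddGroup.out_eq',
      sub_self]⟩)
  invFun p := p.1.out + p.2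
  left_inv x := by simp
  right_inv p := by
    obtain ⟨q, h⟩ := p
    have hq : ((q.out + (h : G) : G) : G ⧸ H) = q := by
      rw [QuotientAddGroup.mk_add, QuotientAddGroup.out_eq',
        (QuotientAddGroup.eq_zero_iff (h : G)).mpr h.2, add_zero]
    refine Prod.ext hq (Subtype.ext ?_)
    simp only [hq]
    simp

lemma anB2_cosetEquiv_symm_apply (p : (G ⧸ H) × H) :
    (anB2_cosetEquiv H).symm p = p.1.out + (p.2 : G) := rfl

/-- Decomposition of an absolutely convergent sum over `G` along the cosets of a subgroup of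
finite index. -/
lemma anB2_tsum_cosets [Fintype (G ⧸ H)] (f : G → ℝ) (hf : Summable f) :
    ∑' x, f x = ∑ q : G ⧸ H, ∑' h : H, f (q.out + (h : G)) := by
  rw [← (anB2_cosetEquiv H).symm.tsum_eq f]
  have hs : Summable (fun p : (G ⧸ H) × H => f ((anB2_cosetEquiv H).symm p)) :=
    (anB2_cosetEquiv H).symm.summable_iff.mpr hf
  rw [hs.tsum_prod, tsum_fintype]
  rfl

end Cosets

section Shift

variable {E : Type*} [NormedAddCommGroup E] [NormedSpace ℝ E] [FiniteDimensional ℝ E]

/-- For `t > 0` and `n ≤ d ≤ D`: `t ^ (-d) ≤ t ^ (-n) + t ^ (-D)`. -/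
lemma anB2_rpow_neg_le {t n d D : ℝ} (ht : 0 < t) (hnd : n ≤ d) (hdD : d ≤ D) :
    t ^ (-d) ≤ t ^ (-n) + t ^ (-D) := by
  rcases le_or_gt 1 t with h1 | h1
  · have : t ^ (-d) ≤ t ^ (-n) := Real.rpow_le_rpow_of_exponent_le h1 (by linarith)
    have h2 : 0 ≤ t ^ (-D) := by positivity
    linarith
  · have : t ^ (-d) ≤ t ^ (-D) :=
      Real.rpow_le_rpow_of_exponent_ge ht h1.le (by linarith)
    have h2 : 0 ≤ t ^ (-n) := by positivity
    linarith

/-- The weight dominating the termwise difference `|f (y + z) - f z|`. -/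
noncomputable def anB2_weight (A B n D : ℝ) (y z : E) : ℝ :=
  B * ‖y‖ * (‖z‖ ^ (-(n + 1)) + ‖z‖ ^ (-(D + 1))) +
    (if ‖z‖ < 2 * ‖y‖ then
      A * ((‖z‖ ^ (-n) + ‖z‖ ^ (-D)) + (‖y + z‖ ^ (-n) + ‖y + z‖ ^ (-D))) else 0)

variable (L : Submodule ℤ E) [DiscreteTopology L]

lemma anB2_finite_small (R : ℝ) : {z : L | ‖(z : E)‖ < R}.Finite := by
  have H : IsClosed (X := E) L := @AddSubgroup.isClosed_of_discrete _ _ _ _ _
    L.toAddSubgroup (inferInstanceAs (DiscreteTopology L))
  refine ((Metric.finite_isBounded_inter_isClosed DiscreteTopology.isDiscrete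
    (Metric.isBounded_closedBall (x := (0 : E)) (r := R)) H).preimage_embedding
    (.subtype _)).subset ?_
  intro z hz
  simp only [Set.mem_ofPred_eq] at hz
  simp only [Set.mem_preimage, Function.Embedding.coe_subtype, Set.mem_inter_iff,
    Metric.mem_closedBall, dist_zero_right, SetLike.mem_coe, SetLike.coe_mem, and_true]
  exact hz.le

lemma anB2_summable_weight (A B n D : ℝ) (hn : (Module.finrank ℤ L : ℝ) ≤ n) (hnD : n ≤ D)
    (y : E) : Summable (fun z : L => anB2_weight A B n D y (z : E)) := by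
  unfold anB2_weight
  refine Summable.add ?_ ?_
  · refine Summable.mul_left _ (Summable.add ?_ ?_)
    · exact ZLattice.summable_norm_rpow L _ (by linarith)
    · exact ZLattice.summable_norm_rpow L _ (by linarith)
  · refine summable_of_hasFiniteSupport ?_
    refine (anB2_finite_small L (2 * ‖y‖)).subset ?_
    intro z hz
    simp only [Function.mem_support, ne_eq, ite_eq_right_iff, not_forall] at hz
    obtain ⟨h, -⟩ := hz
    exact h

omit [NormedSpace ℝ E] [FiniteDimensional ℝ E] in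
lemma anB2_weight_nonneg {A B n D : ℝ} (hA : 0 ≤ A) (hB : 0 ≤ B) (y z : E) :
    0 ≤ anB2_weight A B n D y z := by
  unfold anB2_weight
  have h1 : 0 ≤ B * ‖y‖ * (‖z‖ ^ (-(n + 1)) + ‖z‖ ^ (-(D + 1))) := by positivity
  have h2 : 0 ≤ (if ‖z‖ < 2 * ‖y‖ then
      A * ((‖z‖ ^ (-n) + ‖z‖ ^ (-D)) + (‖y + z‖ ^ (-n) + ‖y + z‖ ^ (-D))) else 0) := by
    split_ifs
    · positivity
    · exact le_rfl
  linarith

omit [NormedSpace ℝ E] [FiniteDimensional ℝ E] in
lemma anB2_abs_le {A n d D : ℝ} (hA : 0 ≤ A) (hnd : n ≤ d) (hdD : d ≤ D) {g : E → ℝ} {x : E}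
    (hg0 : g 0 = 0) (hg : x ≠ 0 → |g x| ≤ A * ‖x‖ ^ (-d)) :
    |g x| ≤ A * (‖x‖ ^ (-n) + ‖x‖ ^ (-D)) := by
  by_cases h : x = 0
  · rw [h, hg0, abs_zero]; positivity
  · refine (hg h).trans (mul_le_mul_of_nonneg_left ?_ hA)
    exact anB2_rpow_neg_le (norm_pos_iff.mpr h) hnd hdD

omit [NormedSpace ℝ E] [FiniteDimensional ℝ E] in
/-- The termwise estimate. -/
lemma anB2_termwise {A B n d D : ℝ} (hA : 0 ≤ A) (hB : 0 ≤ B) (hnd : n ≤ d) (hdD : d ≤ D)
    {g : E → ℝ} {y z : E} (hg0 : g 0 = 0)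
    (hgz : z ≠ 0 → |g z| ≤ A * ‖z‖ ^ (-d))
    (hgyz : y + z ≠ 0 → |g (y + z)| ≤ A * ‖y + z‖ ^ (-d))
    (hlip : 2 * ‖y‖ ≤ ‖z‖ → |g (z + y) - g z| ≤ B * ‖y‖ * ‖z‖ ^ (-d - 1)) :
    |g (y + z) - g z| ≤ anB2_weight A B n D y z := by
  rcases lt_or_ge ‖z‖ (2 * ‖y‖) with h | h
  · -- small `z`
    have h1 := anB2_abs_le hA hnd hdD hg0 hgz
    have h2 := anB2_abs_le hA hnd hdD hg0 hgyz
    have h3 : 0 ≤ B * ‖y‖ * (‖z‖ ^ (-(n + 1)) + ‖z‖ ^ (-(D + 1))) := by positivity
    have h4 := abs_sub (g (y + z)) (g z)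
    unfold anB2_weight
    rw [if_pos h]
    linarith
  · -- large `z`
    unfold anB2_weight
    rw [if_neg (not_lt.mpr h), add_zero]
    by_cases hz : z = 0
    · subst hz
      have hy : y = 0 := by
        rw [norm_zero] at h
        have : ‖y‖ ≤ 0 := by linarith
        exact norm_le_zero_iff.mp this
      subst hy
      simp only [add_zero, sub_self, abs_zero]
      positivity
    · have hzpos : 0 < ‖z‖ := norm_pos_iff.mpr hz
      rw [add_comm y z]
      refine (hlip h).trans ?_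
      have := anB2_rpow_neg_le (t := ‖z‖) (n := n + 1) (d := d + 1) (D := D + 1) hzpos
        (by linarith) (by linarith)
      have e : (-d - 1 : ℝ) = -(d + 1) := by ring
      rw [e]
      exact mul_le_mul_of_nonneg_left this (by positivity)

end Shift

section Main

variable {E : Type*} [NormedAddCommGroup E] [NormedSpace ℝ E] [FiniteDimensional ℝ E]

/-- The subgroup of `L` corresponding to a submodule `L'` of `E`. -/
def anB2_sub (L L' : Submodule ℤ E) : AddSubgroup L :=
  L'.toAddSubgroup.comap (L.subtype : L →ₗ[ℤ] E).toAddMonoidHom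

omit [NormedSpace ℝ E] [FiniteDimensional ℝ E] in
lemma anB2_mem_sub {L L' : Submodule ℤ E} (x : L) : x ∈ anB2_sub L L' ↔ (x : E) ∈ L' := Iff.rfl

/-- The bijection between the subgroup `anB2_sub L L'` of `L` and `L'` (for `L' ≤ L`). -/
def anB2_subEquiv {L L' : Submodule ℤ E} (hle : L' ≤ L) : anB2_sub L L' ≃ L' where
  toFun h := ⟨((h : L) : E), h.2⟩
  invFun z := ⟨⟨(z : E), hle z.2⟩, z.2⟩
  left_inv _ := rfl
  right_inv _ := rfl

/-- **Coset comparison.**  Let `L' ≤ L` be discrete subgroups of `E` with `[L : L'] = m` finite.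
For a function `g` which decays like `‖x‖ ^ (-d)` and is Lipschitz at scale `‖x‖` with constant
`‖x‖ ^ (-d-1)` on `L`, the sum of `g` over `L` is `m` times the sum over `L'` up to a bounded
error, uniformly in `g` and in the exponent `d ∈ (n, D]`. -/
theorem anB2_coset_compare (L L' : Submodule ℤ E) [DiscreteTopology L] (hle : L' ≤ L)
    (hfin : (anB2_sub L L').index ≠ 0) (A B n D : ℝ) (hA : 0 ≤ A) (hB : 0 ≤ B)
    (hn : (Module.finrank ℤ L : ℝ) ≤ n) (hn' : (Module.finrank ℤ L' : ℝ) ≤ n) :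
    ∃ M : ℝ, ∀ (g : E → ℝ) (d : ℝ), n < d → d ≤ D → g 0 = 0 →
      (∀ x ∈ L, x ≠ 0 → |g x| ≤ A * ‖x‖ ^ (-d)) →
      (∀ x ∈ L, ∀ y ∈ L, 2 * ‖y‖ ≤ ‖x‖ → |g (x + y) - g x| ≤ B * ‖y‖ * ‖x‖ ^ (-d - 1)) →
      Summable (fun x : L => g x) ∧ Summable (fun x : L' => g x) ∧
      |(∑' x : L, g x) - ((anB2_sub L L').index : ℝ) * ∑' x : L', g x| ≤ M := by
  classical
  have : DiscreteTopology L' := DiscreteTopology.of_subset (s := (L : Set E)) inferInstance hle
  have : (anB2_sub L L').FiniteIndex := ⟨hfin⟩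
  let _ : Fintype (L ⧸ anB2_sub L L') := AddSubgroup.fintypeQuotientOfFiniteIndex
  refine ⟨∑ q : L ⧸ anB2_sub L L', ∑' z : L', anB2_weight A B n D ((q.out : L) : E) (z : E), ?_⟩
  intro g d hnd hdD hg0 hgA hgB
  have hsumL : Summable (fun x : L => g x) := by
    refine Summable.of_norm_bounded
      ((ZLattice.summable_norm_rpow L (-d) (by linarith)).mul_left A) (fun x => ?_)
    rw [Real.norm_eq_abs]
    by_cases hx : (x : E) = 0
    · rw [hx, hg0, abs_zero]; positivity
    · exact hgA x x.2 hx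
  have hsumL' : Summable (fun x : L' => g x) := by
    refine Summable.of_norm_bounded
      ((ZLattice.summable_norm_rpow L' (-d) (by linarith)).mul_left A) (fun x => ?_)
    rw [Real.norm_eq_abs]
    by_cases hx : (x : E) = 0
    · rw [hx, hg0, abs_zero]; positivity
    · exact hgA x (hle x.2) hx
  refine ⟨hsumL, hsumL', ?_⟩
  -- decompose the sum over `L` along cosets
  have h1 := anB2_tsum_cosets (anB2_sub L L') (fun x : L => g x) hsumL
  -- sums over the subgroup are sums over `L'`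
  have h2 : ∀ q : L ⧸ anB2_sub L L',
      ∑' h : anB2_sub L L', g (((q.out + (h : L) : L)) : E)
        = ∑' z : L', g (((q.out : L) : E) + (z : E)) :=
    fun q => (anB2_subEquiv hle).tsum_eq (fun z : L' => g (((q.out : L) : E) + (z : E)))
  have h3 : ((anB2_sub L L').index : ℝ) * ∑' x : L', g x
      = ∑ _q : L ⧸ anB2_sub L L', ∑' z : L', g (z : E) := by
    rw [Finset.sum_const, Finset.card_univ, nsmul_eq_mul, AddSubgroup.index,
      Nat.card_eq_fintype_card]
  rw [h1, h3, ← Finset.sum_sub_distrib]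
  refine (Finset.abs_sum_le_sum_abs _ _).trans (Finset.sum_le_sum fun q _ => ?_)
  rw [h2 q]
  -- summability of the shifted sum
  have hshift : Summable (fun z : L' => g (((q.out : L) : E) + (z : E))) := by
    have := (anB2_subEquiv hle).summable_iff (f := fun z : L' => g (((q.out : L) : E) + (z : E)))
    rw [← this]
    have hs := (anB2_cosetEquiv (anB2_sub L L')).symm.summable_iff.mpr hsumL
    exact (hs.prod_factor q)
  rw [← hshift.tsum_sub hsumL']
  have hW := anB2_summable_weight L' A B n D hn' (hnd.le.trans hdD) ((q.out : L) : E)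
  rw [← Real.norm_eq_abs]
  refine tsum_of_norm_bounded hW.hasSum (fun z => ?_)
  rw [Real.norm_eq_abs]
  have hq : ((q.out : L) : E) ∈ L := (q.out : L).2
  have hz : (z : E) ∈ L := hle z.2
  exact anB2_termwise hA hB hnd.le hdD hg0 (hgA _ hz) (hgA _ (L.add_mem hq hz))
    (hgB _ hz _ hq)

omit [NormedSpace ℝ E] [FiniteDimensional ℝ E] in
/-- The index of `anB2_sub L L'` is the relative index of `L'` in `L`. -/
lemma anB2_index_eq_relIndex (L L' : Submodule ℤ E) :
    (anB2_sub L L').index = L'.toAddSubgroup.relIndex L.toAddSubgroup := rfl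

/-- Variant of `anB2_coset_compare` for full lattices: `n = dim E`, `D = 2 dim E`, and the index
given as a relative index. -/
theorem anB2_coset_compare' (L L' : Submodule ℤ E) [DiscreteTopology L] [IsZLattice ℝ L]
    (hle : L' ≤ L) (m : ℕ) (hm : L'.toAddSubgroup.relIndex L.toAddSubgroup = m) (hm0 : m ≠ 0)
    (A B : ℝ) (hA : 0 ≤ A) (hB : 0 ≤ B) :
    ∃ M : ℝ, ∀ (g : E → ℝ) (d : ℝ), (Module.finrank ℝ E : ℝ) < d →
      d ≤ 2 * Module.finrank ℝ E → g 0 = 0 →
      (∀ x ∈ L, x ≠ 0 → |g x| ≤ A * ‖x‖ ^ (-d)) →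
      (∀ x ∈ L, ∀ y ∈ L, 2 * ‖y‖ ≤ ‖x‖ → |g (x + y) - g x| ≤ B * ‖y‖ * ‖x‖ ^ (-d - 1)) →
      Summable (fun x : L => g x) ∧ Summable (fun x : L' => g x) ∧
      |(∑' x : L, g x) - (m : ℝ) * ∑' x : L', g x| ≤ M := by
  have hrk : Module.finrank ℤ L = Module.finrank ℝ E := ZLattice.rank ℝ L
  have hrk' : Module.finrank ℤ L' ≤ Module.finrank ℤ L := by
    have : Module.Finite ℤ L := ZLattice.module_finite ℝ L
    exact Submodule.finrank_mono hle
  have hidx : (anB2_sub L L').index = m := by rw [anB2_index_eq_relIndex, hm]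
  obtain ⟨M, hM⟩ := anB2_coset_compare L L' hle (by rw [hidx]; exact hm0) A B
    (Module.finrank ℝ E) (2 * Module.finrank ℝ E) hA hB (by rw [hrk])
    (by rw [← hrk]; exact_mod_cast hrk')
  refine ⟨M, fun g d h1 h2 h3 h4 h5 => ?_⟩
  have := hM g d h1 h2 h3 h4 h5
  rwa [hidx] at this

end Main

end Fermat.Agent.S14
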