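import Mathlib
import Fermat.Agent.S14.CosetCompare

/-
S14 / AN-B4 (endgame, abstract part): boundedness on `(1, 2]` of the `L`-series of a nontrivial
class group character of a number field, from
* (AN-B1) decay + Lipschitz estimate of a weight `g s` on the ideal lattices (`anB4_IsLipWeight`),
* (AN-B3) the orbit bookkeeping `Z_C(s) = N(J)^s * ∑_{x ∈ lattice(J)} g s x` (`anB4_IsZetaWeight`),
* the bound `ζ_K(s) ≤ c / (s - 1)` (`anB4_ZetaBound`),
via the coset comparison (AN-B2) of `Fermat.Agent.S14.CosetCompare`.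
Main results: `anB4_relIndex_idealLattice`, `anB4_compare`, `anB4_Z_sub_Z`, `anB4_L_eq_sum`,
`anB4_lbound`.
-/

set_option autoImplicit false

namespace Fermat.Agent.S14

open NumberField NumberField.mixedEmbedding
open scoped nonZeroDivisors Classical

variable (K : Type*) [Field K] [NumberField K]

/-- The additive embedding `𝓞 K → mixedSpace K`. -/
noncomputable def anB4_emb : 𝓞 K →+ mixedSpace K :=
  (mixedEmbedding K).toAddMonoidHom.comp (algebraMap (𝓞 K) K).toAddMonoidHom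

omit [NumberField K] in
lemma anB4_emb_apply (x : 𝓞 K) : anB4_emb K x = mixedEmbedding K (x : K) := rfl

lemma anB4_emb_injective : Function.Injective (anB4_emb K) := by
  intro x y h
  have := (mixedEmbedding_injective K) h
  exact RingOfIntegers.ext this

/-- The lattice of an integral ideal is the image of the ideal. -/
lemma anB4_idealLattice_eq_map (J : (Ideal (𝓞 K))⁰) :
    (idealLattice K (FractionalIdeal.mk0 K J)).toAddSubgroup
      = (J : Ideal (𝓞 K)).toAddSubgroup.map (anB4_emb K) := by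
  ext x
  simp only [Submodule.mem_toAddSubgroup, mem_idealLattice, FractionalIdeal.coe_mk0,
    AddSubgroup.mem_map, SetLike.mem_coe]
  constructor
  · rintro ⟨y, hy, rfl⟩
    obtain ⟨z, hz, rfl⟩ := (FractionalIdeal.mem_coeIdeal _).mp hy
    exact ⟨z, hz, rfl⟩
  · rintro ⟨z, hz, rfl⟩
    exact ⟨(z : K), (FractionalIdeal.mem_coeIdeal _).mpr ⟨z, hz, rfl⟩, rfl⟩

omit [NumberField K] in
lemma anB4_mul_le (J J' : (Ideal (𝓞 K))⁰) :
    ((J * J' : (Ideal (𝓞 K))⁰) : Ideal (𝓞 K)).toAddSubgroup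
      ≤ (J : Ideal (𝓞 K)).toAddSubgroup := by
  rw [Submodule.toAddSubgroup_le, Submonoid.coe_mul]
  exact Ideal.mul_le_left

lemma anB4_idealLattice_le (J J' : (Ideal (𝓞 K))⁰) :
    idealLattice K (FractionalIdeal.mk0 K (J * J')) ≤ idealLattice K (FractionalIdeal.mk0 K J) := by
  rw [← Submodule.toAddSubgroup_le, anB4_idealLattice_eq_map, anB4_idealLattice_eq_map]
  exact AddSubgroup.map_mono (anB4_mul_le K J J')

/-- The index of the lattice of `J * J'` in the lattice of `J` is the norm of `J'`. -/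
lemma anB4_relIndex_idealLattice (J J' : (Ideal (𝓞 K))⁰) :
    (idealLattice K (FractionalIdeal.mk0 K (J * J'))).toAddSubgroup.relIndex
      (idealLattice K (FractionalIdeal.mk0 K J)).toAddSubgroup
      = Ideal.absNorm (J' : Ideal (𝓞 K)) := by
  rw [anB4_idealLattice_eq_map, anB4_idealLattice_eq_map,
    AddSubgroup.relIndex_map_map_of_injective _ _ (anB4_emb_injective K)]
  have h1 := AddSubgroup.relIndex_mul_index (anB4_mul_le K J J')
  have hidx : ∀ I : Ideal (𝓞 K), I.toAddSubgroup.index = Ideal.absNorm I := fun I => by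
    rw [Ideal.absNorm_apply, Submodule.cardQuot_apply]
    rfl
  rw [hidx, hidx, Submonoid.coe_mul, map_mul, mul_comm] at h1
  exact Nat.eq_of_mul_eq_mul_left
    (Nat.pos_of_ne_zero (Ideal.absNorm_ne_zero_of_nonZeroDivisors J)) h1

/-! ### The hypotheses coming from (AN-B1) and (AN-B3) -/

/-- The norm of a nonzero ideal, as a real number. -/
noncomputable def anB4_N (I : (Ideal (𝓞 K))⁰) : ℝ := (Ideal.absNorm (I : Ideal (𝓞 K)) : ℝ)

/-- The partial zeta function of an ideal class. -/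
noncomputable def anB4_Z (C : ClassGroup (𝓞 K)) (s : ℝ) : ℝ :=
  ∑' I : {I : (Ideal (𝓞 K))⁰ // ClassGroup.mk0 I = C}, anB4_N K (I : (Ideal (𝓞 K))⁰) ^ (-s)

/-- The lattice sum of the weight `g s` over the lattice of the ideal `J`. -/
noncomputable def anB4_S (g : ℝ → mixedSpace K → ℝ) (J : (Ideal (𝓞 K))⁰) (s : ℝ) : ℝ :=
  ∑' x : idealLattice K (FractionalIdeal.mk0 K J), g s (x : mixedSpace K)

/-- (AN-B1): decay and Lipschitz estimate for the weight, uniformly in `s ∈ (1, 2]`, on the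
lattice of every ideal. -/
def anB4_IsLipWeight (g : ℝ → mixedSpace K → ℝ) : Prop :=
  (∀ s, g s 0 = 0) ∧
  ∀ J : (Ideal (𝓞 K))⁰, ∃ A B : ℝ, 0 ≤ A ∧ 0 ≤ B ∧ ∀ s : ℝ, 1 < s → s ≤ 2 →
    (∀ x ∈ idealLattice K (FractionalIdeal.mk0 K J), x ≠ 0 →
      |g s x| ≤ A * ‖x‖ ^ (-((Module.finrank ℚ K : ℝ) * s))) ∧
    (∀ x ∈ idealLattice K (FractionalIdeal.mk0 K J),
      ∀ y ∈ idealLattice K (FractionalIdeal.mk0 K J), 2 * ‖y‖ ≤ ‖x‖ →
      |g s (x + y) - g s x| ≤ B * ‖y‖ * ‖x‖ ^ (-((Module.finrank ℚ K : ℝ) * s) - 1))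

/-- (AN-B3): the partial zeta function of the class `C` is a lattice sum over any ideal `J` in
the inverse class. -/
def anB4_IsZetaWeight (g : ℝ → mixedSpace K → ℝ) : Prop :=
  ∀ (C : ClassGroup (𝓞 K)) (J : (Ideal (𝓞 K))⁰), ClassGroup.mk0 J = C⁻¹ →
    ∀ s : ℝ, 1 < s → s ≤ 2 → anB4_Z K C s = anB4_N K J ^ s * anB4_S K g J s

/-- Bound for the full zeta function on `(1, 2]`. -/
def anB4_ZetaBound : Prop :=
  ∃ c : ℝ, ∀ s : ℝ, 1 < s → s ≤ 2 →
    Summable (fun I : (Ideal (𝓞 K))⁰ => anB4_N K I ^ (-s)) ∧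
    ∑' I : (Ideal (𝓞 K))⁰, anB4_N K I ^ (-s) ≤ c / (s - 1)

/-! ### Step 1: coset comparison for ideal lattices -/

lemma anB4_finrank_pos : 0 < (Module.finrank ℚ K : ℝ) := by
  exact_mod_cast Module.finrank_pos

lemma anB4_N_pos (I : (Ideal (𝓞 K))⁰) : 0 < anB4_N K I := by
  unfold anB4_N
  exact_mod_cast Nat.pos_of_ne_zero (Ideal.absNorm_ne_zero_of_nonZeroDivisors I)

lemma anB4_one_le_N (I : (Ideal (𝓞 K))⁰) : 1 ≤ anB4_N K I := by
  unfold anB4_N
  exact_mod_cast Nat.pos_of_ne_zero (Ideal.absNorm_ne_zero_of_nonZeroDivisors I)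

lemma anB4_N_mul (I J : (Ideal (𝓞 K))⁰) : anB4_N K (I * J) = anB4_N K I * anB4_N K J := by
  unfold anB4_N
  rw [Submonoid.coe_mul, map_mul, Nat.cast_mul]

lemma anB4_compare {g : ℝ → mixedSpace K → ℝ} (hg : anB4_IsLipWeight K g)
    (J J' : (Ideal (𝓞 K))⁰) :
    ∃ M : ℝ, ∀ s : ℝ, 1 < s → s ≤ 2 →
      |anB4_S K g J s - anB4_N K J' * anB4_S K g (J * J') s| ≤ M := by
  obtain ⟨hg0, hL⟩ := hg
  obtain ⟨A, B, hA, hB, hAB⟩ := hL J
  obtain ⟨M, hM⟩ := anB2_coset_compare' (idealLattice K (FractionalIdeal.mk0 K J))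
    (idealLattice K (FractionalIdeal.mk0 K (J * J'))) (anB4_idealLattice_le K J J')
    (Ideal.absNorm (J' : Ideal (𝓞 K))) (anB4_relIndex_idealLattice K J J')
    (Ideal.absNorm_ne_zero_of_nonZeroDivisors J') A B hA hB
  refine ⟨M, fun s hs1 hs2 => ?_⟩
  obtain ⟨h1, h2⟩ := hAB s hs1 hs2
  have hn := anB4_finrank_pos K
  have hfr : (Module.finrank ℝ (mixedSpace K) : ℝ) = (Module.finrank ℚ K : ℝ) := by
    rw [mixedEmbedding.finrank]
  exact (hM (g s) ((Module.finrank ℚ K : ℝ) * s) (by rw [hfr]; nlinarith)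
    (by rw [hfr]; nlinarith) (hg0 s) h1 h2).2.2

/-! ### Step 2: two partial zeta functions differ by a bounded amount -/

/-- For `a ≥ 1` and `1 < s ≤ 2`: `0 ≤ a ^ (s - 1) - 1 ≤ (s - 1) * a`. -/
lemma anB4_rpow_sub_one {a s : ℝ} (ha : 1 ≤ a) (hs1 : 1 < s) (hs2 : s ≤ 2) :
    1 ≤ a ^ (s - 1) ∧ a ^ (s - 1) - 1 ≤ (s - 1) * a := by
  constructor
  · exact Real.one_le_rpow ha (by linarith)
  · have h := rpow_one_add_le_one_add_mul_self (s := a - 1) (by linarith) (p := s - 1)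
      (by linarith) (by linarith)
    rw [show (1 : ℝ) + (a - 1) = a by ring] at h
    have : (s - 1) * (a - 1) ≤ (s - 1) * a := by nlinarith
    linarith

lemma anB4_Z_nonneg (C : ClassGroup (𝓞 K)) (s : ℝ) : 0 ≤ anB4_Z K C s :=
  tsum_nonneg fun _ => Real.rpow_nonneg (anB4_N_pos K _).le _

lemma anB4_Z_le {c s : ℝ} (C : ClassGroup (𝓞 K))
    (hsum : Summable (fun I : (Ideal (𝓞 K))⁰ => anB4_N K I ^ (-s)))
    (hle : ∑' I : (Ideal (𝓞 K))⁰, anB4_N K I ^ (-s) ≤ c) : anB4_Z K C s ≤ c := by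
  refine le_trans ?_ hle
  exact tsum_comp_le_tsum_of_inj hsum (fun I => Real.rpow_nonneg (anB4_N_pos K _).le _)
    Subtype.val_injective

/-- Two partial zeta functions differ by a bounded amount on `(1, 2]`. -/
theorem anB4_Z_sub_Z {g : ℝ → mixedSpace K → ℝ} (hg : anB4_IsLipWeight K g)
    (hZ : anB4_IsZetaWeight K g) (hzeta : anB4_ZetaBound K) (C C' : ClassGroup (𝓞 K)) :
    ∃ M : ℝ, ∀ s : ℝ, 1 < s → s ≤ 2 → |anB4_Z K C s - anB4_Z K C' s| ≤ M := by
  obtain ⟨J, hJ⟩ := ClassGroup.mk0_surjective C⁻¹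
  obtain ⟨J', hJ'⟩ := ClassGroup.mk0_surjective C'⁻¹
  obtain ⟨M₁, hM₁⟩ := anB4_compare K hg J J'
  obtain ⟨M₂, hM₂⟩ := anB4_compare K hg J' J
  obtain ⟨c, hc⟩ := hzeta
  set a := anB4_N K J with ha_def
  set b := anB4_N K J' with hb_def
  have ha : 1 ≤ a := anB4_one_le_N K J
  have hb : 1 ≤ b := anB4_one_le_N K J'
  refine ⟨|c| * (a + b) + a ^ 2 * |M₁| + b ^ 2 * |M₂|, fun s hs1 hs2 => ?_⟩
  have h1 := hM₁ s hs1 hs2
  have h2 := hM₂ s hs1 hs2
  rw [mul_comm J' J] at h2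
  set SP := anB4_S K g (J * J') s with hSP
  have hZC := hZ C J hJ s hs1 hs2
  have hZC' := hZ C' J' hJ' s hs1 hs2
  have hZP := hZ (ClassGroup.mk0 (J * J'))⁻¹ (J * J') (inv_inv _).symm s hs1 hs2
  rw [anB4_N_mul, ← ha_def, ← hb_def] at hZP
  obtain ⟨hsum, hle⟩ := hc s hs1 hs2
  have hT := anB4_Z_le K (ClassGroup.mk0 (J * J'))⁻¹ hsum hle
  have hT0 := anB4_Z_nonneg K (ClassGroup.mk0 (J * J'))⁻¹ s
  set T := anB4_Z K (ClassGroup.mk0 (J * J'))⁻¹ s with hT_def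
  have hs0 : 0 < s - 1 := by linarith
  have hapos : 0 < a := by linarith
  have hbpos : 0 < b := by linarith
  -- powers
  have has : a ^ s = a ^ (s - 1) * a := by
    rw [Real.rpow_sub_one hapos.ne', div_mul_cancel₀ _ hapos.ne']
  have hbs : b ^ s = b ^ (s - 1) * b := by
    rw [Real.rpow_sub_one hbpos.ne', div_mul_cancel₀ _ hbpos.ne']
  obtain ⟨ha1, ha2⟩ := anB4_rpow_sub_one ha hs1 hs2
  obtain ⟨hb1, hb2⟩ := anB4_rpow_sub_one hb hs1 hs2
  have hab_s : (a * b) ^ s = a ^ s * b ^ s := Real.mul_rpow hapos.le hbpos.le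
  -- `SP * a * b ≤ T`
  have hSPT : SP * (a * b) * (a ^ (s - 1) * b ^ (s - 1)) = T := by
    rw [hZP, hab_s, has, hbs]; ring
  have hSPab_nonneg : 0 ≤ SP * (a * b) := by
    by_contra hneg
    push Not at hneg
    have : SP * (a * b) * (a ^ (s - 1) * b ^ (s - 1)) < 0 :=
      mul_neg_of_neg_of_pos hneg (by positivity)
    linarith
  have hSPab_le : SP * (a * b) ≤ T := by
    have h1' : 1 ≤ a ^ (s - 1) * b ^ (s - 1) := by nlinarith
    calc SP * (a * b) ≤ SP * (a * b) * (a ^ (s - 1) * b ^ (s - 1)) :=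
          le_mul_of_one_le_right hSPab_nonneg h1'
      _ = T := hSPT
  have hTc : T ≤ |c| / (s - 1) := hT.trans (div_le_div_of_nonneg_right (le_abs_self c) hs0.le)
  -- the main identity
  have hid : anB4_Z K C s - anB4_Z K C' s
      = SP * (a * b) * (a ^ (s - 1) - b ^ (s - 1))
        + a ^ s * (anB4_S K g J s - b * SP) - b ^ s * (anB4_S K g J' s - a * SP) := by
    rw [hZC, hZC', has, hbs]; ring
  rw [hid]
  have hdiff : |a ^ (s - 1) - b ^ (s - 1)| ≤ (s - 1) * (a + b) := by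
    rw [abs_le]
    constructor <;> nlinarith
  have e1 : |SP * (a * b) * (a ^ (s - 1) - b ^ (s - 1))| ≤ |c| * (a + b) := by
    rw [abs_mul, abs_of_nonneg hSPab_nonneg]
    calc SP * (a * b) * |a ^ (s - 1) - b ^ (s - 1)|
        ≤ (|c| / (s - 1)) * ((s - 1) * (a + b)) :=
          mul_le_mul (hSPab_le.trans hTc) hdiff (abs_nonneg _) (by positivity)
      _ = |c| * (a + b) := by field_simp
  have has2 : a ^ s ≤ a ^ 2 := by
    have := Real.rpow_le_rpow_of_exponent_le ha hs2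
    simpa using this
  have hbs2 : b ^ s ≤ b ^ 2 := by
    have := Real.rpow_le_rpow_of_exponent_le hb hs2
    simpa using this
  have e2 : |a ^ s * (anB4_S K g J s - b * SP)| ≤ a ^ 2 * |M₁| := by
    rw [abs_mul, abs_of_nonneg (Real.rpow_nonneg hapos.le s)]
    exact mul_le_mul has2 (h1.trans (le_abs_self _)) (abs_nonneg _) (by positivity)
  have e3 : |b ^ s * (anB4_S K g J' s - a * SP)| ≤ b ^ 2 * |M₂| := by
    rw [abs_mul, abs_of_nonneg (Real.rpow_nonneg hbpos.le s)]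
    exact mul_le_mul hbs2 (h2.trans (le_abs_self _)) (abs_nonneg _) (by positivity)
  calc |SP * (a * b) * (a ^ (s - 1) - b ^ (s - 1))
        + a ^ s * (anB4_S K g J s - b * SP) - b ^ s * (anB4_S K g J' s - a * SP)|
      ≤ |SP * (a * b) * (a ^ (s - 1) - b ^ (s - 1))|
        + |a ^ s * (anB4_S K g J s - b * SP)| + |b ^ s * (anB4_S K g J' s - a * SP)| := by
        refine (abs_sub _ _).trans ?_
        gcongr
        exact abs_add_le _ _
    _ ≤ |c| * (a + b) + a ^ 2 * |M₁| + b ^ 2 * |M₂| := by linarith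

/-! ### Step 3: boundedness of the `L`-function of a nontrivial class group character -/

lemma anB4_norm_char (ψ : ClassGroup (𝓞 K) →* ℂˣ) (x : ClassGroup (𝓞 K)) :
    ‖((ψ x : ℂˣ) : ℂ)‖ = 1 := by
  have h : ((ψ x : ℂˣ) : ℂ) ^ Fintype.card (ClassGroup (𝓞 K)) = 1 := by
    rw [← Units.val_pow_eq_pow_val, ← map_pow, pow_card_eq_one, map_one, Units.val_one]
  exact Complex.norm_eq_one_of_pow_eq_one h Fintype.card_ne_zero

/-- The `L`-series of a class group character at a real point `s`. -/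
noncomputable def anB4_L (ψ : ClassGroup (𝓞 K) →* ℂˣ) (s : ℝ) : ℂ :=
  ∑' I : (Ideal (𝓞 K))⁰, ((ψ (ClassGroup.mk0 I) : ℂˣ) : ℂ) * ((anB4_N K I ^ (-s) : ℝ) : ℂ)

/-- The `L`-series is the sum over the classes of the partial zeta functions. -/
lemma anB4_L_eq_sum (ψ : ClassGroup (𝓞 K) →* ℂˣ) {s : ℝ}
    (hsum : Summable (fun I : (Ideal (𝓞 K))⁰ => anB4_N K I ^ (-s))) :
    anB4_L K ψ s = ∑ C : ClassGroup (𝓞 K), ((ψ C : ℂˣ) : ℂ) * ((anB4_Z K C s : ℝ) : ℂ) := by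
  unfold anB4_L
  set f : (Ideal (𝓞 K))⁰ → ℂ :=
    fun I => ((ψ (ClassGroup.mk0 I) : ℂˣ) : ℂ) * ((anB4_N K I ^ (-s) : ℝ) : ℂ) with hf
  have hfs : Summable f := by
    refine Summable.of_norm_bounded hsum (fun I => ?_)
    rw [hf, norm_mul, anB4_norm_char, one_mul, Complex.norm_real, Real.norm_eq_abs,
      abs_of_nonneg (Real.rpow_nonneg (anB4_N_pos K I).le _)]
  let e := Equiv.sigmaFiberEquiv (fun I : (Ideal (𝓞 K))⁰ => ClassGroup.mk0 I)
  rw [← e.tsum_eq f]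
  have hfs' : Summable (fun p => f (e p)) := e.summable_iff.mpr hfs
  rw [hfs'.tsum_sigma, tsum_fintype]
  refine Finset.sum_congr rfl (fun C _ => ?_)
  unfold anB4_Z
  rw [Complex.ofReal_tsum, ← tsum_mul_left]
  refine tsum_congr (fun I => ?_)
  show f (I : (Ideal (𝓞 K))⁰) = _
  rw [hf]
  simp only
  rw [I.2]

/-- **Boundedness of class group `L`-functions** on `(1, 2]`, from the Lipschitz estimate (AN-B1),
the orbit bookkeeping (AN-B3) and the bound for the full zeta function. -/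
theorem anB4_lbound {g : ℝ → mixedSpace K → ℝ} (hg : anB4_IsLipWeight K g)
    (hZ : anB4_IsZetaWeight K g) (hzeta : anB4_ZetaBound K)
    (ψ : ClassGroup (𝓞 K) →* ℂˣ) (hψ : ψ ≠ 1) :
    ∃ M : ℝ, ∀ s : ℝ, 1 < s → s ≤ 2 → ‖anB4_L K ψ s‖ ≤ M := by
  choose M hM using fun C => anB4_Z_sub_Z K hg hZ hzeta C 1
  refine ⟨∑ C : ClassGroup (𝓞 K), M C, fun s hs1 hs2 => ?_⟩
  obtain ⟨c, hc⟩ := hzeta
  obtain ⟨hsum, -⟩ := hc s hs1 hs2
  rw [anB4_L_eq_sum K ψ hsum]
  -- orthogonality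
  have horth : ∑ C : ClassGroup (𝓞 K), ((ψ C : ℂˣ) : ℂ) = 0 := by
    have h := sum_hom_units_eq_zero ((Units.coeHom ℂ).comp ψ) (by
      intro h
      apply hψ
      ext x
      have := DFunLike.congr_fun h x
      simpa using this)
    simpa using h
  have hrew : ∑ C : ClassGroup (𝓞 K), ((ψ C : ℂˣ) : ℂ) * ((anB4_Z K C s : ℝ) : ℂ)
      = ∑ C : ClassGroup (𝓞 K),
          ((ψ C : ℂˣ) : ℂ) * (((anB4_Z K C s - anB4_Z K 1 s : ℝ)) : ℂ) := by
    have : ∑ C : ClassGroup (𝓞 K), ((ψ C : ℂˣ) : ℂ) * (((anB4_Z K C s - anB4_Z K 1 s : ℝ)) : ℂ)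
        = ∑ C : ClassGroup (𝓞 K), ((ψ C : ℂˣ) : ℂ) * ((anB4_Z K C s : ℝ) : ℂ)
          - (∑ C : ClassGroup (𝓞 K), ((ψ C : ℂˣ) : ℂ)) * ((anB4_Z K 1 s : ℝ) : ℂ) := by
      rw [Finset.sum_mul, ← Finset.sum_sub_distrib]
      refine Finset.sum_congr rfl (fun C _ => ?_)
      push_cast
      ring
    rw [this, horth, zero_mul, sub_zero]
  rw [hrew]
  refine (norm_sum_le _ _).trans (Finset.sum_le_sum fun C _ => ?_)
  rw [norm_mul, anB4_norm_char, one_mul, Complex.norm_real, Real.norm_eq_abs]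
  exact hM C s hs1 hs2

end Fermat.Agent.S14
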