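import Mathlib
import Fermat.Agent.S14.LBoundAlg
import Fermat.Agent.S14.EulerLogChar

/-!
# S14 / AN: glue between the `L`-bound (AN-B4, `anB4_lbound`) and `AnalyticStatement`

* `anLog_zetaBound K : anB4_ZetaBound K` (the third hypothesis of `anB4_lbound`);
* `anLog_anB4_L_eq : anB4_L K ψ s = anA_L K ψ s`;
* `anLog_lbound_of_weights`: the `L`-bound `AnLogLBoundStatement` from a weight satisfying
  (AN-B1) `anB4_IsLipWeight` and (AN-B3) `anB4_IsZetaWeight` for every number field;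
* `anLog_analytic_of_weights`: hence `AnalyticStatement`.
-/

namespace Fermat.Agent.S14

open NumberField NumberField.mixedEmbedding
open scoped nonZeroDivisors

/-- `ζ_K(s) ≤ c / (s - 1)` on `(1, 2]`, in the shape used by `anB4_lbound`. -/
theorem anLog_zetaBound (K : Type*) [Field K] [NumberField K] : anB4_ZetaBound K := by
  obtain ⟨c, -, hc⟩ := anLog_zeta_le_div K
  exact ⟨c, fun s hs1 hs2 => ⟨anLog_summable_ideal K hs1, hc s hs1 hs2⟩⟩

theorem anLog_anB4_L_eq (K : Type) [Field K] [NumberField K] (ψ : ClassGroup (𝓞 K) →* ℂˣ)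
    (s : ℝ) : anB4_L K ψ s = anA_L K ψ s := rfl

/-- The `L`-bound from (AN-B1) and (AN-B3). -/
theorem anLog_lbound_of_weights
    (h : ∀ (K : Type) [Field K] [NumberField K], ∃ g : ℝ → mixedSpace K → ℝ,
      anB4_IsLipWeight K g ∧ anB4_IsZetaWeight K g) : AnLogLBoundStatement := by
  intro K _ _ ψ hψ
  obtain ⟨g, hg, hZ⟩ := h K
  obtain ⟨M, hM⟩ := anB4_lbound K hg hZ (anLog_zetaBound K) ψ hψ
  exact ⟨M, fun s hs1 hs2 => (anLog_anB4_L_eq K ψ s) ▸ hM s hs1 hs2⟩

/-- `AnalyticStatement` from (AN-B1) and (AN-B3). -/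
theorem anLog_analytic_of_weights
    (h : ∀ (K : Type) [Field K] [NumberField K], ∃ g : ℝ → mixedSpace K → ℝ,
      anB4_IsLipWeight K g ∧ anB4_IsZetaWeight K g) : AnalyticStatement :=
  anLog_analytic_of_lbound (anLog_lbound_of_weights h)

end Fermat.Agent.S14
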