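import Mathlib

/-!
# S14 / AN-B1: the Lipschitz partition of unity `Φ` for the unit group (definitions)

`anB1_tent t = max 0 (1 - |t|)`, `anB1_Phi K x = ∏ i, tent (i-th coordinate of logMap x in the
basis of the unit lattice)` (and `0` if `norm x = 0`), `anB1_g K s x = Φ x * (norm x) ^ (-s)`.
-/

set_option autoImplicit false

noncomputable section

open NumberField NumberField.mixedEmbedding NumberField.Units
  NumberField.Units.dirichletUnitTheorem

namespace Fermat.Agent.S14

/-- The tent function. -/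
def anB1_tent (t : ℝ) : ℝ := max 0 (1 - |t|)

theorem anB1_tent_nonneg (t : ℝ) : 0 ≤ anB1_tent t := le_max_left _ _

theorem anB1_tent_le_one (t : ℝ) : anB1_tent t ≤ 1 := by
  unfold anB1_tent
  have := abs_nonneg t
  exact max_le (by norm_num) (by linarith)

theorem anB1_tent_eq_zero {t : ℝ} (h : 1 ≤ |t|) : anB1_tent t = 0 := by
  unfold anB1_tent
  exact max_eq_left (by linarith)

theorem anB1_abs_lt_one_of_tent_ne_zero {t : ℝ} (h : anB1_tent t ≠ 0) : |t| < 1 := by
  by_contra hc
  exact h (anB1_tent_eq_zero (not_lt.mp hc))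

theorem anB1_tent_lipschitz (a b : ℝ) : |anB1_tent a - anB1_tent b| ≤ |a - b| := by
  unfold anB1_tent
  have h1 : |max 0 (1 - |a|) - max 0 (1 - |b|)| ≤ |(1 - |a|) - (1 - |b|)| := by
    have := abs_max_sub_max_le_abs (1 - |a|) (1 - |b|) 0
    simpa [max_comm] using this
  have h2 : |(1 - |a|) - (1 - |b|)| = |(|b| - |a|)| := by
    congr 1; ring
  rw [h2] at h1
  have h3 : |(|b| - |a|)| ≤ |b - a| := abs_abs_sub_abs_le_abs_sub b a
  rw [abs_sub_comm b a] at h3
  exact h1.trans h3

/-- Products of tent functions are Lipschitz. -/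
theorem anB1_prod_tent_lipschitz {ι : Type*} (s : Finset ι) (a b : ι → ℝ) :
    |∏ i ∈ s, anB1_tent (a i) - ∏ i ∈ s, anB1_tent (b i)| ≤ ∑ i ∈ s, |a i - b i| := by
  classical
  induction s using Finset.induction_on with
  | empty => simp
  | insert j t hj ih =>
    rw [Finset.prod_insert hj, Finset.prod_insert hj, Finset.sum_insert hj]
    have hP : |∏ i ∈ t, anB1_tent (a i)| ≤ 1 := by
      rw [abs_of_nonneg (Finset.prod_nonneg fun i _ => anB1_tent_nonneg _)]
      exact Finset.prod_le_one (fun i _ => anB1_tent_nonneg _) (fun i _ => anB1_tent_le_one _)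
    have hQ : |anB1_tent (b j)| ≤ 1 := by
      rw [abs_of_nonneg (anB1_tent_nonneg _)]
      exact anB1_tent_le_one _
    calc |anB1_tent (a j) * ∏ i ∈ t, anB1_tent (a i) - anB1_tent (b j) * ∏ i ∈ t, anB1_tent (b i)|
        = |(anB1_tent (a j) - anB1_tent (b j)) * ∏ i ∈ t, anB1_tent (a i)
            + anB1_tent (b j) * (∏ i ∈ t, anB1_tent (a i) - ∏ i ∈ t, anB1_tent (b i))| := by
          congr 1; ring
      _ ≤ |anB1_tent (a j) - anB1_tent (b j)| * |∏ i ∈ t, anB1_tent (a i)|
            + |anB1_tent (b j)| * |∏ i ∈ t, anB1_tent (a i) - ∏ i ∈ t, anB1_tent (b i)| := by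
          refine (abs_add_le _ _).trans ?_
          rw [abs_mul, abs_mul]
      _ ≤ |a j - b j| * 1 + 1 * ∑ i ∈ t, |a i - b i| := by
          refine add_le_add ?_ ?_
          · exact mul_le_mul (anB1_tent_lipschitz _ _) hP (abs_nonneg _) (abs_nonneg _)
          · exact mul_le_mul hQ ih (abs_nonneg _) zero_le_one
      _ = |a j - b j| + ∑ i ∈ t, |a i - b i| := by ring

variable (K : Type*) [Field K] [NumberField K]

/-- The real basis of `logSpace K` given by the `ℤ`-basis of the unit lattice. -/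
def anB1_basis : Module.Basis (Fin (rank K)) ℝ (logSpace K) :=
  open scoped Classical in (basisUnitLattice K).ofZLatticeBasis ℝ (unitLattice K)

/-- The coordinates of `logMap x` in the basis of the unit lattice. -/
def anB1_coord (x : mixedSpace K) (i : Fin (rank K)) : ℝ :=
  (anB1_basis K).repr (logMap x) i

/-- The partition of unity `Φ`. -/
def anB1_Phi (x : mixedSpace K) : ℝ :=
  if mixedEmbedding.norm x = 0 then 0 else ∏ i, anB1_tent (anB1_coord K x i)

/-- `g_s = Φ * norm ^ (-s)`. -/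
def anB1_g (s : ℝ) (x : mixedSpace K) : ℝ :=
  anB1_Phi K x * (mixedEmbedding.norm x) ^ (-s)

theorem anB1_Phi_nonneg (x : mixedSpace K) : 0 ≤ anB1_Phi K x := by
  unfold anB1_Phi
  split_ifs
  · exact le_rfl
  · exact Finset.prod_nonneg fun i _ => anB1_tent_nonneg _

theorem anB1_Phi_le_one (x : mixedSpace K) : anB1_Phi K x ≤ 1 := by
  unfold anB1_Phi
  split_ifs
  · exact zero_le_one
  · exact Finset.prod_le_one (fun i _ => anB1_tent_nonneg _) (fun i _ => anB1_tent_le_one _)

theorem anB1_Phi_of_norm_eq_zero {x : mixedSpace K} (h : mixedEmbedding.norm x = 0) :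
    anB1_Phi K x = 0 := by
  unfold anB1_Phi
  rw [if_pos h]

theorem anB1_Phi_of_norm_ne_zero {x : mixedSpace K} (h : mixedEmbedding.norm x ≠ 0) :
    anB1_Phi K x = ∏ i, anB1_tent (anB1_coord K x i) := by
  unfold anB1_Phi
  rw [if_neg h]

theorem anB1_g_zero (s : ℝ) : anB1_g K s 0 = 0 := by
  unfold anB1_g
  rw [anB1_Phi_of_norm_eq_zero K (by simp), zero_mul]

theorem anB1_g_nonneg (s : ℝ) (x : mixedSpace K) : 0 ≤ anB1_g K s x :=
  mul_nonneg (anB1_Phi_nonneg K x) (Real.rpow_nonneg (mixedEmbedding.norm_nonneg x) _)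

/-- If `Φ x ≠ 0` then `norm x ≠ 0` and all coordinates of `logMap x` are `< 1` in absolute
value. -/
theorem anB1_of_Phi_ne_zero {x : mixedSpace K} (h : anB1_Phi K x ≠ 0) :
    mixedEmbedding.norm x ≠ 0 ∧ ∀ i, |anB1_coord K x i| < 1 := by
  have hn : mixedEmbedding.norm x ≠ 0 := fun h0 => h (anB1_Phi_of_norm_eq_zero K h0)
  refine ⟨hn, fun i => ?_⟩
  rw [anB1_Phi_of_norm_ne_zero K hn] at h
  apply anB1_abs_lt_one_of_tent_ne_zero
  intro h0
  exact h (Finset.prod_eq_zero (Finset.mem_univ i) h0)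

end Fermat.Agent.S14
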