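import Mathlib
import Fermat.Agent.S14.PhiDefs

/-!
# S14 / AN-B1: decay and Lipschitz estimates for `g_s = Φ * norm ^ (-s)`
-/

set_option autoImplicit false

noncomputable section

open NumberField NumberField.mixedEmbedding NumberField.Units
  NumberField.Units.dirichletUnitTheorem NumberField.InfinitePlace

namespace Fermat.Agent.S14

/-! ### Elementary real-analysis lemmas -/

theorem anB1_log_sub_le {m a b : ℝ} (hm : 0 < m) (ha : m ≤ a) (hb : m ≤ b) :
    Real.log a - Real.log b ≤ |a - b| / m := by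
  have ha0 : 0 < a := lt_of_lt_of_le hm ha
  have hb0 : 0 < b := lt_of_lt_of_le hm hb
  have h1 : Real.log a - Real.log b = Real.log (a / b) := (Real.log_div ha0.ne' hb0.ne').symm
  have h2 : Real.log (a / b) ≤ a / b - 1 := Real.log_le_sub_one_of_pos (div_pos ha0 hb0)
  have h3 : a / b - 1 = (a - b) / b := by field_simp
  have h4 : (a - b) / b ≤ |a - b| / b := by gcongr; exact le_abs_self _
  have h5 : |a - b| / b ≤ |a - b| / m := by gcongr
  rw [h1]
  linarith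

theorem anB1_abs_log_sub_le {m a b : ℝ} (hm : 0 < m) (ha : m ≤ a) (hb : m ≤ b) :
    |Real.log a - Real.log b| ≤ |a - b| / m := by
  rw [abs_le]
  constructor
  · have := anB1_log_sub_le hm hb ha
    rw [abs_sub_comm] at this
    linarith
  · exact anB1_log_sub_le hm ha hb

theorem anB1_exp_sub_le {a b : ℝ} (_hab : a ≤ b) : Real.exp b - Real.exp a ≤ Real.exp b * (b - a) := by
  have h1 : Real.exp a = Real.exp b * Real.exp (a - b) := by
    rw [← Real.exp_add]; congr 1; ring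
  have h2 : 1 + (a - b) ≤ Real.exp (a - b) := by
    have := Real.add_one_le_exp (a - b)
    linarith
  have h3 : 0 < Real.exp b := Real.exp_pos _
  rw [h1]
  nlinarith

theorem anB1_abs_exp_sub_le (a b : ℝ) :
    |Real.exp a - Real.exp b| ≤ Real.exp (max a b) * |a - b| := by
  rcases le_total a b with h | h
  · rw [max_eq_right h, abs_sub_comm, abs_of_nonneg (sub_nonneg.mpr (Real.exp_le_exp.mpr h)),
      abs_sub_comm, abs_of_nonneg (sub_nonneg.mpr h)]
    exact anB1_exp_sub_le h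
  · rw [max_eq_left h, abs_of_nonneg (sub_nonneg.mpr (Real.exp_le_exp.mpr h)),
      abs_of_nonneg (sub_nonneg.mpr h)]
    exact anB1_exp_sub_le h

variable {K : Type*} [Field K] [NumberField K]

open scoped Classical

/-! ### Places -/

theorem anB1_normAtPlace_le_norm (w : InfinitePlace K) (x : mixedSpace K) :
    normAtPlace w x ≤ ‖x‖ := by
  classical
  rw [norm_eq_sup'_normAtPlace]
  exact Finset.le_sup' (fun w => normAtPlace w x) (Finset.mem_univ w)

theorem anB1_exists_normAtPlace_eq_norm (x : mixedSpace K) :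
    ∃ w : InfinitePlace K, normAtPlace w x = ‖x‖ := by
  classical
  rw [norm_eq_sup'_normAtPlace]
  obtain ⟨w, -, hw⟩ := Finset.exists_mem_eq_sup' Finset.univ_nonempty
    (fun w : InfinitePlace K => normAtPlace w x)
  exact ⟨w, hw.symm⟩

theorem anB1_abs_normAtPlace_add_sub (w : InfinitePlace K) (x y : mixedSpace K) :
    |normAtPlace w (x + y) - normAtPlace w x| ≤ ‖y‖ := by
  have h1 := normAtPlace_add_le w x y
  have h2 := normAtPlace_add_le w (x + y) (-y)
  rw [add_neg_cancel_right, normAtPlace_neg] at h2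
  have h3 := anB1_normAtPlace_le_norm w y
  rw [abs_le]
  constructor <;> linarith

theorem anB1_log_norm (x : mixedSpace K) (hx : mixedEmbedding.norm x ≠ 0) :
    Real.log (mixedEmbedding.norm x) = ∑ w : InfinitePlace K, (mult w : ℝ) * Real.log (normAtPlace w x) := by
  rw [mixedEmbedding.norm_apply, Real.log_prod]
  · refine Finset.sum_congr rfl fun w _ => ?_
    rw [Real.log_pow]
  · intro w _
    exact pow_ne_zero _ (mixedEmbedding.norm_ne_zero_iff.mp hx w)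

theorem anB1_sum_mult : (∑ w : InfinitePlace K, (mult w : ℝ)) = Module.finrank ℚ K := by
  have := sum_mult_eq (K := K)
  exact_mod_cast this

/-! ### Points in the support of `Φ` are balanced -/

variable (K) in
/-- A bound for the size of the basis of the unit lattice. -/
def anB1_C1 : ℝ := ∑ i, ∑ w' : {w : InfinitePlace K // w ≠ w₀}, |anB1_basis K i w'|

theorem anB1_C1_nonneg : 0 ≤ anB1_C1 K :=
  Finset.sum_nonneg fun _ _ => Finset.sum_nonneg fun _ _ => abs_nonneg _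

theorem anB1_sum_abs_logMap_le {x : mixedSpace K} (hx : anB1_Phi K x ≠ 0) :
    ∑ w' : {w : InfinitePlace K // w ≠ w₀}, |logMap x w'| ≤ anB1_C1 K := by
  obtain ⟨-, ht⟩ := anB1_of_Phi_ne_zero K hx
  have hrepr : logMap x = ∑ i, anB1_coord K x i • anB1_basis K i :=
    ((anB1_basis K).sum_repr (logMap x)).symm
  have h1 : ∀ w' : {w : InfinitePlace K // w ≠ w₀},
      |logMap x w'| ≤ ∑ i, |anB1_basis K i w'| := by
    intro w'
    have : logMap x w' = ∑ i, anB1_coord K x i * anB1_basis K i w' := by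
      conv_lhs => rw [hrepr]
      simp [Finset.sum_apply]
    rw [this]
    refine (Finset.abs_sum_le_sum_abs _ _).trans ?_
    refine Finset.sum_le_sum fun i _ => ?_
    rw [abs_mul]
    calc |anB1_coord K x i| * |anB1_basis K i w'| ≤ 1 * |anB1_basis K i w'| := by
          gcongr
          exact (ht i).le
      _ = |anB1_basis K i w'| := one_mul _
  calc ∑ w' : {w : InfinitePlace K // w ≠ w₀}, |logMap x w'|
      ≤ ∑ w' : {w : InfinitePlace K // w ≠ w₀}, ∑ i, |anB1_basis K i w'| :=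
        Finset.sum_le_sum fun w' _ => h1 w'
    _ = anB1_C1 K := by
        rw [anB1_C1, Finset.sum_comm]

/-- `a_w = log (normAtPlace w x) - log (norm x) / n`. -/
def anB1_a (x : mixedSpace K) (w : InfinitePlace K) : ℝ :=
  Real.log (normAtPlace w x) - Real.log (mixedEmbedding.norm x) * (Module.finrank ℚ K : ℝ)⁻¹

theorem anB1_logMap_eq (x : mixedSpace K) (w' : {w : InfinitePlace K // w ≠ w₀}) :
    logMap x w' = (mult w'.1 : ℝ) * anB1_a x w'.1 := by
  rw [logMap_apply, anB1_a]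

theorem anB1_sum_mult_a {x : mixedSpace K} (hx : mixedEmbedding.norm x ≠ 0) :
    ∑ w : InfinitePlace K, (mult w : ℝ) * anB1_a x w = 0 := by
  have hn : (Module.finrank ℚ K : ℝ) ≠ 0 := Nat.cast_ne_zero.mpr Module.finrank_pos.ne'
  simp only [anB1_a, mul_sub, Finset.sum_sub_distrib]
  rw [← anB1_log_norm x hx, ← Finset.sum_mul, anB1_sum_mult]
  field_simp
  ring

theorem anB1_abs_a_le {x : mixedSpace K} (hx : anB1_Phi K x ≠ 0) (w : InfinitePlace K) :
    |anB1_a x w| ≤ anB1_C1 K := by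
  have hN := (anB1_of_Phi_ne_zero K hx).1
  have hsum := anB1_sum_abs_logMap_le hx
  have hmult : ∀ w : InfinitePlace K, |anB1_a x w| ≤ |(mult w : ℝ) * anB1_a x w| := by
    intro w
    rw [abs_mul]
    have h1 : (1 : ℝ) ≤ |(mult w : ℝ)| := by
      rw [abs_of_nonneg (Nat.cast_nonneg _)]
      exact one_le_mult
    calc |anB1_a x w| = 1 * |anB1_a x w| := (one_mul _).symm
      _ ≤ |(mult w : ℝ)| * |anB1_a x w| := by gcongr
  by_cases hw : w = w₀
  · subst hw
    have h0 := anB1_sum_mult_a hN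
    rw [Fintype.sum_eq_add_sum_subtype_ne _ (w₀ : InfinitePlace K)] at h0
    have h1 : (mult (w₀ : InfinitePlace K) : ℝ) * anB1_a x w₀
        = -∑ w' : {w : InfinitePlace K // w ≠ w₀}, logMap x w' := by
      simp only [anB1_logMap_eq]
      linarith
    refine (hmult _).trans ?_
    rw [h1, abs_neg]
    exact (Finset.abs_sum_le_sum_abs _ _).trans hsum
  · refine (hmult w).trans ?_
    rw [← anB1_logMap_eq x ⟨w, hw⟩]
    refine le_trans ?_ hsum
    exact Finset.single_le_sum (f := fun w' : {w : InfinitePlace K // w ≠ w₀} => |logMap x w'|)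
      (fun _ _ => abs_nonneg _) (Finset.mem_univ (⟨w, hw⟩ : {w : InfinitePlace K // w ≠ w₀}))

variable (K) in
/-- The balance constant. -/
def anB1_kappa : ℝ := Real.exp (-(2 * anB1_C1 K))

theorem anB1_kappa_pos : 0 < anB1_kappa K := Real.exp_pos _

theorem anB1_kappa_le_one : anB1_kappa K ≤ 1 := by
  unfold anB1_kappa
  rw [← Real.exp_zero]
  apply Real.exp_le_exp.mpr
  have := anB1_C1_nonneg (K := K)
  linarith

/-- Points in the support of `Φ` are balanced: all `normAtPlace w x` are comparable to `‖x‖`. -/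
theorem anB1_balanced {x : mixedSpace K} (hx : anB1_Phi K x ≠ 0) (w : InfinitePlace K) :
    anB1_kappa K * ‖x‖ ≤ normAtPlace w x := by
  have hN := (anB1_of_Phi_ne_zero K hx).1
  have hpos : ∀ w, 0 < normAtPlace w x := fun w =>
    lt_of_le_of_ne (normAtPlace_nonneg w x) (Ne.symm (mixedEmbedding.norm_ne_zero_iff.mp hN w))
  obtain ⟨w', hw'⟩ := anB1_exists_normAtPlace_eq_norm x
  have h1 := anB1_abs_a_le hx w
  have h2 := anB1_abs_a_le hx w'
  have h3 : Real.log (normAtPlace w' x) - 2 * anB1_C1 K ≤ Real.log (normAtPlace w x) := by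
    have e1 : anB1_a x w - anB1_a x w'
        = Real.log (normAtPlace w x) - Real.log (normAtPlace w' x) := by
      simp only [anB1_a]; ring
    have := (abs_le.mp h1).1
    have := (abs_le.mp h2).2
    linarith
  have h4 := Real.exp_le_exp.mpr h3
  rw [Real.exp_log (hpos w), sub_eq_add_neg, Real.exp_add, Real.exp_log (hpos w'), hw'] at h4
  rw [anB1_kappa, mul_comm]
  exact h4

/-! ### The decay bound -/

theorem anB1_norm_ge {x : mixedSpace K} {r : ℝ} (hr : 0 ≤ r)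
    (hb : ∀ w : InfinitePlace K, r ≤ normAtPlace w x) :
    r ^ (Module.finrank ℚ K) ≤ mixedEmbedding.norm x := by
  rw [mixedEmbedding.norm_apply, ← sum_mult_eq (K := K), ← Finset.prod_pow_eq_pow_sum]
  exact Finset.prod_le_prod (fun w _ => pow_nonneg hr _)
    (fun w _ => pow_le_pow_left₀ hr (hb w) _)

/-- If all `normAtPlace w x` are at least `c ‖z‖`, then `norm x ^ (-s) ≤ c ^ (-2n) ‖z‖ ^ (-n s)`. -/
theorem anB1_norm_rpow_le {x z : mixedSpace K} (hz : z ≠ 0) {c : ℝ} (hc : 0 < c) (hc1 : c ≤ 1)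
    (hb : ∀ w : InfinitePlace K, c * ‖z‖ ≤ normAtPlace w x) {s : ℝ} (hs1 : 1 ≤ s) (hs2 : s ≤ 2) :
    (mixedEmbedding.norm x) ^ (-s)
      ≤ c ^ (-(2 * (Module.finrank ℚ K : ℝ))) * ‖z‖ ^ (-((Module.finrank ℚ K : ℝ) * s)) := by
  have hzn : 0 < ‖z‖ := norm_pos_iff.mpr hz
  have h0 : 0 < c * ‖z‖ := mul_pos hc hzn
  have h1 := anB1_norm_ge h0.le hb
  have h2 : 0 < (c * ‖z‖) ^ (Module.finrank ℚ K) := pow_pos h0 _
  have hn : (0 : ℝ) ≤ (Module.finrank ℚ K : ℝ) := Nat.cast_nonneg _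
  calc (mixedEmbedding.norm x) ^ (-s)
      ≤ ((c * ‖z‖) ^ (Module.finrank ℚ K)) ^ (-s) :=
        Real.rpow_le_rpow_of_nonpos h2 h1 (by linarith)
    _ = (c * ‖z‖) ^ (-((Module.finrank ℚ K : ℝ) * s)) := by
        rw [← Real.rpow_natCast, ← Real.rpow_mul h0.le]
        congr 1; ring
    _ = c ^ (-((Module.finrank ℚ K : ℝ) * s)) * ‖z‖ ^ (-((Module.finrank ℚ K : ℝ) * s)) :=
        Real.mul_rpow hc.le hzn.le
    _ ≤ c ^ (-(2 * (Module.finrank ℚ K : ℝ))) * ‖z‖ ^ (-((Module.finrank ℚ K : ℝ) * s)) := by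
        gcongr ?_ * _
        apply Real.rpow_le_rpow_of_exponent_ge hc hc1
        nlinarith

variable (K) in
/-- The constant in the decay bound. -/
def anB1_A : ℝ := (anB1_kappa K) ^ (-(2 * (Module.finrank ℚ K : ℝ)))

theorem anB1_A_nonneg : 0 ≤ anB1_A K := Real.rpow_nonneg anB1_kappa_pos.le _

theorem anB1_g_le (s : ℝ) (hs1 : 1 ≤ s) (hs2 : s ≤ 2) (x : mixedSpace K) (hx : x ≠ 0) :
    anB1_g K s x ≤ anB1_A K * ‖x‖ ^ (-((Module.finrank ℚ K : ℝ) * s)) := by
  by_cases hΦ : anB1_Phi K x = 0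
  · rw [anB1_g, hΦ, zero_mul]
    exact mul_nonneg anB1_A_nonneg (Real.rpow_nonneg (norm_nonneg _) _)
  · have h1 := anB1_norm_rpow_le hx anB1_kappa_pos anB1_kappa_le_one
      (fun w => anB1_balanced hΦ w) hs1 hs2
    calc anB1_g K s x = anB1_Phi K x * (mixedEmbedding.norm x) ^ (-s) := rfl
      _ ≤ 1 * (mixedEmbedding.norm x) ^ (-s) := by
          gcongr
          · exact Real.rpow_nonneg (mixedEmbedding.norm_nonneg x) _
          · exact anB1_Phi_le_one K x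
      _ = (mixedEmbedding.norm x) ^ (-s) := one_mul _
      _ ≤ _ := h1

/-- **AN-B1, decay**: `|g_s x| ≤ A ‖x‖ ^ (-n s)` uniformly for `s ∈ [1, 2]`. -/
theorem anB1_bound (K : Type*) [Field K] [NumberField K] :
    ∃ A : ℝ, 0 ≤ A ∧ ∀ s : ℝ, 1 ≤ s → s ≤ 2 → ∀ x : mixedSpace K, x ≠ 0 →
      |anB1_g K s x| ≤ A * ‖x‖ ^ (-((Module.finrank ℚ K : ℝ) * s)) := by
  refine ⟨anB1_A K, anB1_A_nonneg, fun s hs1 hs2 x hx => ?_⟩
  rw [abs_of_nonneg (anB1_g_nonneg K s x)]
  exact anB1_g_le s hs1 hs2 x hx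

/-! ### Lipschitz estimates near a balanced point -/

section lip

variable {x y : mixedSpace K} {c : ℝ}

/-- Near a balanced point, the perturbed point is still balanced. -/
theorem anB1_balanced_add (hc : 0 < c) (hb : ∀ w : InfinitePlace K, c * ‖x‖ ≤ normAtPlace w x)
    (hy : ‖y‖ ≤ c / 2 * ‖x‖) (w : InfinitePlace K) :
    c / 2 * ‖x‖ ≤ normAtPlace w (x + y) := by
  have h1 := anB1_abs_normAtPlace_add_sub w x y
  have h2 := (abs_le.mp h1).1
  have h3 := hb w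
  linarith

theorem anB1_balanced_half (hc : 0 < c) (hb : ∀ w : InfinitePlace K, c * ‖x‖ ≤ normAtPlace w x)
    (w : InfinitePlace K) : c / 2 * ‖x‖ ≤ normAtPlace w x := by
  have h3 := hb w
  have : 0 ≤ c * ‖x‖ := mul_nonneg hc.le (norm_nonneg _)
  linarith

/-- The basic small quantity `ε = ‖y‖ / (c/2 ‖x‖)`. -/
def anB1_eps (x y : mixedSpace K) (c : ℝ) : ℝ := ‖y‖ / (c / 2 * ‖x‖)

theorem anB1_eps_nonneg (hc : 0 < c) : 0 ≤ anB1_eps x y c :=
  div_nonneg (norm_nonneg _) (mul_nonneg (by linarith) (norm_nonneg _))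

theorem anB1_eps_le_one (hx : x ≠ 0) (hc : 0 < c) (hy : ‖y‖ ≤ c / 2 * ‖x‖) :
    anB1_eps x y c ≤ 1 := by
  have : 0 < c / 2 * ‖x‖ := mul_pos (by linarith) (norm_pos_iff.mpr hx)
  rw [anB1_eps, div_le_one this]
  exact hy

theorem anB1_abs_log_normAtPlace_sub (hx : x ≠ 0) (hc : 0 < c)
    (hb : ∀ w : InfinitePlace K, c * ‖x‖ ≤ normAtPlace w x)
    (hy : ‖y‖ ≤ c / 2 * ‖x‖) (w : InfinitePlace K) :
    |Real.log (normAtPlace w (x + y)) - Real.log (normAtPlace w x)| ≤ anB1_eps x y c := by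
  have hm : 0 < c / 2 * ‖x‖ := mul_pos (by linarith) (norm_pos_iff.mpr hx)
  refine (anB1_abs_log_sub_le hm (anB1_balanced_add hc hb hy w)
    (anB1_balanced_half hc hb w)).trans ?_
  rw [anB1_eps]
  gcongr
  exact anB1_abs_normAtPlace_add_sub w x y

theorem anB1_norm_ne_zero_of_balanced (hx : x ≠ 0) (hc : 0 < c)
    (hb : ∀ w : InfinitePlace K, c * ‖x‖ ≤ normAtPlace w x) :
    mixedEmbedding.norm x ≠ 0 := by
  rw [mixedEmbedding.norm_ne_zero_iff]
  intro w
  have : 0 < c * ‖x‖ := mul_pos hc (norm_pos_iff.mpr hx)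
  exact (lt_of_lt_of_le this (hb w)).ne'

theorem anB1_norm_add_ne_zero_of_balanced (hx : x ≠ 0) (hc : 0 < c)
    (hb : ∀ w : InfinitePlace K, c * ‖x‖ ≤ normAtPlace w x) (hy : ‖y‖ ≤ c / 2 * ‖x‖) :
    mixedEmbedding.norm (x + y) ≠ 0 := by
  rw [mixedEmbedding.norm_ne_zero_iff]
  intro w
  have : 0 < c / 2 * ‖x‖ := mul_pos (by linarith) (norm_pos_iff.mpr hx)
  exact (lt_of_lt_of_le this (anB1_balanced_add hc hb hy w)).ne'

theorem anB1_abs_log_norm_sub (hx : x ≠ 0) (hc : 0 < c)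
    (hb : ∀ w : InfinitePlace K, c * ‖x‖ ≤ normAtPlace w x) (hy : ‖y‖ ≤ c / 2 * ‖x‖) :
    |Real.log (mixedEmbedding.norm (x + y)) - Real.log (mixedEmbedding.norm x)|
      ≤ (Module.finrank ℚ K : ℝ) * anB1_eps x y c := by
  rw [anB1_log_norm _ (anB1_norm_add_ne_zero_of_balanced hx hc hb hy),
    anB1_log_norm _ (anB1_norm_ne_zero_of_balanced hx hc hb), ← Finset.sum_sub_distrib]
  refine (Finset.abs_sum_le_sum_abs _ _).trans ?_
  rw [← anB1_sum_mult (K := K), Finset.sum_mul]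
  refine Finset.sum_le_sum fun w _ => ?_
  rw [← mul_sub, abs_mul, abs_of_nonneg (Nat.cast_nonneg _)]
  gcongr
  exact anB1_abs_log_normAtPlace_sub hx hc hb hy w

theorem anB1_abs_a_sub (hx : x ≠ 0) (hc : 0 < c)
    (hb : ∀ w : InfinitePlace K, c * ‖x‖ ≤ normAtPlace w x) (hy : ‖y‖ ≤ c / 2 * ‖x‖)
    (w : InfinitePlace K) :
    |anB1_a (x + y) w - anB1_a x w| ≤ 2 * anB1_eps x y c := by
  have hn : (0 : ℝ) < (Module.finrank ℚ K : ℝ) := Nat.cast_pos.mpr Module.finrank_pos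
  have h1 := anB1_abs_log_normAtPlace_sub hx hc hb hy w
  have h2 := anB1_abs_log_norm_sub hx hc hb hy
  have e : anB1_a (x + y) w - anB1_a x w
      = (Real.log (normAtPlace w (x + y)) - Real.log (normAtPlace w x))
        - (Real.log (mixedEmbedding.norm (x + y)) - Real.log (mixedEmbedding.norm x))
          * (Module.finrank ℚ K : ℝ)⁻¹ := by
    simp only [anB1_a]; ring
  rw [e]
  refine (abs_sub _ _).trans ?_
  rw [abs_mul, abs_of_pos (inv_pos.mpr hn)]
  have h3 : |Real.log (mixedEmbedding.norm (x + y)) - Real.log (mixedEmbedding.norm x)|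
      * (Module.finrank ℚ K : ℝ)⁻¹ ≤ anB1_eps x y c := by
    rw [← div_eq_mul_inv, div_le_iff₀ hn]
    linarith
  linarith

theorem anB1_abs_logMap_sub (hx : x ≠ 0) (hc : 0 < c)
    (hb : ∀ w : InfinitePlace K, c * ‖x‖ ≤ normAtPlace w x) (hy : ‖y‖ ≤ c / 2 * ‖x‖)
    (w' : {w : InfinitePlace K // w ≠ w₀}) :
    |logMap (x + y) w' - logMap x w'| ≤ 4 * anB1_eps x y c := by
  rw [anB1_logMap_eq, anB1_logMap_eq, ← mul_sub, abs_mul, abs_of_nonneg (Nat.cast_nonneg _)]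
  have h1 := anB1_abs_a_sub hx hc hb hy w'.1
  have h2 : ((mult w'.1 : ℕ) : ℝ) ≤ 2 := by
    have : mult w'.1 ≤ 2 := by
      unfold mult; split_ifs <;> norm_num
    exact_mod_cast this
  calc ((mult w'.1 : ℕ) : ℝ) * |anB1_a (x + y) w'.1 - anB1_a x w'.1|
      ≤ 2 * (2 * anB1_eps x y c) := by
        gcongr
    _ = 4 * anB1_eps x y c := by ring

variable (K) in
/-- A bound for the coordinate functionals of the basis of the unit lattice. -/
def anB1_C3 : ℝ :=
  ∑ i, ∑ w' : {w : InfinitePlace K // w ≠ w₀},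
    |(anB1_basis K).repr (Pi.basisFun ℝ {w : InfinitePlace K // w ≠ w₀} w') i|

theorem anB1_C3_nonneg : 0 ≤ anB1_C3 K :=
  Finset.sum_nonneg fun _ _ => Finset.sum_nonneg fun _ _ => abs_nonneg _

theorem anB1_sum_abs_repr_le (v : logSpace K) (M : ℝ) (hM : ∀ w', |v w'| ≤ M) :
    ∑ i, |(anB1_basis K).repr v i| ≤ anB1_C3 K * M := by
  have hv : v = ∑ w', v w' • Pi.basisFun ℝ {w : InfinitePlace K // w ≠ w₀} w' := by
    have := (Pi.basisFun ℝ {w : InfinitePlace K // w ≠ w₀}).sum_repr v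
    simpa using this.symm
  have h1 : ∀ i, (anB1_basis K).repr v i
      = ∑ w', v w' * (anB1_basis K).repr (Pi.basisFun ℝ {w : InfinitePlace K // w ≠ w₀} w') i := by
    intro i
    conv_lhs => rw [hv]
    simp [map_sum, Finset.sum_apply]
  rw [anB1_C3, Finset.sum_mul]
  refine Finset.sum_le_sum fun i _ => ?_
  rw [h1 i, Finset.sum_mul]
  refine (Finset.abs_sum_le_sum_abs _ _).trans ?_
  refine Finset.sum_le_sum fun w' _ => ?_
  rw [abs_mul, mul_comm]
  gcongr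
  exact hM w'

theorem anB1_abs_Phi_sub (hx : x ≠ 0) (hc : 0 < c)
    (hb : ∀ w : InfinitePlace K, c * ‖x‖ ≤ normAtPlace w x) (hy : ‖y‖ ≤ c / 2 * ‖x‖) :
    |anB1_Phi K (x + y) - anB1_Phi K x| ≤ anB1_C3 K * (4 * anB1_eps x y c) := by
  rw [anB1_Phi_of_norm_ne_zero K (anB1_norm_add_ne_zero_of_balanced hx hc hb hy),
    anB1_Phi_of_norm_ne_zero K (anB1_norm_ne_zero_of_balanced hx hc hb)]
  refine (anB1_prod_tent_lipschitz Finset.univ _ _).trans ?_
  have h1 : ∀ i, anB1_coord K (x + y) i - anB1_coord K x i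
      = (anB1_basis K).repr (logMap (x + y) - logMap x) i := by
    intro i
    simp [anB1_coord, map_sub]
  simp only [h1]
  apply anB1_sum_abs_repr_le
  intro w'
  exact anB1_abs_logMap_sub hx hc hb hy w'

theorem anB1_abs_rpow_sub {a b D s : ℝ} (ha : 0 < a) (hb : 0 < b) (hs0 : 0 ≤ s)
    (hD1 : a ^ (-s) ≤ D) (hD2 : b ^ (-s) ≤ D) :
    |a ^ (-s) - b ^ (-s)| ≤ D * (s * |Real.log a - Real.log b|) := by
  rw [Real.rpow_def_of_pos ha, Real.rpow_def_of_pos hb] at *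
  refine (anB1_abs_exp_sub_le _ _).trans ?_
  have h1 : Real.exp (max (Real.log a * -s) (Real.log b * -s)) ≤ D := by
    rcases le_total (Real.log a * -s) (Real.log b * -s) with h | h
    · rw [max_eq_right h]; exact hD2
    · rw [max_eq_left h]; exact hD1
  have h2 : |Real.log a * -s - Real.log b * -s| = s * |Real.log a - Real.log b| := by
    rw [← sub_mul, abs_mul, abs_neg, abs_of_nonneg hs0, mul_comm]
  rw [h2]
  gcongr

variable (K) in
/-- The constant `D(c) = (c/2)^(-2n)`. -/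
def anB1_D (c : ℝ) : ℝ := (c / 2) ^ (-(2 * (Module.finrank ℚ K : ℝ)))

theorem anB1_D_nonneg (hc : 0 < c) : 0 ≤ anB1_D K c :=
  Real.rpow_nonneg (by linarith) _

/-- The core Lipschitz estimate near a balanced point. -/
theorem anB1_lip_core (hx : x ≠ 0) (hc : 0 < c) (hc1 : c ≤ 1)
    (hb : ∀ w : InfinitePlace K, c * ‖x‖ ≤ normAtPlace w x) (hy : ‖y‖ ≤ c / 2 * ‖x‖)
    {s : ℝ} (hs1 : 1 ≤ s) (hs2 : s ≤ 2) :
    |anB1_g K s (x + y) - anB1_g K s x|
      ≤ (4 * anB1_C3 K + 2 * (Module.finrank ℚ K : ℝ)) * anB1_D K c * anB1_eps x y c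
          * ‖x‖ ^ (-((Module.finrank ℚ K : ℝ) * s)) := by
  have hn : (0 : ℝ) ≤ (Module.finrank ℚ K : ℝ) := Nat.cast_nonneg _
  have hc2 : 0 < c / 2 := by linarith
  have hc21 : c / 2 ≤ 1 := by linarith
  have hN := anB1_norm_ne_zero_of_balanced hx hc hb
  have hN' := anB1_norm_add_ne_zero_of_balanced hx hc hb hy
  have hNpos : 0 < mixedEmbedding.norm x := lt_of_le_of_ne (mixedEmbedding.norm_nonneg _) hN.symm
  have hN'pos : 0 < mixedEmbedding.norm (x + y) :=
    lt_of_le_of_ne (mixedEmbedding.norm_nonneg _) hN'.symm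
  set R := ‖x‖ ^ (-((Module.finrank ℚ K : ℝ) * s)) with hR
  have hR0 : 0 ≤ R := Real.rpow_nonneg (norm_nonneg _) _
  have hD1 : (mixedEmbedding.norm (x + y)) ^ (-s) ≤ anB1_D K c * R :=
    anB1_norm_rpow_le hx hc2 hc21 (anB1_balanced_add hc hb hy) hs1 hs2
  have hD2 : (mixedEmbedding.norm x) ^ (-s) ≤ anB1_D K c * R :=
    anB1_norm_rpow_le hx hc2 hc21 (anB1_balanced_half hc hb) hs1 hs2
  have hΦ := anB1_abs_Phi_sub hx hc hb hy
  have hlog := anB1_abs_log_norm_sub hx hc hb hy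
  have hrp := anB1_abs_rpow_sub hN'pos hNpos (by linarith : (0:ℝ) ≤ s) hD1 hD2
  have hε := anB1_eps_nonneg (x := x) (y := y) hc
  have hDR : 0 ≤ anB1_D K c * R := mul_nonneg (anB1_D_nonneg hc) hR0
  have e : anB1_g K s (x + y) - anB1_g K s x
      = (anB1_Phi K (x + y) - anB1_Phi K x) * (mixedEmbedding.norm (x + y)) ^ (-s)
        + anB1_Phi K x * ((mixedEmbedding.norm (x + y)) ^ (-s) - (mixedEmbedding.norm x) ^ (-s)) := by
    simp only [anB1_g]; ring
  rw [e]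
  refine (abs_add_le _ _).trans ?_
  rw [abs_mul, abs_mul, abs_of_nonneg (Real.rpow_nonneg hN'pos.le _),
    abs_of_nonneg (anB1_Phi_nonneg K x)]
  have t1 : |anB1_Phi K (x + y) - anB1_Phi K x| * (mixedEmbedding.norm (x + y)) ^ (-s)
      ≤ (anB1_C3 K * (4 * anB1_eps x y c)) * (anB1_D K c * R) :=
    mul_le_mul hΦ hD1 (Real.rpow_nonneg hN'pos.le _)
      (mul_nonneg anB1_C3_nonneg (by linarith))
  have t2 : anB1_Phi K x * |(mixedEmbedding.norm (x + y)) ^ (-s) - (mixedEmbedding.norm x) ^ (-s)|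
      ≤ 1 * (anB1_D K c * R * (2 * ((Module.finrank ℚ K : ℝ) * anB1_eps x y c))) := by
    refine mul_le_mul (anB1_Phi_le_one K x) ?_ (abs_nonneg _) zero_le_one
    refine hrp.trans ?_
    have : s * |Real.log (mixedEmbedding.norm (x + y)) - Real.log (mixedEmbedding.norm x)|
        ≤ 2 * ((Module.finrank ℚ K : ℝ) * anB1_eps x y c) :=
      mul_le_mul hs2 hlog (abs_nonneg _) (by norm_num)
    exact mul_le_mul_of_nonneg_left this hDR
  calc _ ≤ (anB1_C3 K * (4 * anB1_eps x y c)) * (anB1_D K c * R)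
          + 1 * (anB1_D K c * R * (2 * ((Module.finrank ℚ K : ℝ) * anB1_eps x y c))) :=
        add_le_add t1 t2
    _ = _ := by ring

end lip

/-! ### The Lipschitz estimate -/

variable (K) in
/-- First Lipschitz constant. -/
def anB1_B1 : ℝ :=
  (4 * anB1_C3 K + 2 * (Module.finrank ℚ K : ℝ)) * anB1_D K (anB1_kappa K / 2)
    * (2 / (anB1_kappa K / 2))

variable (K) in
/-- Second Lipschitz constant. -/
def anB1_B2 : ℝ := anB1_A K * ((4 : ℝ) ^ (Module.finrank ℚ K) + 1) * (4 / anB1_kappa K)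

theorem anB1_B1_nonneg : 0 ≤ anB1_B1 K := by
  have hκ := anB1_kappa_pos (K := K)
  have h1 : (0 : ℝ) ≤ (Module.finrank ℚ K : ℝ) := Nat.cast_nonneg _
  have h2 := anB1_C3_nonneg (K := K)
  have h3 : 0 ≤ anB1_D K (anB1_kappa K / 2) := anB1_D_nonneg (by linarith)
  unfold anB1_B1
  positivity

theorem anB1_B2_nonneg : 0 ≤ anB1_B2 K := by
  have hκ := anB1_kappa_pos (K := K)
  have h1 := anB1_A_nonneg (K := K)
  unfold anB1_B2
  positivity

theorem anB1_lip_near (s : ℝ) (hs1 : 1 ≤ s) (hs2 : s ≤ 2) (x y : mixedSpace K) (hx : x ≠ 0)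
    (hy : ‖y‖ ≤ anB1_kappa K / 4 * ‖x‖) :
    |anB1_g K s (x + y) - anB1_g K s x|
      ≤ anB1_B1 K * ‖y‖ * ‖x‖ ^ (-((Module.finrank ℚ K : ℝ) * s) - 1) := by
  have hκ := anB1_kappa_pos (K := K)
  have hκ1 := anB1_kappa_le_one (K := K)
  have hxn : 0 < ‖x‖ := norm_pos_iff.mpr hx
  have hrhs : 0 ≤ anB1_B1 K * ‖y‖ * ‖x‖ ^ (-((Module.finrank ℚ K : ℝ) * s) - 1) :=
    mul_nonneg (mul_nonneg anB1_B1_nonneg (norm_nonneg _)) (Real.rpow_nonneg hxn.le _)
  by_cases h0 : anB1_Phi K x = 0 ∧ anB1_Phi K (x + y) = 0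
  · rw [anB1_g, anB1_g, h0.1, h0.2, zero_mul, zero_mul, sub_zero, abs_zero]
    exact hrhs
  · have hc : 0 < anB1_kappa K / 2 := by linarith
    have hc1 : anB1_kappa K / 2 ≤ 1 := by linarith
    have hy' : ‖y‖ ≤ anB1_kappa K / 2 / 2 * ‖x‖ := by
      have : anB1_kappa K / 2 / 2 = anB1_kappa K / 4 := by ring
      rw [this]; exact hy
    have hb : ∀ w : InfinitePlace K, anB1_kappa K / 2 * ‖x‖ ≤ normAtPlace w x := by
      intro w
      by_cases hΦ : anB1_Phi K x = 0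
      · have hΦ' : anB1_Phi K (x + y) ≠ 0 := fun h => h0 ⟨hΦ, h⟩
        have h1 := anB1_balanced hΦ' w
        have h2 := (abs_le.mp (anB1_abs_normAtPlace_add_sub w x y)).2
        have h3 : ‖x‖ - ‖y‖ ≤ ‖x + y‖ := by
          have := norm_sub_norm_le x (-y)
          simpa [sub_neg_eq_add] using this
        have h4 : anB1_kappa K * (‖x‖ - ‖y‖) ≤ anB1_kappa K * ‖x + y‖ :=
          mul_le_mul_of_nonneg_left h3 hκ.le
        have h5 : anB1_kappa K * ‖y‖ ≤ ‖y‖ := by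
          calc anB1_kappa K * ‖y‖ ≤ 1 * ‖y‖ := by gcongr
            _ = ‖y‖ := one_mul _
        nlinarith
      · have h1 := anB1_balanced hΦ w
        have : anB1_kappa K / 2 * ‖x‖ ≤ anB1_kappa K * ‖x‖ := by
          gcongr; linarith
        linarith
    have hcore := anB1_lip_core hx hc hc1 hb hy' hs1 hs2
    refine hcore.trans (le_of_eq ?_)
    rw [Real.rpow_sub_one hxn.ne', anB1_B1, anB1_eps]
    field_simp

theorem anB1_lip_far (s : ℝ) (hs1 : 1 ≤ s) (hs2 : s ≤ 2) (x y : mixedSpace K) (hx : x ≠ 0)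
    (hxy : 2 * ‖y‖ ≤ ‖x‖) (hy : anB1_kappa K / 4 * ‖x‖ < ‖y‖) :
    |anB1_g K s (x + y) - anB1_g K s x|
      ≤ anB1_B2 K * ‖y‖ * ‖x‖ ^ (-((Module.finrank ℚ K : ℝ) * s) - 1) := by
  have hκ := anB1_kappa_pos (K := K)
  have hxn : 0 < ‖x‖ := norm_pos_iff.mpr hx
  have hn : (0 : ℝ) ≤ (Module.finrank ℚ K : ℝ) := Nat.cast_nonneg _
  have hA := anB1_A_nonneg (K := K)
  set R := ‖x‖ ^ (-((Module.finrank ℚ K : ℝ) * s)) with hR
  have hR0 : 0 ≤ R := Real.rpow_nonneg hxn.le _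
  have h3 : ‖x‖ / 2 ≤ ‖x + y‖ := by
    have := norm_sub_norm_le x (-y)
    simp only [sub_neg_eq_add, norm_neg] at this
    linarith
  have hxy0 : x + y ≠ 0 := by
    intro h
    rw [h, norm_zero] at h3
    linarith
  have g1 := anB1_g_le s hs1 hs2 x hx
  have g2 := anB1_g_le s hs1 hs2 (x + y) hxy0
  have h4 : ‖x + y‖ ^ (-((Module.finrank ℚ K : ℝ) * s)) ≤ (4 : ℝ) ^ (Module.finrank ℚ K) * R := by
    have e1 : ‖x + y‖ ^ (-((Module.finrank ℚ K : ℝ) * s))
        ≤ (‖x‖ / 2) ^ (-((Module.finrank ℚ K : ℝ) * s)) :=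
      Real.rpow_le_rpow_of_nonpos (by positivity) h3 (by nlinarith)
    have e2 : (‖x‖ / 2) ^ (-((Module.finrank ℚ K : ℝ) * s))
        = (2 : ℝ) ^ ((Module.finrank ℚ K : ℝ) * s) * R := by
      rw [Real.div_rpow hxn.le (by norm_num), Real.rpow_neg (by norm_num : (0:ℝ) ≤ 2), hR]
      field_simp
    have e3 : (2 : ℝ) ^ ((Module.finrank ℚ K : ℝ) * s) ≤ (4 : ℝ) ^ (Module.finrank ℚ K) := by
      have : (4 : ℝ) ^ (Module.finrank ℚ K) = (2 : ℝ) ^ ((Module.finrank ℚ K : ℝ) * 2) := by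
        rw [Real.rpow_mul (by norm_num), Real.rpow_natCast, Real.rpow_two, ← pow_mul, mul_comm,
          pow_mul]
        norm_num
      rw [this]
      apply Real.rpow_le_rpow_of_exponent_le (by norm_num)
      nlinarith
    calc _ ≤ _ := e1
      _ = _ := e2
      _ ≤ _ := by gcongr
  have h5 : |anB1_g K s (x + y) - anB1_g K s x|
      ≤ anB1_A K * ((4 : ℝ) ^ (Module.finrank ℚ K) + 1) * R := by
    have a1 := anB1_g_nonneg K s x
    have a2 := anB1_g_nonneg K s (x + y)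
    have : |anB1_g K s (x + y) - anB1_g K s x| ≤ anB1_g K s (x + y) + anB1_g K s x := by
      rw [abs_le]; constructor <;> linarith
    have b1 : anB1_g K s (x + y) ≤ anB1_A K * ((4 : ℝ) ^ (Module.finrank ℚ K) * R) :=
      g2.trans (mul_le_mul_of_nonneg_left h4 hA)
    calc _ ≤ _ := this
      _ ≤ anB1_A K * ((4 : ℝ) ^ (Module.finrank ℚ K) * R) + anB1_A K * R := add_le_add b1 g1
      _ = _ := by ring
  have h6 : (1 : ℝ) ≤ 4 / anB1_kappa K * ‖y‖ * ‖x‖⁻¹ := by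
    rw [← div_eq_mul_inv, le_div_iff₀ hxn, one_mul, div_mul_eq_mul_div, le_div_iff₀ hκ]
    linarith
  have h7 : 0 ≤ anB1_A K * ((4 : ℝ) ^ (Module.finrank ℚ K) + 1) * R := by positivity
  calc _ ≤ anB1_A K * ((4 : ℝ) ^ (Module.finrank ℚ K) + 1) * R := h5
    _ = anB1_A K * ((4 : ℝ) ^ (Module.finrank ℚ K) + 1) * R * 1 := (mul_one _).symm
    _ ≤ anB1_A K * ((4 : ℝ) ^ (Module.finrank ℚ K) + 1) * R * (4 / anB1_kappa K * ‖y‖ * ‖x‖⁻¹) :=
        mul_le_mul_of_nonneg_left h6 h7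
    _ = _ := by
        rw [Real.rpow_sub_one hxn.ne', anB1_B2, ← hR]
        ring

/-- **AN-B1, Lipschitz**: `|g_s (x + y) - g_s x| ≤ B ‖y‖ ‖x‖ ^ (-n s - 1)` for `2 ‖y‖ ≤ ‖x‖`,
uniformly for `s ∈ [1, 2]`. -/
theorem anB1_lipschitz (K : Type*) [Field K] [NumberField K] :
    ∃ B : ℝ, 0 ≤ B ∧ ∀ s : ℝ, 1 ≤ s → s ≤ 2 → ∀ x y : mixedSpace K, 2 * ‖y‖ ≤ ‖x‖ →
      |anB1_g K s (x + y) - anB1_g K s x|
        ≤ B * ‖y‖ * ‖x‖ ^ (-((Module.finrank ℚ K : ℝ) * s) - 1) := by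
  refine ⟨anB1_B1 K + anB1_B2 K, add_nonneg anB1_B1_nonneg anB1_B2_nonneg,
    fun s hs1 hs2 x y hxy => ?_⟩
  by_cases hx : x = 0
  · subst hx
    have hy : y = 0 := by
      rw [norm_zero] at hxy
      have : ‖y‖ ≤ 0 := by linarith
      exact norm_le_zero_iff.mp this
    subst hy
    simp
  · have hxn : 0 < ‖x‖ := norm_pos_iff.mpr hx
    have hR : 0 ≤ ‖y‖ * ‖x‖ ^ (-((Module.finrank ℚ K : ℝ) * s) - 1) :=
      mul_nonneg (norm_nonneg _) (Real.rpow_nonneg hxn.le _)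
    rcases le_or_gt ‖y‖ (anB1_kappa K / 4 * ‖x‖) with hy | hy
    · refine (anB1_lip_near s hs1 hs2 x y hx hy).trans ?_
      rw [mul_assoc, mul_assoc]
      exact mul_le_mul_of_nonneg_right (le_add_of_nonneg_right anB1_B2_nonneg) hR
    · refine (anB1_lip_far s hs1 hs2 x y hx hxy hy).trans ?_
      rw [mul_assoc, mul_assoc]
      exact mul_le_mul_of_nonneg_right (le_add_of_nonneg_left anB1_B1_nonneg) hR

end Fermat.Agent.S14
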