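import Mathlib
import Fermat.Agent.S14.PhiLip
import Fermat.Agent.S14.EulerLogLB

/-!
# S14 / AN: final glue of the analytic block

With the weight `g_s / w`, `g_s = anB1_g K s` (helper15's `PhiDefs`), `w = torsionOrder K`:

* `anLog_isLipWeight K : anB4_IsLipWeight K (anLog_weight K)` from `anB1_bound`, `anB1_lipschitz`
  (AN-B1, unconditional);
* `AnLogOrbitStatement`: the orbit bookkeeping (AN-B3), as a `Prop`;
* `anLog_isZetaWeight : AnLogOrbitStatement → anB4_IsZetaWeight K (anLog_weight K)`;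
* `anLog_analytic_of_orbit : AnLogOrbitStatement → AnalyticStatement`.
-/

namespace Fermat.Agent.S14

open NumberField NumberField.mixedEmbedding
open scoped nonZeroDivisors

/-- The weight `g_s / w`. -/
noncomputable def anLog_weight (K : Type*) [Field K] [NumberField K] (s : ℝ)
    (x : mixedSpace K) : ℝ :=
  anB1_g K s x / (NumberField.Units.torsionOrder K : ℝ)

theorem anLog_torsionOrder_pos (K : Type*) [Field K] [NumberField K] :
    (0 : ℝ) < (NumberField.Units.torsionOrder K : ℝ) :=
  Nat.cast_pos.mpr (NumberField.Units.torsionOrder_pos K)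

/-- (AN-B1) in the shape used by `anB4_lbound`. -/
theorem anLog_isLipWeight (K : Type*) [Field K] [NumberField K] :
    anB4_IsLipWeight K (anLog_weight K) := by
  have hw := anLog_torsionOrder_pos K
  obtain ⟨A, hA, hAb⟩ := anB1_bound K
  obtain ⟨B, hB, hBl⟩ := anB1_lipschitz K
  refine ⟨fun s => ?_, fun J => ⟨A / (NumberField.Units.torsionOrder K : ℝ),
    B / (NumberField.Units.torsionOrder K : ℝ), div_nonneg hA hw.le, div_nonneg hB hw.le,
    fun s hs1 hs2 => ⟨fun x _ hx => ?_, fun x _ y _ hxy => ?_⟩⟩⟩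
  · simp [anLog_weight, anB1_g_zero]
  · have h := hAb s hs1.le hs2 x hx
    unfold anLog_weight
    rw [abs_div, abs_of_pos hw, div_mul_eq_mul_div]
    exact div_le_div_of_nonneg_right h hw.le
  · have h := hBl s hs1.le hs2 x y hxy
    unfold anLog_weight
    rw [← sub_div, abs_div, abs_of_pos hw, div_mul_eq_mul_div, div_mul_eq_mul_div]
    exact div_le_div_of_nonneg_right h hw.le

/-- (AN-B3) the orbit bookkeeping, as a `Prop`:
`w * Z_C(s) = N(J)^s * ∑_{x ∈ lattice(J)} g_s(x)` for `C = [J]⁻¹`. -/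
def AnLogOrbitStatement : Prop :=
  ∀ (K : Type) [Field K] [NumberField K] (J : (Ideal (𝓞 K))⁰) (s : ℝ), 1 < s →
    (NumberField.Units.torsionOrder K : ℝ) *
      ∑' I : {I : (Ideal (𝓞 K))⁰ // ClassGroup.mk0 I = (ClassGroup.mk0 J)⁻¹},
        (Ideal.absNorm ((I : (Ideal (𝓞 K))⁰) : Ideal (𝓞 K)) : ℝ) ^ (-s) =
    (Ideal.absNorm (J : Ideal (𝓞 K)) : ℝ) ^ s *
      ∑' x : idealLattice K (FractionalIdeal.mk0 K J), anB1_g K s (x : mixedSpace K)

/-- (AN-B3) in the shape used by `anB4_lbound`. -/
theorem anLog_isZetaWeight (hO : AnLogOrbitStatement) (K : Type) [Field K] [NumberField K] :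
    anB4_IsZetaWeight K (anLog_weight K) := by
  intro C J hJ s hs1 _
  have hw := anLog_torsionOrder_pos K
  have hC : C = (ClassGroup.mk0 J)⁻¹ := by rw [hJ, inv_inv]
  subst hC
  have h := hO K J s hs1
  unfold anB4_Z anB4_S anB4_N anLog_weight
  rw [tsum_div_const, ← mul_div_assoc, ← h, mul_div_assoc, mul_comm, div_mul_cancel₀ _ hw.ne']

/-- The `L`-bound from the orbit bookkeeping (AN-B3). -/
theorem anLog_lbound_of_orbit (hO : AnLogOrbitStatement) : AnLogLBoundStatement :=
  anLog_lbound_of_weights fun K _ _ =>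
    ⟨anLog_weight K, anLog_isLipWeight K, anLog_isZetaWeight hO K⟩

/-- `AnalyticStatement` from the orbit bookkeeping (AN-B3). -/
theorem anLog_analytic_of_orbit (hO : AnLogOrbitStatement) : AnalyticStatement :=
  anLog_analytic_of_lbound (anLog_lbound_of_orbit hO)

end Fermat.Agent.S14
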