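import Mathlib
import Fermat.Agent.S14.PhiDefs
import Fermat.Agent.S14.EulerProd

/-!
# S14 / AN-B3: orbit bookkeeping

`w * Z_C(s) = N(J)^s * ∑_{x ∈ Λ_J} g_s(x)` for `J` in the class `C⁻¹`, where `Λ_J` is the lattice
of the integral ideal `J` in the mixed space, `g_s = Φ * norm^(-s)` and `Φ` is the partition of
unity for the unit group (`∑_u Φ(u • x) = w`, taken as a hypothesis here).
-/

set_option autoImplicit false

noncomputable section

open scoped NumberField nonZeroDivisors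
open NumberField NumberField.mixedEmbedding NumberField.Units

namespace Fermat.Agent.S14

variable (K : Type) [Field K] [NumberField K]

/-- The partition-of-unity property of `Φ` (proved in `PhiSum.lean`). -/
def AnB3PartitionStatement : Prop :=
  ∀ x : mixedSpace K, mixedEmbedding.norm x ≠ 0 →
    HasSum (fun u : (𝓞 K)ˣ => anB1_Phi K (u • x)) (torsionOrder K : ℝ)

variable {K}

/-- The integral ideals in the class `[J]⁻¹`. -/
abbrev anB3_Cls (J : (Ideal (𝓞 K))⁰) : Type :=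
  {I : (Ideal (𝓞 K))⁰ // ClassGroup.mk0 I = (ClassGroup.mk0 J)⁻¹}

theorem anB3_exists_gen (J : (Ideal (𝓞 K))⁰) (I : anB3_Cls J) :
    ∃ a : 𝓞 K, a ≠ 0 ∧ Ideal.span {a} = (J : Ideal (𝓞 K)) * ((I : (Ideal (𝓞 K))⁰) : Ideal (𝓞 K)) := by
  have h1 : ClassGroup.mk0 (J * I.1) = 1 := by
    rw [map_mul, I.2, mul_inv_cancel]
  have h2 : ((J * I.1 : (Ideal (𝓞 K))⁰) : Ideal (𝓞 K)).IsPrincipal :=
    (ClassGroup.mk0_eq_one_iff (SetLike.coe_mem _)).mp h1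
  obtain ⟨a, ha⟩ := h2.principal
  refine ⟨a, ?_, ?_⟩
  · rintro rfl
    have h3 : ((J * I.1 : (Ideal (𝓞 K))⁰) : Ideal (𝓞 K)) ≠ ⊥ :=
      nonZeroDivisors.coe_ne_zero _
    apply h3
    rw [ha]
    simp
  · rw [← Ideal.submodule_span_eq, ← ha]
    rfl

/-- A chosen generator of `J * I`. -/
def anB3_gen (J : (Ideal (𝓞 K))⁰) (I : anB3_Cls J) : 𝓞 K := (anB3_exists_gen J I).choose

theorem anB3_gen_ne_zero (J : (Ideal (𝓞 K))⁰) (I : anB3_Cls J) : anB3_gen J I ≠ 0 :=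
  (anB3_exists_gen J I).choose_spec.1

theorem anB3_span_gen (J : (Ideal (𝓞 K))⁰) (I : anB3_Cls J) :
    Ideal.span {anB3_gen J I} = (J : Ideal (𝓞 K)) * ((I : (Ideal (𝓞 K))⁰) : Ideal (𝓞 K)) :=
  (anB3_exists_gen J I).choose_spec.2

theorem anB3_gen_mem (J : (Ideal (𝓞 K))⁰) (I : anB3_Cls J) :
    anB3_gen J I ∈ (J : Ideal (𝓞 K)) := by
  have h : anB3_gen J I ∈ Ideal.span {anB3_gen J I} := Ideal.mem_span_singleton_self _
  rw [anB3_span_gen] at h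
  exact Ideal.mul_le_left h

/-- The point of the mixed space attached to `(I, u)`: the image of `u * gen I`. -/
def anB3_pt (J : (Ideal (𝓞 K))⁰) (p : Σ _ : anB3_Cls J, (𝓞 K)ˣ) : mixedSpace K :=
  mixedEmbedding K (((p.2 : 𝓞 K) * anB3_gen J p.1 : 𝓞 K) : K)

theorem anB3_pt_eq_smul (J : (Ideal (𝓞 K))⁰) (I : anB3_Cls J) (u : (𝓞 K)ˣ) :
    anB3_pt J ⟨I, u⟩ = u • mixedEmbedding K ((anB3_gen J I : 𝓞 K) : K) := by
  rw [unitSMul_smul, anB3_pt, ← map_mul]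
  simp

theorem anB3_norm_gen (J : (Ideal (𝓞 K))⁰) (I : anB3_Cls J) :
    mixedEmbedding.norm (mixedEmbedding K ((anB3_gen J I : 𝓞 K) : K)) =
      (Ideal.absNorm (J : Ideal (𝓞 K)) : ℝ) * (Ideal.absNorm ((I : (Ideal (𝓞 K))⁰) : Ideal (𝓞 K)) : ℝ) := by
  rw [mixedEmbedding.norm_eq_norm, ← Nat.cast_mul, ← map_mul, ← anB3_span_gen,
    Ideal.absNorm_span_singleton, ← Algebra.coe_norm_int, Nat.cast_natAbs]
  push_cast
  rfl

theorem anB3_pt_mem (J : (Ideal (𝓞 K))⁰) (p : Σ _ : anB3_Cls J, (𝓞 K)ˣ) :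
    anB3_pt J p ∈ mixedEmbedding.idealLattice K (FractionalIdeal.mk0 K J) := by
  rw [mem_idealLattice]
  refine ⟨_, ?_, rfl⟩
  rw [SetLike.mem_coe, FractionalIdeal.coe_mk0, FractionalIdeal.mem_coeIdeal]
  exact ⟨_, Ideal.mul_mem_left _ _ (anB3_gen_mem J p.1), rfl⟩

theorem anB3_pt_injective (J : (Ideal (𝓞 K))⁰) : Function.Injective (anB3_pt J) := by
  rintro ⟨I, u⟩ ⟨I', u'⟩ h
  have h1 : ((u : 𝓞 K) * anB3_gen J I : 𝓞 K) = (u' : 𝓞 K) * anB3_gen J I' := by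
    have := mixedEmbedding_injective K h
    exact_mod_cast RingOfIntegers.coe_injective this
  have h2 : Ideal.span {anB3_gen J I} = Ideal.span {anB3_gen J I'} := by
    rw [Ideal.span_singleton_eq_span_singleton]
    refine ⟨u * u'⁻¹, ?_⟩
    calc anB3_gen J I * ((u * u'⁻¹ : (𝓞 K)ˣ) : 𝓞 K)
        = ((u : 𝓞 K) * anB3_gen J I) * ((u'⁻¹ : (𝓞 K)ˣ) : 𝓞 K) := by
          rw [Units.val_mul]; ring
      _ = ((u' : 𝓞 K) * anB3_gen J I') * ((u'⁻¹ : (𝓞 K)ˣ) : 𝓞 K) := by rw [h1]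
      _ = anB3_gen J I' := by
          rw [mul_comm, ← mul_assoc, Units.inv_mul, one_mul]
  rw [anB3_span_gen, anB3_span_gen] at h2
  have h3 : ((I : (Ideal (𝓞 K))⁰) : Ideal (𝓞 K)) = ((I' : (Ideal (𝓞 K))⁰) : Ideal (𝓞 K)) :=
    mul_left_cancel₀ (nonZeroDivisors.coe_ne_zero J) h2
  have h4 : I = I' := Subtype.ext (Subtype.ext h3)
  subst h4
  have h5 : (u : 𝓞 K) = u' := mul_right_cancel₀ (anB3_gen_ne_zero J I) h1
  rw [Units.ext h5]

theorem anB3_exists_pt (J : (Ideal (𝓞 K))⁰) (x : mixedSpace K)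
    (hx : x ∈ mixedEmbedding.idealLattice K (FractionalIdeal.mk0 K J)) (hx0 : x ≠ 0) :
    ∃ p, anB3_pt J p = x := by
  rw [mem_idealLattice] at hx
  obtain ⟨y, hy, rfl⟩ := hx
  rw [SetLike.mem_coe, FractionalIdeal.coe_mk0, FractionalIdeal.mem_coeIdeal] at hy
  obtain ⟨a, ha, rfl⟩ := hy
  have ha0 : a ≠ 0 := by
    rintro rfl
    apply hx0
    simp
  obtain ⟨I₀, hI₀⟩ := (Ideal.dvd_span_singleton.mpr ha : (J : Ideal (𝓞 K)) ∣ Ideal.span {a})
  have hI₀0 : I₀ ≠ ⊥ := by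
    rintro rfl
    rw [Ideal.mul_bot, Ideal.span_singleton_eq_bot] at hI₀
    exact ha0 hI₀
  let I₁ : (Ideal (𝓞 K))⁰ := ⟨I₀, mem_nonZeroDivisors_of_ne_zero hI₀0⟩
  have hcl : ClassGroup.mk0 I₁ = (ClassGroup.mk0 J)⁻¹ := by
    rw [eq_inv_iff_mul_eq_one, mul_comm, ← map_mul,
      ClassGroup.mk0_eq_one_iff (SetLike.coe_mem _)]
    refine ⟨⟨a, ?_⟩⟩
    rw [Ideal.submodule_span_eq, hI₀]
    rfl
  let I : anB3_Cls J := ⟨I₁, hcl⟩
  have hspan : Ideal.span {anB3_gen J I} = Ideal.span {a} := by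
    rw [anB3_span_gen, hI₀]
  rw [Ideal.span_singleton_eq_span_singleton] at hspan
  obtain ⟨u, hu⟩ := hspan
  refine ⟨⟨I, u⟩, ?_⟩
  rw [anB3_pt, mul_comm, hu]

variable (K) in
/-- (AN-B3) orbit bookkeeping, with the partition of unity as a hypothesis. -/
theorem anB3_orbit_of (hPU : AnB3PartitionStatement K) (J : (Ideal (𝓞 K))⁰) (s : ℝ)
    (hs : 1 < s) :
    (torsionOrder K : ℝ) *
        ∑' I : {I : (Ideal (𝓞 K))⁰ // ClassGroup.mk0 I = (ClassGroup.mk0 J)⁻¹},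
          (Ideal.absNorm ((I : (Ideal (𝓞 K))⁰) : Ideal (𝓞 K)) : ℝ) ^ (-s)
      = (Ideal.absNorm (J : Ideal (𝓞 K)) : ℝ) ^ s *
        ∑' x : mixedEmbedding.idealLattice K (FractionalIdeal.mk0 K J),
          anB1_g K s (x : mixedSpace K) := by
  have hNJ : (0 : ℝ) < (Ideal.absNorm (J : Ideal (𝓞 K)) : ℝ) :=
    Nat.cast_pos.mpr (Ideal.absNorm_pos_of_nonZeroDivisors J)
  set G : (Σ _ : anB3_Cls J, (𝓞 K)ˣ) → ℝ := fun p => anB1_g K s (anB3_pt J p) with hG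
  -- the sum over each orbit
  have hfib : ∀ I : anB3_Cls J, HasSum (fun u : (𝓞 K)ˣ => G ⟨I, u⟩)
      ((torsionOrder K : ℝ) * ((Ideal.absNorm (J : Ideal (𝓞 K)) : ℝ) ^ (-s) *
        (Ideal.absNorm ((I : (Ideal (𝓞 K))⁰) : Ideal (𝓞 K)) : ℝ) ^ (-s))) := by
    intro I
    have hx : mixedEmbedding.norm (mixedEmbedding K ((anB3_gen J I : 𝓞 K) : K)) ≠ 0 := by
      rw [anB3_norm_gen]
      exact mul_ne_zero hNJ.ne'
        (Nat.cast_ne_zero.mpr (Ideal.absNorm_ne_zero_of_nonZeroDivisors I.1))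
    have h1 := (hPU _ hx).mul_right
      ((Ideal.absNorm (J : Ideal (𝓞 K)) : ℝ) ^ (-s) *
        (Ideal.absNorm ((I : (Ideal (𝓞 K))⁰) : Ideal (𝓞 K)) : ℝ) ^ (-s))
    have h2 : (fun u : (𝓞 K)ˣ => G ⟨I, u⟩) = fun u : (𝓞 K)ˣ =>
        anB1_Phi K (u • mixedEmbedding K ((anB3_gen J I : 𝓞 K) : K)) *
          ((Ideal.absNorm (J : Ideal (𝓞 K)) : ℝ) ^ (-s) *
            (Ideal.absNorm ((I : (Ideal (𝓞 K))⁰) : Ideal (𝓞 K)) : ℝ) ^ (-s)) := by
      funext u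
      rw [hG]
      simp only
      rw [anB3_pt_eq_smul, anB1_g, norm_unit_smul, anB3_norm_gen,
        Real.mul_rpow (Nat.cast_nonneg _) (Nat.cast_nonneg _)]
    rw [h2]
    exact h1
  -- summability
  have hsum : Summable (fun I : anB3_Cls J => (torsionOrder K : ℝ) *
      ((Ideal.absNorm (J : Ideal (𝓞 K)) : ℝ) ^ (-s) *
        (Ideal.absNorm ((I : (Ideal (𝓞 K))⁰) : Ideal (𝓞 K)) : ℝ) ^ (-s))) :=
    (((anA_summable_ideal K hs).subtype _).mul_left _).mul_left _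
  have hGsum : Summable G := by
    rw [summable_sigma_of_nonneg (fun p => anB1_g_nonneg K s _)]
    refine ⟨fun I => (hfib I).summable, ?_⟩
    refine hsum.congr fun I => ?_
    exact (hfib I).tsum_eq.symm
  have htG : ∑' p, G p = (torsionOrder K : ℝ) * ((Ideal.absNorm (J : Ideal (𝓞 K)) : ℝ) ^ (-s) *
      ∑' I : anB3_Cls J, (Ideal.absNorm ((I : (Ideal (𝓞 K))⁰) : Ideal (𝓞 K)) : ℝ) ^ (-s)) := by
    rw [hGsum.tsum_sigma' (fun I => (hfib I).summable)]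
    rw [← tsum_mul_left, ← tsum_mul_left]
    exact tsum_congr fun I => (hfib I).tsum_eq
  -- reindexing
  have hre : ∑' x : mixedEmbedding.idealLattice K (FractionalIdeal.mk0 K J),
      anB1_g K s (x : mixedSpace K) = ∑' p, G p := by
    refine tsum_eq_tsum_of_ne_zero_bij (fun p => ⟨anB3_pt J p.1, anB3_pt_mem J p.1⟩) ?_ ?_ ?_
    · intro p q h
      exact Subtype.ext (anB3_pt_injective J (Subtype.mk.inj h))
    · intro x hx
      have hx0 : (x : mixedSpace K) ≠ 0 := by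
        intro h0
        apply hx
        show anB1_g K s (x : mixedSpace K) = 0
        rw [h0, anB1_g_zero]
      obtain ⟨p, hp⟩ := anB3_exists_pt J x x.2 hx0
      refine ⟨⟨p, ?_⟩, Subtype.ext hp⟩
      show G p ≠ 0
      rw [hG]
      simp only
      rw [hp]
      exact hx
    · intro p
      rfl
  rw [hre, htG]
  rw [Real.rpow_neg hNJ.le]
  field_simp

end Fermat.Agent.S14
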