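import Mathlib
import Fermat.Agent.S14.Orbit
import Fermat.Agent.S14.EulerLogWeight

/-!
# S14 / AN: `AnalyticStatement` from the partition of unity

The whole analytic block, with the partition-of-unity property of `Φ` (AN-B3a) as the only
remaining hypothesis.
-/

set_option autoImplicit false

open scoped NumberField nonZeroDivisors
open NumberField NumberField.mixedEmbedding NumberField.Units

namespace Fermat.Agent.S14

/-- The orbit bookkeeping (AN-B3) from the partition of unity (AN-B3a). -/
theorem anB3_orbitStatement_of
    (hPU : ∀ (K : Type) [Field K] [NumberField K], AnB3PartitionStatement K) :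
    AnLogOrbitStatement :=
  fun K _ _ J s hs => anB3_orbit_of K (hPU K) J s hs

/-- `AnalyticStatement` from the partition of unity (AN-B3a). -/
theorem analytic_of_partition
    (hPU : ∀ (K : Type) [Field K] [NumberField K], AnB3PartitionStatement K) :
    AnalyticStatement :=
  anLog_analytic_of_orbit (anB3_orbitStatement_of hPU)

end Fermat.Agent.S14
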