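import Mathlib
import Fermat.Agent.S14.PhiDefs

/-!
# S14 / AN-B3a: the partition of unity `Φ` sums to the number of roots of unity on unit orbits

`anB3a_hasSum_units`: for `x` in the mixed space with `norm x ≠ 0`,
`∑_{u ∈ (𝓞 K)ˣ} Φ (u • x) = torsionOrder K` (a finite sum in disguise).
-/

set_option autoImplicit false
set_option maxSynthPendingDepth 3

noncomputable section

open NumberField NumberField.mixedEmbedding NumberField.Units
  NumberField.Units.dirichletUnitTheorem

namespace Fermat.Agent.S14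

/-- Value of the tent function on `[0, 1]`. -/
theorem anB3a_tent_of_nonneg {t : ℝ} (h0 : 0 ≤ t) (h1 : t ≤ 1) : anB1_tent t = 1 - t := by
  unfold anB1_tent
  rw [abs_of_nonneg h0]
  exact max_eq_right (by linarith)

/-- Value of the tent function on `[-1, 0]`. -/
theorem anB3a_tent_of_nonpos {t : ℝ} (h0 : t ≤ 0) (h1 : -1 ≤ t) : anB1_tent t = 1 + t := by
  unfold anB1_tent
  rw [abs_of_nonpos h0]
  rw [max_eq_right (by linarith)]
  ring

/-- The two integers `m` for which `tent (t + m)` may be nonzero. -/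
def anB3a_supp (t : ℝ) : Finset ℤ := {-⌊t⌋, -⌊t⌋ - 1}

theorem anB3a_tent_eq_zero_of_notMem (t : ℝ) (m : ℤ) (hm : m ∉ anB3a_supp t) :
    anB1_tent (t + m) = 0 := by
  apply anB1_tent_eq_zero
  have h1 : m ≠ -⌊t⌋ := fun h => hm (by simp [anB3a_supp, h])
  have h2 : m ≠ -⌊t⌋ - 1 := fun h => hm (by simp [anB3a_supp, h])
  have hfl := Int.floor_le t
  have hlt := Int.lt_floor_add_one t
  rcases lt_or_gt_of_ne h1 with h | h
  · -- m < -⌊t⌋, and m ≠ -⌊t⌋ - 1, so m ≤ -⌊t⌋ - 2
    have h3 : m ≤ -⌊t⌋ - 2 := by omega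
    have h4 : (m : ℝ) ≤ -(⌊t⌋ : ℝ) - 2 := by exact_mod_cast h3
    rw [le_abs]
    right
    linarith
  · have h3 : -⌊t⌋ + 1 ≤ m := by omega
    have h4 : -(⌊t⌋ : ℝ) + 1 ≤ (m : ℝ) := by exact_mod_cast h3
    rw [le_abs]
    left
    linarith

theorem anB3a_sum_supp (t : ℝ) : ∑ m ∈ anB3a_supp t, anB1_tent (t + m) = 1 := by
  have hfl := Int.floor_le t
  have hlt := Int.lt_floor_add_one t
  have hne : (-⌊t⌋ : ℤ) ≠ -⌊t⌋ - 1 := by omega
  unfold anB3a_supp
  rw [Finset.sum_pair hne]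
  have e1 : anB1_tent (t + ((-⌊t⌋ : ℤ) : ℝ)) = 1 - (t + ((-⌊t⌋ : ℤ) : ℝ)) := by
    apply anB3a_tent_of_nonneg <;> push_cast <;> linarith
  have e2 : anB1_tent (t + ((-⌊t⌋ - 1 : ℤ) : ℝ)) = 1 + (t + ((-⌊t⌋ - 1 : ℤ) : ℝ)) := by
    apply anB3a_tent_of_nonpos <;> push_cast <;> linarith
  rw [e1, e2]
  push_cast
  ring

/-- (P1) The integer translates of the tent function form a partition of unity. -/
theorem anB3a_tent_hasSum (t : ℝ) : HasSum (fun m : ℤ => anB1_tent (t + m)) 1 := by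
  have h : HasSum (fun m : ℤ => anB1_tent (t + m)) (∑ m ∈ anB3a_supp t, anB1_tent (t + m)) :=
    hasSum_sum_of_ne_finset_zero (fun m hm => anB3a_tent_eq_zero_of_notMem t m hm)
  rwa [anB3a_sum_supp] at h

/-- (P2) The product partition of unity on `ι → ℤ`. -/
theorem anB3a_prod_tent_sum {ι : Type*} [Fintype ι] [DecidableEq ι] (t : ι → ℝ) :
    ∑ m ∈ Fintype.piFinset (fun i => anB3a_supp (t i)), ∏ i, anB1_tent (t i + m i) = 1 := by
  rw [← Finset.prod_univ_sum (fun i => anB3a_supp (t i)) (fun i (j : ℤ) => anB1_tent (t i + j))]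
  exact Finset.prod_eq_one fun i _ => anB3a_sum_supp (t i)

theorem anB3a_prod_tent_eq_zero {ι : Type*} [Fintype ι] [DecidableEq ι] (t : ι → ℝ)
    (m : ι → ℤ) (hm : m ∉ Fintype.piFinset (fun i => anB3a_supp (t i))) :
    ∏ i, anB1_tent (t i + m i) = 0 := by
  rw [Fintype.mem_piFinset, not_forall] at hm
  obtain ⟨i, hi⟩ := hm
  exact Finset.prod_eq_zero (Finset.mem_univ i) (anB3a_tent_eq_zero_of_notMem _ _ hi)

theorem anB3a_prod_tent_hasSum {ι : Type*} [Fintype ι] (t : ι → ℝ) :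
    HasSum (fun m : ι → ℤ => ∏ i, anB1_tent (t i + m i)) 1 := by
  classical
  have h : HasSum (fun m : ι → ℤ => ∏ i, anB1_tent (t i + m i))
      (∑ m ∈ Fintype.piFinset (fun i => anB3a_supp (t i)), ∏ i, anB1_tent (t i + m i)) :=
    hasSum_sum_of_ne_finset_zero (fun m hm => anB3a_prod_tent_eq_zero t m hm)
  rwa [anB3a_prod_tent_sum] at h

variable (K : Type*) [Field K] [NumberField K]

/-- The exponents of a unit on the fundamental system. -/
def anB3a_exp (u : (𝓞 K)ˣ) (i : Fin (rank K)) : ℤ :=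
  (basisModTorsion K).repr (Additive.ofMul (QuotientGroup.mk u)) i

/-- The coordinates of `logEmbedding u` in the basis of the unit lattice are the exponents. -/
theorem anB3a_repr_logEmbedding (u : (𝓞 K)ˣ) (i : Fin (rank K)) :
    (anB1_basis K).repr (logEmbedding K (Additive.ofMul u)) i = (anB3a_exp K u i : ℝ) := by
  classical
  have h1 : logEmbedding K (Additive.ofMul u) =
      ((logEmbeddingEquiv K (Additive.ofMul (QuotientGroup.mk u)) : unitLattice K) :
        logSpace K) := by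
    rw [logEmbeddingEquiv_apply]
  rw [h1]
  unfold anB1_basis
  rw [Module.Basis.ofZLatticeBasis_repr_apply]
  congr 1
  unfold anB3a_exp basisUnitLattice
  rw [Module.Basis.map_repr]
  simp

/-- (P3) The coordinates of `u • x`. -/
theorem anB3a_coord_smul (u : (𝓞 K)ˣ) {x : mixedSpace K} (hx : mixedEmbedding.norm x ≠ 0)
    (i : Fin (rank K)) :
    anB1_coord K (u • x) i = anB1_coord K x i + (anB3a_exp K u i : ℝ) := by
  unfold anB1_coord
  rw [logMap_unit_smul u hx, map_add, Finsupp.add_apply, anB3a_repr_logEmbedding, add_comm]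

theorem anB3a_Phi_smul (u : (𝓞 K)ˣ) {x : mixedSpace K} (hx : mixedEmbedding.norm x ≠ 0) :
    anB1_Phi K (u • x) = ∏ i, anB1_tent (anB1_coord K x i + (anB3a_exp K u i : ℝ)) := by
  rw [anB1_Phi_of_norm_ne_zero K (by rwa [norm_unit_smul])]
  exact Finset.prod_congr rfl fun i _ => by rw [anB3a_coord_smul K u hx]

/-- The parametrisation of the units by `torsion × ℤ^r`. -/
def anB3a_param (ζe : torsion K × (Fin (rank K) → ℤ)) : (𝓞 K)ˣ :=
  ζe.1 * ∏ i, (fundSystem K i) ^ (ζe.2 i)

theorem anB3a_param_bijective : Function.Bijective (anB3a_param K) := by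
  constructor
  · intro a b hab
    obtain ⟨c, _, hc⟩ := exist_unique_eq_mul_prod K (anB3a_param K a)
    rw [hc a rfl, hc b hab]
  · intro u
    obtain ⟨c, hc, _⟩ := exist_unique_eq_mul_prod K u
    exact ⟨c, hc.symm⟩

theorem anB3a_exp_param (ζe : torsion K × (Fin (rank K) → ℤ)) :
    anB3a_exp K (anB3a_param K ζe) = ζe.2 := by
  have h := fun_eq_repr K (x := anB3a_param K ζe) (ζ := ζe.1) (f := ζe.2) ζe.1.2 rfl
  funext i
  rw [h]
  rfl

/-- **(B3a)** The sum of `Φ` over a unit orbit is the number of roots of unity. -/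
theorem anB3a_hasSum_units (K : Type) [Field K] [NumberField K] (x : mixedSpace K)
    (hx : mixedEmbedding.norm x ≠ 0) :
    HasSum (fun u : (𝓞 K)ˣ => anB1_Phi K (u • x)) (NumberField.Units.torsionOrder K : ℝ) := by
  classical
  have : Fintype (torsion K) := Fintype.ofFinite _
  let e : torsion K × (Fin (rank K) → ℤ) ≃ (𝓞 K)ˣ :=
    Equiv.ofBijective (anB3a_param K) (anB3a_param_bijective K)
  rw [← e.hasSum_iff]
  have hfun : (fun u : (𝓞 K)ˣ => anB1_Phi K (u • x)) ∘ e =
      fun ζe : torsion K × (Fin (rank K) → ℤ) =>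
        ∏ i, anB1_tent (anB1_coord K x i + (ζe.2 i : ℝ)) := by
    funext ζe
    change anB1_Phi K (anB3a_param K ζe • x) = _
    rw [anB3a_Phi_smul K _ hx, anB3a_exp_param]
  rw [hfun]
  set t : Fin (rank K) → ℝ := fun i => anB1_coord K x i with ht
  have h : HasSum
      (fun ζe : torsion K × (Fin (rank K) → ℤ) => ∏ i, anB1_tent (t i + (ζe.2 i : ℝ)))
      (∑ ζe ∈ (Finset.univ : Finset (torsion K)) ×ˢ
          Fintype.piFinset (fun i => anB3a_supp (t i)),
        ∏ i, anB1_tent (t i + (ζe.2 i : ℝ))) :=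
    hasSum_sum_of_ne_finset_zero (fun ζe hζe => by
      apply anB3a_prod_tent_eq_zero t ζe.2
      intro hmem
      exact hζe (Finset.mem_product.mpr ⟨Finset.mem_univ _, hmem⟩))
  rw [Finset.sum_product] at h
  simp only [anB3a_prod_tent_sum, Finset.sum_const, Finset.card_univ, nsmul_eq_mul, mul_one]
    at h
  rw [torsionOrder, Nat.card_eq_fintype_card]
  exact h

end Fermat.Agent.S14
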