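import Mathlib
import Fermat.Agent.S14.AnalyticOfPartition
import Fermat.Agent.S14.PhiSum

/-!
# S14 / AN: the analytic statement

`analytic : AnalyticStatement` (verbatim from `Defs.lean`): for a non-trivial class group character
`ψ` of exponent `p` of a number field `K` containing the `p`-th roots of unity, and `E ∈ 𝓞 K` which
is not a `p`-th power in `K`, there is a prime `λ` of degree one, prime to `p`, with `ψ(λ) ≠ 1` and
`E` not a `p`-th power modulo `λ`.
-/

set_option autoImplicit false

namespace Fermat.Agent.S14

/-- The partition of unity (AN-B3a) in the shape used by the orbit bookkeeping. -/
theorem anB3_partitionStatement (K : Type) [Field K] [NumberField K] :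
    AnB3PartitionStatement K :=
  fun x hx => anB3a_hasSum_units K x hx

/-- (AN) the analytic input of S14. -/
theorem analytic : AnalyticStatement :=
  analytic_of_partition fun K _ _ => anB3_partitionStatement K

end Fermat.Agent.S14
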