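import Mathlib
import Fermat.Agent.S14.Defs

/-!
# S14 (CL): the `ω²`-part of the class group modulo `p` vanishes

Glue: (TH2) + (AN) + "`E₂*` is not a `p`-th power" give (CL).
-/

set_option autoImplicit false

open scoped NumberField nonZeroDivisors

namespace Fermat.Agent.S14

/-- (CL) from Thaine's relation for characters, the analytic input, and the fact that the
`ω²`-element `E₂*` is not a `p`-th power. -/
theorem classGroup_of (p : ℕ) [Fact p.Prime] (hp3 : 3 ≤ p)
    (hTH : ThaineCharStatement p) (hAN : AnalyticStatement)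
    (hE : ∀ (K : Type) [Field K] [NumberField K] [IsCyclotomicExtension {p} ℚ K] (ζ : K)
      (hζ : IsPrimitiveRoot ζ p), ¬ ∃ x : K, x ^ p = ((omegaSqElt p hζ.toInteger : 𝓞 K) : K)) :
    ClassGroupStatement p := by
  intro K _ _ _ ζ hζ ψ hψ
  by_contra hne
  obtain ⟨lam, hprime, hnorm, hnp, hψlam, hnot⟩ :=
    hAN p Fact.out hp3 K ζ hζ ψ hψ.1 hne (omegaSqElt p hζ.toInteger) (hE K ζ hζ)
  obtain ⟨x, hx⟩ := hTH K ζ hζ ψ hψ lam hprime hnorm hnp hψlam
  exact hnot x hx

end Fermat.Agent.S14
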