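import Fermat.Agent.S14.Defs

/-!
# S14, package (TH2): from Thaine's relation to the character statement

Given Thaine's relation (`ThaineStatement p`), we show: for an `ω²`-character `ψ` of the class
group of exponent `p` and a prime `λ` of degree one, prime to `p`, with `ψ(λ) ≠ 1`, the element
`E₂* = ∏_{0<a<p} (1 - ζ^a)^(e_a)` is a `p`-th power modulo `λ`.
-/

set_option autoImplicit false

open scoped NumberField nonZeroDivisors

namespace Fermat.Agent.S14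

section

variable {p : ℕ} [hp : Fact p.Prime] {K : Type} [Field K] [NumberField K]
  [IsCyclotomicExtension {p} ℚ K]

/-- The cyclotomic exponent of `σ`, as a natural number `< p`. -/
noncomputable def th2_k (p : ℕ) [Fact p.Prime] (K : Type) [Field K] [NumberField K]
    [IsCyclotomicExtension {p} ℚ K] (σ : K ≃ₐ[ℚ] K) : ℕ :=
  ((IsCyclotomicExtension.Rat.galEquivZMod p K σ : (ZMod p)ˣ) : ZMod p).val

lemma th2_apply_zeta {ζ : K} (hζ : IsPrimitiveRoot ζ p) (σ : K ≃ₐ[ℚ] K) :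
    σ ζ = ζ ^ th2_k p K σ :=
  IsCyclotomicExtension.Rat.galEquivZMod_apply_of_pow_eq p K σ hζ.pow_eq_one

lemma th2_k_cast (σ : K ≃ₐ[ℚ] K) :
    ((th2_k p K σ : ℕ) : ZMod p) =
      ((IsCyclotomicExtension.Rat.galEquivZMod p K σ : (ZMod p)ˣ) : ZMod p) :=
  ZMod.natCast_zmod_val _

lemma th2_galInt_apply (σ : K ≃ₐ[ℚ] K) (x : 𝓞 K) :
    algebraMap (𝓞 K) K (galInt σ x) = σ (algebraMap (𝓞 K) K x) := by
  rw [galRestrictionDatum_apply]
  exact algebraMap_galRestrict_apply ℤ σ x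

lemma th2_galInt_zeta {ζ : K} (hζ : IsPrimitiveRoot ζ p) (σ : K ≃ₐ[ℚ] K) :
    galInt σ hζ.toInteger = hζ.toInteger ^ th2_k p K σ := by
  apply FaithfulSMul.algebraMap_injective (𝓞 K) K
  rw [map_pow]
  exact (th2_galInt_apply σ hζ.toInteger).trans (th2_apply_zeta hζ σ)

/-- Reindexing a product over `0 < a < p` by the units of `ZMod p`. -/
lemma th2_prod_Ioo_eq_prod_units {M : Type*} [CommMonoid M] (f : ℕ → M) :
    ∏ a ∈ Finset.Ioo 0 p, f a = ∏ d : (ZMod p)ˣ, f ((d : ZMod p).val) := by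
  symm
  refine Finset.prod_bij (fun d _ => ((d : (ZMod p)ˣ) : ZMod p).val) ?_ ?_ ?_ ?_
  · intro d _
    rw [Finset.mem_Ioo]
    exact ⟨(ZMod.val_pos).mpr d.ne_zero, ZMod.val_lt _⟩
  · intro d₁ _ d₂ _ h
    exact Units.ext (ZMod.val_injective p h)
  · intro a ha
    rw [Finset.mem_Ioo] at ha
    have hcop : a.Coprime p :=
      ((Nat.Prime.coprime_iff_not_dvd hp.out).mpr (Nat.not_dvd_of_pos_of_lt ha.1 ha.2)).symm
    refine ⟨ZMod.unitOfCoprime a hcop, Finset.mem_univ _, ?_⟩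
    rw [ZMod.coe_unitOfCoprime, ZMod.val_natCast, Nat.mod_eq_of_lt ha.2]
  · intro d _
    rfl

/-- The exponent attached to `τ`: `e(τ) ≡ k(τ)⁻² mod p`. -/
noncomputable def th2_e (p : ℕ) [Fact p.Prime] (K : Type) [Field K] [NumberField K]
    [IsCyclotomicExtension {p} ℚ K] (τ : K ≃ₐ[ℚ] K) : ℕ :=
  omegaSqExp p (th2_k p K τ)

lemma th2_e_cast (τ : K ≃ₐ[ℚ] K) :
    ((th2_e p K τ : ℕ) : ZMod p) =
      (((IsCyclotomicExtension.Rat.galEquivZMod p K τ : (ZMod p)ˣ) : ZMod p)⁻¹) ^ 2 := by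
  rw [th2_e, omegaSqExp, ZMod.natCast_zmod_val, th2_k_cast]

/-- `E₂*` as a product over the Galois group. -/
lemma th2_omegaSqElt_eq {R : Type*} [CommRing R] (ζ : R) :
    omegaSqElt p ζ = ∏ τ : K ≃ₐ[ℚ] K, (1 - ζ ^ th2_k p K τ) ^ th2_e p K τ := by
  rw [omegaSqElt, th2_prod_Ioo_eq_prod_units (p := p)
    (fun a => (1 - ζ ^ a) ^ omegaSqExp p a)]
  exact (Equiv.prod_comp (IsCyclotomicExtension.Rat.galEquivZMod p K).toEquiv
    (fun d : (ZMod p)ˣ => (1 - ζ ^ ((d : ZMod p).val)) ^ omegaSqExp p ((d : ZMod p).val))).symm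

/-- A prime of degree one, prime to `p`, has norm `≡ 1 mod p`. -/
lemma th2_norm_mod {ζ : K} (hζ : IsPrimitiveRoot ζ p) (lam : Ideal (𝓞 K)) (hlam : lam.IsPrime)
    (hN : (Ideal.absNorm lam).Prime) (hNp : Ideal.absNorm lam ≠ p) :
    Ideal.absNorm lam % p = 1 := by
  have hne : lam ≠ ⊥ := by
    rintro rfl
    rw [Ideal.absNorm_bot] at hN
    exact Nat.not_prime_zero hN
  have hmax : lam.IsMaximal := Ideal.IsPrime.isMaximal hlam hne
  let _ : Field (𝓞 K ⧸ lam) := Ideal.Quotient.field lam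
  have hcard : Nat.card (𝓞 K ⧸ lam) = Ideal.absNorm lam := by
    rw [Ideal.absNorm_apply, Submodule.cardQuot_apply]
  have : Finite (𝓞 K ⧸ lam) := Nat.finite_of_card_ne_zero (by rw [hcard]; exact hN.ne_zero)
  let _ : Fintype (𝓞 K ⧸ lam) := Fintype.ofFinite _
  have hp1 : (p : 𝓞 K) ∉ lam := by
    intro hpl
    have hl : ((Ideal.absNorm lam : ℕ) : 𝓞 K) ∈ lam := Ideal.absNorm_mem lam
    have hcop : IsCoprime (p : ℤ) (Ideal.absNorm lam : ℤ) :=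
      Nat.isCoprime_iff_coprime.mpr ((Nat.coprime_primes hp.out hN).mpr (Ne.symm hNp))
    obtain ⟨a, b, hab⟩ := hcop
    have h1 : (1 : 𝓞 K) ∈ lam := by
      have : (1 : 𝓞 K) = (a : 𝓞 K) * (p : 𝓞 K) + (b : 𝓞 K) * ((Ideal.absNorm lam : ℕ) : 𝓞 K) := by
        have := congrArg (Int.cast : ℤ → 𝓞 K) hab
        push_cast at this
        exact this.symm
      rw [this]
      exact lam.add_mem (lam.mul_mem_left _ hpl) (lam.mul_mem_left _ hl)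
    exact hlam.ne_top ((Ideal.eq_top_iff_one lam).mpr h1)
  set z : 𝓞 K ⧸ lam := Ideal.Quotient.mk lam hζ.toInteger with hz
  have hzp : z ^ p = 1 := by
    rw [hz, ← map_pow, hζ.toInteger_isPrimitiveRoot.pow_eq_one, map_one]
  have hz1 : z ≠ 1 := by
    intro h
    apply hp1
    have h2 : hζ.toInteger - 1 ∈ lam := by
      rw [← Ideal.Quotient.eq_zero_iff_mem, map_sub, map_one, ← hz, h, sub_self]
    obtain ⟨c, hc⟩ := hζ.toInteger_sub_one_dvd_prime'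
    rw [hc]
    exact lam.mul_mem_right _ h2
  have hz0 : z ≠ 0 := by
    intro h
    rw [h, zero_pow hp.out.ne_zero] at hzp
    exact zero_ne_one hzp
  have hord : orderOf z = p := orderOf_eq_prime hzp hz1
  have hdvd : p ∣ Fintype.card (𝓞 K ⧸ lam) - 1 := by
    rw [← hord]
    exact orderOf_dvd_of_pow_eq_one (FiniteField.pow_card_sub_one_eq_one z hz0)
  rw [← Nat.card_eq_fintype_card, hcard] at hdvd
  obtain ⟨m, hm⟩ := hdvd
  have h2 : 2 ≤ Ideal.absNorm lam := hN.two_le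
  have h3 : Ideal.absNorm lam = p * m + 1 := by omega
  rw [h3, Nat.mul_add_mod, Nat.mod_eq_of_lt hp.out.one_lt]

/-- The character relation: `p ∣ ∑_σ n_σ k_σ²`. -/
lemma th2_dvd_sum {ζ : K} (hζ : IsPrimitiveRoot ζ p) (ψ : ClassGroup (𝓞 K) →* ℂˣ)
    (hψ : IsOmegaSqChar p ζ ψ) (lam : (Ideal (𝓞 K))⁰) (hψl : ψ (ClassGroup.mk0 lam) ≠ 1)
    (n : (K ≃ₐ[ℚ] K) → ℕ) (b₁ b₂ : 𝓞 K) (I₁ I₂ : Ideal (𝓞 K)) (hb₁ : b₁ ≠ 0) (hb₂ : b₂ ≠ 0)
    (hI₁ : I₁ ≠ ⊥) (hI₂ : I₂ ≠ ⊥)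
    (heq : Ideal.span {b₁} * I₁ ^ p *
        ∏ σ : K ≃ₐ[ℚ] K, ((lam : Ideal (𝓞 K)).map (galInt σ : 𝓞 K →+* 𝓞 K)) ^ n σ =
      Ideal.span {b₂} * I₂ ^ p) :
    p ∣ ∑ σ : K ≃ₐ[ℚ] K, n σ * (th2_k p K σ) ^ 2 := by
  have hB₁ : Ideal.span {b₁} ∈ (Ideal (𝓞 K))⁰ :=
    mem_nonZeroDivisors_iff_ne_zero.mpr (by simpa using hb₁)
  have hB₂ : Ideal.span {b₂} ∈ (Ideal (𝓞 K))⁰ :=
    mem_nonZeroDivisors_iff_ne_zero.mpr (by simpa using hb₂)
  have hJ₁ : I₁ ∈ (Ideal (𝓞 K))⁰ := mem_nonZeroDivisors_iff_ne_zero.mpr hI₁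
  have hJ₂ : I₂ ∈ (Ideal (𝓞 K))⁰ := mem_nonZeroDivisors_iff_ne_zero.mpr hI₂
  have heq' : (⟨_, hB₁⟩ : (Ideal (𝓞 K))⁰) * ⟨I₁, hJ₁⟩ ^ p *
      ∏ σ : K ≃ₐ[ℚ] K, (Ideal.mapNonZero (galInt σ) lam) ^ n σ =
      ⟨_, hB₂⟩ * ⟨I₂, hJ₂⟩ ^ p := by
    apply Subtype.ext
    simp only [Submonoid.coe_mul, SubmonoidClass.coe_pow, Submonoid.coe_finsetProd,
      Ideal.coe_mapNonZero]
    exact heq
  have h1 := congrArg (fun J => ψ (ClassGroup.mk0 J)) heq'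
  simp only [map_mul, map_pow, map_prod] at h1
  rw [(ClassGroup.mk0_eq_one_iff hB₁).mpr ⟨⟨b₁, rfl⟩⟩,
    (ClassGroup.mk0_eq_one_iff hB₂).mpr ⟨⟨b₂, rfl⟩⟩, map_one, one_mul, one_mul,
    hψ.1, hψ.1, one_mul] at h1
  have h2 : ∀ σ : K ≃ₐ[ℚ] K, ψ (ClassGroup.mk0 (Ideal.mapNonZero (galInt σ) lam)) =
      ψ (ClassGroup.mk0 lam) ^ (th2_k p K σ) ^ 2 := by
    intro σ
    rw [← ClassGroup.mulEquiv_mk0]
    exact hψ.2 σ (th2_k p K σ) (th2_apply_zeta hζ σ) _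
  simp only [h2, ← pow_mul] at h1
  rw [Finset.prod_pow_eq_pow_sum] at h1
  have hord : orderOf (ψ (ClassGroup.mk0 lam)) = p := orderOf_eq_prime (hψ.1 _) hψl
  have h3 := orderOf_dvd_of_pow_eq_one h1
  rw [hord] at h3
  refine h3.trans (dvd_of_eq ?_)
  refine Finset.sum_congr rfl fun σ _ => ?_
  ring

/-- (TH2): Thaine's relation implies the character statement. -/
theorem thaineChar (p : ℕ) [Fact p.Prime] (h : ThaineStatement p) : ThaineCharStatement p := by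
  intro K _ _ _ ζ hζ ψ hψ lam hlam hN hNp hψl
  have hmod := th2_norm_mod hζ (lam : Ideal (𝓞 K)) hlam hN hNp
  obtain ⟨n, g, b₁, b₂, I₁, I₂, hb₁, hb₂, hI₁, hI₂, heq, hcong⟩ :=
    h K ζ hζ (Ideal.absNorm (lam : Ideal (𝓞 K))) hN hmod (lam : Ideal (𝓞 K)) hlam
      (Ideal.absNorm_mem _)
  have hT := th2_dvd_sum hζ ψ hψ lam hψl n b₁ b₂ I₁ I₂ hb₁ hb₂ hI₁ hI₂ heq
  -- the congruences, transported to `lam`
  have hc : ∀ τ : K ≃ₐ[ℚ] K,
      Ideal.Quotient.mk (lam : Ideal (𝓞 K)) (1 - hζ.toInteger ^ th2_k p K τ) =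
        Ideal.Quotient.mk (lam : Ideal (𝓞 K)) (g : 𝓞 K) ^ n τ⁻¹ := by
    intro τ
    have h1 := hcong τ⁻¹
    have h2 : galInt τ ((g : 𝓞 K) ^ n τ⁻¹ - (1 - hζ.toInteger)) ∈ (lam : Ideal (𝓞 K)) := by
      obtain ⟨x, hx, hxe⟩ := (Ideal.mem_map_of_equiv (galInt τ⁻¹) _).mp h1
      have h3 : galInt τ (galInt τ⁻¹ x) = x := by
        apply FaithfulSMul.algebraMap_injective (𝓞 K) K
        rw [th2_galInt_apply, th2_galInt_apply]
        simp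
      rw [← hxe, h3]
      exact hx
    rw [map_sub, map_pow, map_intCast, map_sub, map_one, th2_galInt_zeta hζ] at h2
    rw [← map_pow, eq_comm]
    exact (Ideal.Quotient.eq).mpr h2
  -- the exponent is divisible by `p`
  have hS : p ∣ ∑ τ : K ≃ₐ[ℚ] K, n τ⁻¹ * th2_e p K τ := by
    rw [← ZMod.natCast_eq_zero_iff] at hT ⊢
    rw [← hT]
    rw [← Equiv.sum_comp (Equiv.inv (K ≃ₐ[ℚ] K))
      (fun σ : K ≃ₐ[ℚ] K => n σ * (th2_k p K σ) ^ 2)]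
    push_cast
    refine Finset.sum_congr rfl fun τ _ => ?_
    rw [th2_e_cast, th2_k_cast, Equiv.inv_apply, map_inv, Units.val_inv_eq_inv_val]
  obtain ⟨M, hM⟩ := hS
  refine ⟨(g : 𝓞 K) ^ M, ?_⟩
  rw [← Ideal.Quotient.eq_zero_iff_mem, map_sub, th2_omegaSqElt_eq (p := p) (K := K), map_prod]
  simp only [map_pow, hc, ← pow_mul]
  rw [Finset.prod_pow_eq_pow_sum, hM]
  ring

end

end Fermat.Agent.S14
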