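import Mathlib
import Fermat.Agent.S14.Defs
import Fermat.Agent.S14.ThaineChar

/-!
# S14 (CORE-2): from an `ω²`-eigen class of order `p` to a non-trivial `ω²`-character

Pure finite group theory: if a finite abelian group `A` carries an action of a finite group `G`
of order prime to `p`, and `c ≠ 1` is an element of order `p` on which `G` acts through the
character `T²`, then there is a non-trivial character `ψ` of exponent `p` of `A` on which `G`
acts through `T²`.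
-/

set_option autoImplicit false

open scoped NumberField nonZeroDivisors

namespace Fermat.Agent.S14

/-- The abstract construction of the eigen-character. -/
theorem coreChar_abstract {A G : Type*} [CommGroup A] [Finite A] [Group G] [Fintype G]
    (act : G → A →* A) (hact : ∀ σ τ x, act (σ * τ) x = act σ (act τ x))
    (p : ℕ) [hp : Fact p.Prime] (N h' : ℕ) (hcard : Nat.card A = p ^ N * h')
    (hh' : ¬ p ∣ h') (hG : ¬ p ∣ Fintype.card G)
    (T : G → ℕ) (hT : ∀ σ τ, T (σ * τ) ≡ T σ * T τ [MOD p ^ N]) (hT1 : T 1 ≡ 1 [MOD p ^ N])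
    (c : A) (hc : c ≠ 1) (hcp : c ^ p = 1) (hcσ : ∀ σ, act σ c = c ^ (T σ ^ 2)) :
    ∃ ψ : A →* ℂˣ, ψ ≠ 1 ∧ (∀ x, ψ x ^ p = 1) ∧ ∀ σ x, ψ (act σ x) = ψ x ^ (T σ ^ 2) := by
  classical
  have hpp : p.Prime := hp.out
  -- `N ≥ 1`
  have hN : 1 ≤ N := by
    by_contra hN0
    have hN0 : N = 0 := by omega
    have hord : orderOf c = p := orderOf_eq_prime hcp hc
    have hdvd : p ∣ Nat.card A := hord ▸ orderOf_dvd_natCard c
    rw [hcard, hN0, pow_zero, one_mul] at hdvd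
    exact hh' hdvd
  have hpN : p ∣ p ^ N := dvd_pow_self p (by omega)
  -- a character with `φ₀ c ≠ 1`
  have : NeZero ((Monoid.exponent A : ℕ) : ℂ) :=
    ⟨by exact_mod_cast (Monoid.exponent_ne_zero_of_finite (G := A))⟩
  obtain ⟨φ₀, hφ₀⟩ := CommGroup.exists_apply_ne_one_of_hasEnoughRootsOfUnity A ℂ hc
  -- the basic annihilation property
  have hann : ∀ x : A, (φ₀ x ^ h') ^ (p ^ N) = 1 := by
    intro x
    rw [← pow_mul, mul_comm, ← hcard, ← map_pow, pow_card_eq_one', map_one]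
  set s : G → ℕ := fun σ => T σ⁻¹ ^ 2 with hs
  set ψ₀ : A →* ℂˣ := ∏ σ : G, (φ₀.comp (act σ)) ^ (h' * s σ) with hψ₀
  have hψ₀_apply : ∀ x, ψ₀ x = ∏ σ : G, (φ₀ (act σ x) ^ h') ^ s σ := by
    intro x
    rw [hψ₀, MonoidHom.finsetProd_apply]
    refine Finset.prod_congr rfl fun σ _ => ?_
    rw [MonoidHom.pow_apply, MonoidHom.comp_apply, pow_mul]
  -- equivariance of `ψ₀`
  have hψ₀_equiv : ∀ τ x, ψ₀ (act τ x) = ψ₀ x ^ (T τ ^ 2) := by
    intro τ x
    rw [hψ₀_apply, hψ₀_apply, ← Finset.prod_pow]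
    conv_rhs => rw [← Equiv.prod_comp (Equiv.mulRight τ)]
    refine Finset.prod_congr rfl fun σ _ => ?_
    simp only [Equiv.coe_mulRight]
    rw [hact]
    conv_rhs => rw [← pow_mul]
    refine pow_eq_pow_of_modEq ?_ (hann _)
    -- `s σ ≡ s (σ τ) * T τ ^ 2`
    simp only [hs]
    have h1 : T σ⁻¹ ≡ T (σ * τ)⁻¹ * T τ [MOD p ^ N] := by
      have h2 := hT τ⁻¹ σ⁻¹
      have h3 := hT τ⁻¹ τ
      rw [inv_mul_cancel] at h3
      rw [mul_inv_rev]
      calc T σ⁻¹ = 1 * T σ⁻¹ := (one_mul _).symm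
        _ ≡ (T τ⁻¹ * T τ) * T σ⁻¹ [MOD p ^ N] := ((hT1.symm.trans h3).mul_right _)
        _ = (T τ⁻¹ * T σ⁻¹) * T τ := by ring
        _ ≡ T (τ⁻¹ * σ⁻¹) * T τ [MOD p ^ N] := (h2.symm.mul_right _)
    calc T σ⁻¹ ^ 2 ≡ (T (σ * τ)⁻¹ * T τ) ^ 2 [MOD p ^ N] := h1.pow 2
      _ = T (σ * τ)⁻¹ ^ 2 * T τ ^ 2 := by ring
  -- `ψ₀ c ≠ 1`
  have hψ₀c : ψ₀ c ≠ 1 := by
    have h1 : ψ₀ c = φ₀ c ^ (h' * Fintype.card G) := by
      rw [hψ₀_apply]
      have : ∀ σ : G, (φ₀ (act σ c) ^ h') ^ s σ = φ₀ c ^ h' := by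
        intro σ
        rw [hcσ, map_pow, ← pow_mul, ← pow_mul]
        refine pow_eq_pow_of_modEq ?_ (by rw [← map_pow, hcp, map_one] : φ₀ c ^ p = 1)
        simp only [hs]
        have h2 : T σ * T σ⁻¹ ≡ 1 [MOD p] := by
          have h3 := hT σ σ⁻¹
          rw [mul_inv_cancel] at h3
          exact (h3.symm.trans hT1).of_dvd hpN
        calc T σ ^ 2 * (h' * T σ⁻¹ ^ 2) = (T σ * T σ⁻¹) ^ 2 * h' := by ring
          _ ≡ 1 ^ 2 * h' [MOD p] := (h2.pow 2).mul_right _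
          _ = h' := by ring
      rw [Finset.prod_congr rfl fun σ _ => this σ, Finset.prod_const, Finset.card_univ, ← pow_mul]
    rw [h1]
    intro h
    have hord : orderOf (φ₀ c) = p :=
      orderOf_eq_prime (by rw [← map_pow, hcp, map_one]) hφ₀
    have := orderOf_dvd_of_pow_eq_one h
    rw [hord] at this
    rcases (Nat.Prime.dvd_mul hpp).1 this with h | h
    · exact hh' h
    · exact hG h
  have hψ₀ne : ψ₀ ≠ 1 := fun h => hψ₀c (by rw [h]; rfl)
  -- `ψ₀` has `p`-power order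
  have hψ₀pow : ψ₀ ^ (p ^ N) = 1 := by
    ext x
    rw [MonoidHom.pow_apply, hψ₀_apply, ← Finset.prod_pow]
    simp only [MonoidHom.one_apply, Units.val_one]
    rw [Finset.prod_eq_one]
    · rfl
    · intro σ _
      rw [← pow_mul, mul_comm, pow_mul, hann, one_pow]
  obtain ⟨j, hjN, hj⟩ := (Nat.dvd_prime_pow hpp).1 (orderOf_dvd_of_pow_eq_one (x := ψ₀) hψ₀pow)
  have hj0 : j ≠ 0 := by
    rintro rfl
    rw [pow_zero, orderOf_eq_one_iff] at hj
    exact hψ₀ne hj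
  refine ⟨ψ₀ ^ (p ^ (j - 1)), ?_, ?_, ?_⟩
  · intro h
    have := orderOf_dvd_of_pow_eq_one (x := ψ₀) h
    rw [hj] at this
    have := (Nat.pow_dvd_pow_iff_le_right hpp.one_lt).1 this
    omega
  · intro x
    rw [← MonoidHom.pow_apply, ← pow_mul, ← pow_succ, Nat.sub_add_cancel (by omega), ← hj,
      pow_orderOf_eq_one]
    rfl
  · intro σ x
    rw [MonoidHom.pow_apply, MonoidHom.pow_apply, hψ₀_equiv, ← pow_mul, ← pow_mul, mul_comm]

section

variable {p : ℕ} [hp : Fact p.Prime] {K : Type} [Field K] [NumberField K]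
  [IsCyclotomicExtension {p} ℚ K]

/-- The cyclotomic exponent is multiplicative modulo `p`. -/
lemma coreChar_k_mul (σ τ : K ≃ₐ[ℚ] K) :
    th2_k p K (σ * τ) ≡ th2_k p K σ * th2_k p K τ [MOD p] := by
  rw [← ZMod.natCast_eq_natCast_iff]
  push_cast
  rw [th2_k_cast, th2_k_cast, th2_k_cast, map_mul, Units.val_mul]

lemma coreChar_k_one : th2_k p K (1 : K ≃ₐ[ℚ] K) ≡ 1 [MOD p] := by
  rw [← ZMod.natCast_eq_natCast_iff]
  push_cast
  rw [th2_k_cast, map_one, Units.val_one]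

/-- Two exponents of `σ` on `ζ` are congruent modulo `p`. -/
lemma coreChar_k_modEq {ζ : K} (hζ : IsPrimitiveRoot ζ p) (σ : K ≃ₐ[ℚ] K) (k : ℕ)
    (hk : σ ζ = ζ ^ k) : k ≡ th2_k p K σ [MOD p] := by
  have h := (th2_apply_zeta hζ σ).symm.trans hk
  have hfin : IsOfFinOrder ζ := isOfFinOrder_iff_pow_eq_one.2 ⟨p, hp.out.pos, hζ.pow_eq_one⟩
  have := hfin.pow_eq_pow_iff_modEq.1 h
  rw [← hζ.eq_orderOf] at this
  exact this.symm

omit hp in
/-- Lifting a congruence modulo `p` to a congruence modulo `p ^ N` between `p ^ N`-th powers. -/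
lemma coreChar_pow_modEq {a b : ℕ} (h : a ≡ b [MOD p]) (N : ℕ) :
    a ^ p ^ N ≡ b ^ p ^ N [MOD p ^ N] := by
  have h1 : (p : ℤ) ∣ (b : ℤ) - (a : ℤ) := by
    have := (Int.natCast_modEq_iff.2 h)
    exact (Int.modEq_iff_dvd.1 this)
  have h2 := dvd_sub_pow_of_dvd_sub h1 N
  have h3 : ((p ^ N : ℕ) : ℤ) ∣ ((b ^ p ^ N : ℕ) : ℤ) - ((a ^ p ^ N : ℕ) : ℤ) := by
    push_cast
    exact (pow_dvd_pow _ (Nat.le_succ N)).trans h2
  exact Int.natCast_modEq_iff.1 (Int.modEq_iff_dvd.2 h3)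

lemma coreChar_pow_self_modEq (a N : ℕ) : a ^ p ^ N ≡ a [MOD p] := by
  rw [← ZMod.natCast_eq_natCast_iff]
  push_cast
  exact ZMod.pow_card_pow _

lemma coreChar_card_gal : Fintype.card (K ≃ₐ[ℚ] K) = p - 1 := by
  rw [Fintype.card_congr (IsCyclotomicExtension.Rat.galEquivZMod p K).toEquiv,
    ZMod.card_units_eq_totient, Nat.totient_prime hp.out]

/-- (CORE-2) A non-trivial class of order `p` on which the Galois group acts through `ω²` yields
a non-trivial `ω²`-character of exponent `p` of the class group. -/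
theorem coreChar_exists {ζ : K} (hζ : IsPrimitiveRoot ζ p)
    (c : ClassGroup (𝓞 K)) (hc : c ≠ 1) (hcp : c ^ p = 1)
    (hcσ : ∀ σ : K ≃ₐ[ℚ] K, ClassGroup.mulEquiv (galInt σ) c = c ^ (th2_k p K σ ^ 2)) :
    ∃ ψ : ClassGroup (𝓞 K) →* ℂˣ, IsOmegaSqChar p ζ ψ ∧ ψ ≠ 1 := by
  classical
  have hpp : p.Prime := hp.out
  have hcard0 : Nat.card (ClassGroup (𝓞 K)) ≠ 0 := Nat.card_pos.ne'
  obtain ⟨N, h', hh', hcard⟩ := Nat.exists_eq_pow_mul_and_not_dvd hcard0 p hpp.ne_one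
  have hG : ¬ p ∣ Fintype.card (K ≃ₐ[ℚ] K) := by
    rw [coreChar_card_gal (p := p)]
    intro h
    have := Nat.le_of_dvd (Nat.sub_pos_of_lt hpp.one_lt) h
    have := hpp.pos
    omega
  obtain ⟨ψ, hψ1, hψp, hψσ⟩ := coreChar_abstract
    (fun σ : K ≃ₐ[ℚ] K => (ClassGroup.mulEquiv (galInt σ)).toMonoidHom)
    (fun σ τ x => by
      simp only [MulEquiv.toMonoidHom_eq_coe, MonoidHom.coe_coe]
      rw [← ClassGroup.mulEquiv_trans_apply]
      have h1 : galInt (σ * τ) = (galInt τ).trans (galInt σ) := by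
        rw [galInt, map_mul]
        rfl
      rw [h1])
    p N h' hcard hh' hG (fun σ => th2_k p K σ ^ p ^ N)
    (fun σ τ => by
      rw [← mul_pow]
      exact coreChar_pow_modEq (coreChar_k_mul σ τ) N)
    (by
      have := coreChar_pow_modEq (p := p) (coreChar_k_one (p := p) (K := K)) N
      rwa [one_pow] at this)
    c hc hcp
    (fun σ => by
      simp only [MulEquiv.toMonoidHom_eq_coe, MonoidHom.coe_coe]
      rw [hcσ]
      exact pow_eq_pow_of_modEq ((coreChar_pow_self_modEq _ N).pow 2).symm hcp)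
  refine ⟨ψ, ⟨hψp, ?_⟩, hψ1⟩
  intro σ k hk x
  have := hψσ σ x
  simp only [MulEquiv.toMonoidHom_eq_coe, MonoidHom.coe_coe] at this
  rw [this]
  refine pow_eq_pow_of_modEq ?_ (hψp x)
  exact (((coreChar_pow_self_modEq _ N).trans (coreChar_k_modEq hζ σ k hk).symm).pow 2)

end

end Fermat.Agent.S14
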