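import Mathlib
import Fermat.Agent.S14.Defs
import Fermat.Agent.S14.ThaineChar
import Fermat.Agent.S14.CoreChar

/-!
# S14 (CORE): the arithmetic of the cyclotomic field

`core_main`: given the valuation dictionary (CORE-1), the triviality of the `ω²`-part of the class
group (CL) and the statement on `ω²`-units (UN), an `ω²`-eigen element which is everywhere locally
a unit times a `p`-th power, and a `p`-th power mod `π³`, is a `p`-th power.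
-/

set_option autoImplicit false
set_option linter.unusedSectionVars false

open scoped NumberField nonZeroDivisors

namespace Fermat.Agent.S14

/-- Taking `n`-th powers of ideals is injective in a Dedekind domain. -/
lemma core_ideal_pow_inj {R : Type*} [CommRing R] [IsDedekindDomain R] {n : ℕ} (hn : n ≠ 0)
    {A B : Ideal R} (h : A ^ n = B ^ n) : A = B := by
  have h1 : A ∣ B := (UniqueFactorizationMonoid.pow_dvd_pow_iff_dvd hn).1 (h ▸ dvd_rfl)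
  have h2 : B ∣ A := (UniqueFactorizationMonoid.pow_dvd_pow_iff_dvd hn).1 (h ▸ dvd_rfl)
  exact dvd_antisymm h1 h2

section

variable {p : ℕ} [hp : Fact p.Prime] {K : Type} [Field K] [NumberField K]
  [IsCyclotomicExtension {p} ℚ K]

/-- The class `[I]/[J]` attached to `α = x / y` with `(x) J ^ p = (y) I ^ p` is killed by `p`. -/
lemma core_class_pow (x y : 𝓞 K) (hx : x ≠ 0) (hy : y ≠ 0) (I J : (Ideal (𝓞 K))⁰)
    (hIJ : Ideal.span {x} * (J : Ideal (𝓞 K)) ^ p = Ideal.span {y} * (I : Ideal (𝓞 K)) ^ p) :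
    (ClassGroup.mk0 I / ClassGroup.mk0 J) ^ p = 1 := by
  rw [div_pow, div_eq_one, ← map_pow, ← map_pow]
  refine ClassGroup.mk0_eq_mk0_iff.2 ⟨y, x, hy, hx, ?_⟩
  simpa using hIJ.symm

/-- The class `[I]/[J]` attached to an `ω²`-eigen element `α = x / y` with
`(x) J ^ p = (y) I ^ p` is an `ω²`-eigen class. -/
lemma core_class_eigen {ζ : K} (hζ : IsPrimitiveRoot ζ p) (x y : 𝓞 K) (hx : x ≠ 0) (hy : y ≠ 0)
    (I J : (Ideal (𝓞 K))⁰)
    (hIJ : Ideal.span {x} * (J : Ideal (𝓞 K)) ^ p = Ideal.span {y} * (I : Ideal (𝓞 K)) ^ p)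
    (heig : IsOmegaSqEigen p ζ ((x : K) / (y : K))) (σ : K ≃ₐ[ℚ] K) :
    ClassGroup.mulEquiv (galInt σ) (ClassGroup.mk0 I / ClassGroup.mk0 J) =
      (ClassGroup.mk0 I / ClassGroup.mk0 J) ^ (th2_k p K σ ^ 2) := by
  set k := th2_k p K σ with hk
  obtain ⟨γ, hγ⟩ := heig σ k (th2_apply_zeta hζ σ)
  have hxK : (x : K) ≠ 0 := by
    simpa using hx
  have hyK : (y : K) ≠ 0 := by
    simpa using hy
  have hγ0 : γ ≠ 0 := by
    rintro rfl
    rw [zero_pow hp.out.ne_zero, mul_zero] at hγ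
    exact div_ne_zero hxK hyK ((map_eq_zero σ).1 hγ)
  obtain ⟨g₁, g₂, hg₂, hg⟩ := IsFractionRing.div_surjective (A := 𝓞 K) γ
  have hg₂0 : g₂ ≠ 0 := nonZeroDivisors.ne_zero hg₂
  have hg₁0 : g₁ ≠ 0 := by
    rintro rfl
    rw [map_zero, zero_div] at hg
    exact hγ0 hg.symm
  have hg₂K : algebraMap (𝓞 K) K g₂ ≠ 0 := by
    simpa using hg₂0
  -- the identity between elements
  have E2 : galInt σ x * y ^ (k ^ 2) * g₂ ^ p = galInt σ y * x ^ (k ^ 2) * g₁ ^ p := by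
    apply FaithfulSMul.algebraMap_injective (𝓞 K) K
    simp only [map_mul, map_pow, th2_galInt_apply]
    have hσy : σ (algebraMap (𝓞 K) K y) ≠ 0 := by
      rw [Ne, map_eq_zero]
      exact hyK
    rw [← hg, map_div₀] at hγ
    have hxy : (x : K) = algebraMap (𝓞 K) K x := rfl
    have hyy : (y : K) = algebraMap (𝓞 K) K y := rfl
    rw [hxy, hyy] at hγ
    rw [hyy] at hyK
    rw [div_pow, div_pow] at hγ
    field_simp at hγ
    linear_combination hγ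
  -- the identities between ideals
  set X : Ideal (𝓞 K) := Ideal.span {x} with hX
  set Y : Ideal (𝓞 K) := Ideal.span {y} with hY
  set X' : Ideal (𝓞 K) := Ideal.span {galInt σ x} with hX'
  set Y' : Ideal (𝓞 K) := Ideal.span {galInt σ y} with hY'
  set G₁ : Ideal (𝓞 K) := Ideal.span {g₁} with hG₁
  set G₂ : Ideal (𝓞 K) := Ideal.span {g₂} with hG₂
  set I' : Ideal (𝓞 K) := (I : Ideal (𝓞 K)).map (galInt σ : 𝓞 K →+* 𝓞 K) with hI'
  set J' : Ideal (𝓞 K) := (J : Ideal (𝓞 K)).map (galInt σ : 𝓞 K →+* 𝓞 K) with hJ'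
  have E2i : X' * Y ^ (k ^ 2) * G₂ ^ p = Y' * X ^ (k ^ 2) * G₁ ^ p := by
    simp only [hX, hY, hX', hY', hG₁, hG₂, Ideal.span_singleton_pow,
      Ideal.span_singleton_mul_span_singleton, E2]
  have E1σ : X' * J' ^ p = Y' * I' ^ p := by
    have := congrArg (Ideal.map (galInt σ : 𝓞 K →+* 𝓞 K)) hIJ
    simp only [hX, hY, Ideal.map_mul, Ideal.map_pow, Ideal.map_span, Set.image_singleton,
      RingEquiv.coe_toRingHom] at this
    exact this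
  have E1k : X ^ (k ^ 2) * ((J : Ideal (𝓞 K)) ^ p) ^ (k ^ 2) =
      Y ^ (k ^ 2) * ((I : Ideal (𝓞 K)) ^ p) ^ (k ^ 2) := by
    rw [← mul_pow, hIJ, mul_pow]
  have hσx : galInt σ x ≠ 0 := by
    rw [Ne, map_eq_zero_iff _ (galInt σ).injective]
    exact hx
  have hσy : galInt σ y ≠ 0 := by
    rw [Ne, map_eq_zero_iff _ (galInt σ).injective]
    exact hy
  have hM : X' * Y' * X ^ (k ^ 2) * Y ^ (k ^ 2) ≠ 0 := by
    simp only [hX, hY, hX', hY', Ideal.span_singleton_pow,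
      Ideal.span_singleton_mul_span_singleton, Ne, Ideal.zero_eq_bot,
      Ideal.span_singleton_eq_bot]
    exact mul_ne_zero (mul_ne_zero (mul_ne_zero hσx hσy) (pow_ne_zero _ hx)) (pow_ne_zero _ hy)
  have key : (G₂ * (I' * (J : Ideal (𝓞 K)) ^ (k ^ 2))) ^ p =
      (G₁ * ((I : Ideal (𝓞 K)) ^ (k ^ 2) * J')) ^ p := by
    apply mul_left_cancel₀ hM
    calc X' * Y' * X ^ (k ^ 2) * Y ^ (k ^ 2) * (G₂ * (I' * (J : Ideal (𝓞 K)) ^ (k ^ 2))) ^ p
        = (X' * Y ^ (k ^ 2) * G₂ ^ p) * (Y' * I' ^ p) *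
            (X ^ (k ^ 2) * ((J : Ideal (𝓞 K)) ^ p) ^ (k ^ 2)) := by ring
      _ = (Y' * X ^ (k ^ 2) * G₁ ^ p) * (X' * J' ^ p) *
            (Y ^ (k ^ 2) * ((I : Ideal (𝓞 K)) ^ p) ^ (k ^ 2)) := by rw [E2i, E1σ, E1k]
      _ = X' * Y' * X ^ (k ^ 2) * Y ^ (k ^ 2) * (G₁ * ((I : Ideal (𝓞 K)) ^ (k ^ 2) * J')) ^ p := by
          ring
  have key2 := core_ideal_pow_inj hp.out.ne_zero key
  rw [map_div, ClassGroup.mulEquiv_mk0, ClassGroup.mulEquiv_mk0, div_pow,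
    div_eq_div_iff_mul_eq_mul, ← map_pow, ← map_pow, ← map_mul, ← map_mul]
  refine ClassGroup.mk0_eq_mk0_iff.2 ⟨g₂, g₁, hg₂0, hg₁0, ?_⟩
  simpa using key2

/-- An element which differs from an `ω²`-eigen element by a `p`-th power is `ω²`-eigen. -/
lemma core_eigen_of_mul_pow {ζ : K} {α w β : K} (hβ : β ≠ 0) (hαw : α = w * β ^ p)
    (h1 : IsOmegaSqEigen p ζ α) : IsOmegaSqEigen p ζ w := by
  intro σ k hk
  obtain ⟨γ, hγ⟩ := h1 σ k hk
  have hσβ : σ β ≠ 0 := by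
    rw [Ne, map_eq_zero]
    exact hβ
  refine ⟨β ^ (k ^ 2) * γ / σ β, ?_⟩
  rw [hαw, map_mul, map_pow] at hγ
  have : σ w = w ^ (k ^ 2) * (β ^ p) ^ (k ^ 2) * γ ^ p / σ β ^ p := by
    rw [eq_div_iff (pow_ne_zero _ hσβ), hγ, mul_pow]
  rw [this, div_pow, mul_pow, ← pow_mul, ← pow_mul, mul_comm p (k ^ 2)]
  ring

/-- `IsPthPowerModPiCube` is insensitive to `p`-th powers. -/
lemma core_modPiCube_of_mul_pow {ζ : K} {α w β : K} (hβ : β ≠ 0) (hαw : α = w * β ^ p)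
    (h3 : IsPthPowerModPiCube p ζ α) : IsPthPowerModPiCube p ζ w := by
  intro B hB
  obtain ⟨y, hy, hv⟩ := h3 B hB
  refine ⟨y / β, div_ne_zero hy hβ, ?_⟩
  have : w / (y / β) ^ p = α / y ^ p := by
    rw [hαw, div_pow]
    field_simp
  rw [this]
  exact hv

/-- (CORE), given the valuation dictionary (CORE-1) as hypotheses `hV1`, `hV2`. -/
theorem core_main {ζ : K} (hζ : IsPrimitiveRoot ζ p)
    (hV1 : ∀ α : K, α ≠ 0 → IsLocallyPthPowerTimesUnit p α →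
      ∃ (x y : 𝓞 K) (I J : Ideal (𝓞 K)), x ≠ 0 ∧ y ≠ 0 ∧ α = (x : K) / (y : K) ∧ I ≠ ⊥ ∧ J ≠ ⊥ ∧
        Ideal.span {x} * J ^ p = Ideal.span {y} * I ^ p)
    (hV2 : ∀ u : (𝓞 K)ˣ, IsPthPowerModPiCube p ζ ((u : 𝓞 K) : K) →
      ∃ y : 𝓞 K, (u : 𝓞 K) - y ^ p ∈ Ideal.span {(1 - hζ.toInteger) ^ 3})
    (hCL : ClassGroupStatement p) (hUN : UnitsStatement p)
    (α : K) (hα : α ≠ 0) (h1 : IsOmegaSqEigen p ζ α) (h2 : IsLocallyPthPowerTimesUnit p α)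
    (h3 : IsPthPowerModPiCube p ζ α) : ∃ γ : K, α = γ ^ p := by
  obtain ⟨x, y, I, J, hx, hy, hαxy, hI, hJ, hIJ⟩ := hV1 α hα h2
  set I0 : (Ideal (𝓞 K))⁰ := ⟨I, mem_nonZeroDivisors_of_ne_zero hI⟩ with hI0
  set J0 : (Ideal (𝓞 K))⁰ := ⟨J, mem_nonZeroDivisors_of_ne_zero hJ⟩ with hJ0
  have hcp : (ClassGroup.mk0 I0 / ClassGroup.mk0 J0) ^ p = 1 :=
    core_class_pow x y hx hy I0 J0 hIJ
  have hcσ : ∀ σ : K ≃ₐ[ℚ] K,
      ClassGroup.mulEquiv (galInt σ) (ClassGroup.mk0 I0 / ClassGroup.mk0 J0) =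
        (ClassGroup.mk0 I0 / ClassGroup.mk0 J0) ^ (th2_k p K σ ^ 2) :=
    fun σ => core_class_eigen hζ x y hx hy I0 J0 hIJ (hαxy ▸ h1) σ
  have hc1 : ClassGroup.mk0 I0 / ClassGroup.mk0 J0 = 1 := by
    by_contra hc
    obtain ⟨ψ, hψ, hψ1⟩ := coreChar_exists hζ _ hc hcp hcσ
    exact hψ1 (hCL K ζ hζ ψ hψ)
  rw [div_eq_one] at hc1
  obtain ⟨a, b, ha, hb, hab⟩ := ClassGroup.mk0_eq_mk0_iff.1 hc1
  simp only [hI0, hJ0] at hab
  have hassoc : Ideal.span {x * a ^ p} = Ideal.span {y * b ^ p} := by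
    have hIp : I ^ p ≠ 0 := pow_ne_zero _ hI
    apply mul_left_cancel₀ hIp
    calc I ^ p * Ideal.span {x * a ^ p} = Ideal.span {x} * (Ideal.span {a} * I) ^ p := by
          rw [← Ideal.span_singleton_mul_span_singleton, ← Ideal.span_singleton_pow]
          ring
      _ = Ideal.span {x} * (Ideal.span {b} * J) ^ p := by rw [hab]
      _ = (Ideal.span {x} * J ^ p) * Ideal.span {b} ^ p := by ring
      _ = (Ideal.span {y} * I ^ p) * Ideal.span {b} ^ p := by rw [hIJ]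
      _ = I ^ p * Ideal.span {y * b ^ p} := by
          rw [← Ideal.span_singleton_mul_span_singleton, ← Ideal.span_singleton_pow]
          ring
  obtain ⟨u, hu⟩ := Ideal.span_singleton_eq_span_singleton.1 hassoc
  -- `α = u⁻¹ * (b / a) ^ p`
  have haK : algebraMap (𝓞 K) K a ≠ 0 := by simpa using ha
  have hbK : algebraMap (𝓞 K) K b ≠ 0 := by simpa using hb
  have hyK : algebraMap (𝓞 K) K y ≠ 0 := by simpa using hy
  have huK : algebraMap (𝓞 K) K (u : 𝓞 K) ≠ 0 := by simp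
  have hαw : α = ((u⁻¹ : (𝓞 K)ˣ) : 𝓞 K) * (algebraMap (𝓞 K) K b / algebraMap (𝓞 K) K a) ^ p := by
    have h := congrArg (algebraMap (𝓞 K) K) hu
    simp only [map_mul, map_pow] at h
    have hinv : algebraMap (𝓞 K) K ((u⁻¹ : (𝓞 K)ˣ) : 𝓞 K) * algebraMap (𝓞 K) K (u : 𝓞 K) = 1 := by
      rw [← map_mul, ← Units.val_mul, inv_mul_cancel, Units.val_one, map_one]
    rw [hαxy]
    change algebraMap (𝓞 K) K x / algebraMap (𝓞 K) K y =
      algebraMap (𝓞 K) K ((u⁻¹ : (𝓞 K)ˣ) : 𝓞 K) * _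
    rw [div_pow]
    field_simp
    linear_combination (algebraMap (𝓞 K) K ((u⁻¹ : (𝓞 K)ˣ) : 𝓞 K)) * h -
      (algebraMap (𝓞 K) K x * algebraMap (𝓞 K) K a ^ p) * hinv
  have hβ : algebraMap (𝓞 K) K b / algebraMap (𝓞 K) K a ≠ 0 := div_ne_zero hbK haK
  have hweig := core_eigen_of_mul_pow hβ hαw h1
  have hwloc := core_modPiCube_of_mul_pow hβ hαw h3
  obtain ⟨v, hv⟩ := hUN K ζ hζ u⁻¹ hweig (hV2 u⁻¹ hwloc)
  refine ⟨((v : 𝓞 K) : K) * (algebraMap (𝓞 K) K b / algebraMap (𝓞 K) K a), ?_⟩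
  rw [hαw, hv, mul_pow]
  simp

end

section three

variable {K : Type} [Field K] [NumberField K] [IsCyclotomicExtension {3} ℚ K]

/-- The six units of `ℤ[ζ₃]`. -/
lemma core3_unit_cases {ζ : K} (hζ : IsPrimitiveRoot ζ 3) (u : (𝓞 K)ˣ) :
    (u : 𝓞 K) = 1 ∨ (u : 𝓞 K) = -1 ∨ (u : 𝓞 K) = hζ.toInteger ∨ (u : 𝓞 K) = -hζ.toInteger ∨
      (u : 𝓞 K) = hζ.toInteger ^ 2 ∨ (u : 𝓞 K) = -hζ.toInteger ^ 2 := by
  have := IsCyclotomicExtension.Rat.Three.Units.mem hζ u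
  simp only [List.mem_cons, List.not_mem_nil, or_false] at this
  rcases this with h | h | h | h | h | h <;> rw [h] <;> simp

lemma core3_eta_rel {ζ : K} (hζ : IsPrimitiveRoot ζ 3) :
    hζ.toInteger ^ 2 + hζ.toInteger + 1 = 0 :=
  IsCyclotomicExtension.Rat.Three.eta_sq_add_eta_add_one hζ

/-- The cube of a unit of `ℤ[ζ₃]` is `±1`. -/
lemma core3_unit_cube {ζ : K} (hζ : IsPrimitiveRoot ζ 3) (u : (𝓞 K)ˣ) :
    (u : 𝓞 K) ^ 3 = 1 ∨ (u : 𝓞 K) ^ 3 = -1 := by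
  have he := core3_eta_rel hζ
  rcases core3_unit_cases hζ u with h | h | h | h | h | h <;> rw [h]
  · left; grind
  · right; grind
  · left; grind
  · right; grind
  · left; grind
  · right; grind

/-- There is an automorphism with cyclotomic exponent `2`. -/
lemma core3_exists_sigma {ζ : K} (hζ : IsPrimitiveRoot ζ 3) :
    ∃ σ : K ≃ₐ[ℚ] K, σ ζ = ζ ^ 2 := by
  have : Fact (Nat.Prime 3) := ⟨Nat.prime_three⟩
  refine ⟨(IsCyclotomicExtension.Rat.galEquivZMod 3 K).symm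
    (ZMod.unitOfCoprime 2 (by norm_num)), ?_⟩
  have := th2_apply_zeta hζ ((IsCyclotomicExtension.Rat.galEquivZMod 3 K).symm
    (ZMod.unitOfCoprime 2 (by norm_num)))
  rw [this, th2_k, MulEquiv.apply_symm_apply, ZMod.coe_unitOfCoprime]
  rfl

/-- (CORE) for `p = 3`, given the valuation dictionary (CORE-1) as a hypothesis. -/
theorem core_three_main {ζ : K} (hζ : IsPrimitiveRoot ζ 3)
    (hV1 : ∀ α : K, α ≠ 0 → IsLocallyPthPowerTimesUnit 3 α →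
      ∃ (x y : 𝓞 K) (I J : Ideal (𝓞 K)), x ≠ 0 ∧ y ≠ 0 ∧ α = (x : K) / (y : K) ∧ I ≠ ⊥ ∧ J ≠ ⊥ ∧
        Ideal.span {x} * J ^ 3 = Ideal.span {y} * I ^ 3)
    (α : K) (hα : α ≠ 0) (h1 : IsOmegaSqEigen 3 ζ α) (h2 : IsLocallyPthPowerTimesUnit 3 α) :
    ∃ γ : K, α = γ ^ 3 := by
  have : Fact (Nat.Prime 3) := ⟨Nat.prime_three⟩
  have hpid : IsPrincipalIdealRing (𝓞 K) := IsCyclotomicExtension.Rat.three_pid K
  obtain ⟨x, y, I, J, hx, hy, hαxy, hI, hJ, hIJ⟩ := hV1 α hα h2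
  obtain ⟨a, rfl⟩ := (IsPrincipalIdealRing.principal I).principal
  obtain ⟨b, rfl⟩ := (IsPrincipalIdealRing.principal J).principal
  have ha : a ≠ 0 := by
    rintro rfl
    exact hI (by simp)
  have hb : b ≠ 0 := by
    rintro rfl
    exact hJ (by simp)
  have hassoc : Ideal.span {x * b ^ 3} = Ideal.span {y * a ^ 3} := by
    simpa only [Ideal.submodule_span_eq, Ideal.span_singleton_pow,
      Ideal.span_singleton_mul_span_singleton] using hIJ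
  obtain ⟨u, hu⟩ := Ideal.span_singleton_eq_span_singleton.1 hassoc
  have haK : algebraMap (𝓞 K) K a ≠ 0 := by simpa using ha
  have hbK : algebraMap (𝓞 K) K b ≠ 0 := by simpa using hb
  have hyK : algebraMap (𝓞 K) K y ≠ 0 := by simpa using hy
  have huK : algebraMap (𝓞 K) K (u : 𝓞 K) ≠ 0 := by simp
  have hinv : algebraMap (𝓞 K) K ((u⁻¹ : (𝓞 K)ˣ) : 𝓞 K) * algebraMap (𝓞 K) K (u : 𝓞 K) = 1 := by
    rw [← map_mul, ← Units.val_mul, inv_mul_cancel, Units.val_one, map_one]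
  have hαw : α = ((u⁻¹ : (𝓞 K)ˣ) : 𝓞 K) * (algebraMap (𝓞 K) K a / algebraMap (𝓞 K) K b) ^ 3 := by
    have h := congrArg (algebraMap (𝓞 K) K) hu
    simp only [map_mul, map_pow] at h
    rw [hαxy]
    change algebraMap (𝓞 K) K x / algebraMap (𝓞 K) K y =
      algebraMap (𝓞 K) K ((u⁻¹ : (𝓞 K)ˣ) : 𝓞 K) * _
    rw [div_pow]
    field_simp
    linear_combination (algebraMap (𝓞 K) K ((u⁻¹ : (𝓞 K)ˣ) : 𝓞 K)) * h -
      (algebraMap (𝓞 K) K x * algebraMap (𝓞 K) K b ^ 3) * hinv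
  have hβ : algebraMap (𝓞 K) K a / algebraMap (𝓞 K) K b ≠ 0 := div_ne_zero haK hbK
  have hweig := core_eigen_of_mul_pow hβ hαw h1
  obtain ⟨σ, hσ⟩ := core3_exists_sigma hζ
  obtain ⟨γ, hγ⟩ := hweig σ 2 hσ
  -- `γ` is an algebraic integer
  have hγ3 : γ ^ 3 = algebraMap (𝓞 K) K (galInt σ ((u⁻¹ : (𝓞 K)ˣ) : 𝓞 K) * (u : 𝓞 K) ^ (2 ^ 2)) := by
    rw [map_mul, map_pow, th2_galInt_apply]
    change σ (algebraMap (𝓞 K) K ((u⁻¹ : (𝓞 K)ˣ) : 𝓞 K)) =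
      (algebraMap (𝓞 K) K ((u⁻¹ : (𝓞 K)ˣ) : 𝓞 K)) ^ (2 ^ 2) * γ ^ 3 at hγ
    rw [hγ]
    have : (algebraMap (𝓞 K) K ((u⁻¹ : (𝓞 K)ˣ) : 𝓞 K)) ^ (2 ^ 2) *
        (algebraMap (𝓞 K) K (u : 𝓞 K)) ^ (2 ^ 2) = 1 := by
      rw [← mul_pow, hinv, one_pow]
    linear_combination (-(γ ^ 3)) * this
  have hγint : IsIntegral ℤ γ := by
    refine IsIntegral.of_pow (n := 3) (by norm_num) ?_
    rw [hγ3]
    exact NumberField.RingOfIntegers.isIntegral_coe _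
  obtain ⟨g, hg⟩ := (IsIntegralClosure.isIntegral_iff (A := 𝓞 K)).1 hγint
  have hg3 : g ^ 3 = galInt σ ((u⁻¹ : (𝓞 K)ˣ) : 𝓞 K) * (u : 𝓞 K) ^ (2 ^ 2) := by
    apply FaithfulSMul.algebraMap_injective (𝓞 K) K
    rw [map_pow, hg, hγ3]
  have hgunit : IsUnit g := by
    refine (isUnit_pow_iff (n := 3) (by norm_num)).1 ?_
    rw [hg3]
    exact ((u⁻¹).isUnit.map (galInt σ)).mul (u.isUnit.pow _)
  obtain ⟨gu, rfl⟩ := hgunit
  -- the relation in `𝓞 K`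
  have hrel : galInt σ ((u⁻¹ : (𝓞 K)ˣ) : 𝓞 K) =
      ((u⁻¹ : (𝓞 K)ˣ) : 𝓞 K) ^ (2 ^ 2) * (gu : 𝓞 K) ^ 3 := by
    apply FaithfulSMul.algebraMap_injective (𝓞 K) K
    rw [map_mul, map_pow, map_pow, hg, th2_galInt_apply]
    exact hγ
  have he := core3_eta_rel hζ
  have hσe : galInt σ hζ.toInteger = hζ.toInteger ^ 2 := by
    apply FaithfulSMul.algebraMap_injective (𝓞 K) K
    rw [th2_galInt_apply, map_pow]
    exact hσ
  rcases core3_unit_cases hζ u⁻¹ with h | h | h | h | h | h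
  · refine ⟨algebraMap (𝓞 K) K a / algebraMap (𝓞 K) K b, ?_⟩
    rw [hαw, h]
    simp
  · refine ⟨-(algebraMap (𝓞 K) K a / algebraMap (𝓞 K) K b), ?_⟩
    rw [hαw, h]
    simp only [map_neg, map_one, Odd.neg_pow (by decide : Odd 3)]
    ring
  all_goals
    exfalso
    rw [h] at hrel
    simp only [map_neg, map_pow, hσe] at hrel
    rcases core3_unit_cube hζ gu with h3 | h3 <;> rw [h3] at hrel <;> grind

end three

end Fermat.Agent.S14
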