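import Mathlib
import Fermat.Agent.S14.Defs

/-!
# S14, package CORE-1: the valuation-subring dictionary (helper24)

* `coreVal_ideal`: an element which is everywhere locally a unit times a `p`-th power generates
  the `p`-th power of a fractional ideal (stated with integral ideals).
* `coreVal_unit_modPiCube`: a unit of the `p`-th cyclotomic field which is a `p`-th power modulo
  `π³` at the valuation subrings above `p` is a `p`-th power modulo `(1 - ζ)³` in `𝓞 K`.
-/

set_option autoImplicit false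

open scoped NumberField nonZeroDivisors
open IsDedekindDomain IsDedekindDomain.HeightOneSpectrum

namespace Fermat.Agent.S14

section general

variable {R : Type*} [CommRing R] [IsDedekindDomain R] {K : Type*} [Field K] [Algebra R K]
  [IsFractionRing R K]

/-- The valuation subring of `K` attached to a height one prime is not `⊤`. -/
theorem coreVal_valuationSubring_ne_top (v : HeightOneSpectrum R) :
    (v.valuation K).valuationSubring ≠ ⊤ := by
  simp only [ne_eq, Valuation.valuationSubring_eq_top_iff, not_not]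
  infer_instance

/-- Dictionary: the canonical valuation of the valuation subring of `v` is equivalent to the
`v`-adic valuation. -/
theorem coreVal_valuation_le_iff (v : HeightOneSpectrum R) (x y : K) :
    (v.valuation K).valuationSubring.valuation x ≤ (v.valuation K).valuationSubring.valuation y ↔
      v.valuation K x ≤ v.valuation K y :=
  ((Valuation.isEquiv_valuation_valuationSubring (v.valuation K)) x y).symm

theorem coreVal_valuation_eq_one_iff (v : HeightOneSpectrum R) (x : K) :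
    (v.valuation K).valuationSubring.valuation x = 1 ↔ v.valuation K x = 1 :=
  (Valuation.IsEquiv.eq_one_iff_eq_one
    (Valuation.isEquiv_valuation_valuationSubring (v.valuation K))).symm

/-- The `v`-adic valuation of a nonzero element in terms of the `count` of the principal
fractional ideal it generates. -/
theorem coreVal_valuation_eq_exp_neg_count (v : HeightOneSpectrum R) {x : K} (hx : x ≠ 0) :
    v.valuation K x =
      WithZero.exp (-(FractionalIdeal.count K v (FractionalIdeal.spanSingleton R⁰ x))) := by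
  obtain ⟨a, b, hb, rfl⟩ := IsFractionRing.div_surjective (A := R) x
  have hb0 : b ≠ 0 := nonZeroDivisors.ne_zero hb
  have ha0 : a ≠ 0 := by
    rintro rfl
    simp at hx
  have hbK : algebraMap R K b ≠ 0 := by
    simpa using (IsFractionRing.to_map_eq_zero_iff (K := K)).not.mpr hb0
  have hI : FractionalIdeal.spanSingleton R⁰ (algebraMap R K a / algebraMap R K b) ≠ 0 := by
    rw [ne_eq, FractionalIdeal.spanSingleton_eq_zero_iff]
    exact hx
  have h_aJ : FractionalIdeal.spanSingleton R⁰ (algebraMap R K a / algebraMap R K b) =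
      FractionalIdeal.spanSingleton R⁰ ((algebraMap R K) b)⁻¹ *
        ((Ideal.span {a} : Ideal R) : FractionalIdeal R⁰ K) := by
    rw [FractionalIdeal.coeIdeal_span_singleton, FractionalIdeal.spanSingleton_mul_spanSingleton,
      div_eq_inv_mul]
  rw [FractionalIdeal.count_well_defined K v hI h_aJ, map_div₀, valuation_of_algebraMap,
    valuation_of_algebraMap, intValuation_if_neg v ha0, intValuation_if_neg v hb0,
    ← WithZero.exp_sub]
  congr 1
  ring

end general

section numberField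

variable {K : Type} [Field K] [NumberField K]

/-- If `α` is everywhere locally a unit times a `p`-th power, then `p` divides the exponent of
every prime in the factorisation of `(α)`. -/
theorem coreVal_dvd_count {p : ℕ} {α : K} (hα : α ≠ 0) (h : IsLocallyPthPowerTimesUnit p α)
    (v : HeightOneSpectrum (𝓞 K)) :
    (p : ℤ) ∣ FractionalIdeal.count K v (FractionalIdeal.spanSingleton (𝓞 K)⁰ α) := by
  obtain ⟨y, hy, hval⟩ := h _ (coreVal_valuationSubring_ne_top (K := K) v)
  rw [coreVal_valuation_eq_one_iff, map_div₀, map_pow,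
    coreVal_valuation_eq_exp_neg_count v hα, coreVal_valuation_eq_exp_neg_count v hy,
    ← WithZero.exp_nsmul, ← WithZero.exp_sub, WithZero.exp_eq_one] at hval
  refine ⟨FractionalIdeal.count K v (FractionalIdeal.spanSingleton (𝓞 K)⁰ y), ?_⟩
  simp only [nsmul_eq_mul, mul_neg] at hval
  linarith

/-- (CORE-1a) An element which is everywhere locally a unit times a `p`-th power generates the
`p`-th power of a fractional ideal. -/
theorem coreVal_ideal {p : ℕ} (_hp : p ≠ 0) {K : Type} [Field K] [NumberField K] (α : K)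
    (hα : α ≠ 0) (h : IsLocallyPthPowerTimesUnit p α) :
    ∃ (x y : 𝓞 K) (I J : Ideal (𝓞 K)), x ≠ 0 ∧ y ≠ 0 ∧ α = (x : K) / (y : K) ∧ I ≠ ⊥ ∧ J ≠ ⊥ ∧
      Ideal.span {x} * J ^ p = Ideal.span {y} * I ^ p := by
  classical
  set A : FractionalIdeal (𝓞 K)⁰ K := FractionalIdeal.spanSingleton (𝓞 K)⁰ α with hA
  have hA0 : A ≠ 0 := by
    rw [hA, ne_eq, FractionalIdeal.spanSingleton_eq_zero_iff]
    exact hα
  set e : HeightOneSpectrum (𝓞 K) → ℤ := fun v => FractionalIdeal.count K v A / p with he_def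
  have he : ∀ v, (p : ℤ) * e v = FractionalIdeal.count K v A := fun v =>
    Int.mul_ediv_cancel' (coreVal_dvd_count hα h v)
  have hfin : ∀ᶠ v : HeightOneSpectrum (𝓞 K) in Filter.cofinite, e v = 0 := by
    filter_upwards [FractionalIdeal.finite_factors (K := K) A] with v hv
    simp [he_def, hv]
  set 𝔞 : FractionalIdeal (𝓞 K)⁰ K :=
    ∏ᶠ v : HeightOneSpectrum (𝓞 K), (v.asIdeal : FractionalIdeal (𝓞 K)⁰ K) ^ e v with h𝔞
  have hcount : ∀ v, FractionalIdeal.count K v 𝔞 = e v := fun v =>
    FractionalIdeal.count_finprod K v e hfin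
  have h𝔞0 : 𝔞 ≠ 0 := by
    rw [h𝔞]
    exact finprod_ne_zero fun v =>
      zpow_ne_zero _ (FractionalIdeal.coeIdeal_ne_zero.mpr v.ne_bot)
  have hpow0 : 𝔞 ^ p ≠ 0 := pow_ne_zero _ h𝔞0
  have hpow : 𝔞 ^ p = A := by
    rw [← FractionalIdeal.finprod_heightOneSpectrum_factorization' K hpow0,
      ← FractionalIdeal.finprod_heightOneSpectrum_factorization' K hA0]
    refine finprod_congr fun v => ?_
    rw [FractionalIdeal.count_pow, hcount, he]
  obtain ⟨d, I, hd, h𝔞I⟩ := FractionalIdeal.exists_eq_spanSingleton_mul 𝔞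
  obtain ⟨x, y, hy, hxy⟩ := IsFractionRing.div_surjective (A := 𝓞 K) α
  have hy0 : y ≠ 0 := nonZeroDivisors.ne_zero hy
  have hx0 : x ≠ 0 := by
    rintro rfl
    apply hα
    rw [← hxy]
    simp
  have hI0 : I ≠ ⊥ := by
    rintro rfl
    apply h𝔞0
    rw [h𝔞I]
    simp
  refine ⟨x, y, I, Ideal.span {d}, hx0, hy0, hxy.symm, hI0, ?_, ?_⟩
  · rwa [ne_eq, Ideal.span_singleton_eq_bot]
  · apply FractionalIdeal.coeIdeal_injective (K := K)
    have hyK : algebraMap (𝓞 K) K y ≠ 0 := by
      simpa using (IsFractionRing.to_map_eq_zero_iff (K := K)).not.mpr hy0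
    have hdK : algebraMap (𝓞 K) K d ≠ 0 := by
      simpa using (IsFractionRing.to_map_eq_zero_iff (K := K)).not.mpr hd
    have h1 : FractionalIdeal.spanSingleton (𝓞 K)⁰ (algebraMap (𝓞 K) K x / algebraMap (𝓞 K) K y) =
        FractionalIdeal.spanSingleton (𝓞 K)⁰ ((algebraMap (𝓞 K) K d)⁻¹ ^ p) *
          (I : FractionalIdeal (𝓞 K)⁰ K) ^ p := by
      rw [hxy, ← hA, ← hpow, h𝔞I, mul_pow, FractionalIdeal.spanSingleton_pow]
    have h2 : FractionalIdeal.spanSingleton (𝓞 K)⁰ (algebraMap (𝓞 K) K x) =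
        FractionalIdeal.spanSingleton (𝓞 K)⁰ (algebraMap (𝓞 K) K y) *
          FractionalIdeal.spanSingleton (𝓞 K)⁰
            (algebraMap (𝓞 K) K x / algebraMap (𝓞 K) K y) := by
      rw [FractionalIdeal.spanSingleton_mul_spanSingleton, mul_div_cancel₀ _ hyK]
    show ((Ideal.span {x} * Ideal.span {d} ^ p : Ideal (𝓞 K)) : FractionalIdeal (𝓞 K)⁰ K) =
      ((Ideal.span {y} * I ^ p : Ideal (𝓞 K)) : FractionalIdeal (𝓞 K)⁰ K)
    rw [FractionalIdeal.coeIdeal_mul, FractionalIdeal.coeIdeal_mul, FractionalIdeal.coeIdeal_pow,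
      FractionalIdeal.coeIdeal_pow, FractionalIdeal.coeIdeal_span_singleton,
      FractionalIdeal.coeIdeal_span_singleton, FractionalIdeal.coeIdeal_span_singleton,
      FractionalIdeal.spanSingleton_pow, h2, h1, mul_assoc, mul_assoc, mul_comm _
        (FractionalIdeal.spanSingleton (𝓞 K)⁰ (algebraMap (𝓞 K) K d ^ p)), ← mul_assoc
        (FractionalIdeal.spanSingleton (𝓞 K)⁰ ((algebraMap (𝓞 K) K d)⁻¹ ^ p)),
      FractionalIdeal.spanSingleton_mul_spanSingleton, inv_pow,
      inv_mul_cancel₀ (pow_ne_zero p hdK), FractionalIdeal.spanSingleton_one, one_mul]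

/-- Alias of `coreVal_ideal` under the name and with the hypothesis shape used by CORE-2. -/
theorem coreVal_exists_ideal_pow {p : ℕ} (hp : 0 < p) {K : Type} [Field K] [NumberField K] (α : K)
    (hα : α ≠ 0) (h : IsLocallyPthPowerTimesUnit p α) :
    ∃ (x y : 𝓞 K) (I J : Ideal (𝓞 K)), x ≠ 0 ∧ y ≠ 0 ∧ α = (x : K) / (y : K) ∧ I ≠ ⊥ ∧ J ≠ ⊥ ∧
      Ideal.span {x} * J ^ p = Ideal.span {y} * I ^ p :=
  coreVal_ideal hp.ne' α hα h

/-- (CORE-1b) A unit of the `p`-th cyclotomic field which is a `p`-th power modulo `π³` at the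
valuation subrings above `p` is congruent to a `p`-th power modulo `(1 - ζ)³` in `𝓞 K`. -/
theorem coreVal_unit_modPiCube {p : ℕ} [Fact p.Prime] {K : Type} [Field K] [NumberField K]
    [IsCyclotomicExtension {p} ℚ K] {ζ : K} (hζ : IsPrimitiveRoot ζ p) (u : (𝓞 K)ˣ)
    (h : IsPthPowerModPiCube p ζ ((u : 𝓞 K) : K)) :
    ∃ y : 𝓞 K, (u : 𝓞 K) - y ^ p ∈ Ideal.span {(1 - hζ.toInteger) ^ 3} := by
  have hp0 : p ≠ 0 := (Fact.out : p.Prime).ne_zero
  set π : 𝓞 K := 1 - hζ.toInteger with hπ
  have hπprime : Prime π := by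
    have h1 : π = -(hζ.toInteger - 1) := by rw [hπ]; ring
    rw [h1]
    exact hζ.zeta_sub_one_prime'.neg
  have hπ0 : π ≠ 0 := hπprime.ne_zero
  let v : HeightOneSpectrum (𝓞 K) :=
    ⟨Ideal.span {π}, (Ideal.span_singleton_prime hπ0).mpr hπprime, by
      rwa [ne_eq, Ideal.span_singleton_eq_bot]⟩
  have hvas : v.asIdeal = Ideal.span {π} := rfl
  have hvπ : v.intValuation π = WithZero.exp (-1 : ℤ) := intValuation_singleton v hπ0 hvas
  have hNe : NeZero p := ⟨hp0⟩
  have hπK : algebraMap (𝓞 K) K π = 1 - ζ := by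
    rw [hπ, map_sub, map_one]
    rfl
  have hvπ3 : v.valuation K ((1 - ζ) ^ 3) = WithZero.exp (-(3 : ℕ) : ℤ) := by
    rw [← hπK, map_pow, valuation_of_algebraMap, hvπ, ← WithZero.exp_nsmul]
    congr 1
  have hp_mem : (p : 𝓞 K) ∈ v.asIdeal := by
    rw [hvas, Ideal.mem_span_singleton]
    have h1 : π = -(hζ.toInteger - 1) := by rw [hπ]; ring
    rw [h1, neg_dvd]
    exact hζ.toInteger_sub_one_dvd_prime'
  have hpB : (p : K) ∈ (v.valuation K).valuationSubring.nonunits := by
    rw [ValuationSubring.mem_nonunits_iff]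
    have h1 : v.valuation K (algebraMap (𝓞 K) K (p : 𝓞 K)) < 1 :=
      (valuation_lt_one_iff_mem v _).mpr hp_mem
    have h2 :=
      (Valuation.isEquiv_valuation_valuationSubring (v.valuation K)).lt_one_iff_lt_one.mp h1
    simpa using h2
  obtain ⟨y, hy, hval⟩ := h _ hpB
  rw [coreVal_valuation_le_iff, hvπ3] at hval
  have hucoe : ((u : 𝓞 K) : K) = algebraMap (𝓞 K) K (u : 𝓞 K) := rfl
  rw [hucoe] at hval
  -- `v u = 1`
  have hvu : v.valuation K (algebraMap (𝓞 K) K (u : 𝓞 K)) = 1 := by
    rw [valuation_of_algebraMap, intValuation_eq_one_iff]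
    intro hmem
    exact ((Ideal.span_singleton_prime hπ0).mpr hπprime).ne_top
      (Ideal.eq_top_of_isUnit_mem _ hmem u.isUnit)
  have hlt : v.valuation K (algebraMap (𝓞 K) K (u : 𝓞 K) / y ^ p - 1) < 1 :=
    lt_of_le_of_lt hval (by rw [← WithZero.exp_zero, WithZero.exp_lt_exp]; norm_num)
  have hquot : v.valuation K (algebraMap (𝓞 K) K (u : 𝓞 K) / y ^ p) = 1 := by
    have := Valuation.map_one_add_of_lt (v.valuation K) hlt
    rwa [add_sub_cancel] at this
  have hvy : v.valuation K y = 1 := by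
    rw [map_div₀, hvu, map_pow, coreVal_valuation_eq_exp_neg_count v hy, ← WithZero.exp_nsmul,
      one_div, inv_eq_one, WithZero.exp_eq_one] at hquot
    rw [coreVal_valuation_eq_exp_neg_count v hy, WithZero.exp_eq_one]
    simp only [nsmul_eq_mul, mul_neg, neg_eq_zero, mul_eq_zero, Nat.cast_eq_zero] at hquot
    rcases hquot with hq | hq
    · exact absurd hq hp0
    · rw [hq, neg_zero]
  -- approximate `y` by an integer `a`
  obtain ⟨a, ha⟩ := exists_valuation_sub_lt_of_integer v hvy.le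
    (Units.mk0 (WithZero.exp (-(3 : ℕ) : ℤ)) WithZero.exp_ne_zero)
  rw [Units.val_mk0] at ha
  refine ⟨a, ?_⟩
  have hmem3 : (u : 𝓞 K) - a ^ p ∈ v.asIdeal ^ 3 := by
    rw [← intValuation_le_pow_iff_mem, ← valuation_of_algebraMap (K := K)]
    have e1 : algebraMap (𝓞 K) K ((u : 𝓞 K) - a ^ p) =
        (algebraMap (𝓞 K) K (u : 𝓞 K) - y ^ p) - ((algebraMap (𝓞 K) K a) ^ p - y ^ p) := by
      rw [map_sub, map_pow]
      ring
    have hyp : y ^ p ≠ 0 := pow_ne_zero _ hy
    have b1 : v.valuation K (algebraMap (𝓞 K) K (u : 𝓞 K) - y ^ p) ≤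
        WithZero.exp (-(3 : ℕ) : ℤ) := by
      have e2 : algebraMap (𝓞 K) K (u : 𝓞 K) - y ^ p =
          y ^ p * (algebraMap (𝓞 K) K (u : 𝓞 K) / y ^ p - 1) := by
        field_simp
      rw [e2, map_mul, map_pow, hvy, one_pow, one_mul]
      exact hval
    have hva : v.valuation K (algebraMap (𝓞 K) K a) ≤ 1 := valuation_le_one v a
    have b2 : v.valuation K ((algebraMap (𝓞 K) K a) ^ p - y ^ p) ≤
        WithZero.exp (-(3 : ℕ) : ℤ) := by
      rw [← geom_sum₂_mul, map_mul]
      have hsum : v.valuation K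
          (∑ i ∈ Finset.range p, (algebraMap (𝓞 K) K a) ^ i * y ^ (p - 1 - i)) ≤ 1 := by
        refine Valuation.map_sum_le _ fun i _ => ?_
        rw [map_mul, map_pow, map_pow, hvy, one_pow, mul_one]
        exact pow_le_one₀ zero_le hva
      calc v.valuation K (∑ i ∈ Finset.range p, (algebraMap (𝓞 K) K a) ^ i * y ^ (p - 1 - i)) *
            v.valuation K (algebraMap (𝓞 K) K a - y)
          ≤ 1 * WithZero.exp (-(3 : ℕ) : ℤ) := mul_le_mul' hsum ha.le
        _ = WithZero.exp (-(3 : ℕ) : ℤ) := one_mul _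
    show v.valuation K (algebraMap (𝓞 K) K ((u : 𝓞 K) - a ^ p)) ≤ WithZero.exp (-(3 : ℕ) : ℤ)
    rw [e1]
    exact Valuation.map_sub_le _ b1 b2
  rwa [hvas, Ideal.span_singleton_pow] at hmem3

end numberField

end Fermat.Agent.S14
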