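import Mathlib
import Fermat.Agent.S14.Defs
import Fermat.Agent.S14.CoreVal
import Fermat.Agent.S14.CoreMain

/-!
# S14 (CORE): final exports

`core : ClassGroupStatement p → UnitsStatement p → CoreStatement p` and
`coreThree : CoreThreeStatement`, obtained from `core_main` / `core_three_main` (CoreMain.lean)
and the valuation dictionary (CoreVal.lean).
-/

set_option autoImplicit false

open scoped NumberField nonZeroDivisors

namespace Fermat.Agent.S14

/-- (CORE) for a prime `p`: from (CL) and (UN). -/
theorem core (p : ℕ) [Fact p.Prime] (hCL : ClassGroupStatement p) (hUN : UnitsStatement p) :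
    CoreStatement p := by
  intro K _ _ _ ζ hζ α hα h1 h2 h3
  exact core_main hζ
    (fun β hβ h => coreVal_exists_ideal_pow (Fact.out : p.Prime).pos β hβ h)
    (fun u h => coreVal_unit_modPiCube hζ u h) hCL hUN α hα h1 h2 h3

/-- (CORE) for `p = 3`. -/
theorem coreThree : CoreThreeStatement := by
  intro K _ _ _ ζ hζ α hα h1 h2
  exact core_three_main hζ
    (fun β hβ h => coreVal_exists_ideal_pow (by norm_num) β hβ h) α hα h1 h2

end Fermat.Agent.S14
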