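import Mathlib
import Fermat.Agent.S14.Defs

/-!
# S14, RED-D: a number field is dense in its decomposition field

Main export: `Fermat.Agent.S14.decompositionApprox : DecompositionApproxStatement`.

Tools of independent use (valuation subrings `A` of `Qbar` over a rational prime `q`):
* `redD_mem_of_isIntegral`: algebraic integers lie in `A`;
* `redD_exists_pow_mul_mem`: every element becomes `A`-integral after multiplication by a power
  of `q`;
* `redD_center`, `redD_mem_iff`, `redD_eq_of_center_eq`: `A` is the localization of the ring of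
  all algebraic integers at its centre, hence determined by the centre;
* `redD_exists_smul_eq`: valuation subrings with the same centre on the integers of a number
  field `M` are conjugate under `Gal(Qbar/M)`;
* `redD_exists_pow_le`: the valuation has rank one;
* `redD_exists_separating`, `redD_exists_separating_finset`: approximation (separating elements);
* `redD_exists_lift`: embeddings of intermediate fields lift to automorphisms of `Qbar`.
-/

set_option autoImplicit false
set_option linter.style.haveILetI false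
set_option linter.unusedVariables false
set_option linter.unnecessarySimpa false

open scoped Pointwise
open Polynomial

namespace Fermat.Agent.S14

section Basics

variable (A : ValuationSubring (AlgebraicClosure ℚ))

/-- Algebraic integers lie in every valuation subring. -/
theorem redD_mem_of_isIntegral {z : AlgebraicClosure ℚ} (hz : IsIntegral ℤ z) : z ∈ A := by
  have h1 : IsIntegral A z := by
    obtain ⟨p, hp, hpz⟩ := hz
    refine ⟨p.map (algebraMap ℤ A), hp.map _, ?_⟩
    rw [← hpz, Polynomial.eval₂_map]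
    congr 1
  obtain ⟨a, ha⟩ := IsIntegrallyClosed.algebraMap_eq_of_integral (R := A)
    (K := AlgebraicClosure ℚ) h1
  rw [← ha]
  exact a.2

theorem redD_intCast_mem (n : ℤ) : (n : AlgebraicClosure ℚ) ∈ A :=
  redD_mem_of_isIntegral A (by
    have : (n : AlgebraicClosure ℚ) = algebraMap ℤ (AlgebraicClosure ℚ) n := by simp
    rw [this]
    exact isIntegral_algebraMap)

theorem redD_val_intCast_le (n : ℤ) : A.valuation (n : AlgebraicClosure ℚ) ≤ 1 :=
  (A.valuation_le_one_iff _).mpr (redD_intCast_mem A n)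

variable {A}

/-- An integer prime to `q` is a unit of a valuation subring over `q`. -/
theorem redD_val_intCast_eq_one {q : ℕ} (hq : q.Prime)
    (hA : (q : AlgebraicClosure ℚ) ∈ A.nonunits) {n : ℤ} (hn : ¬ (q : ℤ) ∣ n) :
    A.valuation (n : AlgebraicClosure ℚ) = 1 := by
  refine le_antisymm (redD_val_intCast_le A n) ?_
  by_contra hlt
  rw [not_le] at hlt
  have hcop : IsCoprime (q : ℤ) n := (Nat.prime_iff_prime_int.mp hq).coprime_iff_not_dvd.mpr hn
  obtain ⟨u, v, huv⟩ := hcop
  have hq1 : A.valuation (q : AlgebraicClosure ℚ) < 1 := hA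
  have h1 : A.valuation ((u : AlgebraicClosure ℚ) * (q : AlgebraicClosure ℚ) +
      (v : AlgebraicClosure ℚ) * (n : AlgebraicClosure ℚ)) < 1 := by
    refine Valuation.map_add_lt _ ?_ ?_
    · rw [map_mul]
      exact mul_lt_one_of_nonneg_of_lt_one_right (redD_val_intCast_le A u) zero_le hq1
    · rw [map_mul]
      exact mul_lt_one_of_nonneg_of_lt_one_right (redD_val_intCast_le A v) zero_le hlt
  have h2 : (u : AlgebraicClosure ℚ) * (q : AlgebraicClosure ℚ) +
      (v : AlgebraicClosure ℚ) * (n : AlgebraicClosure ℚ) = 1 := by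
    have := congrArg (fun z : ℤ => (z : AlgebraicClosure ℚ)) huv
    simpa using this
  rw [h2, map_one] at h1
  exact lt_irrefl _ h1

/-- Every element of `Qbar` becomes integral at `A` after multiplication by a power of `q`. -/
theorem redD_exists_pow_mul_mem {q : ℕ} (hq : q.Prime)
    (hA : (q : AlgebraicClosure ℚ) ∈ A.nonunits) (z : AlgebraicClosure ℚ) :
    ∃ m : ℕ, (q : AlgebraicClosure ℚ) ^ m * z ∈ A := by
  have halg : IsAlgebraic ℤ z :=
    (IsFractionRing.isAlgebraic_iff ℤ ℚ (AlgebraicClosure ℚ)).mpr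
      ((AlgebraicClosure.isAlgebraic ℚ).isAlgebraic z)
  obtain ⟨d, hd0, hd⟩ := halg.exists_integral_multiple
  -- write d = q ^ m * d' with d' prime to q
  obtain ⟨m, d', hd', hdd⟩ : ∃ (m : ℕ) (d' : ℤ), ¬ (q : ℤ) ∣ d' ∧ d = (q : ℤ) ^ m * d' := by
    have hfin : FiniteMultiplicity (q : ℤ) d := by
      rw [Int.finiteMultiplicity_iff]
      refine ⟨?_, hd0⟩
      have := hq.one_lt
      simp only [Int.natAbs_natCast]
      omega
    obtain ⟨c, hc1, hc2⟩ := hfin.exists_eq_pow_mul_and_not_dvd
    exact ⟨_, c, hc2, hc1⟩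
  refine ⟨m, ?_⟩
  have h1 : d • z ∈ A := redD_mem_of_isIntegral A hd
  have h2 : A.valuation (d' : AlgebraicClosure ℚ) = 1 := redD_val_intCast_eq_one hq hA hd'
  rw [← A.valuation_le_one_iff] at h1 ⊢
  have h3 : d • z = (d' : AlgebraicClosure ℚ) * ((q : AlgebraicClosure ℚ) ^ m * z) := by
    rw [hdd, zsmul_eq_mul]
    push_cast
    ring
  rw [h3, map_mul, h2, one_mul] at h1
  exact h1

end Basics

section Kaplansky

variable {L : Type*} [Field L] [Algebra ℤ L]

theorem redD_leadingCoeff_mul_mem (p : (integralClosure ℤ L)[X]) (x : L) (hx : aeval x p = 0) :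
    (p.leadingCoeff : L) * x ∈ integralClosure ℤ L := by
  have h1 : IsIntegral (integralClosure ℤ L) (p.leadingCoeff • x) :=
    isIntegral_leadingCoeff_smul p x hx
  have h2 : IsIntegral ℤ (p.leadingCoeff • x) := by
    have : Algebra.IsIntegral ℤ (integralClosure ℤ L) := inferInstance
    exact isIntegral_trans _ h1
  have h3 : p.leadingCoeff • x = (p.leadingCoeff : L) * x := by
    rw [Algebra.smul_def]; rfl
  rw [← h3]
  exact h2

/-- Kaplansky's lemma, in the form we need. -/
theorem redD_kaplansky_aux (Q : Ideal (integralClosure ℤ L)) [Q.IsPrime] (x : L) :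
    ∀ (n : ℕ) (p : (integralClosure ℤ L)[X]), p.natDegree ≤ n → aeval x p = 0 →
      (∃ i, p.coeff i ∉ Q) →
      (∃ s : integralClosure ℤ L, s ∉ Q ∧ (s : L) * x ∈ integralClosure ℤ L) ∨
      (∃ s : integralClosure ℤ L, s ∉ Q ∧ (s : L) * x⁻¹ ∈ integralClosure ℤ L) := by
  intro n
  induction n with
  | zero =>
    intro p hp hx ⟨i, hi⟩
    exfalso
    rw [Nat.le_zero] at hp
    rw [Polynomial.eq_C_of_natDegree_eq_zero hp, aeval_C] at hx
    have h0 : p.coeff 0 = 0 := by
      have : ((p.coeff 0 : integralClosure ℤ L) : L) = 0 := hx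
      exact_mod_cast this
    apply hi
    rw [Polynomial.eq_C_of_natDegree_eq_zero hp, h0]
    simp
  | succ n ih =>
    intro p hp hx ⟨i₀, hi₀⟩
    by_cases hdeg : p.natDegree ≤ n
    · exact ih p hdeg hx ⟨i₀, hi₀⟩
    have hdeg' : p.natDegree = n + 1 := le_antisymm hp (by omega)
    have hb := redD_leadingCoeff_mul_mem p x hx
    set b : integralClosure ℤ L := ⟨(p.leadingCoeff : L) * x, hb⟩ with hbdef
    by_cases hlc : p.leadingCoeff ∈ Q
    · -- new polynomial of smaller degree
      set p' : (integralClosure ℤ L)[X] := p.eraseLead + C b * X ^ n with hp'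
      have hdeg1 : p'.natDegree ≤ n := by
        refine (natDegree_add_le _ _).trans (max_le ?_ ?_)
        · have := eraseLead_natDegree_le p
          omega
        · exact natDegree_C_mul_X_pow_le _ _
      have hx' : aeval x p' = 0 := by
        have h1 : aeval x p = aeval x p.eraseLead + (p.leadingCoeff : L) * x ^ (n + 1) := by
          conv_lhs => rw [← eraseLead_add_C_mul_X_pow p, hdeg']
          simp only [map_add, map_mul, aeval_C, map_pow, aeval_X]
          rfl
        have h2 : aeval x p' = aeval x p.eraseLead + (b : L) * x ^ n := by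
          simp only [hp', map_add, map_mul, aeval_C, map_pow, aeval_X]
          rfl
        rw [h2]
        rw [hx] at h1
        have : (b : L) = (p.leadingCoeff : L) * x := rfl
        rw [this, h1]
        ring
      by_cases hall : ∃ i, p'.coeff i ∉ Q
      · exact ih p' hdeg1 hx' hall
      · simp only [not_exists, not_not] at hall
        have hi₀n : i₀ = n := by
          by_contra hne
          have hne' : i₀ ≠ p.natDegree := by
            intro h
            apply hi₀
            rw [h]
            exact hlc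
          have := hall i₀
          rw [hp', coeff_add, eraseLead_coeff_of_ne _ hne', coeff_C_mul, coeff_X_pow,
            if_neg hne, mul_zero, add_zero] at this
          exact hi₀ this
        have hbQ : b ∉ Q := by
          intro hbQ
          have := hall n
          rw [hp', coeff_add, eraseLead_coeff_of_ne _ (by omega), coeff_C_mul, coeff_X_pow,
            if_pos rfl, mul_one] at this
          apply hi₀
          rw [hi₀n]
          have h3 := Q.sub_mem this hbQ
          simpa using h3
        right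
        refine ⟨b, hbQ, ?_⟩
        have hb0 : (b : L) ≠ 0 := by
          intro h
          apply hbQ
          have : b = 0 := by exact_mod_cast h
          rw [this]
          exact Q.zero_mem
        have hx0 : x ≠ 0 := by
          intro h
          apply hb0
          show (p.leadingCoeff : L) * x = 0
          rw [h, mul_zero]
        have : (b : L) * x⁻¹ = (p.leadingCoeff : L) := by
          show (p.leadingCoeff : L) * x * x⁻¹ = _
          rw [mul_assoc, mul_inv_cancel₀ hx0, mul_one]
        rw [this]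
        exact (p.leadingCoeff).2
    · left
      exact ⟨p.leadingCoeff, hlc, hb⟩

/-- A primitive integer polynomial killing an algebraic element. -/
theorem redD_exists_primitive [CharZero L] (x : L) (hx : IsAlgebraic ℤ x) :
    ∃ p : ℤ[X], p.IsPrimitive ∧ aeval x p = 0 := by
  obtain ⟨p, hp0, hp⟩ := hx
  refine ⟨p.primPart, p.isPrimitive_primPart, ?_⟩
  have h1 : p = C p.content * p.primPart := p.eq_C_content_mul_primPart
  rw [h1, map_mul, aeval_C] at hp
  have hc : (algebraMap ℤ L) p.content ≠ 0 := by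
    have : p.content ≠ 0 := by
      rwa [Ne, content_eq_zero_iff]
    simpa using this
  exact (mul_eq_zero.mp hp).resolve_left hc

/-- Kaplansky's lemma for a prime of the ring of algebraic integers over a rational prime. -/
theorem redD_kaplansky [CharZero L] (halg : ∀ x : L, IsAlgebraic ℤ x)
    (Q : Ideal (integralClosure ℤ L)) [Q.IsPrime] (ℓ : ℕ) (hℓ : ℓ.Prime)
    (hℓQ : ((ℓ : ℤ) : integralClosure ℤ L) ∈ Q) (x : L) :
    (∃ s : integralClosure ℤ L, s ∉ Q ∧ (s : L) * x ∈ integralClosure ℤ L) ∨
    (∃ s : integralClosure ℤ L, s ∉ Q ∧ (s : L) * x⁻¹ ∈ integralClosure ℤ L) := by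
  obtain ⟨p, hprim, hp⟩ := redD_exists_primitive x (halg x)
  refine redD_kaplansky_aux Q x _ (p.map (algebraMap ℤ (integralClosure ℤ L))) le_rfl ?_ ?_
  · rw [aeval_map_algebraMap]
    exact hp
  · -- some coefficient is prime to `ℓ`
    by_contra hcon
    simp only [not_exists, not_not] at hcon
    have hdvd : ∀ i, (ℓ : ℤ) ∣ p.coeff i := by
      intro i
      by_contra hnd
      have hcop : IsCoprime (ℓ : ℤ) (p.coeff i) :=
        (Nat.prime_iff_prime_int.mp hℓ).coprime_iff_not_dvd.mpr hnd
      obtain ⟨u, v, huv⟩ := hcop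
      have h1 := hcon i
      rw [coeff_map] at h1
      rw [eq_intCast] at h1
      have h2 : ((u : ℤ) : integralClosure ℤ L) * ((ℓ : ℤ) : integralClosure ℤ L) +
          ((v : ℤ) : integralClosure ℤ L) * ((p.coeff i : ℤ) : integralClosure ℤ L) ∈ Q :=
        Q.add_mem (Q.mul_mem_left _ hℓQ) (Q.mul_mem_left _ h1)
      have h3 : ((u : ℤ) : integralClosure ℤ L) * ((ℓ : ℤ) : integralClosure ℤ L) +
          ((v : ℤ) : integralClosure ℤ L) * ((p.coeff i : ℤ) : integralClosure ℤ L) = 1 := by
        rw [← Int.cast_mul, ← Int.cast_mul, ← Int.cast_add, huv, Int.cast_one]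
      rw [h3] at h2
      exact (Ideal.IsPrime.ne_top ‹Q.IsPrime›) ((Ideal.eq_top_iff_one _).mpr h2)
    have hC : C (ℓ : ℤ) ∣ p := (C_dvd_iff_dvd_coeff _ _).mpr hdvd
    have hu := hprim _ hC
    have := Int.isUnit_iff.mp hu
    have h2 := hℓ.two_le
    omega

end Kaplansky

section Center

/-- The centre of a valuation subring of `Qbar` on the ring of all algebraic integers. -/
def redD_center (A : ValuationSubring (AlgebraicClosure ℚ)) :
    Ideal (integralClosure ℤ (AlgebraicClosure ℚ)) where
  carrier := {z | A.valuation (z : AlgebraicClosure ℚ) < 1}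
  add_mem' := by
    intro a b ha hb
    have ha' : A.valuation (a : AlgebraicClosure ℚ) < 1 := ha
    have hb' : A.valuation (b : AlgebraicClosure ℚ) < 1 := hb
    show A.valuation ((a + b : integralClosure ℤ (AlgebraicClosure ℚ)) : AlgebraicClosure ℚ) < 1
    have : ((a + b : integralClosure ℤ (AlgebraicClosure ℚ)) : AlgebraicClosure ℚ) =
        (a : AlgebraicClosure ℚ) + (b : AlgebraicClosure ℚ) := rfl
    rw [this]
    exact Valuation.map_add_lt _ ha' hb'
  zero_mem' := by
    show A.valuation ((0 : integralClosure ℤ (AlgebraicClosure ℚ)) : AlgebraicClosure ℚ) < 1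
    simp
  smul_mem' := by
    intro c z hz
    show A.valuation ((c * z : integralClosure ℤ (AlgebraicClosure ℚ)) : AlgebraicClosure ℚ) < 1
    have hc : A.valuation (c : AlgebraicClosure ℚ) ≤ 1 :=
      (A.valuation_le_one_iff _).mpr (redD_mem_of_isIntegral A c.2)
    have : ((c * z : integralClosure ℤ (AlgebraicClosure ℚ)) : AlgebraicClosure ℚ) =
        (c : AlgebraicClosure ℚ) * (z : AlgebraicClosure ℚ) := rfl
    rw [this, map_mul]
    exact mul_lt_one_of_nonneg_of_lt_one_right hc zero_le hz

theorem redD_mem_center_iff (A : ValuationSubring (AlgebraicClosure ℚ))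
    (z : integralClosure ℤ (AlgebraicClosure ℚ)) :
    z ∈ redD_center A ↔ A.valuation (z : AlgebraicClosure ℚ) < 1 := Iff.rfl

theorem redD_not_mem_center_iff (A : ValuationSubring (AlgebraicClosure ℚ))
    (z : integralClosure ℤ (AlgebraicClosure ℚ)) :
    z ∉ redD_center A ↔ A.valuation (z : AlgebraicClosure ℚ) = 1 := by
  rw [redD_mem_center_iff, not_lt]
  have hc : A.valuation (z : AlgebraicClosure ℚ) ≤ 1 :=
    (A.valuation_le_one_iff _).mpr (redD_mem_of_isIntegral A z.2)
  exact ⟨fun h => le_antisymm hc h, fun h => h.ge⟩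

instance redD_center_isPrime (A : ValuationSubring (AlgebraicClosure ℚ)) :
    (redD_center A).IsPrime := by
  refine ⟨?_, ?_⟩
  · intro h
    have h1 : (1 : integralClosure ℤ (AlgebraicClosure ℚ)) ∈ redD_center A := by
      rw [h]; trivial
    rw [redD_mem_center_iff] at h1
    simp at h1
  · intro a b hab
    by_contra hcon
    rw [not_or] at hcon
    have ha := (redD_not_mem_center_iff A a).mp hcon.1
    have hb := (redD_not_mem_center_iff A b).mp hcon.2
    rw [redD_mem_center_iff] at hab
    have : ((a * b : integralClosure ℤ (AlgebraicClosure ℚ)) : AlgebraicClosure ℚ) =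
        (a : AlgebraicClosure ℚ) * (b : AlgebraicClosure ℚ) := rfl
    rw [this, map_mul, ha, hb, one_mul] at hab
    exact lt_irrefl _ hab

theorem redD_isAlgebraic_int (x : AlgebraicClosure ℚ) : IsAlgebraic ℤ x :=
  (IsFractionRing.isAlgebraic_iff ℤ ℚ (AlgebraicClosure ℚ)).mpr
    ((AlgebraicClosure.isAlgebraic ℚ).isAlgebraic x)

/-- A valuation subring of `Qbar` over `q` is the localization of the ring of all algebraic
integers at its centre. -/
theorem redD_mem_iff {A : ValuationSubring (AlgebraicClosure ℚ)} {q : ℕ} (hq : q.Prime)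
    (hA : (q : AlgebraicClosure ℚ) ∈ A.nonunits) (x : AlgebraicClosure ℚ) :
    x ∈ A ↔ ∃ s : integralClosure ℤ (AlgebraicClosure ℚ), s ∉ redD_center A ∧
      (s : AlgebraicClosure ℚ) * x ∈ integralClosure ℤ (AlgebraicClosure ℚ) := by
  have hqc : ((q : ℤ) : integralClosure ℤ (AlgebraicClosure ℚ)) ∈ redD_center A := by
    rw [redD_mem_center_iff]
    have : A.valuation (q : AlgebraicClosure ℚ) < 1 := hA
    simpa using this
  constructor
  · intro hx
    rcases redD_kaplansky redD_isAlgebraic_int (redD_center A) q hq hqc x with h | h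
    · exact h
    · obtain ⟨s, hs, hsx⟩ := h
      by_cases hx0 : x = 0
      · exact ⟨1, (redD_not_mem_center_iff A 1).mpr (by simp), by simp [hx0, zero_mem]⟩
      -- `b = s / x` is an integer which is a unit at `A`
      set b : integralClosure ℤ (AlgebraicClosure ℚ) := ⟨(s : AlgebraicClosure ℚ) * x⁻¹, hsx⟩
      have hs1 := (redD_not_mem_center_iff A s).mp hs
      have hx1 : A.valuation x ≤ 1 := (A.valuation_le_one_iff _).mpr hx
      have hb1 : A.valuation (b : AlgebraicClosure ℚ) ≤ 1 :=
        (A.valuation_le_one_iff _).mpr (redD_mem_of_isIntegral A b.2)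
      have hbx : (b : AlgebraicClosure ℚ) * x = s := by
        show (s : AlgebraicClosure ℚ) * x⁻¹ * x = s
        rw [mul_assoc, inv_mul_cancel₀ hx0, mul_one]
      have hprod : A.valuation (b : AlgebraicClosure ℚ) * A.valuation x = 1 := by
        rw [← map_mul, hbx, hs1]
      refine ⟨b, (redD_not_mem_center_iff A b).mpr ?_, ?_⟩
      · refine le_antisymm hb1 ?_
        by_contra hlt
        rw [not_le] at hlt
        have : A.valuation (b : AlgebraicClosure ℚ) * A.valuation x < 1 :=
          mul_lt_one_of_nonneg_of_lt_one_left zero_le hlt hx1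
        rw [hprod] at this
        exact lt_irrefl _ this
      · rw [hbx]
        exact s.2
  · rintro ⟨s, hs, hsx⟩
    have hs1 := (redD_not_mem_center_iff A s).mp hs
    have h1 : A.valuation ((s : AlgebraicClosure ℚ) * x) ≤ 1 :=
      (A.valuation_le_one_iff _).mpr (redD_mem_of_isIntegral A hsx)
    rw [map_mul, hs1, one_mul] at h1
    exact (A.valuation_le_one_iff _).mp h1

/-- A valuation subring of `Qbar` over a rational prime is determined by its centre. -/
theorem redD_eq_of_center_eq {A B : ValuationSubring (AlgebraicClosure ℚ)} {q : ℕ}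
    (hq : q.Prime) (hA : (q : AlgebraicClosure ℚ) ∈ A.nonunits)
    (hB : (q : AlgebraicClosure ℚ) ∈ B.nonunits) (h : redD_center A = redD_center B) :
    A = B := by
  ext x
  rw [redD_mem_iff hq hA, redD_mem_iff hq hB, h]

end Center

section Galois

theorem redD_coe_smul (g : AlgebraicClosure ℚ ≃ₐ[ℚ] AlgebraicClosure ℚ)
    (z : integralClosure ℤ (AlgebraicClosure ℚ)) :
    ((g • z : integralClosure ℤ (AlgebraicClosure ℚ)) : AlgebraicClosure ℚ) =
      g (z : AlgebraicClosure ℚ) := rfl

theorem redD_val_smul_lt_one_iff (g : AlgebraicClosure ℚ ≃ₐ[ℚ] AlgebraicClosure ℚ)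
    (A : ValuationSubring (AlgebraicClosure ℚ)) (z : AlgebraicClosure ℚ) :
    (g • A).valuation z < 1 ↔ A.valuation (g⁻¹ z) < 1 := by
  show z ∈ (g • A).nonunits ↔ g⁻¹ z ∈ A.nonunits
  rw [ValuationSubring.mem_nonunits_iff_or, ValuationSubring.mem_nonunits_iff_or,
    ValuationSubring.mem_pointwise_smul_iff_inv_smul_mem]
  have h1 : g⁻¹ z = 0 ↔ z = 0 := by
    constructor
    · intro h
      have := congrArg g h
      simpa using this
    · rintro rfl; simp
  have h2 : g⁻¹ • z⁻¹ = (g⁻¹ z)⁻¹ := by
    show g⁻¹ z⁻¹ = _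
    rw [map_inv₀]
  rw [h1, h2]

theorem redD_mem_smul_iff (g : AlgebraicClosure ℚ ≃ₐ[ℚ] AlgebraicClosure ℚ)
    (A : ValuationSubring (AlgebraicClosure ℚ)) (z : AlgebraicClosure ℚ) :
    z ∈ g • A ↔ g⁻¹ z ∈ A :=
  ValuationSubring.mem_pointwise_smul_iff_inv_smul_mem

theorem redD_center_smul (g : AlgebraicClosure ℚ ≃ₐ[ℚ] AlgebraicClosure ℚ)
    (A : ValuationSubring (AlgebraicClosure ℚ)) :
    redD_center (g • A) = g • redD_center A := by
  ext z
  rw [Ideal.mem_pointwise_smul_iff_inv_smul_mem, redD_mem_center_iff, redD_mem_center_iff,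
    redD_val_smul_lt_one_iff, redD_coe_smul]

theorem redD_liesOver_smul (g : AlgebraicClosure ℚ ≃ₐ[ℚ] AlgebraicClosure ℚ)
    {A : ValuationSubring (AlgebraicClosure ℚ)} {q : ℕ}
    (hA : (q : AlgebraicClosure ℚ) ∈ A.nonunits) :
    (q : AlgebraicClosure ℚ) ∈ (g • A).nonunits := by
  show (g • A).valuation (q : AlgebraicClosure ℚ) < 1
  rw [redD_val_smul_lt_one_iff]
  have : g⁻¹ (q : AlgebraicClosure ℚ) = q := by simp
  rw [this]
  exact hA

/-- Transitivity: two valuation subrings of `Qbar` over `q` with the same centre on the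
algebraic integers of a number field `M` are conjugate under `Gal(Qbar/M)`. -/
theorem redD_exists_smul_eq (M : IntermediateField ℚ (AlgebraicClosure ℚ))
    [FiniteDimensional ℚ M] {A B : ValuationSubring (AlgebraicClosure ℚ)} {q : ℕ}
    (hq : q.Prime) (hA : (q : AlgebraicClosure ℚ) ∈ A.nonunits)
    (hB : (q : AlgebraicClosure ℚ) ∈ B.nonunits)
    (h : ∀ z : AlgebraicClosure ℚ, z ∈ M → IsIntegral ℤ z →
      (A.valuation z < 1 ↔ B.valuation z < 1)) :
    ∃ g : AlgebraicClosure ℚ ≃ₐ[ℚ] AlgebraicClosure ℚ, (∀ y ∈ M, g y = y) ∧ B = g • A := by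
  classical
  have halg : Algebra.IsAlgebraic ℚ (AlgebraicClosure ℚ) := AlgebraicClosure.isAlgebraic ℚ
  have hclos : IsAlgClosure ℚ (AlgebraicClosure ℚ) := AlgebraicClosure.instIsAlgClosure ℚ
  have hgal : IsGalois ℚ (AlgebraicClosure ℚ) := inferInstance
  set H : Subgroup (AlgebraicClosure ℚ ≃ₐ[ℚ] AlgebraicClosure ℚ) := M.fixingSubgroup with hH
  have hHclosed : IsClosed (H : Set (AlgebraicClosure ℚ ≃ₐ[ℚ] AlgebraicClosure ℚ)) :=
    IntermediateField.fixingSubgroup_isClosed M
  haveI : CompactSpace H := isCompact_iff_compactSpace.mp hHclosed.isCompact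
  letI : TopologicalSpace (integralClosure ℤ (AlgebraicClosure ℚ)) := ⊥
  have hdisc : DiscreteTopology (integralClosure ℤ (AlgebraicClosure ℚ)) := ⟨rfl⟩
  have hcont : ContinuousSMul H (integralClosure ℤ (AlgebraicClosure ℚ)) := by
    rw [continuousSMul_iff_stabilizer_isOpen]
    intro x
    have h1 := stabilizer_isOpen_of_isIntegral (K := ℚ) (L := AlgebraicClosure ℚ)
      (x : AlgebraicClosure ℚ)
    have h2 : (MulAction.stabilizer H x : Set H) =
        Subtype.val ⁻¹' (MulAction.stabilizer (AlgebraicClosure ℚ ≃ₐ[ℚ] AlgebraicClosure ℚ)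
          (x : AlgebraicClosure ℚ) : Set (AlgebraicClosure ℚ ≃ₐ[ℚ] AlgebraicClosure ℚ)) := by
      ext g
      simp only [SetLike.mem_coe, MulAction.mem_stabilizer_iff, Set.mem_preimage]
      constructor
      · intro h
        exact congrArg (fun z : integralClosure ℤ (AlgebraicClosure ℚ) =>
          (z : AlgebraicClosure ℚ)) h
      · intro h
        exact Subtype.ext h
    rw [h2]
    exact h1.preimage continuous_subtype_val
  haveI hinv : Algebra.IsInvariant
      (FixedPoints.subalgebra ℤ (integralClosure ℤ (AlgebraicClosure ℚ)) H)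
      (integralClosure ℤ (AlgebraicClosure ℚ)) H := ⟨fun b hb => ⟨⟨b, hb⟩, rfl⟩⟩
  have hunder : (redD_center A).under
      (FixedPoints.subalgebra ℤ (integralClosure ℤ (AlgebraicClosure ℚ)) H) =
      (redD_center B).under
        (FixedPoints.subalgebra ℤ (integralClosure ℤ (AlgebraicClosure ℚ)) H) := by
    ext r
    have hrM : ((r : integralClosure ℤ (AlgebraicClosure ℚ)) : AlgebraicClosure ℚ) ∈ M := by
      rw [← InfiniteGalois.fixedField_fixingSubgroup M]
      intro g
      have := r.2 g
      exact congrArg (fun z : integralClosure ℤ (AlgebraicClosure ℚ) =>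
        (z : AlgebraicClosure ℚ)) this
    exact h _ hrM (r : integralClosure ℤ (AlgebraicClosure ℚ)).2
  obtain ⟨g, hg⟩ := Algebra.IsInvariant.exists_smul_of_under_eq_of_profinite
    (A := FixedPoints.subalgebra ℤ (integralClosure ℤ (AlgebraicClosure ℚ)) H)
    (G := H) (redD_center A) (redD_center B) hunder
  refine ⟨g.1, fun y hy => g.2 ⟨y, hy⟩, ?_⟩
  refine redD_eq_of_center_eq hq hB (redD_liesOver_smul g.1 hA) ?_
  rw [redD_center_smul, hg]
  rfl

end Galois

section RankOne

/-- The valuation of `Qbar` attached to `A` has rank one: a power of an integral nonunit is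
divisible by `q`. -/
theorem redD_exists_pow_le {A : ValuationSubring (AlgebraicClosure ℚ)} {q : ℕ} (hq : q.Prime)
    (hA : (q : AlgebraicClosure ℚ) ∈ A.nonunits) {z : AlgebraicClosure ℚ}
    (hz : IsIntegral ℤ z) (hz1 : A.valuation z < 1) :
    ∃ k : ℕ, A.valuation z ^ k ≤ A.valuation (q : AlgebraicClosure ℚ) := by
  classical
  by_cases hz0 : z = 0
  · exact ⟨1, by rw [hz0]; simp⟩
  have hvz0 : A.valuation z ≠ 0 := (Valuation.ne_zero_iff _).mpr hz0
  obtain ⟨p, hmonic, hp⟩ := hz
  have hsum : ∑ i ∈ Finset.range (p.natDegree + 1), (p.coeff i : AlgebraicClosure ℚ) * z ^ i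
      = 0 := by
    have h1 : aeval z p = 0 := by rw [aeval_def]; exact hp
    rw [aeval_eq_sum_range] at h1
    rw [← h1]
    refine Finset.sum_congr rfl fun i _ => ?_
    rw [zsmul_eq_mul]
  -- the smallest index with coefficient prime to `q`
  set S : Finset ℕ := (Finset.range (p.natDegree + 1)).filter fun i => ¬ (q : ℤ) ∣ p.coeff i
    with hS
  have hSne : S.Nonempty := by
    refine ⟨p.natDegree, ?_⟩
    rw [hS, Finset.mem_filter, Finset.mem_range]
    refine ⟨Nat.lt_succ_self _, ?_⟩
    rw [Polynomial.coeff_natDegree, hmonic.leadingCoeff]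
    intro h
    have := Int.isUnit_iff.mp (isUnit_of_dvd_one h)
    have h2 := hq.two_le
    omega
  set j := S.min' hSne with hj
  have hjS : j ∈ S := S.min'_mem hSne
  have hjmem : j ∈ Finset.range (p.natDegree + 1) := (Finset.mem_filter.mp hjS).1
  have hjq : ¬ (q : ℤ) ∣ p.coeff j := (Finset.mem_filter.mp hjS).2
  have hlt : ∀ i ∈ Finset.range (p.natDegree + 1), i < j → (q : ℤ) ∣ p.coeff i := by
    intro i hi hij
    by_contra hnd
    have : i ∈ S := Finset.mem_filter.mpr ⟨hi, hnd⟩
    have := S.min'_le i this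
    omega
  have hzle : A.valuation z ≤ 1 := hz1.le
  set g : A.ValueGroup := max (A.valuation (q : AlgebraicClosure ℚ)) (A.valuation z ^ (j + 1))
    with hg
  have hterm : ∀ i ∈ (Finset.range (p.natDegree + 1)).erase j,
      A.valuation ((p.coeff i : AlgebraicClosure ℚ) * z ^ i) ≤ g := by
    intro i hi
    have hi' := Finset.mem_erase.mp hi
    rcases lt_or_gt_of_ne hi'.1 with h | h
    · obtain ⟨c, hc⟩ := hlt i hi'.2 h
      refine le_trans ?_ (le_max_left _ _)
      rw [hc, map_mul, map_pow]
      push_cast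
      rw [map_mul, mul_assoc]
      have h1 : A.valuation (c : AlgebraicClosure ℚ) * A.valuation z ^ i ≤ 1 :=
        mul_le_one' (redD_val_intCast_le A c) (pow_le_one₀ zero_le hzle)
      calc A.valuation (q : AlgebraicClosure ℚ) *
            (A.valuation (c : AlgebraicClosure ℚ) * A.valuation z ^ i)
          ≤ A.valuation (q : AlgebraicClosure ℚ) * 1 := by gcongr
        _ = A.valuation (q : AlgebraicClosure ℚ) := mul_one _
    · refine le_trans ?_ (le_max_right _ _)
      rw [map_mul, map_pow]
      have h1 : A.valuation z ^ i ≤ A.valuation z ^ (j + 1) :=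
        pow_le_pow_of_le_one zero_le hzle h
      calc A.valuation (p.coeff i : AlgebraicClosure ℚ) * A.valuation z ^ i
          ≤ 1 * A.valuation z ^ (j + 1) := by
            gcongr
            exact redD_val_intCast_le A _
        _ = A.valuation z ^ (j + 1) := one_mul _
  have hmain : A.valuation z ^ j ≤ g := by
    have h1 : (p.coeff j : AlgebraicClosure ℚ) * z ^ j =
        -∑ i ∈ (Finset.range (p.natDegree + 1)).erase j,
          (p.coeff i : AlgebraicClosure ℚ) * z ^ i := by
      rw [eq_neg_iff_add_eq_zero]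
      have := Finset.add_sum_erase (Finset.range (p.natDegree + 1))
        (fun i => (p.coeff i : AlgebraicClosure ℚ) * z ^ i) hjmem
      rw [this]
      exact hsum
    have h2 : A.valuation ((p.coeff j : AlgebraicClosure ℚ) * z ^ j) ≤ g := by
      rw [h1, Valuation.map_neg]
      exact Valuation.map_sum_le _ hterm
    rwa [map_mul, redD_val_intCast_eq_one hq hA hjq, one_mul, map_pow] at h2
  rcases le_max_iff.mp hmain with h | h
  · exact ⟨j, h⟩
  · exfalso
    have hpos : 0 < A.valuation z ^ j := by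
      rw [zero_lt_iff]
      exact pow_ne_zero _ hvz0
    have : A.valuation z ^ (j + 1) < A.valuation z ^ j := by
      rw [pow_succ]
      calc A.valuation z ^ j * A.valuation z < A.valuation z ^ j * 1 := by
            exact mul_lt_mul_of_pos_left hz1 hpos
        _ = A.valuation z ^ j := mul_one _
    exact absurd h (not_le.mpr this)

end RankOne

section Idempotent

variable (M : IntermediateField ℚ (AlgebraicClosure ℚ))

/-- The ring of algebraic integers of `M`, as a subring of `Qbar`. -/
noncomputable def redD_ints : Subring (AlgebraicClosure ℚ) :=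
  M.toSubring ⊓ (integralClosure ℤ (AlgebraicClosure ℚ)).toSubring

theorem redD_mem_ints_iff (z : AlgebraicClosure ℚ) :
    z ∈ redD_ints M ↔ z ∈ M ∧ IsIntegral ℤ z := Iff.rfl

instance redD_ints_isIntegral : Algebra.IsIntegral ℤ (redD_ints M) := by
  refine ⟨fun r => ?_⟩
  have h1 : IsIntegral ℤ ((redD_ints M).subtype r) := r.2.2
  exact (isIntegral_algHom_iff ((redD_ints M).subtype.toIntAlgHom)
    (Subtype.val_injective)).mp h1

/-- The centre of `A` on the integers of `M`. -/
noncomputable def redD_centerOn (A : ValuationSubring (AlgebraicClosure ℚ)) : Ideal (redD_ints M) where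
  carrier := {r | A.valuation (r : AlgebraicClosure ℚ) < 1}
  add_mem' := by
    intro a b ha hb
    have ha' : A.valuation (a : AlgebraicClosure ℚ) < 1 := ha
    have hb' : A.valuation (b : AlgebraicClosure ℚ) < 1 := hb
    show A.valuation ((a + b : redD_ints M) : AlgebraicClosure ℚ) < 1
    rw [Subring.coe_add]
    exact Valuation.map_add_lt _ ha' hb'
  zero_mem' := by
    show A.valuation ((0 : redD_ints M) : AlgebraicClosure ℚ) < 1
    simp
  smul_mem' := by
    intro c z hz
    show A.valuation ((c * z : redD_ints M) : AlgebraicClosure ℚ) < 1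
    have hc : A.valuation (c : AlgebraicClosure ℚ) ≤ 1 :=
      (A.valuation_le_one_iff _).mpr (redD_mem_of_isIntegral A c.2.2)
    rw [Subring.coe_mul, map_mul]
    exact mul_lt_one_of_nonneg_of_lt_one_right hc zero_le hz

theorem redD_mem_centerOn_iff (A : ValuationSubring (AlgebraicClosure ℚ)) (r : redD_ints M) :
    r ∈ redD_centerOn M A ↔ A.valuation (r : AlgebraicClosure ℚ) < 1 := Iff.rfl

instance redD_centerOn_isPrime (A : ValuationSubring (AlgebraicClosure ℚ)) :
    (redD_centerOn M A).IsPrime := by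
  refine ⟨?_, ?_⟩
  · intro h
    have h1 : (1 : redD_ints M) ∈ redD_centerOn M A := by
      rw [h]; trivial
    rw [redD_mem_centerOn_iff] at h1
    simp at h1
  · intro a b hab
    by_contra hcon
    rw [not_or, redD_mem_centerOn_iff, redD_mem_centerOn_iff, not_lt, not_lt] at hcon
    have ha1 : A.valuation (a : AlgebraicClosure ℚ) ≤ 1 :=
      (A.valuation_le_one_iff _).mpr (redD_mem_of_isIntegral A a.2.2)
    have hb1 : A.valuation (b : AlgebraicClosure ℚ) ≤ 1 :=
      (A.valuation_le_one_iff _).mpr (redD_mem_of_isIntegral A b.2.2)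
    rw [redD_mem_centerOn_iff, Subring.coe_mul, map_mul, le_antisymm ha1 hcon.1,
      le_antisymm hb1 hcon.2, one_mul] at hab
    exact lt_irrefl _ hab

theorem redD_centerOn_isMaximal {A : ValuationSubring (AlgebraicClosure ℚ)} {q : ℕ}
    (hq : q.Prime) (hA : (q : AlgebraicClosure ℚ) ∈ A.nonunits) :
    (redD_centerOn M A).IsMaximal := by
  haveI : Fact q.Prime := ⟨hq⟩
  have hmax : (Ideal.span {(q : ℤ)}).IsMaximal := Int.ideal_span_isMaximal_of_prime q
  refine Ideal.isMaximal_of_isIntegral_of_isMaximal_comap (R := ℤ) (redD_centerOn M A) ?_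
  have hle : Ideal.span {(q : ℤ)} ≤ Ideal.comap (algebraMap ℤ (redD_ints M))
      (redD_centerOn M A) := by
    rw [Ideal.span_singleton_le_iff_mem, Ideal.mem_comap, redD_mem_centerOn_iff]
    have : A.valuation (q : AlgebraicClosure ℚ) < 1 := hA
    simpa using this
  have hne : Ideal.comap (algebraMap ℤ (redD_ints M)) (redD_centerOn M A) ≠ ⊤ :=
    Ideal.comap_ne_top _ (redD_centerOn_isPrime M A).ne_top
  rw [← hmax.eq_of_le hne hle]
  exact hmax

/-- Separating element: if the centres of `A` and `B` on the integers of `M` differ, there is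
an integer of `M` which is close to `1` at `A` and close to `0` at `B`. -/
theorem redD_exists_separating {A B : ValuationSubring (AlgebraicClosure ℚ)} {q : ℕ}
    (hq : q.Prime) (hA : (q : AlgebraicClosure ℚ) ∈ A.nonunits)
    (hB : (q : AlgebraicClosure ℚ) ∈ B.nonunits)
    (hAB : ¬ ∀ z : AlgebraicClosure ℚ, z ∈ M → IsIntegral ℤ z →
      (A.valuation z < 1 ↔ B.valuation z < 1)) (N : ℕ) :
    ∃ e : AlgebraicClosure ℚ, e ∈ M ∧ IsIntegral ℤ e ∧
      A.valuation (1 - e) ≤ A.valuation (q : AlgebraicClosure ℚ) ^ N ∧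
      B.valuation e ≤ B.valuation (q : AlgebraicClosure ℚ) ^ N := by
  have hmaxA := redD_centerOn_isMaximal M hq hA
  have hmaxB := redD_centerOn_isMaximal M hq hB
  have hne : redD_centerOn M A ≠ redD_centerOn M B := by
    intro h
    apply hAB
    intro z hzM hzint
    have := congrArg (fun I : Ideal (redD_ints M) => (⟨z, hzM, hzint⟩ : redD_ints M) ∈ I) h
    simpa only [redD_mem_centerOn_iff, eq_iff_iff] using this
  obtain ⟨a, ha, b, hb, hab⟩ := Ideal.isCoprime_iff_exists.mp
    (Ideal.isCoprime_of_isMaximal (I := redD_centerOn M A) (J := redD_centerOn M B) hne)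
  rw [redD_mem_centerOn_iff] at ha hb
  obtain ⟨kA, hkA⟩ := redD_exists_pow_le hq hA a.2.2 ha
  obtain ⟨kB, hkB⟩ := redD_exists_pow_le hq hB b.2.2 hb
  have hcop : IsCoprime (a ^ (kA * N)) (b ^ (kB * N)) :=
    IsCoprime.pow ⟨1, 1, by rw [one_mul, one_mul]; exact hab⟩
  obtain ⟨u, w, huw⟩ := hcop
  refine ⟨((w * b ^ (kB * N) : redD_ints M) : AlgebraicClosure ℚ), (w * b ^ (kB * N)).2.1,
    (w * b ^ (kB * N)).2.2, ?_, ?_⟩
  · have h1 : (1 : AlgebraicClosure ℚ) - ((w * b ^ (kB * N) : redD_ints M) : AlgebraicClosure ℚ)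
        = (u : AlgebraicClosure ℚ) * (a : AlgebraicClosure ℚ) ^ (kA * N) := by
      have := congrArg (fun r : redD_ints M => (r : AlgebraicClosure ℚ)) huw
      simp only [Subring.coe_add, Subring.coe_mul, Subring.coe_pow, Subring.coe_one] at this
      rw [Subring.coe_mul, Subring.coe_pow, ← this]
      ring
    rw [h1, map_mul, map_pow, pow_mul]
    have hu : A.valuation (u : AlgebraicClosure ℚ) ≤ 1 :=
      (A.valuation_le_one_iff _).mpr (redD_mem_of_isIntegral A u.2.2)
    calc A.valuation (u : AlgebraicClosure ℚ) * (A.valuation (a : AlgebraicClosure ℚ) ^ kA) ^ N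
        ≤ 1 * A.valuation (q : AlgebraicClosure ℚ) ^ N := by
          gcongr
      _ = A.valuation (q : AlgebraicClosure ℚ) ^ N := one_mul _
  · rw [Subring.coe_mul, Subring.coe_pow, map_mul, map_pow, pow_mul]
    have hw : B.valuation (w : AlgebraicClosure ℚ) ≤ 1 :=
      (B.valuation_le_one_iff _).mpr (redD_mem_of_isIntegral B w.2.2)
    calc B.valuation (w : AlgebraicClosure ℚ) * (B.valuation (b : AlgebraicClosure ℚ) ^ kB) ^ N
        ≤ 1 * B.valuation (q : AlgebraicClosure ℚ) ^ N := by
          gcongr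
      _ = B.valuation (q : AlgebraicClosure ℚ) ^ N := one_mul _

/-- Separating element for finitely many valuation subrings. -/
theorem redD_exists_separating_finset {ι : Type*} (s : Finset ι)
    {A : ValuationSubring (AlgebraicClosure ℚ)} (B : ι → ValuationSubring (AlgebraicClosure ℚ))
    {q : ℕ} (hq : q.Prime) (hA : (q : AlgebraicClosure ℚ) ∈ A.nonunits)
    (hB : ∀ i ∈ s, (q : AlgebraicClosure ℚ) ∈ (B i).nonunits)
    (hAB : ∀ i ∈ s, ¬ ∀ z : AlgebraicClosure ℚ, z ∈ M → IsIntegral ℤ z →
      (A.valuation z < 1 ↔ (B i).valuation z < 1)) (N : ℕ) :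
    ∃ e : AlgebraicClosure ℚ, e ∈ M ∧ IsIntegral ℤ e ∧
      A.valuation (1 - e) ≤ A.valuation (q : AlgebraicClosure ℚ) ^ N ∧
      ∀ i ∈ s, (B i).valuation e ≤ (B i).valuation (q : AlgebraicClosure ℚ) ^ N := by
  classical
  induction s using Finset.induction_on with
  | empty =>
    exact ⟨1, one_mem _, isIntegral_one, by simp, fun i hi => absurd hi (Finset.notMem_empty i)⟩
  | insert i₀ s hi₀ ih =>
    obtain ⟨e₁, he₁M, he₁int, he₁A, he₁B⟩ := ih
      (fun i hi => hB i (Finset.mem_insert_of_mem hi))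
      (fun i hi => hAB i (Finset.mem_insert_of_mem hi))
    obtain ⟨e₂, he₂M, he₂int, he₂A, he₂B⟩ := redD_exists_separating M hq hA
      (hB i₀ (Finset.mem_insert_self _ _)) (hAB i₀ (Finset.mem_insert_self _ _)) N
    refine ⟨e₁ * e₂, mul_mem he₁M he₂M, he₁int.mul he₂int, ?_, ?_⟩
    · have h1 : (1 : AlgebraicClosure ℚ) - e₁ * e₂ = (1 - e₁) + e₁ * (1 - e₂) := by ring
      rw [h1]
      refine Valuation.map_add_le _ he₁A ?_
      rw [map_mul]
      have : A.valuation e₁ ≤ 1 := (A.valuation_le_one_iff _).mpr (redD_mem_of_isIntegral A he₁int)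
      calc A.valuation e₁ * A.valuation (1 - e₂)
          ≤ 1 * A.valuation (q : AlgebraicClosure ℚ) ^ N := by gcongr
        _ = _ := one_mul _
    · intro i hi
      rw [map_mul]
      rcases Finset.mem_insert.mp hi with rfl | hi
      · have : (B i).valuation e₁ ≤ 1 :=
          ((B i).valuation_le_one_iff _).mpr (redD_mem_of_isIntegral (B i) he₁int)
        calc (B i).valuation e₁ * (B i).valuation e₂
            ≤ 1 * (B i).valuation (q : AlgebraicClosure ℚ) ^ N := by gcongr
          _ = _ := one_mul _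
      · have : (B i).valuation e₂ ≤ 1 :=
          ((B i).valuation_le_one_iff _).mpr (redD_mem_of_isIntegral (B i) he₂int)
        calc (B i).valuation e₁ * (B i).valuation e₂
            ≤ (B i).valuation (q : AlgebraicClosure ℚ) ^ N * 1 := by
              gcongr
              exact he₁B i hi
          _ = _ := mul_one _

end Idempotent

section Main

theorem redD_val_le_iff (A : ValuationSubring (AlgebraicClosure ℚ)) (z : AlgebraicClosure ℚ)
    {w : AlgebraicClosure ℚ} (hw : w ≠ 0) :
    A.valuation z ≤ A.valuation w ↔ z / w ∈ A := by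
  rw [← A.valuation_le_one_iff, map_div₀]
  have hpos : 0 < A.valuation w := by
    rw [zero_lt_iff]
    exact (Valuation.ne_zero_iff _).mpr hw
  exact (div_le_one₀ hpos).symm

/-- Lifting an embedding of an intermediate field to an automorphism of `Qbar`. -/
theorem redD_exists_lift (K : IntermediateField ℚ (AlgebraicClosure ℚ))
    (M₀ : IntermediateField K (AlgebraicClosure ℚ)) (σ : M₀ →ₐ[K] AlgebraicClosure ℚ) :
    ∃ τ : AlgebraicClosure ℚ ≃ₐ[ℚ] AlgebraicClosure ℚ,
      (∀ y ∈ K, τ y = y) ∧ ∀ z : M₀, τ (z : AlgebraicClosure ℚ) = σ z := by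
  have halgQ : Algebra.IsAlgebraic ℚ (AlgebraicClosure ℚ) := AlgebraicClosure.isAlgebraic ℚ
  haveI halgK : Algebra.IsAlgebraic K (AlgebraicClosure ℚ) :=
    Algebra.IsAlgebraic.tower_top (K := ℚ) K
  haveI halgM : Algebra.IsAlgebraic M₀ (AlgebraicClosure ℚ) :=
    Algebra.IsAlgebraic.tower_top (K := K) M₀
  obtain ⟨φ, hφ⟩ := IsAlgClosed.surjective_domRestrict_of_isAlgebraic
    (K := K) (L := M₀) (M := AlgebraicClosure ℚ) (E := AlgebraicClosure ℚ) σ
  have hbij : Function.Bijective φ := Algebra.IsAlgebraic.algHom_bijective φ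
  refine ⟨(AlgEquiv.ofBijective φ hbij).restrictScalars ℚ, fun y hy => ?_, fun z => ?_⟩
  · show φ y = y
    exact φ.commutes ⟨y, hy⟩
  · show φ (z : AlgebraicClosure ℚ) = σ z
    rw [← hφ]
    rfl

end Main

section Final

/-- (RED-D) a number field is dense in its decomposition field. -/
theorem decompositionApprox : DecompositionApproxStatement := by
  intro K _ x A q hq hA hx N
  classical
  have hA' : (q : AlgebraicClosure ℚ) ∈ A.nonunits := hA
  have hq0 : (q : AlgebraicClosure ℚ) ≠ 0 := by exact_mod_cast hq.ne_zero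
  have halgQ : Algebra.IsAlgebraic ℚ (AlgebraicClosure ℚ) := AlgebraicClosure.isAlgebraic ℚ
  haveI halgK : Algebra.IsAlgebraic K (AlgebraicClosure ℚ) :=
    Algebra.IsAlgebraic.tower_top (K := ℚ) K
  have hxQ : IsIntegral ℚ x := (halgQ.isAlgebraic x).isIntegral
  have hxK : IsIntegral K x := (halgK.isAlgebraic x).isIntegral
  -- the fields
  set M₀ : IntermediateField K (AlgebraicClosure ℚ) := IntermediateField.adjoin K {x} with hM₀
  haveI : FiniteDimensional K M₀ := IntermediateField.adjoin.finiteDimensional hxK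
  haveI : FiniteDimensional ℚ (IntermediateField.adjoin ℚ {x}) :=
    IntermediateField.adjoin.finiteDimensional hxQ
  set M : IntermediateField ℚ (AlgebraicClosure ℚ) := K ⊔ IntermediateField.adjoin ℚ {x} with hM
  haveI : FiniteDimensional ℚ M := IntermediateField.finiteDimensional_sup K _
  have hKM : ∀ y ∈ K, y ∈ M := fun y hy => (le_sup_left : K ≤ M) hy
  have hxM : x ∈ M :=
    (le_sup_right : IntermediateField.adjoin ℚ {x} ≤ M) (IntermediateField.mem_adjoin_simple_self ℚ x)
  have hxM₀ : x ∈ M₀ := IntermediateField.mem_adjoin_simple_self K x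
  have hMM₀ : ∀ z ∈ M, z ∈ M₀ := by
    have hle : M ≤ M₀.restrictScalars ℚ := by
      refine sup_le (fun y hy => ?_) (IntermediateField.adjoin_le_iff.mpr ?_)
      · rw [IntermediateField.mem_restrictScalars]
        exact M₀.algebraMap_mem ⟨y, hy⟩
      · intro z hz
        rw [Set.mem_singleton_iff] at hz
        rw [hz]
        exact hxM₀
    intro z hz
    exact hle hz
  -- lifts of the embeddings
  choose τ hτK hτσ using fun σ : M₀ →ₐ[K] AlgebraicClosure ℚ => redD_exists_lift K M₀ σ
  set B : (M₀ →ₐ[K] AlgebraicClosure ℚ) → ValuationSubring (AlgebraicClosure ℚ) :=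
    fun σ => (τ σ)⁻¹ • A with hBdef
  have hB : ∀ σ, (q : AlgebraicClosure ℚ) ∈ (B σ).nonunits :=
    fun σ => redD_liesOver_smul _ hA'
  set s : Finset (M₀ →ₐ[K] AlgebraicClosure ℚ) :=
    Finset.univ.filter fun σ => σ ⟨x, hxM₀⟩ ≠ x with hs
  have hsep : ∀ σ ∈ s, ¬ ∀ z : AlgebraicClosure ℚ, z ∈ M → IsIntegral ℤ z →
      (A.valuation z < 1 ↔ (B σ).valuation z < 1) := by
    intro σ hσ hcon
    obtain ⟨g, hgM, hgB⟩ := redD_exists_smul_eq M hq hA' (hB σ) hcon
    have hstab : (τ σ * g) • A = A := by
      rw [mul_smul, ← hgB]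
      show τ σ • ((τ σ)⁻¹ • A) = A
      rw [smul_inv_smul]
    have hmem : τ σ * g ∈ A.decompositionSubgroup ℚ := MulAction.mem_stabilizer_iff.mpr hstab
    have hfix := hx (τ σ * g) hmem (fun y hy => by
      show τ σ (g y) = y
      rw [hgM y (hKM y hy), hτK σ y hy])
    have h1 : τ σ x = x := by
      have h2 : (τ σ * g) x = τ σ (g x) := rfl
      rw [h2, hgM x hxM] at hfix
      exact hfix
    have h3 := hτσ σ ⟨x, hxM₀⟩
    apply (Finset.mem_filter.mp hσ).2
    rw [← h3]
    exact h1
  -- denominators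
  have hden : ∀ z : AlgebraicClosure ℚ, ∃ m : ℕ, (q : AlgebraicClosure ℚ) ^ m * z ∈ A :=
    redD_exists_pow_mul_mem hq hA'
  have hmono : ∀ (z : AlgebraicClosure ℚ) (a b : ℕ), a ≤ b →
      (q : AlgebraicClosure ℚ) ^ a * z ∈ A → (q : AlgebraicClosure ℚ) ^ b * z ∈ A := by
    intro z a b hab h
    have h1 : (q : AlgebraicClosure ℚ) ^ b * z =
        (q : AlgebraicClosure ℚ) ^ (b - a) * ((q : AlgebraicClosure ℚ) ^ a * z) := by
      rw [← mul_assoc, ← pow_add, Nat.sub_add_cancel hab]
    rw [h1]
    refine A.mul_mem _ _ (A.pow_mem ?_ _) h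
    have := redD_intCast_mem A (q : ℤ)
    simpa using this
  choose mσ hmσ using fun σ : M₀ →ₐ[K] AlgebraicClosure ℚ => hden (τ σ x)
  obtain ⟨m₀, hm₀⟩ := hden x
  set m : ℕ := max m₀ (Finset.univ.sup mσ) with hm
  have hmx : (q : AlgebraicClosure ℚ) ^ m * x ∈ A := hmono x m₀ m (le_max_left _ _) hm₀
  have hmτ : ∀ σ, (q : AlgebraicClosure ℚ) ^ m * τ σ x ∈ A := fun σ =>
    hmono _ (mσ σ) m ((Finset.le_sup (Finset.mem_univ σ)).trans (le_max_right _ _)) (hmσ σ)
  -- the separating element
  obtain ⟨e, heM, heint, heA, heB⟩ :=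
    redD_exists_separating_finset M s B hq hA' (fun σ _ => hB σ) hsep (N + m)
  have hqpow : (q : AlgebraicClosure ℚ) ^ (N + m) ≠ 0 := pow_ne_zero _ hq0
  have heA' : (1 - e) / (q : AlgebraicClosure ℚ) ^ (N + m) ∈ A := by
    rw [← redD_val_le_iff A _ hqpow, map_pow]
    exact heA
  have heB' : ∀ σ ∈ s, τ σ e / (q : AlgebraicClosure ℚ) ^ (N + m) ∈ A := by
    intro σ hσ
    have h1 : e / (q : AlgebraicClosure ℚ) ^ (N + m) ∈ B σ := by
      rw [← redD_val_le_iff (B σ) _ hqpow, map_pow]
      exact heB σ hσ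
    rw [hBdef] at h1
    simp only at h1
    rw [redD_mem_smul_iff, inv_inv] at h1
    have h2 : τ σ (e / (q : AlgebraicClosure ℚ) ^ (N + m)) =
        τ σ e / (q : AlgebraicClosure ℚ) ^ (N + m) := by
      rw [map_div₀, map_pow, map_natCast]
    rw [← h2]
    exact h1
  -- the trace
  have hexM₀ : e * x ∈ M₀ := mul_mem (hMM₀ e heM) hxM₀
  set t : K := Algebra.trace K M₀ ⟨e * x, hexM₀⟩ with ht
  have hysum : ((t : K) : AlgebraicClosure ℚ) =
      ∑ σ : M₀ →ₐ[K] AlgebraicClosure ℚ, σ ⟨e * x, hexM₀⟩ :=
    trace_eq_sum_embeddings (K := K) (L := M₀) (AlgebraicClosure ℚ)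
  refine ⟨(t : AlgebraicClosure ℚ), t.2, ?_⟩
  -- split the sum
  have hσval : ∀ σ : M₀ →ₐ[K] AlgebraicClosure ℚ, σ ⟨e * x, hexM₀⟩ = τ σ e * τ σ x := by
    intro σ
    rw [← hτσ σ ⟨e * x, hexM₀⟩]
    exact map_mul (τ σ) e x
  have hcompl : Finset.univ.filter (fun σ : M₀ →ₐ[K] AlgebraicClosure ℚ => ¬ σ ⟨x, hxM₀⟩ ≠ x)
      = {M₀.val} := by
    ext σ
    simp only [Finset.mem_filter, Finset.mem_univ, true_and, not_not, Finset.mem_singleton]
    constructor
    · intro h
      refine IntermediateField.adjoin_algHom_ext K fun z hz => ?_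
      rw [Set.mem_singleton_iff] at hz
      subst hz
      exact h
    · rintro rfl
      rfl
  have hsplit : ((t : K) : AlgebraicClosure ℚ) = e * x + ∑ σ ∈ s, τ σ e * τ σ x := by
    rw [hysum, ← Finset.sum_filter_add_sum_filter_not Finset.univ
      (fun σ : M₀ →ₐ[K] AlgebraicClosure ℚ => σ ⟨x, hxM₀⟩ ≠ x), hcompl, Finset.sum_singleton,
      add_comm]
    congr 1
    exact Finset.sum_congr rfl fun σ _ => hσval σ
  have hqN : (q : AlgebraicClosure ℚ) ^ N ≠ 0 := pow_ne_zero _ hq0
  rw [← map_pow, redD_val_le_iff A _ hqN, hsplit]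
  have hkey : (x - (e * x + ∑ σ ∈ s, τ σ e * τ σ x)) / (q : AlgebraicClosure ℚ) ^ N =
      (1 - e) / (q : AlgebraicClosure ℚ) ^ (N + m) * ((q : AlgebraicClosure ℚ) ^ m * x) -
        ∑ σ ∈ s, τ σ e / (q : AlgebraicClosure ℚ) ^ (N + m) *
          ((q : AlgebraicClosure ℚ) ^ m * τ σ x) := by
    have hqm : (q : AlgebraicClosure ℚ) ^ m ≠ 0 := pow_ne_zero _ hq0
    have h1 : ∀ σ, τ σ e / (q : AlgebraicClosure ℚ) ^ (N + m) *
        ((q : AlgebraicClosure ℚ) ^ m * τ σ x) = τ σ e * τ σ x / (q : AlgebraicClosure ℚ) ^ N := by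
      intro σ
      rw [pow_add]
      field_simp
    rw [Finset.sum_congr rfl fun σ _ => h1 σ, ← Finset.sum_div, pow_add]
    field_simp
    ring
  rw [hkey]
  refine A.sub_mem (A.mul_mem _ _ heA' hmx) (A.toSubring.sum_mem fun σ hσ => ?_)
  exact A.mul_mem _ _ (heB' σ hσ) (hmτ σ)

end Final

end Fermat.Agent.S14
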