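import Mathlib
import Fermat.Agent.S14.Defs

/-!
# S14, (RED-B): the Kummer generator of a Selmer datum

Given a Selmer datum `D` (a function `c` on `G_ℚ` which restricts to a non-zero homomorphism
`ker χ → ℤ/p` with open kernel `H`), the Lagrange resolvent
`a = ∑_{i mod p} ζ⁻ⁱ σ₀ⁱ(x)`, for `σ₀ ∈ ker χ` with `c σ₀ = 1` and a suitable `x` in the fixed
field of `H`, is non-zero and satisfies `σ a = ζ ^ c(σ) a` for all `σ ∈ ker χ`.
-/

set_option autoImplicit false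
set_option linter.style.haveILetI false

namespace Fermat.Agent.S14

open IntermediateField

variable {p : ℕ} [Fact p.Prime]

/-- An automorphism in the kernel of the cyclotomic character fixes the `p`-th roots of unity. -/
lemma redB_apply_zeta (σ : GQ) (hσ : chi p σ = 1) {ζ : AlgebraicClosure ℚ}
    (hζ : IsPrimitiveRoot ζ p) : σ ζ = ζ := by
  haveI : NeZero p := ⟨(Fact.out : p.Prime).ne_zero⟩
  have hζ0 : ζ ≠ 0 := hζ.ne_zero (NeZero.ne p)
  have hmem : (Units.mk0 ζ hζ0) ∈ rootsOfUnity p (AlgebraicClosure ℚ) := by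
    rw [mem_rootsOfUnity]
    ext
    simpa using hζ.pow_eq_one
  have h := modularCyclotomicCharacter.spec (AlgebraicClosure ℚ)
    (ExtCitation.card_rootsOfUnity_eq_self p) (σ : AlgebraicClosure ℚ ≃+* AlgebraicClosure ℚ) hmem
  have h1 : modularCyclotomicCharacter (AlgebraicClosure ℚ)
      (ExtCitation.card_rootsOfUnity_eq_self p)
      (σ : AlgebraicClosure ℚ ≃+* AlgebraicClosure ℚ) = 1 := hσ
  rw [h1] at h
  have hv : ((1 : (ZMod p)ˣ) : ZMod p).val = 1 := by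
    haveI : Fact (1 < p) := ⟨(Fact.out : p.Prime).one_lt⟩
    rw [Units.val_one, ZMod.val_one]
  rw [hv, pow_one] at h
  simpa using h

theorem redB_isGalois : IsGalois ℚ (AlgebraicClosure ℚ) := by
  have e : (AlgebraicClosure.instAlgebra ℚ : Algebra ℚ (AlgebraicClosure ℚ)) =
      DivisionRing.toRatAlgebra := Subsingleton.elim _ _
  have h : @IsGalois ℚ _ (AlgebraicClosure ℚ) _ (AlgebraicClosure.instAlgebra ℚ) := inferInstance
  rw [e] at h
  exact h

section Datum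

variable (D : SelmerDatum p)

lemma redB_c_one : D.c 1 = 0 := by
  have h := D.map_mul 1 1 (map_one _) (map_one _)
  rw [mul_one] at h
  have : D.c 1 + 0 = D.c 1 + D.c 1 := by rw [add_zero]; exact h
  exact (add_left_cancel this).symm

lemma redB_c_inv (σ : GQ) (hσ : chi p σ = 1) : D.c σ⁻¹ = -D.c σ := by
  have hσ' : chi p σ⁻¹ = 1 := by rw [map_inv, hσ, inv_one]
  have h := D.map_mul σ σ⁻¹ hσ hσ'
  rw [mul_inv_cancel, redB_c_one] at h
  exact eq_neg_of_add_eq_zero_right h.symm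

lemma redB_chi_pow (σ : GQ) (hσ : chi p σ = 1) (n : ℕ) : chi p (σ ^ n) = 1 := by
  rw [map_pow, hσ, one_pow]

lemma redB_c_pow (σ : GQ) (hσ : chi p σ = 1) (n : ℕ) : D.c (σ ^ n) = (n : ZMod p) * D.c σ := by
  induction n with
  | zero => rw [pow_zero, redB_c_one, Nat.cast_zero, zero_mul]
  | succ n ih =>
    rw [pow_succ, D.map_mul _ _ (redB_chi_pow σ hσ n) hσ, ih, Nat.cast_succ, add_mul, one_mul]

/-- The kernel of the Selmer class, as a subgroup of `G_ℚ`. -/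
def redB_H : Subgroup GQ where
  carrier := {σ | chi p σ = 1 ∧ D.c σ = 0}
  one_mem' := ⟨map_one _, redB_c_one D⟩
  mul_mem' := by
    rintro σ τ ⟨hσ, hσ'⟩ ⟨hτ, hτ'⟩
    exact ⟨by rw [map_mul, hσ, hτ, one_mul], by rw [D.map_mul σ τ hσ hτ, hσ', hτ', add_zero]⟩
  inv_mem' := by
    rintro σ ⟨hσ, hσ'⟩
    exact ⟨by rw [map_inv, hσ, inv_one], by rw [redB_c_inv D σ hσ, hσ', neg_zero]⟩

lemma redB_mem_H {σ : GQ} : σ ∈ redB_H D ↔ chi p σ = 1 ∧ D.c σ = 0 := Iff.rfl

lemma redB_H_isOpen : IsOpen (redB_H D : Set GQ) := D.isOpen_ker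

lemma redB_H_isClosed : IsClosed (redB_H D : Set GQ) :=
  Subgroup.isClosed_of_isOpen _ (redB_H_isOpen D)

/-- The Galois correspondence for the open subgroup `H`. -/
lemma redB_fixingSubgroup_fixedField :
    (IntermediateField.fixedField (redB_H D)).fixingSubgroup = redB_H D := by
  haveI := redB_isGalois
  exact InfiniteGalois.fixingSubgroup_fixedField ⟨redB_H D, redB_H_isClosed D⟩

/-- There is an element of `ker χ` on which the Selmer class takes the value `1`. -/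
lemma redB_exists_gen : ∃ σ₀ : GQ, chi p σ₀ = 1 ∧ D.c σ₀ = 1 := by
  obtain ⟨σ₁, h1, h2⟩ := D.nontrivial
  refine ⟨σ₁ ^ ((D.c σ₁)⁻¹).val, redB_chi_pow σ₁ h1 _, ?_⟩
  rw [redB_c_pow D σ₁ h1, ZMod.natCast_zmod_val, inv_mul_cancel₀ h2]

variable {D}

/-- The Lagrange resolvent. -/
noncomputable def redB_resolvent (ζ : AlgebraicClosure ℚ) (σ₀ : GQ) (x : AlgebraicClosure ℚ) :
    AlgebraicClosure ℚ :=
  ∑ i : ZMod p, (ζ⁻¹) ^ i.val * (σ₀ ^ i.val) x

/-- The summand of the resolvent as a function on `ℕ` is `p`-periodic. -/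
lemma redB_term_periodic {ζ : AlgebraicClosure ℚ} (hζ : IsPrimitiveRoot ζ p) {σ₀ : GQ}
    (h0 : chi p σ₀ = 1) {x : AlgebraicClosure ℚ}
    (hx : x ∈ IntermediateField.fixedField (redB_H D)) (n : ℕ) :
    (ζ⁻¹) ^ n * (σ₀ ^ n) x = (ζ⁻¹) ^ (n : ZMod p).val * (σ₀ ^ (n : ZMod p).val) x := by
  have hp : σ₀ ^ p ∈ redB_H D := by
    refine ⟨redB_chi_pow σ₀ h0 p, ?_⟩
    rw [redB_c_pow D σ₀ h0, ZMod.natCast_self, zero_mul]
  have hpx : ∀ k : ℕ, ((σ₀ ^ p) ^ k) x = x := by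
    intro k
    have hk : (σ₀ ^ p) ^ k ∈ redB_H D := Subgroup.pow_mem _ hp k
    exact (IntermediateField.mem_fixedField_iff _ _).mp hx _ hk
  have hζp : (ζ⁻¹) ^ p = 1 := by rw [inv_pow, hζ.pow_eq_one, inv_one]
  rw [ZMod.val_natCast]
  conv_lhs => rw [← Nat.mod_add_div n p]
  rw [pow_add, pow_mul, hζp, one_pow, mul_one, pow_add, pow_mul, AlgEquiv.mul_apply, hpx]

/-- Equivariance of the resolvent. -/
lemma redB_resolvent_apply {ζ : AlgebraicClosure ℚ} (hζ : IsPrimitiveRoot ζ p) {σ₀ : GQ}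
    (h0 : chi p σ₀ = 1) (h1 : D.c σ₀ = 1) {x : AlgebraicClosure ℚ}
    (hx : x ∈ IntermediateField.fixedField (redB_H D)) (σ : GQ) (hσ : chi p σ = 1) :
    σ (redB_resolvent (p := p) ζ σ₀ x) = ζ ^ (D.c σ).val * redB_resolvent (p := p) ζ σ₀ x := by
  haveI : NeZero p := ⟨(Fact.out : p.Prime).ne_zero⟩
  have hζ0 : ζ ≠ 0 := hζ.ne_zero (NeZero.ne p)
  have hσζ : σ ζ⁻¹ = ζ⁻¹ := by rw [map_inv₀, redB_apply_zeta σ hσ hζ]
  -- `σ ∘ σ₀ ^ j = σ₀ ^ (c σ + j)` on the fixed field of `H`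
  have hkey : ∀ j : ℕ, σ ((σ₀ ^ j) x) = (σ₀ ^ ((D.c σ).val + j)) x := by
    intro j
    have hmem : (σ₀ ^ ((D.c σ).val + j))⁻¹ * (σ * σ₀ ^ j) ∈ redB_H D := by
      have hχ1 : chi p (σ * σ₀ ^ j) = 1 := by
        rw [map_mul, hσ, redB_chi_pow σ₀ h0, one_mul]
      have hχ2 : chi p (σ₀ ^ ((D.c σ).val + j))⁻¹ = 1 := by
        rw [map_inv, redB_chi_pow σ₀ h0, inv_one]
      refine ⟨by rw [map_mul, hχ1, hχ2, one_mul], ?_⟩
      rw [D.map_mul _ _ hχ2 hχ1, redB_c_inv D _ (redB_chi_pow σ₀ h0 _),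
        D.map_mul _ _ hσ (redB_chi_pow σ₀ h0 _), redB_c_pow D σ₀ h0, redB_c_pow D σ₀ h0, h1,
        Nat.cast_add, ZMod.natCast_zmod_val]
      ring
    have := (IntermediateField.mem_fixedField_iff _ _).mp hx _ hmem
    rw [AlgEquiv.mul_apply, AlgEquiv.mul_apply] at this
    have h2 := congrArg (σ₀ ^ ((D.c σ).val + j)) this
    rw [← AlgEquiv.mul_apply, mul_inv_cancel, AlgEquiv.one_apply] at h2
    exact h2
  unfold redB_resolvent
  rw [map_sum, Finset.mul_sum]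
  -- reindex the right hand side by `i ↦ i + c σ`
  rw [← Equiv.sum_comp (Equiv.addLeft (D.c σ))
    (fun i : ZMod p => ζ ^ (D.c σ).val * ((ζ⁻¹) ^ i.val * (σ₀ ^ i.val) x))]
  refine Finset.sum_congr rfl fun i _ => ?_
  rw [map_mul, map_pow, hσζ, hkey i.val, Equiv.coe_addLeft]
  have hper := redB_term_periodic (D := D) hζ h0 hx ((D.c σ).val + i.val)
  have hcast : (((D.c σ).val + i.val : ℕ) : ZMod p) = D.c σ + i := by
    rw [Nat.cast_add, ZMod.natCast_zmod_val, ZMod.natCast_zmod_val]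
  rw [hcast] at hper
  rw [← hper]
  generalize (σ₀ ^ ((D.c σ).val + i.val)) x = Y
  have hz : ζ ^ (D.c σ).val * ζ⁻¹ ^ ((D.c σ).val + i.val) = ζ⁻¹ ^ i.val := by
    rw [pow_add, ← mul_assoc, ← mul_pow, mul_inv_cancel₀ hζ0, one_pow, one_mul]
  rw [← mul_assoc, hz]

/-- Non-vanishing of the resolvent on the fixed field of `H` (Dedekind independence). -/
lemma redB_exists_resolvent_ne_zero {ζ : AlgebraicClosure ℚ} (hζ : IsPrimitiveRoot ζ p)
    {σ₀ : GQ} (h0 : chi p σ₀ = 1) (h1 : D.c σ₀ = 1) :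
    ∃ x ∈ IntermediateField.fixedField (redB_H D), redB_resolvent (p := p) ζ σ₀ x ≠ 0 := by
  haveI : NeZero p := ⟨(Fact.out : p.Prime).ne_zero⟩
  have hζ0 : ζ ≠ 0 := hζ.ne_zero (NeZero.ne p)
  set L := IntermediateField.fixedField (redB_H D) with hL
  -- the monoid homomorphisms `x ↦ σ₀ ^ i x` on `L`
  let f : ZMod p → (L →* AlgebraicClosure ℚ) := fun i =>
    ((σ₀ ^ i.val : GQ) : AlgebraicClosure ℚ →* AlgebraicClosure ℚ).comp
      (L.val : L →* AlgebraicClosure ℚ)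
  have hf : ∀ i (x : L), f i x = (σ₀ ^ i.val) (x : AlgebraicClosure ℚ) := fun i x => rfl
  have hinj : Function.Injective f := by
    intro i j hij
    have hmem : (σ₀ ^ j.val)⁻¹ * σ₀ ^ i.val ∈ L.fixingSubgroup := by
      rw [IntermediateField.mem_fixingSubgroup_iff]
      intro x hx
      have h2 := DFunLike.congr_fun hij ⟨x, hx⟩
      rw [hf, hf] at h2
      show ((σ₀ ^ j.val)⁻¹ * σ₀ ^ i.val) x = x
      rw [AlgEquiv.mul_apply, h2, ← AlgEquiv.mul_apply, inv_mul_cancel, AlgEquiv.one_apply]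
    rw [hL, redB_fixingSubgroup_fixedField] at hmem
    have hc := hmem.2
    rw [D.map_mul _ _ (by rw [map_inv, redB_chi_pow σ₀ h0, inv_one]) (redB_chi_pow σ₀ h0 _),
      redB_c_inv D _ (redB_chi_pow σ₀ h0 _), redB_c_pow D σ₀ h0, redB_c_pow D σ₀ h0, h1,
      mul_one, mul_one, ZMod.natCast_zmod_val, ZMod.natCast_zmod_val] at hc
    have : i = j := by
      have h3 : i = j + (-j + i) := by ring
      rw [h3, hc, add_zero]
    exact this
  have hli : LinearIndependent (AlgebraicClosure ℚ)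
      (fun i : ZMod p => (f i : L → AlgebraicClosure ℚ)) :=
    (linearIndependent_monoidHom L (AlgebraicClosure ℚ)).comp f hinj
  by_contra hcon
  simp only [not_exists, not_and, not_not] at hcon
  have hzero : ∑ i : ZMod p, ((ζ⁻¹) ^ i.val) • (f i : L → AlgebraicClosure ℚ) = 0 := by
    funext x
    rw [Finset.sum_apply]
    simp only [Pi.smul_apply, smul_eq_mul, Pi.zero_apply]
    exact hcon x.1 x.2
  have := Fintype.linearIndependent_iff.mp hli _ hzero 0
  exact pow_ne_zero _ (inv_ne_zero hζ0) this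

end Datum

/-- **(RED-B)** Kummer generator: a Selmer datum is realised by a `p`-th root. -/
theorem kummerGenerator (p : ℕ) [Fact p.Prime] : KummerGeneratorStatement p := by
  intro D ζ hζ
  obtain ⟨σ₀, h0, h1⟩ := redB_exists_gen D
  obtain ⟨x, hx, hne⟩ := redB_exists_resolvent_ne_zero (D := D) hζ h0 h1
  exact ⟨redB_resolvent (p := p) ζ σ₀ x, hne,
    fun σ hσ => redB_resolvent_apply (D := D) hζ h0 h1 hx σ hσ⟩

end Fermat.Agent.S14
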