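import Mathlib
import Fermat.Agent.S14.Defs

/-!
# S14, RED-A: a non-split admissible extension gives a Selmer datum
-/

set_option autoImplicit false
set_option linter.unusedSectionVars false

namespace Fermat.Agent.S14

open ExtCitation

section abstract

variable {p : ℕ} [Fact p.Prime] {G : Type*} [Group G]
  {V : Type*} [AddCommGroup V] [Module (ZMod p) V] [DistribMulAction G V]
  [SMulCommClass G (ZMod p) V]

/-- If the kernel of `χ` acts trivially and `χ` is not trivial, the extension splits: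
the `χ σ₀`-eigenspace of any `σ₀` with `χ σ₀ ≠ 1` is a `G`-stable complement. -/
theorem redA_exists_stable_compl_of_ker_trivial (χ : G →* (ZMod p)ˣ)
    (C : Submodule (ZMod p) V)
    (hfix : ∀ σ : G, ∀ x ∈ C, σ • x = x)
    (hquot : ∀ σ : G, ∀ x : V, σ • x - ((χ σ : (ZMod p)ˣ) : ZMod p) • x ∈ C)
    (σ₀ : G) (hσ₀ : χ σ₀ ≠ 1)
    (htriv : ∀ τ : G, χ τ = 1 → ∀ v : V, τ • v = v) :
    ∃ C' : Submodule (ZMod p) V, (∀ σ : G, ∀ x ∈ C', σ • x ∈ C') ∧ IsCompl C C' := by
  set a : ZMod p := ((χ σ₀ : (ZMod p)ˣ) : ZMod p) with ha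
  have ha1 : a - 1 ≠ 0 := by
    intro h
    apply hσ₀
    ext
    rw [sub_eq_zero] at h
    simpa [ha] using h
  let C' : Submodule (ZMod p) V :=
    { carrier := {v | σ₀ • v = a • v}
      add_mem' := by
        intro x y hx hy
        change σ₀ • x = a • x at hx
        change σ₀ • y = a • y at hy
        change σ₀ • (x + y) = a • (x + y)
        rw [smul_add, hx, hy, smul_add]
      zero_mem' := by
        change σ₀ • (0 : V) = a • (0 : V)
        simp
      smul_mem' := by
        intro c x hx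
        change σ₀ • x = a • x at hx
        change σ₀ • c • x = a • c • x
        rw [smul_comm σ₀ c x, hx, smul_comm] }
  have hmemC' : ∀ v, v ∈ C' ↔ σ₀ • v = a • v := fun v => Iff.rfl
  refine ⟨C', ?_, ?_⟩
  · intro σ x hx
    rw [hmemC'] at hx ⊢
    set τ : G := σ₀⁻¹ * σ⁻¹ * σ₀ * σ with hτ
    have hχτ : χ τ = 1 := by
      rw [hτ]
      simp only [map_mul, map_inv]
      rw [mul_comm (χ σ₀)⁻¹, mul_assoc, mul_assoc, ← mul_assoc (χ σ₀)⁻¹]
      simp
    have h1 : σ₀ * σ = σ * σ₀ * τ := by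
      rw [hτ]; group
    calc σ₀ • σ • x = (σ₀ * σ) • x := by rw [mul_smul]
      _ = (σ * σ₀ * τ) • x := by rw [h1]
      _ = σ • σ₀ • τ • x := by rw [mul_smul, mul_smul]
      _ = σ • σ₀ • x := by rw [htriv τ hχτ x]
      _ = σ • a • x := by rw [hx]
      _ = a • σ • x := by rw [smul_comm]
  · rw [isCompl_iff]
    constructor
    · rw [Submodule.disjoint_def]
      intro x hxC hxC'
      rw [hmemC'] at hxC'
      rw [hfix σ₀ x hxC] at hxC'
      have : (a - 1) • x = 0 := by rw [sub_smul, one_smul, ← hxC', sub_self]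
      rcases smul_eq_zero.mp this with h | h
      · exact absurd h ha1
      · exact h
    · rw [Submodule.codisjoint_iff_exists_add_eq]
      intro v
      set c : V := σ₀ • v - a • v with hc
      have hcC : c ∈ C := hquot σ₀ v
      refine ⟨-((a - 1)⁻¹ • c), v + (a - 1)⁻¹ • c, ?_, ?_, by abel⟩
      · exact C.neg_mem (C.smul_mem _ hcC)
      · rw [hmemC']
        have hσc : σ₀ • c = c := hfix σ₀ c hcC
        rw [smul_add, smul_comm σ₀ _ c, hσc, smul_add]
        have hσv : σ₀ • v = c + a • v := by rw [hc]; abel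
        rw [hσv]
        have key : c + (a - 1)⁻¹ • c = a • (a - 1)⁻¹ • c := by
          rw [smul_smul]
          have : (1 : ZMod p) + (a - 1)⁻¹ = a * (a - 1)⁻¹ := by
            field_simp
            ring
          calc c + (a - 1)⁻¹ • c = ((1 : ZMod p) + (a - 1)⁻¹) • c := by
                rw [add_smul, one_smul]
            _ = (a * (a - 1)⁻¹) • c := by rw [this]
        calc c + a • v + (a - 1)⁻¹ • c = (c + (a - 1)⁻¹ • c) + a • v := by abel
          _ = a • (a - 1)⁻¹ • c + a • v := by rw [key]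
          _ = a • v + a • (a - 1)⁻¹ • c := by abel

/-- A submodule with `p` elements is spanned by any of its non-zero elements. -/
theorem redA_exists_smul_eq_of_card (C : Submodule (ZMod p) V) (hC : Nat.card C = p)
    (c₀ : V) (hc₀ : c₀ ∈ C) (hne : c₀ ≠ 0) (x : V) (hx : x ∈ C) :
    ∃ k : ZMod p, x = k • c₀ := by
  have hp : p ≠ 0 := (Fact.out : p.Prime).ne_zero
  have : NeZero p := ⟨hp⟩
  have : Finite C := Nat.finite_of_card_ne_zero (by rw [hC]; exact hp)
  let f : ZMod p → C := fun k => ⟨k • c₀, C.smul_mem k hc₀⟩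
  have hf : Function.Injective f := by
    intro k k' h
    have h' : k • c₀ = k' • c₀ := congrArg Subtype.val h
    have : (k - k') • c₀ = 0 := by rw [sub_smul, h', sub_self]
    rcases smul_eq_zero.mp this with h0 | h0
    · exact sub_eq_zero.mp h0
    · exact absurd h0 hne
  have hbij : Function.Bijective f :=
    hf.bijective_of_nat_card_le (by rw [hC, Nat.card_zmod])
  obtain ⟨k, hk⟩ := hbij.2 ⟨x, hx⟩
  exact ⟨k, (congrArg Subtype.val hk).symm⟩

/-- If `V` has `p²` elements and `C` has `p`, then `V = C + 𝔽_p v₀` for any `v₀ ∉ C`. -/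
theorem redA_exists_sub_smul_mem_of_card (C : Submodule (ZMod p) V) (hC : Nat.card C = p)
    (hV : Nat.card V = p ^ 2) (v₀ : V) (hv₀ : v₀ ∉ C) (v : V) :
    ∃ k : ZMod p, v - k • v₀ ∈ C := by
  have hp : p ≠ 0 := (Fact.out : p.Prime).ne_zero
  have : NeZero p := ⟨hp⟩
  have hcard : Nat.card (V ⧸ C) = p := by
    have h := Submodule.card_eq_card_quotient_mul_card C
    rw [hV, hC, pow_two] at h
    exact (Nat.eq_of_mul_eq_mul_left (Nat.pos_of_ne_zero hp) h).symm
  have : Finite (V ⧸ C) := Nat.finite_of_card_ne_zero (by rw [hcard]; exact hp)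
  let f : ZMod p → V ⧸ C := fun k => k • Submodule.Quotient.mk v₀
  have hmk : (Submodule.Quotient.mk v₀ : V ⧸ C) ≠ 0 := by
    rw [Ne, Submodule.Quotient.mk_eq_zero]
    exact hv₀
  have hf : Function.Injective f := by
    intro k k' h
    have h' : k • (Submodule.Quotient.mk v₀ : V ⧸ C) = k' • Submodule.Quotient.mk v₀ := h
    have : (k - k') • (Submodule.Quotient.mk v₀ : V ⧸ C) = 0 := by
      rw [sub_smul, h', sub_self]
    rcases smul_eq_zero.mp this with h0 | h0
    · exact sub_eq_zero.mp h0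
    · exact absurd h0 hmk
  have hbij : Function.Bijective f :=
    hf.bijective_of_nat_card_le (by rw [hcard, Nat.card_zmod])
  obtain ⟨k, hk⟩ := hbij.2 (Submodule.Quotient.mk v)
  refine ⟨k, ?_⟩
  have hk' : (Submodule.Quotient.mk (k • v₀) : V ⧸ C) = Submodule.Quotient.mk v := by
    rw [Submodule.Quotient.mk_smul]; exact hk
  rw [← Submodule.Quotient.mk_eq_zero C, Submodule.Quotient.mk_sub, hk', sub_self]

end abstract

section main

variable {p : ℕ} [Fact p.Prime]
  {V : Type} [AddCommGroup V] [Module (ZMod p) V] [DistribMulAction GQ V]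
  [SMulCommClass GQ (ZMod p) V]

theorem redA_quot {C : Submodule (ZMod p) V} (h : IsAdmissibleExtension p V C) (σ : GQ)
    (x : V) : σ • x - ((chi p σ : (ZMod p)ˣ) : ZMod p) • x ∈ C := by
  have := h.cyclo_quot σ x
  rwa [← coe_cycloChar] at this

theorem redA_exists_ne_zero {C : Submodule (ZMod p) V} (h : IsAdmissibleExtension p V C) :
    ∃ c₀ ∈ C, c₀ ≠ 0 := by
  by_contra hcon
  push Not at hcon
  have hsub : Subsingleton C := ⟨fun a b => by
    ext; rw [hcon a.1 a.2, hcon b.1 b.2]⟩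
  have h1 : Nat.card C = 1 := Nat.card_unique
  have hp := (Fact.out : p.Prime).one_lt
  rw [h.card_sub] at h1
  omega

theorem redA_exists_not_mem {C : Submodule (ZMod p) V} (h : IsAdmissibleExtension p V C) :
    ∃ v₀ : V, v₀ ∉ C := by
  by_contra hcon
  push Not at hcon
  have htop : C = ⊤ := by
    ext x; simp [hcon x]
  have h1 : Nat.card C = Nat.card V := by
    rw [htop]
    exact Nat.card_congr (Submodule.topEquiv (R := ZMod p) (M := V)).toEquiv
  rw [h.card_sub, h.card_total] at h1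
  have hp := (Fact.out : p.Prime).one_lt
  nlinarith

/-- The coefficient function: `σ v₀ - χ(σ) v₀ = c(σ) c₀`. -/
theorem redA_exists_coeff {C : Submodule (ZMod p) V} (h : IsAdmissibleExtension p V C)
    (c₀ : V) (hc₀ : c₀ ∈ C) (hne : c₀ ≠ 0) (v₀ : V) (σ : GQ) :
    ∃ k : ZMod p, σ • v₀ - ((chi p σ : (ZMod p)ˣ) : ZMod p) • v₀ = k • c₀ :=
  redA_exists_smul_eq_of_card C h.card_sub c₀ hc₀ hne _ (redA_quot h σ v₀)

theorem redA_smul_eq_iff {c₀ : V} (hne : c₀ ≠ 0) (k k' : ZMod p) :
    k • c₀ = k' • c₀ ↔ k = k' := by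
  constructor
  · intro h
    have : (k - k') • c₀ = 0 := by rw [sub_smul, h, sub_self]
    rcases smul_eq_zero.mp this with h0 | h0
    · exact sub_eq_zero.mp h0
    · exact absurd h0 hne
  · rintro rfl; rfl

/-- An element acting trivially on `V` has trivial cyclotomic character. -/
theorem redA_chi_eq_one_of_trivial {C : Submodule (ZMod p) V}
    (h : IsAdmissibleExtension p V C) (σ : GQ) (hσ : ∀ v : V, σ • v = v) : chi p σ = 1 := by
  obtain ⟨v₀, hv₀⟩ := redA_exists_not_mem h
  by_contra hne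
  have h1 := redA_quot h σ v₀
  rw [hσ v₀] at h1
  have ha : (1 - ((chi p σ : (ZMod p)ˣ) : ZMod p)) ≠ 0 := by
    intro h0
    apply hne
    ext
    rw [sub_eq_zero] at h0
    simpa using h0.symm
  have h2 : (1 - ((chi p σ : (ZMod p)ˣ) : ZMod p)) • v₀ ∈ C := by
    rw [sub_smul, one_smul]; exact h1
  have h3 := C.smul_mem (1 - ((chi p σ : (ZMod p)ˣ) : ZMod p))⁻¹ h2
  rw [smul_smul, inv_mul_cancel₀ ha, one_smul] at h3
  exact hv₀ h3

/-- An element of `ker χ` fixing `v₀ ∉ C` acts trivially on `V`. -/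
theorem redA_trivial_of_fix {C : Submodule (ZMod p) V}
    (h : IsAdmissibleExtension p V C) (v₀ : V) (hv₀ : v₀ ∉ C) (σ : GQ)
    (hσ : σ • v₀ = v₀) (v : V) : σ • v = v := by
  obtain ⟨k, hk⟩ := redA_exists_sub_smul_mem_of_card C h.card_sub h.card_total v₀ hv₀ v
  have h1 : σ • (v - k • v₀) = v - k • v₀ := h.fixed_sub σ _ hk
  rw [smul_sub, smul_comm σ k v₀, hσ] at h1
  exact sub_left_injective h1

/-- (RED-A) a non-split admissible extension gives a Selmer datum. -/
theorem selmerDatum : ∀ (p : ℕ) [Fact p.Prime], SelmerDatumStatement p := by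
  intro p _ V _ _ _ _ C hadm hsplit
  have h := hadm.toIsAdmissibleExtension
  obtain ⟨c₀, hc₀, hne⟩ := redA_exists_ne_zero h
  obtain ⟨v₀, hv₀⟩ := redA_exists_not_mem h
  choose c hc using redA_exists_coeff h c₀ hc₀ hne v₀
  -- on `ker χ`: `σ v₀ = v₀ + c(σ) c₀`
  have hker : ∀ σ : GQ, chi p σ = 1 → σ • v₀ = v₀ + c σ • c₀ := by
    intro σ hσ
    have := hc σ
    rw [hσ] at this
    simp only [Units.val_one, one_smul] at this
    rw [← this]; abel
  have hfixc : ∀ (σ : GQ) (k : ZMod p), σ • (k • c₀) = k • c₀ := fun σ k =>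
    h.fixed_sub σ _ (C.smul_mem k hc₀)
  -- characterisation of the kernel of the action
  have hkernel : {σ : GQ | chi p σ = 1 ∧ c σ = 0} = {σ : GQ | ∀ v : V, σ • v = v} := by
    ext σ
    constructor
    · rintro ⟨h1, h2⟩
      have : σ • v₀ = v₀ := by rw [hker σ h1, h2, zero_smul, add_zero]
      exact redA_trivial_of_fix h v₀ hv₀ σ this
    · intro hσ
      have h1 := redA_chi_eq_one_of_trivial h σ hσ
      refine ⟨h1, ?_⟩
      have h2 := hker σ h1
      rw [hσ v₀] at h2
      have h3 : c σ • c₀ = (0 : ZMod p) • c₀ := by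
        rw [zero_smul]
        have := congrArg (fun x => x - v₀) h2
        simpa using this.symm
      exact (redA_smul_eq_iff hne _ _).mp h3
  refine ⟨{ c := c, map_mul := ?_, conj := ?_, isOpen_ker := ?_, nontrivial := ?_,
            unram := ?_, split := ?_ }⟩
  · -- additivity on `ker χ`
    intro σ τ hσ hτ
    have hστ : chi p (σ * τ) = 1 := by rw [map_mul, hσ, hτ, one_mul]
    have h1 := hker (σ * τ) hστ
    rw [mul_smul, hker τ hτ, smul_add, hker σ hσ, hfixc] at h1
    have h2 : (c σ + c τ) • c₀ = c (σ * τ) • c₀ := by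
      rw [add_smul]
      have := congrArg (fun x => x - v₀) h1
      simp only [add_sub_cancel_left] at this
      rw [← this]; abel
    exact ((redA_smul_eq_iff hne _ _).mp h2).symm
  · -- conjugation
    intro τ σ hσ
    have hconj : chi p (τ * σ * τ⁻¹) = 1 := by
      rw [map_mul, map_mul, hσ, mul_one, map_inv, mul_inv_cancel]
    have h1 := hker (τ * σ * τ⁻¹) hconj
    -- τ⁻¹ v₀ = χ(τ)⁻¹ v₀ + d, d ∈ C
    obtain ⟨d, hdC, hd⟩ : ∃ d ∈ C, τ⁻¹ • v₀ = (((chi p τ)⁻¹ : (ZMod p)ˣ) : ZMod p) • v₀ + d := by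
      refine ⟨_, redA_quot h τ⁻¹ v₀, ?_⟩
      rw [map_inv]; abel
    set u : ZMod p := (((chi p τ)⁻¹ : (ZMod p)ˣ) : ZMod p) with hu
    have hτu : τ • (u • v₀ + d) = v₀ := by
      rw [← hd, smul_inv_smul]
    have h2 : (τ * σ * τ⁻¹) • v₀ = v₀ + (u * c σ) • c₀ := by
      rw [mul_smul, mul_smul, hd, smul_add σ, smul_comm σ u v₀, hker σ hσ,
        h.fixed_sub σ d hdC, smul_add u, add_right_comm, smul_add τ, hτu, smul_smul,
        h.fixed_sub τ _ (C.smul_mem _ hc₀)]
    rw [h2] at h1
    have h3 : (u * c σ) • c₀ = c (τ * σ * τ⁻¹) • c₀ := by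
      have := congrArg (fun x => x - v₀) h1
      simpa using this
    exact ((redA_smul_eq_iff hne _ _).mp h3).symm
  · rw [hkernel]; exact hadm.open_kernel
  · -- non-triviality, from non-splitness
    by_contra hcon
    push Not at hcon
    have htriv : ∀ τ : GQ, chi p τ = 1 → ∀ v : V, τ • v = v := by
      intro τ hτ
      have : τ ∈ {σ : GQ | chi p σ = 1 ∧ c σ = 0} := ⟨hτ, hcon τ hτ⟩
      rw [hkernel] at this
      exact this
    by_cases hχ : ∃ σ₀ : GQ, chi p σ₀ ≠ 1
    · obtain ⟨σ₀, hσ₀⟩ := hχ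
      exact hsplit (redA_exists_stable_compl_of_ker_trivial (chi p) C h.fixed_sub
        (redA_quot h) σ₀ hσ₀ htriv)
    · push Not at hχ
      -- everything acts trivially: any complement is stable
      obtain ⟨C', hC'⟩ := Submodule.exists_isCompl C
      exact hsplit ⟨C', fun σ x hx => by rw [htriv σ (hχ σ) x]; exact hx, hC'⟩
  · -- unramified outside p
    intro ℓ hℓ hℓp A hA σ hσ
    have : σ ∈ {σ : GQ | ∀ v : V, σ • v = v} := fun v => h.unramified_outside ℓ hℓ hℓp A hA σ hσ v
    rw [← hkernel] at this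
    exact this
  · -- split at p
    intro A hA σ hσ hχσ
    obtain ⟨C', hstab, hcompl⟩ := h.locally_split A hA
    -- decompose v₀
    obtain ⟨x, hx, w, hw, hxw⟩ : ∃ x ∈ C, ∃ w ∈ C', x + w = v₀ := by
      have := Submodule.codisjoint_iff_exists_add_eq.mp hcompl.codisjoint v₀
      obtain ⟨x, w, hx, hw, hxw⟩ := this
      exact ⟨x, hx, w, hw, hxw⟩
    have h1 : σ • v₀ - v₀ = σ • w - w := by
      rw [← hxw, smul_add, h.fixed_sub σ x hx]; abel
    have h2 : σ • v₀ - v₀ ∈ C := by
      have := redA_quot h σ v₀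
      rwa [hχσ, Units.val_one, one_smul] at this
    have h3 : σ • v₀ - v₀ ∈ C' := by
      rw [h1]; exact C'.sub_mem (hstab σ hσ w hw) hw
    have h4 : σ • v₀ - v₀ = 0 := by
      have := Submodule.disjoint_def.mp hcompl.disjoint _ h2 h3
      exact this
    have h5 := hker σ hχσ
    have h6 : c σ • c₀ = (0 : ZMod p) • c₀ := by
      rw [zero_smul]
      have := sub_eq_zero.mp h4
      rw [h5] at this
      simpa using this
    exact (redA_smul_eq_iff hne _ _).mp h6

end main

end Fermat.Agent.S14
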