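import Mathlib
import Fermat.Agent.S14.Defs

/-!
# S14, RED-E (part 2): Galois-theoretic lemmas about the cyclotomic character
-/

set_option autoImplicit false
set_option linter.unusedSectionVars false

namespace Fermat.Agent.S14

local notation "Qbar" => AlgebraicClosure ℚ

theorem redE_isGalois : IsGalois ℚ Qbar := by
  have hclos : IsAlgClosure ℚ (AlgebraicClosure ℚ) := AlgebraicClosure.instIsAlgClosure ℚ
  exact inferInstance

theorem redE_isAlgebraic : Algebra.IsAlgebraic ℚ Qbar := by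
  have hclos : IsAlgClosure ℚ (AlgebraicClosure ℚ) := AlgebraicClosure.instIsAlgClosure ℚ
  exact inferInstance

variable {p : ℕ} [Fact p.Prime]

/-- `σ ζ = ζ ^ χ(σ)`. -/
theorem redE_chi_spec {ζ : Qbar} (hζ : IsPrimitiveRoot ζ p) (σ : GQ) :
    σ ζ = ζ ^ ((chi p σ : (ZMod p)ˣ) : ZMod p).val := by
  have hp0 : p ≠ 0 := (Fact.out : p.Prime).ne_zero
  have : NeZero p := ⟨hp0⟩
  obtain ⟨t, ht⟩ := hζ.isUnit hp0
  have htmem : t ∈ rootsOfUnity p Qbar := by
    rw [mem_rootsOfUnity]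
    ext
    rw [Units.val_pow_eq_pow_val, ht, hζ.pow_eq_one]
    rfl
  have h := modularCyclotomicCharacter.spec (L := Qbar) (ExtCitation.card_rootsOfUnity_eq_self p)
    (σ : Qbar ≃+* Qbar) htmem
  rw [ht] at h
  exact h

theorem redE_chi_eq_one_iff {ζ : Qbar} (hζ : IsPrimitiveRoot ζ p) (σ : GQ) :
    chi p σ = 1 ↔ σ ζ = ζ := by
  have hp1 : 1 < p := (Fact.out : p.Prime).one_lt
  have : NeZero p := ⟨(Fact.out : p.Prime).ne_zero⟩
  have : Fact (1 < p) := ⟨hp1⟩
  constructor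
  · intro h
    rw [redE_chi_spec hζ σ, h, Units.val_one, ZMod.val_one, pow_one]
  · intro h
    have h1 := redE_chi_spec hζ σ
    rw [h] at h1
    have h2 : ζ ^ 1 = ζ ^ ((chi p σ : (ZMod p)ˣ) : ZMod p).val := by rw [pow_one]; exact h1
    have h3 := hζ.pow_inj hp1 (ZMod.val_lt _) h2
    ext
    apply ZMod.val_injective
    rw [← h3, Units.val_one, ZMod.val_one]

/-- Elements fixed by `ker χ` lie in `ℚ(ζ)`. -/
theorem redE_mem_adjoin_of_fixed {ζ : Qbar} (hζ : IsPrimitiveRoot ζ p) (x : Qbar)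
    (hx : ∀ σ : GQ, chi p σ = 1 → σ x = x) : x ∈ IntermediateField.adjoin ℚ {ζ} := by
  have hgal := redE_isGalois
  rw [← InfiniteGalois.fixedField_fixingSubgroup (IntermediateField.adjoin ℚ {ζ}),
    IntermediateField.mem_fixedField_iff]
  intro σ hσ
  apply hx σ
  rw [redE_chi_eq_one_iff hζ]
  exact (IntermediateField.mem_fixingSubgroup_iff _ _).mp hσ ζ
    (IntermediateField.mem_adjoin_simple_self ℚ ζ)

/-- Elements of `ker χ` fix `ℚ(ζ)` pointwise. -/
theorem redE_fix_of_chi_eq_one {ζ : Qbar} (hζ : IsPrimitiveRoot ζ p) (σ : GQ)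
    (hσ : chi p σ = 1) (x : Qbar) (hx : x ∈ IntermediateField.adjoin ℚ {ζ}) : σ x = x := by
  have hζfix : σ ζ = ζ := (redE_chi_eq_one_iff hζ σ).mp hσ
  have hle : IntermediateField.adjoin ℚ {ζ} ≤
      IntermediateField.fixedField (Subgroup.zpowers σ) := by
    rw [IntermediateField.adjoin_simple_le_iff, IntermediateField.mem_fixedField_iff]
    intro τ hτ
    obtain ⟨n, rfl⟩ := Subgroup.mem_zpowers_iff.mp hτ
    have : ∀ m : ℕ, (σ ^ m) ζ = ζ := by
      intro m
      induction m with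
      | zero => simp
      | succ m ih => rw [pow_succ, AlgEquiv.mul_apply, hζfix, ih]
    have hinv : ∀ m : ℕ, (σ ^ m)⁻¹ ζ = ζ := by
      intro m
      have h1 := this m
      calc (σ ^ m)⁻¹ ζ = (σ ^ m)⁻¹ ((σ ^ m) ζ) := by rw [h1]
        _ = ζ := by
          rw [← AlgEquiv.mul_apply, inv_mul_cancel, AlgEquiv.one_apply]
    rcases Int.eq_nat_or_neg n with ⟨m, rfl | rfl⟩
    · rw [zpow_natCast]; exact this m
    · rw [zpow_neg, zpow_natCast]; exact hinv m
  have := hle hx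
  rw [IntermediateField.mem_fixedField_iff] at this
  exact this σ (Subgroup.mem_zpowers σ)

end Fermat.Agent.S14
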