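import Mathlib
import Fermat.Agent.S14.Defs
import Fermat.Agent.S14.Red
import Fermat.Agent.S14.ReductionVal
import Fermat.Agent.S14.ReductionGal

/-!
# S14, RED-E: the reduction `CORE ⟹ ExtVanishingCts`

Assembly of RED-A (Selmer datum), RED-B (Kummer generator), RED-C (unramified valuation) and
RED-D (decomposition approximation); the last three are taken as hypotheses.
-/

set_option autoImplicit false
set_option linter.unusedSectionVars false

namespace Fermat.Agent.S14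

local notation "Qbar" => AlgebraicClosure ℚ

variable {p : ℕ} [Fact p.Prime]

/-- Powers of a primitive `p`-th root of unity only depend on the exponent mod `p`. -/
theorem redE_pow_mod {ζ : Qbar} (hζ : IsPrimitiveRoot ζ p) (m : ℕ) :
    ζ ^ m = ζ ^ (m % p) := by
  conv_lhs => rw [← Nat.div_add_mod m p, pow_add, pow_mul, hζ.pow_eq_one, one_pow, one_mul]

theorem redE_pow_eq_of_cast_eq {ζ : Qbar} (hζ : IsPrimitiveRoot ζ p) (m n : ℕ)
    (h : (m : ZMod p) = (n : ZMod p)) : ζ ^ m = ζ ^ n := by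
  have h1 : m % p = n % p := (ZMod.natCast_eq_natCast_iff' _ _ _).mp h
  rw [redE_pow_mod hζ m, redE_pow_mod hζ n, h1]

theorem redE_cast_eq_of_pow_eq {ζ : Qbar} (hζ : IsPrimitiveRoot ζ p) (m n : ℕ)
    (h : ζ ^ m = ζ ^ n) : (m : ZMod p) = (n : ZMod p) := by
  have hp := (Fact.out : p.Prime)
  rw [redE_pow_mod hζ m, redE_pow_mod hζ n] at h
  have h1 := hζ.pow_inj (Nat.mod_lt _ hp.pos) (Nat.mod_lt _ hp.pos) h
  exact (ZMod.natCast_eq_natCast_iff' _ _ _).mpr h1

/-- The Kummer generator is an eigenvector: `σ a / a ^ (k²)` is fixed by `ker χ`. -/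
theorem redE_eigen (D : SelmerDatum p) {ζ : Qbar} (hζ : IsPrimitiveRoot ζ p) (a : Qbar)
    (ha0 : a ≠ 0) (ha : ∀ σ : GQ, chi p σ = 1 → σ a = ζ ^ (D.c σ).val * a)
    (σ : GQ) (k : ℕ) (hσ : σ ζ = ζ ^ k) (τ : GQ) (hτ : chi p τ = 1) :
    τ (σ a / a ^ (k ^ 2)) = σ a / a ^ (k ^ 2) := by
  have : NeZero p := ⟨(Fact.out : p.Prime).ne_zero⟩
  have hk : ((chi p σ : (ZMod p)ˣ) : ZMod p) = (k : ZMod p) := by
    have h1 := redE_chi_spec hζ σ
    rw [hσ] at h1
    have h2 := redE_cast_eq_of_pow_eq hζ _ _ h1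
    rw [h2, ZMod.natCast_zmod_val]
  -- the conjugate σ⁻¹ τ σ
  have hconjχ : chi p (σ⁻¹ * τ * σ) = 1 := by
    rw [map_mul, map_mul, hτ, mul_one, map_inv, inv_mul_cancel]
  have hconjc : D.c (σ⁻¹ * τ * σ) = (k : ZMod p) * D.c τ := by
    have := D.conj σ⁻¹ τ hτ
    rw [inv_inv] at this
    rw [this, map_inv, inv_inv, hk]
  have h1 : τ (σ a) = ζ ^ (k * (D.c (σ⁻¹ * τ * σ)).val) * σ a := by
    have h2 : τ (σ a) = σ ((σ⁻¹ * τ * σ) a) := by
      simp only [AlgEquiv.mul_apply]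
      rw [← AlgEquiv.mul_apply σ σ⁻¹, mul_inv_cancel, AlgEquiv.one_apply]
    rw [h2, ha _ hconjχ, map_mul, map_pow, hσ, ← pow_mul]
  have h3 : τ (a ^ (k ^ 2)) = ζ ^ ((D.c τ).val * k ^ 2) * a ^ (k ^ 2) := by
    rw [map_pow, ha τ hτ, mul_pow, ← pow_mul]
  have h4 : ζ ^ (k * (D.c (σ⁻¹ * τ * σ)).val) = ζ ^ ((D.c τ).val * k ^ 2) := by
    apply redE_pow_eq_of_cast_eq hζ
    push_cast
    rw [ZMod.natCast_zmod_val, ZMod.natCast_zmod_val, hconjc]
    ring
  have hζ0 : ζ ≠ 0 := hζ.ne_zero (Fact.out : p.Prime).ne_zero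
  rw [map_div₀, h1, h3, h4]
  have : ζ ^ ((D.c τ).val * k ^ 2) ≠ 0 := pow_ne_zero _ hζ0
  field_simp

/-- Inertia at `ℓ ≠ p` fixes the Kummer generator. -/
theorem redE_fix_inertia (D : SelmerDatum p) {ζ : Qbar} (a : Qbar)
    (ha : ∀ σ : GQ, chi p σ = 1 → σ a = ζ ^ (D.c σ).val * a)
    (A : ValuationSubring Qbar) (ℓ : ℕ) (hℓ : ℓ.Prime) (hℓp : ℓ ≠ p) (hA : A.LiesOverPrime ℓ)
    (σ : GQ) (hσ : σ ∈ A.inertiaSubgroupIn ℚ) : σ a = a := by
  obtain ⟨h1, h2⟩ := D.unram ℓ hℓ hℓp A hA σ hσ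
  rw [ha σ h1, h2, ZMod.val_zero, pow_zero, one_mul]

/-- The part of the decomposition group at `p` fixing `ℚ(ζ)` fixes the Kummer generator. -/
theorem redE_fix_decomposition (D : SelmerDatum p) {ζ : Qbar} (hζ : IsPrimitiveRoot ζ p)
    (a : Qbar) (ha : ∀ σ : GQ, chi p σ = 1 → σ a = ζ ^ (D.c σ).val * a)
    (A : ValuationSubring Qbar) (hA : A.LiesOverPrime p)
    (σ : GQ) (hσ : σ ∈ A.decompositionSubgroup ℚ)
    (hfix : ∀ y ∈ IntermediateField.adjoin ℚ {ζ}, σ y = y) : σ a = a := by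
  have h1 : chi p σ = 1 :=
    (redE_chi_eq_one_iff hζ σ).mpr (hfix ζ (IntermediateField.mem_adjoin_simple_self ℚ ζ))
  have h2 := D.split A hA σ hσ h1
  rw [ha σ h1, h2, ZMod.val_zero, pow_zero, one_mul]

/-- At a place over `p` the Kummer generator is approximated by elements of `ℚ(ζ)`. -/
theorem redE_approx (hD : DecompositionApproxStatement) (D : SelmerDatum p) {ζ : Qbar}
    (hζ : IsPrimitiveRoot ζ p) [FiniteDimensional ℚ (IntermediateField.adjoin ℚ {ζ})]
    (a : Qbar) (ha0 : a ≠ 0) (ha : ∀ σ : GQ, chi p σ = 1 → σ a = ζ ^ (D.c σ).val * a)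
    (A : ValuationSubring Qbar) (hA : A.LiesOverPrime p) :
    ∃ y ∈ IntermediateField.adjoin ℚ {ζ},
      A.valuation (a - y) ≤ A.valuation (p : Qbar) * A.valuation a := by
  have hp := (Fact.out : p.Prime)
  obtain ⟨N, hN⟩ := redE_exists_pow_lt A hp hA a ha0
  obtain ⟨y, hy, hle⟩ := hD (IntermediateField.adjoin ℚ {ζ}) a A p hp hA
    (fun σ hσ hfix => redE_fix_decomposition D hζ a ha A hA σ hσ hfix) (N + 1)
  refine ⟨y, hy, hle.trans ?_⟩
  rw [pow_succ, mul_comm]
  exact mul_le_mul_right hN.le _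

/-- Consequences of a good approximation. -/
theorem redE_of_approx (A : ValuationSubring Qbar) {q : ℕ} (hA : A.LiesOverPrime q)
    (a y : Qbar) (ha0 : a ≠ 0) (n : ℕ)
    (hle : A.valuation (a - y) ≤ A.valuation (q : Qbar) * A.valuation a) :
    y ≠ 0 ∧ A.valuation (a ^ n / y ^ n) = 1 ∧
      A.valuation (a ^ n / y ^ n - 1) ≤ A.valuation (q : Qbar) := by
  have hqv : A.valuation (q : Qbar) < 1 := (ValuationSubring.mem_nonunits_iff A).1 hA
  have hva0 : A.valuation a ≠ 0 := (Valuation.ne_zero_iff _).2 ha0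
  have hvapos : 0 < A.valuation a := zero_lt_iff.mpr hva0
  have hlt : A.valuation (a - y) < A.valuation a := by
    calc A.valuation (a - y) ≤ A.valuation (q : Qbar) * A.valuation a := hle
      _ < 1 * A.valuation a := mul_lt_mul_of_pos_right hqv hvapos
      _ = A.valuation a := one_mul _
  have hvy : A.valuation y = A.valuation a := by
    have h1 : y = a - (a - y) := by ring
    rw [h1]
    exact Valuation.map_sub_eq_of_lt_left _ hlt
  have hy0 : y ≠ 0 := (Valuation.ne_zero_iff _).1 (hvy ▸ hva0)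
  have hu : A.valuation (a / y) = 1 := by
    rw [map_div₀, hvy, div_self hva0]
  have hε : A.valuation (a / y - 1) ≤ A.valuation (q : Qbar) := by
    have h1 : a / y - 1 = (a - y) / y := by field_simp
    rw [h1, map_div₀, hvy, div_le_iff₀ hvapos]
    exact hle
  refine ⟨hy0, ?_, ?_⟩
  · rw [← div_pow, map_pow, hu, one_pow]
  · rw [← div_pow]
    have h2 : (a / y) ^ n - 1 = (a / y - 1) * ∑ i ∈ Finset.range n, (a / y) ^ i := by
      rw [mul_comm, geom_sum_mul]
    rw [h2, map_mul]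
    have h3 : (∑ i ∈ Finset.range n, (a / y) ^ i) ∈ A :=
      A.toSubring.sum_mem fun i _ =>
        A.toSubring.pow_mem ((A.valuation_le_one_iff _).1 hu.le) i
    calc A.valuation (a / y - 1) * A.valuation (∑ i ∈ Finset.range n, (a / y) ^ i)
        ≤ A.valuation (a / y - 1) * 1 := by
          gcongr
          exact (A.valuation_le_one_iff _).2 h3
      _ = A.valuation (a / y - 1) := mul_one _
      _ ≤ A.valuation (q : Qbar) := hε

/-- The generic form of the core hypothesis (covers `p ≥ 5` and `p = 3`). -/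
def redE_CoreHyp (p : ℕ) : Prop :=
  ∀ (K : Type) [Field K] [NumberField K] [IsCyclotomicExtension {p} ℚ K] (ζ : K),
    IsPrimitiveRoot ζ p → ∀ α : K, α ≠ 0 →
    IsOmegaSqEigen p ζ α → IsLocallyPthPowerTimesUnit p α →
    (5 ≤ p → IsPthPowerModPiCube p ζ α) → ∃ γ : K, α = γ ^ p

/-- No Selmer datum exists, given CORE and RED-B, RED-C, RED-D. -/
theorem redE_false (hcore : redE_CoreHyp p) (hB : KummerGeneratorStatement p)
    (hC : UnramifiedValuationStatement) (hD : DecompositionApproxStatement)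
    (D : SelmerDatum p) : False := by
  have hp := (Fact.out : p.Prime)
  have hgal := redE_isGalois
  have hnorm : Normal ℚ Qbar := hgal.to_normal
  have hne : NeZero p := ⟨hp.ne_zero⟩
  obtain ⟨ζ, hζ⟩ : ∃ ζ : Qbar, IsPrimitiveRoot ζ p :=
    HasEnoughRootsOfUnity.exists_primitiveRoot Qbar p
  obtain ⟨a, ha0, ha⟩ := hB D ζ hζ
  have hζint : IsIntegral ℚ ζ := (hζ.isIntegral hp.pos).tower_top
  have hfd : FiniteDimensional ℚ (IntermediateField.adjoin ℚ {ζ}) :=
    IntermediateField.adjoin.finiteDimensional hζint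
  have hnf : NumberField (IntermediateField.adjoin ℚ {ζ}) :=
    { to_charZero := inferInstance, to_finiteDimensional := hfd }
  have hcyc : IsCyclotomicExtension {p} ℚ (IntermediateField.adjoin ℚ {ζ}) :=
    hζ.intermediateField_adjoin_isCyclotomicExtension ℚ
  have hζK : ζ ∈ IntermediateField.adjoin ℚ {ζ} := IntermediateField.mem_adjoin_simple_self ℚ ζ
  have hζ0 : ζ ≠ 0 := hζ.ne_zero hp.ne_zero
  have hζpow : ∀ k : ℕ, (ζ ^ k) ^ p = 1 := fun k => by
    rw [← pow_mul, mul_comm, pow_mul, hζ.pow_eq_one, one_pow]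
  have hαfix : ∀ σ : GQ, chi p σ = 1 → σ (a ^ p) = a ^ p := by
    intro σ hσ
    rw [map_pow, ha σ hσ, mul_pow, hζpow, one_mul]
  have hαK : a ^ p ∈ IntermediateField.adjoin ℚ {ζ} := redE_mem_adjoin_of_fixed hζ _ hαfix
  have hα0 : (⟨a ^ p, hαK⟩ : IntermediateField.adjoin ℚ {ζ}) ≠ 0 := by
    intro h
    exact pow_ne_zero p ha0 (congrArg Subtype.val h)
  have hζK' : IsPrimitiveRoot (⟨ζ, hζK⟩ : IntermediateField.adjoin ℚ {ζ}) p :=
    IsPrimitiveRoot.of_map_of_injective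
      (f := algebraMap (IntermediateField.adjoin ℚ {ζ}) Qbar) hζ
      (algebraMap (IntermediateField.adjoin ℚ {ζ}) Qbar).injective
  -- (a) the eigenvector property
  have heig : IsOmegaSqEigen p (⟨ζ, hζK⟩ : IntermediateField.adjoin ℚ {ζ}) ⟨a ^ p, hαK⟩ := by
    intro σK k hσK
    have hcomm : ∀ x : IntermediateField.adjoin ℚ {ζ},
        (σK.liftNormal Qbar) (x : Qbar) = ((σK x : IntermediateField.adjoin ℚ {ζ}) : Qbar) :=
      fun x => σK.liftNormal_commutes Qbar x
    have hσζ : (σK.liftNormal Qbar) ζ = ζ ^ k := by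
      have h1 := hcomm ⟨ζ, hζK⟩
      rw [hσK] at h1
      exact h1
    have hγK : (σK.liftNormal Qbar) a / a ^ (k ^ 2) ∈ IntermediateField.adjoin ℚ {ζ} :=
      redE_mem_adjoin_of_fixed hζ _
        (fun τ hτ => redE_eigen D hζ a ha0 ha (σK.liftNormal Qbar) k hσζ τ hτ)
    refine ⟨⟨_, hγK⟩, ?_⟩
    apply Subtype.ext
    have h2 := hcomm ⟨a ^ p, hαK⟩
    rw [← h2]
    change (σK.liftNormal Qbar) (a ^ p) =
      (a ^ p) ^ (k ^ 2) * ((σK.liftNormal Qbar) a / a ^ (k ^ 2)) ^ p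
    rw [map_pow, div_pow]
    have : (a ^ (k ^ 2)) ^ p ≠ 0 := pow_ne_zero _ (pow_ne_zero _ ha0)
    field_simp
    ring
  -- (b) locally a unit times a `p`-th power
  have hloc : IsLocallyPthPowerTimesUnit p (⟨a ^ p, hαK⟩ : IntermediateField.adjoin ℚ {ζ}) := by
    intro B hB
    obtain ⟨A, rfl⟩ := redE_exists_comap_eq (algebraMap (IntermediateField.adjoin ℚ {ζ}) Qbar) B
    have hAtop : A ≠ ⊤ := by
      rintro rfl
      apply hB
      ext x
      simp [ValuationSubring.mem_comap]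
    obtain ⟨ℓ, hℓ, hAℓ⟩ := redE_exists_prime_of_ne_top A hAtop
    by_cases hℓp : ℓ = p
    · subst hℓp
      obtain ⟨y, hy, hle⟩ := redE_approx hD D hζ a ha0 ha A hAℓ
      obtain ⟨hy0, h1, -⟩ := redE_of_approx A hAℓ a y ha0 ℓ hle
      refine ⟨⟨y, hy⟩, fun h => hy0 (congrArg Subtype.val h), ?_⟩
      rw [redE_valuation_eq_one_comap_iff]
      exact h1
    · obtain ⟨y, hy, hy0, h1⟩ := hC p hp (IntermediateField.adjoin ℚ {ζ}) a ha0 hαK A ℓ hℓ hℓp
        hAℓ (fun σ hσ => redE_fix_inertia D a ha A ℓ hℓ hℓp hAℓ σ hσ)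
      refine ⟨⟨y, hy⟩, fun h => hy0 (congrArg Subtype.val h), ?_⟩
      rw [redE_valuation_eq_one_comap_iff]
      exact h1
  -- (c) a `p`-th power modulo `π³`
  have hcube : 5 ≤ p →
      IsPthPowerModPiCube p (⟨ζ, hζK⟩ : IntermediateField.adjoin ℚ {ζ}) ⟨a ^ p, hαK⟩ := by
    intro hp5 B hB
    obtain ⟨A, rfl⟩ := redE_exists_comap_eq (algebraMap (IntermediateField.adjoin ℚ {ζ}) Qbar) B
    have hAp : A.LiesOverPrime p := by
      rw [ValuationSubring.mem_nonunits_iff, redE_valuation_lt_one_comap_iff] at hB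
      rw [ValuationSubring.LiesOverPrime, ValuationSubring.mem_nonunits_iff]
      simpa using hB
    obtain ⟨y, hy, hle⟩ := redE_approx hD D hζ a ha0 ha A hAp
    obtain ⟨hy0, -, h2⟩ := redE_of_approx A hAp a y ha0 p hle
    refine ⟨⟨y, hy⟩, fun h => hy0 (congrArg Subtype.val h), ?_⟩
    rw [redE_valuation_le_comap_iff]
    have h3 := redE_valuation_prime_le A hp ζ hζ
    have h4 : A.valuation (1 - ζ) ≤ 1 := by
      rw [A.valuation_le_one_iff]
      exact A.toSubring.sub_mem A.toSubring.one_mem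
        (redE_mem_of_isIntegral A ζ (hζ.isIntegral hp.pos))
    have h5 : A.valuation (1 - ζ) ^ (p - 1) ≤ A.valuation (1 - ζ) ^ 3 :=
      pow_le_pow_of_le_one zero_le h4 (by omega)
    have h6 : (algebraMap (IntermediateField.adjoin ℚ {ζ}) Qbar)
        ((⟨a ^ p, hαK⟩ : IntermediateField.adjoin ℚ {ζ}) / (⟨y, hy⟩ : IntermediateField.adjoin ℚ {ζ}) ^ p - 1)
        = a ^ p / y ^ p - 1 := by
      simp only [map_sub, map_div₀, map_pow, map_one]
      rfl
    have h7 : (algebraMap (IntermediateField.adjoin ℚ {ζ}) Qbar)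
        ((1 - (⟨ζ, hζK⟩ : IntermediateField.adjoin ℚ {ζ})) ^ 3) = (1 - ζ) ^ 3 := by
      simp only [map_sub, map_pow, map_one]
      rfl
    rw [h6, h7, map_pow]
    exact h2.trans (h3.trans h5)
  obtain ⟨γ, hγ⟩ := hcore (IntermediateField.adjoin ℚ {ζ}) ⟨ζ, hζK⟩ hζK' ⟨a ^ p, hαK⟩ hα0
    heig hloc hcube
  -- contradiction: `a` would lie in `ℚ(ζ)`
  have hγ' : a ^ p = (γ : Qbar) ^ p := by
    have := congrArg Subtype.val hγ
    simpa using this
  have hγ0 : (γ : Qbar) ≠ 0 := by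
    intro h
    rw [h, zero_pow hp.ne_zero] at hγ'
    exact pow_ne_zero p ha0 hγ'
  have hu : (a / (γ : Qbar)) ^ p = 1 := by
    rw [div_pow, hγ', div_self (pow_ne_zero p hγ0)]
  obtain ⟨i, -, hi⟩ := hζ.eq_pow_of_pow_eq_one hu
  have haK : a ∈ IntermediateField.adjoin ℚ {ζ} := by
    have h1 : a = ζ ^ i * (γ : Qbar) := by
      rw [hi]; field_simp
    rw [h1]
    exact (IntermediateField.adjoin ℚ {ζ}).mul_mem
      (pow_mem hζK i) γ.2
  obtain ⟨σ₀, hσ₀, hc₀⟩ := D.nontrivial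
  have h1 := redE_fix_of_chi_eq_one hζ σ₀ hσ₀ a haK
  rw [ha σ₀ hσ₀] at h1
  have h2 : ζ ^ (D.c σ₀).val = 1 := by
    have := mul_right_cancel₀ ha0 (h1.trans (one_mul a).symm)
    exact this
  have h3 : ζ ^ (D.c σ₀).val = ζ ^ 0 := by rw [h2, pow_zero]
  have h4 := hζ.pow_inj (ZMod.val_lt _) hp.pos h3
  exact hc₀ ((ZMod.val_eq_zero _).mp h4)

/-- Every admissible extension splits, given CORE (in generic form) and RED-B, RED-C, RED-D. -/
theorem redE_extVanishing (hcore : redE_CoreHyp p) (hB : KummerGeneratorStatement p)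
    (hC : UnramifiedValuationStatement) (hD : DecompositionApproxStatement) :
    ExtCitation.ExtVanishingCts p := by
  intro V _ _ _ _ C hadm
  by_contra hsplit
  obtain ⟨D⟩ := selmerDatum p V C hadm hsplit
  exact redE_false hcore hB hC hD D

/-- (RED-E) the reduction for `p ≥ 5`. -/
theorem reduction_of (hp5 : 5 ≤ p) (hB : KummerGeneratorStatement p)
    (hC : UnramifiedValuationStatement) (hD : DecompositionApproxStatement) :
    ReductionStatement p := by
  intro hcore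
  exact redE_extVanishing
    (fun K _ _ _ ζ hζ α hα h1 h2 h3 => hcore K ζ hζ α hα h1 h2 (h3 hp5)) hB hC hD

/-- (RED-E) the reduction for `p = 3`. -/
theorem reductionThree_of (hp3 : p = 3) (hB : KummerGeneratorStatement p)
    (hC : UnramifiedValuationStatement) (hD : DecompositionApproxStatement)
    (hcore : CoreThreeStatement) : ExtCitation.ExtVanishingCts p := by
  subst hp3
  exact redE_extVanishing
    (fun K _ _ _ ζ hζ α hα h1 h2 _ => hcore K ζ hζ α hα h1 h2) hB hC hD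

/-- The statement of S14 from CORE (for all `p ≥ 5`), CORE at `3` and RED-B, RED-C, RED-D. -/
theorem redE_result_of (h3 : 3 ≤ p) (hB : KummerGeneratorStatement p)
    (hC : UnramifiedValuationStatement) (hD : DecompositionApproxStatement)
    (hcore3 : CoreThreeStatement) (hcore : 5 ≤ p → CoreStatement p) :
    ExtCitation.ExtVanishingCts p := by
  have hp := (Fact.out : p.Prime)
  by_cases hp3 : p = 3
  · exact reductionThree_of hp3 hB hC hD hcore3
  · have hp5 : 5 ≤ p := by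
      by_contra hlt
      have h4 : p = 4 := by omega
      rw [h4] at hp
      exact absurd hp (by norm_num)
    exact reduction_of hp5 hB hC hD (hcore hp5)

end Fermat.Agent.S14
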