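import Mathlib

/-!
# S14 (TH-L3): the congruence `ξ * g ^ r ≡ 1 mod Q`

Let `R` be a Dedekind domain, `Q` a nonzero prime, `τ` an automorphism of `R` acting trivially on
`R / Q`, `ϖ` a uniformizer at `Q` with `τ ϖ ≡ g ϖ mod Q²`.  If `ξ * τ β = β` and `β` has exact
`Q`-adic valuation `r`, then `ξ * g ^ r ≡ 1 mod Q`.
-/

set_option autoImplicit false
set_option linter.unusedVariables false

namespace Fermat.Agent.S14

section

variable {R : Type*} [CommRing R]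

/-- An automorphism which is the identity modulo `Q` preserves `Q`. -/
lemma thC_map_mem (Q : Ideal R) (τ : R ≃+* R) (hτQ : ∀ x : R, τ x - x ∈ Q) {x : R} (hx : x ∈ Q) :
    τ x ∈ Q := by
  have := Q.add_mem (hτQ x) hx
  simpa using this

/-- An automorphism which is the identity modulo `Q` preserves the powers of `Q`. -/
lemma thC_map_mem_pow (Q : Ideal R) (τ : R ≃+* R) (hτQ : ∀ x : R, τ x - x ∈ Q) (k : ℕ) {x : R}
    (hx : x ∈ Q ^ k) : τ x ∈ Q ^ k := by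
  have hle : (Q ^ k).map (τ : R →+* R) ≤ Q ^ k := by
    rw [Ideal.map_pow]
    refine Ideal.pow_right_mono ?_ k
    rw [Ideal.map_le_iff_le_comap]
    intro y hy
    exact thC_map_mem Q τ hτQ hy
  exact hle (Ideal.mem_map_of_mem _ hx)

/-- `τ (ϖ ^ k) ≡ g ^ k ϖ ^ k mod Q ^ (k + 1)`. -/
lemma thC_map_pow_unif (Q : Ideal R) (τ : R ≃+* R) (hτQ : ∀ x : R, τ x - x ∈ Q) (ϖ : R)
    (hϖ : ϖ ∈ Q) (g : R) (hg : τ ϖ - g * ϖ ∈ Q ^ 2) (k : ℕ) :
    τ (ϖ ^ k) - g ^ k * ϖ ^ k ∈ Q ^ (k + 1) := by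
  induction k with
  | zero => simp
  | succ k ih =>
    have h1 : τ (ϖ ^ (k + 1)) - g ^ (k + 1) * ϖ ^ (k + 1) =
        τ (ϖ ^ k) * (τ ϖ - g * ϖ) + (g * ϖ) * (τ (ϖ ^ k) - g ^ k * ϖ ^ k) := by
      rw [pow_succ, map_mul]
      ring
    rw [h1]
    refine Ideal.add_mem _ ?_ ?_
    · have h2 : τ (ϖ ^ k) ∈ Q ^ k := thC_map_mem_pow Q τ hτQ k (Ideal.pow_mem_pow hϖ k)
      have h3 := Ideal.mul_mem_mul h2 hg
      rw [← pow_add] at h3
      exact Ideal.pow_le_pow_right (by omega) h3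
    · have h2 : g * ϖ ∈ Q := Q.mul_mem_left _ hϖ
      have h3 := Ideal.mul_mem_mul h2 ih
      rw [← pow_succ'] at h3
      exact h3

end

section dedekind

variable {R : Type*} [CommRing R] [IsDedekindDomain R]

/-- In a Dedekind domain, `Q ^ r = (ϖ ^ r) + Q ^ (r + 1)` for a uniformizer `ϖ` at the prime
`Q`. -/
lemma thC_pow_eq_sup (Q : Ideal R) [hQp : Q.IsPrime] (hQ : Q ≠ ⊥) (ϖ : R) (hϖ : ϖ ∈ Q)
    (hϖ2 : ϖ ∉ Q ^ 2) (r : ℕ) : Q ^ r = Ideal.span {ϖ ^ r} ⊔ Q ^ (r + 1) := by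
  have hmax : Q.IsMaximal := hQp.isMaximal hQ
  obtain ⟨I, hI⟩ : Q ∣ Ideal.span {ϖ} :=
    Ideal.dvd_iff_le.2 ((Ideal.span_singleton_le_iff_mem Q).2 hϖ)
  have hIQ : ¬ I ≤ Q := by
    intro hle
    apply hϖ2
    have : Ideal.span {ϖ} ≤ Q ^ 2 := by
      rw [hI, sq]
      exact Ideal.mul_mono_right hle
    exact this (Ideal.mem_span_singleton_self ϖ)
  have hIrQ : ¬ I ^ r ≤ Q := fun hle => hIQ (hQp.le_of_pow_le hle)
  have hsup : I ^ r ⊔ Q = ⊤ := by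
    rw [sup_comm]
    have hlt : Q < Q ⊔ I ^ r :=
      lt_of_le_of_ne le_sup_left (fun h => hIrQ (by rw [h]; exact le_sup_right))
    exact hmax.out.2 _ hlt
  rw [← Ideal.span_singleton_pow, hI, mul_pow, pow_succ, ← Ideal.mul_sup, hsup, Ideal.mul_top]

/-- (TH-L3) The congruence `ξ * g ^ r ≡ 1 mod Q`. -/
theorem thC_congr (Q : Ideal R) [Q.IsPrime] (hQ : Q ≠ ⊥) (τ : R ≃+* R)
    (hτQ : ∀ x : R, τ x - x ∈ Q) (ϖ : R) (hϖ : ϖ ∈ Q) (hϖ2 : ϖ ∉ Q ^ 2) (g ξ : R)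
    (hg : τ ϖ - g * ϖ ∈ Q ^ 2) (β : R) (hβ : β ≠ 0) (h : ξ * τ β = β) (r : ℕ) (hr : β ∈ Q ^ r)
    (hr1 : β ∉ Q ^ (r + 1)) : ξ * g ^ r - 1 ∈ Q := by
  have hQp : Q.IsPrime := inferInstance
  -- `β = c ϖ ^ r + q` with `q ∈ Q ^ (r + 1)`
  have hβ' : β ∈ Ideal.span {ϖ ^ r} ⊔ Q ^ (r + 1) := by
    rw [← thC_pow_eq_sup Q hQ ϖ hϖ hϖ2 r]
    exact hr
  obtain ⟨a, ha, q, hq, hsum⟩ := Submodule.mem_sup.1 hβ'
  obtain ⟨c, rfl⟩ := Ideal.mem_span_singleton'.1 ha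
  have hϖr : ϖ ^ r ∈ Q ^ r := Ideal.pow_mem_pow hϖ r
  have hcQ : c ∉ Q := by
    intro hc
    apply hr1
    rw [← hsum]
    refine Ideal.add_mem _ ?_ hq
    have := Ideal.mul_mem_mul hc hϖr
    rwa [← pow_succ'] at this
  -- `ϖ ^ r ∉ Q ^ (r + 1)`
  have hϖr1 : ϖ ^ r ∉ Q ^ (r + 1) := by
    intro hmem
    apply hr1
    rw [← hsum]
    exact Ideal.add_mem _ (Ideal.mul_mem_left _ _ hmem) hq
  -- the main congruence
  have key : (c * (1 - ξ * g ^ r)) * ϖ ^ r ∈ Q ^ (r + 1) := by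
    have e1 : τ (ϖ ^ r) - g ^ r * ϖ ^ r ∈ Q ^ (r + 1) := thC_map_pow_unif Q τ hτQ ϖ hϖ g hg r
    have e2 : τ q ∈ Q ^ (r + 1) := thC_map_mem_pow Q τ hτQ (r + 1) hq
    have e3 : (τ c - c) * ϖ ^ r ∈ Q ^ (r + 1) := by
      have := Ideal.mul_mem_mul (hτQ c) hϖr
      rwa [← pow_succ'] at this
    have hβτ : τ β = τ c * τ (ϖ ^ r) + τ q := by
      rw [← hsum, map_add, map_mul]
    have e4 : (c * (1 - ξ * g ^ r)) * ϖ ^ r =
        q * (-1) + ξ * τ q + ξ * τ c * (τ (ϖ ^ r) - g ^ r * ϖ ^ r) +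
          ξ * g ^ r * ((τ c - c) * ϖ ^ r) := by
      have h' : ξ * (τ c * τ (ϖ ^ r) + τ q) = c * ϖ ^ r + q := by
        rw [← hβτ, h, hsum]
      linear_combination (-1 : R) * h'
    rw [e4]
    refine Ideal.add_mem _ (Ideal.add_mem _ (Ideal.add_mem _ ?_ ?_) ?_) ?_
    · exact Ideal.mul_mem_right _ _ hq
    · exact Ideal.mul_mem_left _ _ e2
    · exact Ideal.mul_mem_left _ _ e1
    · exact Ideal.mul_mem_left _ _ e3
  -- cancel `ϖ ^ r`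
  have hmem : c * (1 - ξ * g ^ r) ∈ Q := by
    by_contra hnot
    -- `span {x} * span {ϖ ^ r} ≤ Q ^ (r + 1)` with `x ∉ Q` forces `ϖ ^ r ∈ Q ^ (r + 1)`
    set x := c * (1 - ξ * g ^ r) with hx
    have hmax : Q.IsMaximal := hQp.isMaximal hQ
    have hsupx : Ideal.span {x} ⊔ Q = ⊤ := by
      rw [sup_comm]
      have hlt : Q < Q ⊔ Ideal.span {x} :=
        lt_of_le_of_ne le_sup_left (fun h => hnot (by
          have : Ideal.span {x} ≤ Q := by rw [h]; exact le_sup_right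
          exact this (Ideal.mem_span_singleton_self x)))
      exact hmax.out.2 _ hlt
    have h1 : (1 : R) ∈ Ideal.span {x} ⊔ Q := by rw [hsupx]; trivial
    obtain ⟨a, ha, b, hb, hab⟩ := Submodule.mem_sup.1 h1
    obtain ⟨d, rfl⟩ := Ideal.mem_span_singleton'.1 ha
    apply hϖr1
    have : ϖ ^ r = d * (x * ϖ ^ r) + b * ϖ ^ r := by
      linear_combination (-(ϖ ^ r)) * hab
    rw [this]
    refine Ideal.add_mem _ (Ideal.mul_mem_left _ _ key) ?_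
    have := Ideal.mul_mem_mul hb hϖr
    rwa [← pow_succ'] at this
  rcases hQp.mem_or_mem hmem with h1 | h1
  · exact absurd h1 hcQ
  · have : ξ * g ^ r - 1 = -(1 - ξ * g ^ r) := by ring
    rw [this]
    exact Q.neg_mem h1

end dedekind

end Fermat.Agent.S14
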