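import Mathlib
import Fermat.Agent.S14.Defs

/-!
# S14 (TH): interface statements for the ramification package (TH-B)

Setting: `K = ℚ(ζ_p)`, `F = K(ζ_ℓ)` with `ℓ ≡ 1 mod p` a prime (`ℓ ≠ p`).  Nothing is proved here.
-/

set_option autoImplicit false

open scoped NumberField
open IsDedekindDomain

namespace Fermat.Agent.S14

/-- (TH-B1) ramification in `F/K`: a prime `w` of `F` over `v` has ramification index `ℓ - 1` if it
lies over `ℓ` and `1` otherwise; stated through the valuations of elements of `𝓞 K`. -/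
def ThRamStatement (ℓ : ℕ) (K F : Type) [Field K] [NumberField K] [Field F] [NumberField F]
    [Algebra K F] : Prop :=
  ∀ (w : HeightOneSpectrum (𝓞 F)) (v : HeightOneSpectrum (𝓞 K)),
    w.asIdeal.LiesOver v.asIdeal → ∀ x : 𝓞 K,
      ((ℓ : 𝓞 F) ∈ w.asIdeal →
        w.intValuation (algebraMap (𝓞 K) (𝓞 F) x) = v.intValuation x ^ (ℓ - 1)) ∧
      ((ℓ : 𝓞 F) ∉ w.asIdeal →
        w.intValuation (algebraMap (𝓞 K) (𝓞 F) x) = v.intValuation x)

/-- (TH-B2) `ℓ` splits completely in `K`: `Gal(K/ℚ)` acts simply transitively on the primes of `K`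
over `ℓ`. -/
def ThSplitStatement (ℓ : ℕ) (K : Type) [Field K] [NumberField K] : Prop :=
  ∀ lam : Ideal (𝓞 K), lam.IsPrime → (ℓ : 𝓞 K) ∈ lam →
    (∀ q : Ideal (𝓞 K), q.IsPrime → (ℓ : 𝓞 K) ∈ q →
      ∃ σ : K ≃ₐ[ℚ] K, q = lam.map (galInt σ : 𝓞 K →+* 𝓞 K)) ∧
    Function.Injective (fun σ : K ≃ₐ[ℚ] K => lam.map (galInt σ : 𝓞 K →+* 𝓞 K))

/-- (TH-B3) the primes of `K` over `ℓ` are totally ramified in `F`: a prime `Q` of `F` over `ℓ` is
the only prime over `Q ∩ 𝓞 K`, and its residue field is that of `Q ∩ 𝓞 K`. -/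
def ThTotRamStatement (ℓ : ℕ) (K F : Type) [Field K] [NumberField K] [Field F] [NumberField F]
    [Algebra K F] : Prop :=
  ∀ Q : Ideal (𝓞 F), Q.IsPrime → (ℓ : 𝓞 F) ∈ Q →
    (∀ Q' : Ideal (𝓞 F), Q'.IsPrime → Q'.under (𝓞 K) = Q.under (𝓞 K) → Q' = Q) ∧
    (∀ x : 𝓞 F, ∃ a : 𝓞 K, x - algebraMap (𝓞 K) (𝓞 F) a ∈ Q)

/-- (TH-B4) `1 - ζ_ℓ` is a uniformizer at every prime of `F` over `ℓ`. -/
def ThUnifStatement (ℓ : ℕ) (F : Type) [Field F] [NumberField F] : Prop :=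
  ∀ Q : Ideal (𝓞 F), Q.IsPrime → (ℓ : 𝓞 F) ∈ Q → ∀ η : 𝓞 F, IsPrimitiveRoot η ℓ →
    1 - η ∈ Q ∧ 1 - η ∉ Q ^ 2

/-- (TH-B) the whole ramification package. -/
def ThRamPackageStatement : Prop :=
  ∀ (p ℓ : ℕ) [Fact p.Prime] [Fact ℓ.Prime] (K F : Type) [Field K] [NumberField K] [Field F]
    [NumberField F] [Algebra K F] [IsCyclotomicExtension {p} ℚ K] [IsCyclotomicExtension {ℓ} K F],
    ℓ % p = 1 →
    ThRamStatement ℓ K F ∧ ThSplitStatement ℓ K ∧ ThTotRamStatement ℓ K F ∧ ThUnifStatement ℓ F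

end Fermat.Agent.S14
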