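import Mathlib
import Fermat.Agent.S14.Defs
import Fermat.Agent.S14.ThaineDefs
import Fermat.Agent.S14.ThaineCongr

/-!
# S14 (TH-L, slice Y): the Thaine congruence in the number field setting

`K = ℚ(ζ_p)`, `F = K(ζ_ℓ)`, `Q` a prime of `F` over `ℓ`, `τ ∈ Gal(F/K)` with `τ η = η ^ g` on the
`ℓ`-th roots of unity.  If `(1 - ζ η) * τ β = β` and `β` has exact `Q`-adic valuation `r`, then
`g ^ ((ℓ - 2) * r) ≡ 1 - ζ` modulo `Q ∩ 𝓞 K`.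

Inputs: total ramification (TH-B3), the uniformizer `1 - η` (TH-B4) and the abstract congruence
`thC_congr` (TH-L3).
-/

set_option autoImplicit false

open scoped NumberField

namespace Fermat.Agent.S14

section

variable {F : Type} [Field F] [NumberField F]

/-- A prime ideal of `𝓞 F` containing the prime number `ℓ` is nonzero. -/
lemma thY_ne_bot {ℓ : ℕ} (hℓ : ℓ.Prime) (Q : Ideal (𝓞 F)) (hℓQ : (ℓ : 𝓞 F) ∈ Q) : Q ≠ ⊥ := by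
  rintro rfl
  rw [Ideal.mem_bot] at hℓQ
  exact hℓ.ne_zero (by exact_mod_cast hℓQ)

/-- If `ℓ ∈ Q` and `ℓ ∤ g` then `g ^ (ℓ - 1) ≡ 1 mod Q`. -/
lemma thY_pow_card_sub_one {R : Type*} [CommRing R] {ℓ : ℕ} (hℓ : ℓ.Prime) (Q : Ideal R)
    (hℓQ : (ℓ : R) ∈ Q) (g : ℕ) (hgl : ¬ ℓ ∣ g) : (g : R) ^ (ℓ - 1) - 1 ∈ Q := by
  have : Fact ℓ.Prime := ⟨hℓ⟩
  have h0 : ((g : ZMod ℓ)) ≠ 0 := by
    intro h
    exact hgl ((ZMod.natCast_eq_zero_iff g ℓ).mp h)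
  have h1 : ((g : ZMod ℓ)) ^ (ℓ - 1) = 1 := ZMod.pow_card_sub_one_eq_one h0
  have h2 : (((g : ℤ) ^ (ℓ - 1) - 1 : ℤ) : ZMod ℓ) = 0 := by
    push_cast
    rw [h1, sub_self]
  rw [ZMod.intCast_zmod_eq_zero_iff_dvd] at h2
  obtain ⟨c, hc⟩ := h2
  have h3 : ((g : R)) ^ (ℓ - 1) - 1 = (ℓ : R) * (c : R) := by
    have := congrArg (fun z : ℤ => (z : R)) hc
    simpa using this
  rw [h3]
  exact Q.mul_mem_right _ hℓQ

/-- If `1 - H ∈ Q` then `∑_{i < g} H ^ i ≡ g mod Q`. -/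
lemma thY_geom_sum_sub {R : Type*} [CommRing R] (Q : Ideal R) (H : R) (hH : 1 - H ∈ Q) (g : ℕ) :
    (∑ i ∈ Finset.range g, H ^ i) - (g : R) ∈ Q := by
  induction g with
  | zero => simp
  | succ n ih =>
    rw [Finset.sum_range_succ]
    have h1 : H ^ n - 1 ∈ Q := by
      have h2 : (H - 1) ∣ H ^ n - 1 := by
        simpa using sub_dvd_pow_sub_pow H 1 n
      obtain ⟨c, hc⟩ := h2
      rw [hc]
      have : H - 1 ∈ Q := by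
        have := Q.neg_mem hH
        simpa using this
      exact Q.mul_mem_right _ this
    have h3 : (∑ i ∈ Finset.range n, H ^ i) + H ^ n - ((n + 1 : ℕ) : R) =
        ((∑ i ∈ Finset.range n, H ^ i) - (n : R)) + (H ^ n - 1) := by
      push_cast
      ring
    rw [h3]
    exact Q.add_mem ih h1

end

theorem thY_congr {p ℓ : ℕ} [Fact p.Prime] [Fact ℓ.Prime] {K F : Type} [Field K] [NumberField K]
    [Field F] [NumberField F] [Algebra K F] (hB3 : ThTotRamStatement ℓ K F)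
    (hB4 : ThUnifStatement ℓ F) {ζ : K} (hζ : IsPrimitiveRoot ζ p) {η : F}
    (hη : IsPrimitiveRoot η ℓ) (τ : F ≃ₐ[K] F) (g : ℕ)
    (hg : ∀ η' : F, η' ^ ℓ = 1 → τ η' = η' ^ g) (hgl : ¬ ℓ ∣ g) (β : 𝓞 F) (hβ0 : β ≠ 0)
    (hβ : haveI : NeZero p := ⟨(Fact.out : p.Prime).ne_zero⟩
      haveI : NeZero ℓ := ⟨(Fact.out : ℓ.Prime).ne_zero⟩
      (1 - algebraMap (𝓞 K) (𝓞 F) hζ.toInteger * hη.toInteger) *
        galRestrict (𝓞 K) K F (𝓞 F) τ β = β)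
    (Q : Ideal (𝓞 F)) [Q.IsPrime] (hℓQ : (ℓ : 𝓞 F) ∈ Q) (r : ℕ) (hr1 : β ∈ Q ^ r)
    (hr2 : β ∉ Q ^ (r + 1)) :
    haveI : NeZero p := ⟨(Fact.out : p.Prime).ne_zero⟩
    ((g : ℤ) : 𝓞 K) ^ ((ℓ - 2) * r) - (1 - hζ.toInteger) ∈ Q.under (𝓞 K) := by
  have : NeZero p := ⟨(Fact.out : p.Prime).ne_zero⟩
  have : NeZero ℓ := ⟨(Fact.out : ℓ.Prime).ne_zero⟩
  have hℓ : ℓ.Prime := Fact.out
  have hQ0 : Q ≠ ⊥ := thY_ne_bot hℓ Q hℓQ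
  obtain ⟨huniq, hsurj⟩ := hB3 Q inferInstance hℓQ
  -- the restriction of `τ` to the ring of integers
  set τ' : 𝓞 F ≃ₐ[𝓞 K] 𝓞 F := galRestrict (𝓞 K) K F (𝓞 F) τ with hτ'
  -- `τ'` preserves `Q`
  have hcomap : Q.comap (τ' : 𝓞 F →+* 𝓞 F) = Q := by
    have : (Q.comap (τ' : 𝓞 F →+* 𝓞 F)).IsPrime := Ideal.comap_isPrime _ _
    apply huniq _ inferInstance
    ext a
    simp only [Ideal.under_def, Ideal.mem_comap]
    have : (τ' : 𝓞 F →+* 𝓞 F) (algebraMap (𝓞 K) (𝓞 F) a) = algebraMap (𝓞 K) (𝓞 F) a :=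
      τ'.commutes a
    rw [this]
  have hmem : ∀ x : 𝓞 F, x ∈ Q → τ' x ∈ Q := by
    intro x hx
    have : x ∈ Q.comap (τ' : 𝓞 F →+* 𝓞 F) := by rw [hcomap]; exact hx
    exact this
  have hτQ : ∀ x : 𝓞 F, τ'.toRingEquiv x - x ∈ Q := by
    intro x
    obtain ⟨a, ha⟩ := hsurj x
    have h1 : τ' (x - algebraMap (𝓞 K) (𝓞 F) a) ∈ Q := hmem _ ha
    rw [map_sub, τ'.commutes] at h1
    have h2 := Q.sub_mem h1 ha
    have h3 : τ' x - algebraMap (𝓞 K) (𝓞 F) a - (x - algebraMap (𝓞 K) (𝓞 F) a) = τ' x - x := by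
      ring
    rw [h3] at h2
    exact h2
  -- the uniformizer
  set H : 𝓞 F := hη.toInteger with hH
  have hHprim : IsPrimitiveRoot H ℓ := hη.toInteger_isPrimitiveRoot
  obtain ⟨hϖ, hϖ2⟩ := hB4 Q inferInstance hℓQ H hHprim
  -- `τ' H = H ^ g`
  have hτH : τ' H = H ^ g := by
    apply NumberField.RingOfIntegers.ext
    show algebraMap (𝓞 F) F (galRestrict (𝓞 K) K F (𝓞 F) τ H) = algebraMap (𝓞 F) F (H ^ g)
    rw [algebraMap_galRestrict_apply]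
    have h1 : algebraMap (𝓞 F) F H = η := rfl
    rw [h1, hg η hη.pow_eq_one, map_pow, h1]
  have hτϖ : τ'.toRingEquiv (1 - H) - (g : 𝓞 F) * (1 - H) ∈ Q ^ 2 := by
    have h1 : τ'.toRingEquiv (1 - H) = 1 - H ^ g := by
      show τ' (1 - H) = 1 - H ^ g
      rw [map_sub, map_one, hτH]
    have h2 : (1 - H ^ g : 𝓞 F) = (1 - H) * ∑ i ∈ Finset.range g, H ^ i :=
      (mul_neg_geom_sum H g).symm
    have h3 : τ'.toRingEquiv (1 - H) - (g : 𝓞 F) * (1 - H) =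
        (1 - H) * ((∑ i ∈ Finset.range g, H ^ i) - (g : 𝓞 F)) := by
      rw [h1, h2]; ring
    rw [h3, pow_two]
    exact Ideal.mul_mem_mul hϖ (thY_geom_sum_sub Q H hϖ g)
  -- the abstract congruence
  have hcongr := thC_congr Q hQ0 τ'.toRingEquiv hτQ (1 - H) hϖ hϖ2 (g : 𝓞 F)
    (1 - algebraMap (𝓞 K) (𝓞 F) hζ.toInteger * H) hτϖ β hβ0 hβ r hr1 hr2
  set Z : 𝓞 F := algebraMap (𝓞 K) (𝓞 F) hζ.toInteger with hZ
  -- replace `ξ` by `1 - Z`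
  have h4 : (1 - Z) * (g : 𝓞 F) ^ r - 1 ∈ Q := by
    have h5 : (1 - Z) * (g : 𝓞 F) ^ r - 1 =
        ((1 - Z * H) * (g : 𝓞 F) ^ r - 1) - (Z * (g : 𝓞 F) ^ r) * (1 - H) := by ring
    rw [h5]
    exact Q.sub_mem hcongr (Q.mul_mem_left _ hϖ)
  -- Fermat's little theorem
  have h6 : (g : 𝓞 F) ^ (ℓ - 1) - 1 ∈ Q := thY_pow_card_sub_one hℓ Q hℓQ g hgl
  have h7 : (g : 𝓞 F) ^ ((ℓ - 1) * r) - 1 ∈ Q := by
    have h8 : ((g : 𝓞 F) ^ (ℓ - 1) - 1) ∣ ((g : 𝓞 F) ^ (ℓ - 1)) ^ r - 1 := by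
      simpa using sub_dvd_pow_sub_pow ((g : 𝓞 F) ^ (ℓ - 1)) 1 r
    obtain ⟨c, hc⟩ := h8
    rw [pow_mul, hc]
    exact Q.mul_mem_right _ h6
  have hℓ2 : ℓ - 1 = (ℓ - 2) + 1 := by
    have := hℓ.two_le
    omega
  have h9 : (g : 𝓞 F) ^ ((ℓ - 2) * r) - (1 - Z) ∈ Q := by
    have h10 : (g : 𝓞 F) ^ ((ℓ - 2) * r) - (1 - Z) =
        (1 - Z) * ((g : 𝓞 F) ^ ((ℓ - 1) * r) - 1) -
          (g : 𝓞 F) ^ ((ℓ - 2) * r) * ((1 - Z) * (g : 𝓞 F) ^ r - 1) := by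
      rw [hℓ2, add_mul, one_mul, pow_add]
      ring
    rw [h10]
    exact Q.sub_mem (Q.mul_mem_left _ h7) (Q.mul_mem_left _ h4)
  -- pull back to `𝓞 K`
  rw [Ideal.under_def, Ideal.mem_comap]
  have h11 : algebraMap (𝓞 K) (𝓞 F) (((g : ℤ) : 𝓞 K) ^ ((ℓ - 2) * r) - (1 - hζ.toInteger)) =
      (g : 𝓞 F) ^ ((ℓ - 2) * r) - (1 - Z) := by
    rw [map_sub, map_pow, map_sub, map_one, map_intCast, Int.cast_natCast]
  rw [h11]
  exact h9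

end Fermat.Agent.S14
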