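import Mathlib
import Fermat.Agent.S14.Defs

set_option autoImplicit false
set_option linter.style.haveILetI false
open scoped NumberField Pointwise nonZeroDivisors
open Polynomial

/-!
# S14 (TH): the field `F = K(ζ_ℓ)` over `K = ℚ(ζ_p)`, `ℓ ≡ 1 mod p`

`F` is the `pℓ`-th cyclotomic field, `[F : K] = ℓ - 1`, the `ℓ`-th cyclotomic polynomial is
irreducible over `K`, and `N_{F/K}(1 - ζ_p ζ_ℓ) = 1`.
-/

namespace Fermat.Agent.S14

section setup
variable {p ℓ : ℕ} [hpF : Fact p.Prime] [hlF : Fact ℓ.Prime] {K F : Type} [Field K] [NumberField K]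
  [hK : IsCyclotomicExtension {p} ℚ K] [Field F] [NumberField F] [Algebra K F]
  [hF : IsCyclotomicExtension {ℓ} K F]

variable (K F) in
include hpF hlF hK hF in
/-- `F = K(ζ_ℓ)` is the `pℓ`-th cyclotomic field. -/
theorem th_isCyclotomicExtension_mul (hpl : p ≠ ℓ) :
    IsCyclotomicExtension {p * ℓ} ℚ F := by
  have hp : p.Prime := Fact.out
  have hl : ℓ.Prime := Fact.out
  haveI : NeZero p := ⟨hp.ne_zero⟩
  haveI : NeZero ℓ := ⟨hl.ne_zero⟩
  haveI : NeZero (p * ℓ) := ⟨mul_ne_zero hp.ne_zero hl.ne_zero⟩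
  have h1 : IsCyclotomicExtension ({p} ∪ {ℓ}) ℚ F :=
    IsCyclotomicExtension.trans {p} {ℓ} ℚ K F (algebraMap K F).injective
  have hζp : IsPrimitiveRoot (algebraMap K F (IsCyclotomicExtension.zeta p ℚ K)) p :=
    (IsCyclotomicExtension.zeta_spec p ℚ K).map_of_injective (algebraMap K _).injective
  have hζl : IsPrimitiveRoot (IsCyclotomicExtension.zeta ℓ K F) ℓ :=
    IsCyclotomicExtension.zeta_spec ℓ K _
  have hcop : Nat.Coprime p ℓ := (Nat.coprime_primes hp hl).2 hpl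
  have hprim : IsPrimitiveRoot
      (algebraMap K F (IsCyclotomicExtension.zeta p ℚ K) * IsCyclotomicExtension.zeta ℓ K F)
      (p * ℓ) := by
    rw [IsPrimitiveRoot.iff_orderOf]
    rw [(Commute.all _ _).orderOf_mul_eq_mul_orderOf_of_coprime
      (by rw [hζp.eq_orderOf.symm, hζl.eq_orderOf.symm]; exact hcop)]
    rw [← hζp.eq_orderOf, ← hζl.eq_orderOf]
  have h2 : IsCyclotomicExtension (({p} ∪ {ℓ}) ∪ {p * ℓ}) ℚ F :=
    IsCyclotomicExtension.union_of_isPrimitiveRoot _ ℚ _ hprim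
  have h3 : (({p} ∪ {ℓ}) ∪ {p * ℓ} : Set ℕ) = ({p * ℓ} ∪ {p}) ∪ {ℓ} := by
    ext x; simp only [Set.mem_union, Set.mem_singleton_iff]; tauto
  rw [h3] at h2
  have h4 := (IsCyclotomicExtension.iff_union_of_dvd (n := ℓ) (S := {p * ℓ} ∪ {p}) ℚ F
    ⟨p * ℓ, by simp, mul_ne_zero hp.ne_zero hl.ne_zero, dvd_mul_left _ _⟩).2 h2
  exact (IsCyclotomicExtension.iff_union_of_dvd (n := p) (S := {p * ℓ}) ℚ F
    ⟨p * ℓ, by simp, mul_ne_zero hp.ne_zero hl.ne_zero, dvd_mul_right _ _⟩).2 h4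

variable (K F) in
include hpF hlF hK hF in
/-- `[F : K] = ℓ - 1`. -/
theorem th_finrank (hpl : p ≠ ℓ) : Module.finrank K F = ℓ - 1 := by
  have hp : p.Prime := Fact.out
  have hl : ℓ.Prime := Fact.out
  haveI : NeZero p := ⟨hp.ne_zero⟩
  haveI : NeZero ℓ := ⟨hl.ne_zero⟩
  haveI : NeZero (p * ℓ) := ⟨mul_ne_zero hp.ne_zero hl.ne_zero⟩
  haveI := th_isCyclotomicExtension_mul K F hpl
  have hF : Module.finrank ℚ F = (p - 1) * (ℓ - 1) := by
    rw [IsCyclotomicExtension.finrank (n := p * ℓ) F (cyclotomic.irreducible_rat (NeZero.pos _)),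
      Nat.totient_mul ((Nat.coprime_primes hp hl).2 hpl), Nat.totient_prime hp, Nat.totient_prime hl]
  have hK : Module.finrank ℚ K = p - 1 := by
    rw [IsCyclotomicExtension.finrank (n := p) K (cyclotomic.irreducible_rat (NeZero.pos _)),
      Nat.totient_prime hp]
  have h := Module.finrank_mul_finrank ℚ K F
  rw [hF, hK] at h
  have hp1 : 0 < p - 1 := Nat.sub_pos_of_lt hp.one_lt
  exact Nat.eq_of_mul_eq_mul_left hp1 h

variable (K F) in
include hpF hlF hK hF in
/-- The `ℓ`-th cyclotomic polynomial is irreducible over `K = ℚ(ζ_p)`. -/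
theorem th_irreducible_cyclotomic (hpl : p ≠ ℓ) : Irreducible (cyclotomic ℓ K) := by
  have hp : p.Prime := Fact.out
  have hl : ℓ.Prime := Fact.out
  haveI : NeZero ℓ := ⟨hl.ne_zero⟩
  have hKF := th_finrank K F hpl
  have hη : IsPrimitiveRoot (IsCyclotomicExtension.zeta ℓ K F) ℓ :=
    IsCyclotomicExtension.zeta_spec ℓ K F
  set η := IsCyclotomicExtension.zeta ℓ K F
  have hint : IsIntegral K η := Algebra.IsIntegral.isIntegral η
  have htop : Algebra.adjoin K {η} = ⊤ := IsCyclotomicExtension.adjoin_primitive_root_eq_top hη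
  have hdeg : (minpoly K η).natDegree = ℓ - 1 := by
    have h1 := (Algebra.adjoin.powerBasis hint).finrank
    rw [Algebra.adjoin.powerBasis_dim] at h1
    rw [← h1, ← hKF]
    have : Module.finrank K (Algebra.adjoin K {η}) = Module.finrank K (⊤ : Subalgebra K F) := by
      rw [htop]
    rw [this, subalgebra_top_finrank_eq_submodule_top_finrank, finrank_top]
  have hdvd : minpoly K η ∣ cyclotomic ℓ K :=
    minpoly.dvd K η (by
      have := hη.isRoot_cyclotomic (NeZero.pos ℓ)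
      rw [← map_cyclotomic ℓ (algebraMap K F)] at this
      simpa [aeval_def, eval₂_eq_eval_map] using this)
  have heq : cyclotomic ℓ K = minpoly K η :=
    eq_of_monic_of_dvd_of_natDegree_le (minpoly.monic hint) (cyclotomic.monic ℓ K) hdvd
      (by rw [hdeg, natDegree_cyclotomic, Nat.totient_prime hl])
  rw [heq]
  exact minpoly.irreducible hint

/-- The norm of `1 - ζ_p ζ_ℓ` from `F = K(ζ_ℓ)` to `K` is `1` when `ℓ ≡ 1 mod p`. -/
theorem th_norm_xi (hpl : p ≠ ℓ) (hl1 : ℓ % p = 1) {ζ : K} (hζ : IsPrimitiveRoot ζ p)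
    {η : F} (hη : IsPrimitiveRoot η ℓ) :
    Algebra.norm K (1 - algebraMap K F ζ * η) = 1 := by
  have hp : p.Prime := Fact.out
  have hl : ℓ.Prime := Fact.out
  haveI : NeZero p := ⟨hp.ne_zero⟩
  haveI : NeZero ℓ := ⟨hl.ne_zero⟩
  have hirr := th_irreducible_cyclotomic K F hpl
  haveI : IsGalois K F := IsCyclotomicExtension.isGalois {ℓ} K _
  haveI : FiniteDimensional K F := IsCyclotomicExtension.finiteDimensional {ℓ} K F
  apply (algebraMap K F).injective
  rw [Algebra.norm_eq_prod_automorphisms K, map_one]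
  have Hprod : (∏ σ : F ≃ₐ[K] F, σ (1 - algebraMap K F ζ * η)) =
      ∏ μ ∈ primitiveRoots ℓ F, (1 - algebraMap K F ζ * μ) := by
    rw [← Finset.prod_attach (primitiveRoots ℓ F), ← Finset.univ_eq_attach]
    refine Fintype.prod_equiv ((algEquivEquivAlgHom K F).toEquiv.trans
      (hη.embeddingsEquivPrimitiveRoots F hirr)) _ _ fun σ => ?_
    simp
  rw [Hprod]
  set z := algebraMap K F ζ with hz
  have hz0 : z ≠ 0 := by
    rw [hz, Ne, map_eq_zero]; exact hζ.ne_zero hp.ne_zero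
  have hzp : z ^ p = 1 := by rw [hz, ← map_pow, hζ.pow_eq_one, map_one]
  have hdecomp : ℓ = p * (ℓ / p) + 1 := by
    have := Nat.div_add_mod ℓ p; omega
  have hzl : z ^ ℓ = z := by
    calc z ^ ℓ = z ^ (p * (ℓ / p) + 1) := by rw [← hdecomp]
      _ = z := by rw [pow_add, pow_mul, hzp, one_pow, one_mul, pow_one]
  have hz1 : z ≠ 1 := by
    intro h
    have : ζ = 1 := (algebraMap K F).injective (by rw [← hz, h, map_one])
    exact hζ.ne_one hp.one_lt this
  have h1 : ∏ μ ∈ primitiveRoots ℓ F, (1 - z * μ) =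
      z ^ (ℓ - 1) * (cyclotomic ℓ F).eval z⁻¹ := by
    rw [cyclotomic_eq_prod_X_sub_primitiveRoots hη, eval_prod]
    have hcard : (primitiveRoots ℓ F).card = ℓ - 1 := by
      rw [hη.card_primitiveRoots, Nat.totient_prime hl]
    rw [← hcard, ← Finset.prod_const, ← Finset.prod_mul_distrib]
    refine Finset.prod_congr rfl fun μ _ => ?_
    simp only [eval_sub, eval_X, eval_C]
    field_simp
  rw [h1]
  have h2 := congrArg (fun q => q.eval z⁻¹) (cyclotomic_prime_mul_X_sub_one F ℓ)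
  simp only [eval_mul, eval_sub, eval_X, eval_one, eval_pow] at h2
  have hz1' : z⁻¹ - 1 ≠ 0 := by
    intro h
    apply hz1
    have : z⁻¹ = 1 := by linear_combination h
    rw [inv_eq_one] at this; exact this
  have h3 : (cyclotomic ℓ F).eval z⁻¹ = (z⁻¹ ^ ℓ - 1) / (z⁻¹ - 1) := by
    rw [eq_div_iff hz1', h2]
  rw [h3, inv_pow, hzl]
  have hl1' : z ^ (ℓ - 1) = 1 := by
    have : z ^ (ℓ - 1) * z = z := by rw [← pow_succ, Nat.sub_add_cancel hl.one_le, hzl]
    exact mul_right_cancel₀ hz0 (by rw [this, one_mul])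
  rw [hl1', one_mul, div_self hz1']

end setup
end Fermat.Agent.S14
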