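import Mathlib
import Fermat.Agent.S14.ThaineField

set_option autoImplicit false
set_option linter.style.haveILetI false
open scoped NumberField Pointwise nonZeroDivisors
open Polynomial

/-!
# S14 (TH-G): generator of `Gal(F/K)` and integral Hilbert 90 for `ξ = 1 - ζ_p ζ_ℓ`
-/

namespace Fermat.Agent.S14

section gen
variable {p ℓ : ℕ} [hpF : Fact p.Prime] [hlF : Fact ℓ.Prime] {K F : Type} [Field K] [NumberField K]
  [hK : IsCyclotomicExtension {p} ℚ K] [Field F] [NumberField F] [Algebra K F]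
  [hF : IsCyclotomicExtension {ℓ} K F]


variable (K F) in
include hpF hlF hK hF in
/-- `Gal(F/K)` is cyclic, generated by some `τ` with `τ η = η ^ g` on `ℓ`-th roots of unity. -/
theorem th_exists_generator (hpl : p ≠ ℓ) :
    ∃ (τ : F ≃ₐ[K] F) (g : ℕ), (∀ x, x ∈ Subgroup.zpowers τ) ∧
      (∀ η : F, η ^ ℓ = 1 → τ η = η ^ g) ∧ ¬ ℓ ∣ g := by
  have hl : ℓ.Prime := Fact.out
  haveI : NeZero ℓ := ⟨hl.ne_zero⟩
  have hirr := th_irreducible_cyclotomic K F hpl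
  let e := IsCyclotomicExtension.autEquivPow F hirr
  obtain ⟨u, hu⟩ := IsCyclic.exists_generator (α := (ZMod ℓ)ˣ)
  refine ⟨e.symm u, (u : ZMod ℓ).val, ?_, ?_, ?_⟩
  · intro x
    have := hu (e x)
    rw [Subgroup.mem_zpowers_iff] at this ⊢
    obtain ⟨k, hk⟩ := this
    refine ⟨k, ?_⟩
    apply e.injective
    rw [map_zpow, MulEquiv.apply_symm_apply, hk]
  · intro η hη
    have hz := IsCyclotomicExtension.zeta_spec ℓ K F
    obtain ⟨j, -, rfl⟩ := hz.eq_pow_of_pow_eq_one hη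
    have h1 := hz.autToPow_spec K (e.symm u)
    have h2 : hz.autToPow K (e.symm u) = u := by
      have h3 : e (e.symm u) = u := e.apply_symm_apply u
      exact (IsCyclotomicExtension.autEquivPow_apply F hirr (e.symm u)).symm.trans h3
    rw [h2] at h1
    rw [map_pow, ← h1, ← pow_mul, ← pow_mul, mul_comm]
  · intro hdvd
    have h0 : ((u : ZMod ℓ).val : ZMod ℓ) = 0 := (ZMod.natCast_eq_zero_iff _ _).2 hdvd
    rw [ZMod.natCast_val, ZMod.cast_id', id] at h0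
    exact u.ne_zero h0

end gen
end Fermat.Agent.S14

namespace Fermat.Agent.S14
section h90
variable {p ℓ : ℕ} [hpF : Fact p.Prime] [hlF : Fact ℓ.Prime] {K F : Type} [Field K] [NumberField K]
  [hK : IsCyclotomicExtension {p} ℚ K] [Field F] [NumberField F] [Algebra K F]
  [hF : IsCyclotomicExtension {ℓ} K F]

/-- Integral Hilbert 90 for `ξ = 1 - ζ_p ζ_ℓ`: there is `β ≠ 0` in `𝓞 F` with `ξ * τ β = β`. -/
theorem th_hilbert90 (hpl : p ≠ ℓ) (hl1 : ℓ % p = 1) {ζ : K} (hζ : IsPrimitiveRoot ζ p)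
    {η : F} (hη : IsPrimitiveRoot η ℓ) (τ : F ≃ₐ[K] F) (hτ : ∀ x, x ∈ Subgroup.zpowers τ) :
    haveI : NeZero p := ⟨(Fact.out : p.Prime).ne_zero⟩
    haveI : NeZero ℓ := ⟨(Fact.out : ℓ.Prime).ne_zero⟩
    ∃ β : 𝓞 F, β ≠ 0 ∧
      (1 - algebraMap (𝓞 K) (𝓞 F) hζ.toInteger * hη.toInteger) *
        galRestrict (𝓞 K) K F (𝓞 F) τ β = β := by
  haveI : NeZero p := ⟨(Fact.out : p.Prime).ne_zero⟩
  haveI : NeZero ℓ := ⟨(Fact.out : ℓ.Prime).ne_zero⟩
  haveI : IsGalois K F := IsCyclotomicExtension.isGalois {ℓ} K _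
  haveI : FiniteDimensional K F := IsCyclotomicExtension.finiteDimensional {ℓ} K F
  haveI : IsCyclic (F ≃ₐ[K] F) := ⟨⟨τ, hτ⟩⟩
  refine groupCohomology.exists_mul_galRestrict_of_norm_eq_one (A := 𝓞 K) (B := 𝓞 F) (K := K)
    (L := F) (g := τ) hτ ?_
  have h1 : algebraMap (𝓞 F) F (algebraMap (𝓞 K) (𝓞 F) hζ.toInteger) = algebraMap K F ζ := by
    rw [← IsScalarTower.algebraMap_apply (𝓞 K) (𝓞 F) F,
      IsScalarTower.algebraMap_apply (𝓞 K) K F]
    rfl
  have h2 : algebraMap (𝓞 F) F hη.toInteger = η := rfl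
  rw [map_sub, map_one, map_mul, h1, h2]
  exact th_norm_xi hpl hl1 hζ hη

end h90
end Fermat.Agent.S14
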