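import Mathlib
import Fermat.Agent.S14.ThaineDefs
import Fermat.Agent.S14.ThaineField
import Fermat.Agent.S14.ThaineGlobal

set_option autoImplicit false
set_option linter.style.haveILetI false
open scoped NumberField Pointwise nonZeroDivisors
open IsDedekindDomain

/-!
# S14 (TH-L2): the norm of the Hilbert-90 element

If `ξ * τ β = β` with `τ` a generator of `Gal(F/K)` and `ξ` a unit, then every conjugate of `β`
is a unit times `β`, so `N_{F/K}(β) = u * β ^ [F:K]`; with (TH-B1) this computes the valuations of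
`N_{F/K}(β)`.
-/

namespace Fermat.Agent.S14

section abstract
variable {A B : Type*} [CommRing A] [CommRing B] [Algebra A B]

/-- If `ξ * T β = β` with `ξ` a unit, every `T ^ k` moves `β` by a unit. -/
theorem thN_pow_apply (T : B ≃ₐ[A] B) (ξ β : B) (hξ : IsUnit ξ) (h : ξ * T β = β) (k : ℕ) :
    ∃ u : Bˣ, (T ^ k) β = (u : B) * β := by
  induction k with
  | zero => exact ⟨1, by simp⟩
  | succ k ih =>
    obtain ⟨u, hu⟩ := ih
    obtain ⟨v, rfl⟩ := hξ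
    have hT : T β = ((v⁻¹ : Bˣ) : B) * β := by
      calc T β = ((v⁻¹ : Bˣ) : B) * ((v : B) * T β) := by
            rw [← mul_assoc, Units.inv_mul, one_mul]
        _ = ((v⁻¹ : Bˣ) : B) * β := by rw [h]
    have hTu : IsUnit (T (u : B)) := u.isUnit.map T
    obtain ⟨w, hw⟩ := hTu
    refine ⟨w * v⁻¹, ?_⟩
    rw [pow_succ', AlgEquiv.mul_apply, hu, map_mul, hT, ← hw, Units.val_mul, mul_assoc]

end abstract

section norm
variable {p ℓ : ℕ} [hpF : Fact p.Prime] [hlF : Fact ℓ.Prime] {K F : Type} [Field K] [NumberField K]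
  [hK : IsCyclotomicExtension {p} ℚ K] [Field F] [NumberField F] [Algebra K F]
  [hF : IsCyclotomicExtension {ℓ} K F]

/-- `ξ = 1 - ζ_p ζ_ℓ` is a unit of `𝓞 F`. -/
theorem thN_isUnit_xi (hpl : p ≠ ℓ) (hl1 : ℓ % p = 1) {ζ : K} (hζ : IsPrimitiveRoot ζ p)
    {η : F} (hη : IsPrimitiveRoot η ℓ) :
    haveI : NeZero p := ⟨(Fact.out : p.Prime).ne_zero⟩
    haveI : NeZero ℓ := ⟨(Fact.out : ℓ.Prime).ne_zero⟩
    IsUnit (1 - algebraMap (𝓞 K) (𝓞 F) hζ.toInteger * hη.toInteger : 𝓞 F) := by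
  haveI : NeZero p := ⟨(Fact.out : p.Prime).ne_zero⟩
  haveI : NeZero ℓ := ⟨(Fact.out : ℓ.Prime).ne_zero⟩
  haveI : FiniteDimensional K F := IsCyclotomicExtension.finiteDimensional {ℓ} K F
  set ξ : 𝓞 F := 1 - algebraMap (𝓞 K) (𝓞 F) hζ.toInteger * hη.toInteger with hξ
  have h1 : algebraMap (𝓞 F) F (algebraMap (𝓞 K) (𝓞 F) hζ.toInteger) = algebraMap K F ζ := by
    rw [← IsScalarTower.algebraMap_apply (𝓞 K) (𝓞 F) F,
      IsScalarTower.algebraMap_apply (𝓞 K) K F]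
    rfl
  have h2 : algebraMap (𝓞 F) F hη.toInteger = η := rfl
  have hnorm : Algebra.intNorm (𝓞 K) (𝓞 F) ξ = 1 := by
    apply FaithfulSMul.algebraMap_injective (𝓞 K) K
    rw [Algebra.algebraMap_intNorm (K := K) (L := F), map_one, hξ, map_sub, map_one, map_mul, h1,
      h2]
    exact th_norm_xi hpl hl1 hζ hη
  have hdvd := Algebra.dvd_algebraMap_intNorm_self (A := 𝓞 K) (B := 𝓞 F) ξ
  rw [hnorm, map_one] at hdvd
  exact isUnit_of_dvd_one hdvd

/-- The norm of `β` is a unit times `β ^ (ℓ - 1)`. -/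
theorem thN_norm_eq (hpl : p ≠ ℓ) (τ : F ≃ₐ[K] F) (hτ : ∀ x, x ∈ Subgroup.zpowers τ)
    (ξ β : 𝓞 F) (hξ : IsUnit ξ) (hβ : ξ * galRestrict (𝓞 K) K F (𝓞 F) τ β = β) :
    ∃ u : (𝓞 F)ˣ, algebraMap (𝓞 K) (𝓞 F) (Algebra.intNorm (𝓞 K) (𝓞 F) β) =
      (u : 𝓞 F) * β ^ (ℓ - 1) := by
  haveI : NeZero ℓ := ⟨(Fact.out : ℓ.Prime).ne_zero⟩
  haveI : IsGalois K F := IsCyclotomicExtension.isGalois {ℓ} K _
  haveI : FiniteDimensional K F := IsCyclotomicExtension.finiteDimensional {ℓ} K F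
  have hcard : Fintype.card (F ≃ₐ[K] F) = ℓ - 1 := by
    rw [← Nat.card_eq_fintype_card, IsGalois.card_aut_eq_finrank, th_finrank (p := p) K F hpl]
  -- every conjugate is a unit multiple
  have hconj : ∀ σ : F ≃ₐ[K] F, ∃ u : (𝓞 F)ˣ,
      galRestrict (𝓞 K) K F (𝓞 F) σ β = (u : 𝓞 F) * β := by
    intro σ
    obtain ⟨n, rfl : τ ^ n = σ⟩ := mem_powers_iff_mem_zpowers.mpr (hτ σ)
    obtain ⟨u, hu⟩ := thN_pow_apply (galRestrict (𝓞 K) K F (𝓞 F) τ) ξ β hξ hβ n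
    exact ⟨u, by rw [map_pow]; exact hu⟩
  choose u hu using hconj
  have hprod := prod_galRestrict_eq_norm (𝓞 K) K F (𝓞 F) β
  refine ⟨∏ σ : F ≃ₐ[K] F, u σ, ?_⟩
  have h3 : algebraMap (𝓞 K) (𝓞 F) (Algebra.intNorm (𝓞 K) (𝓞 F) β) =
      ∏ σ : F ≃ₐ[K] F, galRestrict (𝓞 K) K F (𝓞 F) σ β := by
    rw [hprod]
    congr 1
    apply FaithfulSMul.algebraMap_injective (𝓞 K) K
    rw [Algebra.algebraMap_intNorm (K := K) (L := F), IsIntegralClosure.algebraMap_mk']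
  rw [h3]
  simp_rw [hu]
  rw [Finset.prod_mul_distrib, Finset.prod_const, Finset.card_univ, hcard, Units.coe_prod]

/-- The `P`-adic valuation of a unit is `1`. -/
theorem thN_intValuation_unit {R : Type*} [CommRing R] [IsDedekindDomain R]
    (w : HeightOneSpectrum R) (u : Rˣ) : w.intValuation (u : R) = 1 := by
  have h1 : w.intValuation (u : R) ≤ 1 := w.intValuation_le_one _
  have h2 : w.intValuation ((u⁻¹ : Rˣ) : R) ≤ 1 := w.intValuation_le_one _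
  have h3 : w.intValuation (u : R) * w.intValuation ((u⁻¹ : Rˣ) : R) = 1 := by
    rw [← map_mul, Units.mul_inv, map_one]
  by_contra hne
  have hlt : w.intValuation (u : R) < 1 := lt_of_le_of_ne h1 hne
  have : w.intValuation (u : R) * w.intValuation ((u⁻¹ : Rˣ) : R) < 1 :=
    mul_lt_one_of_lt_of_le hlt h2
  exact absurd h3 (ne_of_lt this)

/-- (TH-L2) valuations of the norm of `β`. -/
theorem thN_valuation (hpl : p ≠ ℓ) (hB1 : ThRamStatement ℓ K F)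
    (τ : F ≃ₐ[K] F) (hτ : ∀ x, x ∈ Subgroup.zpowers τ)
    (ξ β : 𝓞 F) (hξ : IsUnit ξ) (hβ : ξ * galRestrict (𝓞 K) K F (𝓞 F) τ β = β)
    (w : HeightOneSpectrum (𝓞 F)) (v : HeightOneSpectrum (𝓞 K))
    (hwv : w.asIdeal.LiesOver v.asIdeal) :
    ((ℓ : 𝓞 F) ∈ w.asIdeal →
      v.intValuation (Algebra.intNorm (𝓞 K) (𝓞 F) β) = w.intValuation β) ∧
    ((ℓ : 𝓞 F) ∉ w.asIdeal →
      v.intValuation (Algebra.intNorm (𝓞 K) (𝓞 F) β) = w.intValuation β ^ (ℓ - 1)) := by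
  have hℓ : ℓ.Prime := Fact.out
  obtain ⟨u, hu⟩ := thN_norm_eq (p := p) hpl τ hτ ξ β hξ hβ
  have hw : w.intValuation (algebraMap (𝓞 K) (𝓞 F) (Algebra.intNorm (𝓞 K) (𝓞 F) β)) =
      w.intValuation β ^ (ℓ - 1) := by
    rw [hu, map_mul, map_pow, thN_intValuation_unit, one_mul]
  obtain ⟨h1, h2⟩ := hB1 w v hwv (Algebra.intNorm (𝓞 K) (𝓞 F) β)
  refine ⟨fun hmem => ?_, fun hmem => ?_⟩
  · have h := h1 hmem
    rw [hw] at h
    have hne : ℓ - 1 ≠ 0 := by have := hℓ.two_le; omega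
    exact ((pow_left_inj₀ zero_le' zero_le' hne).mp h).symm
  · rw [← h2 hmem, hw]

end norm

end Fermat.Agent.S14
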