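import Mathlib
import Fermat.Agent.S14.Defs

set_option autoImplicit false
set_option linter.style.haveILetI false
open scoped NumberField Pointwise nonZeroDivisors
open IsDedekindDomain

/-!
# S14 (TH-L4a): ideals all of whose multiplicities are divisible by `n` are `n`-th powers;
multiplicities of `span {b} * ∏ σ, q σ ^ n σ`.
-/

namespace Fermat.Agent.S14

section general
variable {R : Type*} [CommRing R] [IsDedekindDomain R]

/-- The multiplicity of the prime `v` in the ideal `M` (as a natural number). -/
noncomputable def thI_count (v : HeightOneSpectrum R) (M : Ideal R) : ℕ :=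
  (Associates.mk v.asIdeal).count (Associates.mk M).factors

/-- An ideal all of whose multiplicities are divisible by `n` is an `n`-th power. -/
theorem thI_exists_pow (M : Ideal R) (hM : M ≠ ⊥) (n : ℕ)
    (h : ∀ v : HeightOneSpectrum R, n ∣ thI_count v M) :
    ∃ I : Ideal R, I ^ n = M := by
  have ha : Associates.mk M ≠ 0 := Associates.mk_ne_zero.mpr hM
  have key : ∀ p : Associates (Ideal R), Irreducible p → n ∣ p.count (Associates.mk M).factors := by
    intro p hp
    obtain ⟨P, rfl⟩ := Associates.mk_surjective p
    have hP : Irreducible P := Associates.irreducible_mk.mp hp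
    have hprime : Prime P := hP.prime
    exact h ⟨P, Ideal.isPrime_of_prime hprime, hprime.ne_zero⟩
  obtain ⟨b, hb⟩ := Associates.is_pow_of_dvd_count ha (k := n) key
  obtain ⟨I, rfl⟩ := Associates.mk_surjective b
  refine ⟨I, ?_⟩
  rw [← Associates.mk_pow, Associates.mk_eq_mk_iff_associated, associated_iff_eq] at hb
  exact hb.symm

theorem thI_count_mul (v : HeightOneSpectrum R) {M N : Ideal R} (hM : M ≠ ⊥) (hN : N ≠ ⊥) :
    thI_count v (M * N) = thI_count v M + thI_count v N := by
  unfold thI_count
  rw [Associates.mk_mul_mk.symm]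
  exact Associates.count_mul (Associates.mk_ne_zero.mpr hM) (Associates.mk_ne_zero.mpr hN)
    v.associates_irreducible

theorem thI_count_pow (v : HeightOneSpectrum R) {M : Ideal R} (hM : M ≠ ⊥) (k : ℕ) :
    thI_count v (M ^ k) = k * thI_count v M := by
  unfold thI_count
  rw [Associates.mk_pow]
  exact Associates.count_pow (Associates.mk_ne_zero.mpr hM) v.associates_irreducible k

theorem thI_count_one (v : HeightOneSpectrum R) : thI_count v (1 : Ideal R) = 0 := by
  unfold thI_count
  rw [Associates.mk_one, Associates.factors_one]
  exact Associates.count_zero v.associates_irreducible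

theorem thI_count_self (v : HeightOneSpectrum R) : thI_count v v.asIdeal = 1 := by
  unfold thI_count
  exact Associates.count_self v.associates_irreducible

theorem thI_count_prime_ne (v : HeightOneSpectrum R) (P : Ideal R) (hP : P.IsPrime) (hP0 : P ≠ ⊥)
    (hne : P ≠ v.asIdeal) : thI_count v P = 0 := by
  unfold thI_count
  let w : HeightOneSpectrum R := ⟨P, hP, hP0⟩
  have hw : Irreducible (Associates.mk w.asIdeal) := w.associates_irreducible
  have hv : Irreducible (Associates.mk v.asIdeal) := v.associates_irreducible
  change (Associates.mk v.asIdeal).count (Associates.mk w.asIdeal).factors = 0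
  by_contra hc
  have hdvd := Associates.le_of_count_ne_zero (Associates.mk_ne_zero.mpr w.ne_bot) hv hc
  rw [Associates.mk_le_mk_iff_dvd] at hdvd
  have h1 : w.asIdeal ≤ v.asIdeal := Ideal.le_of_dvd hdvd
  have h2 : w.asIdeal = v.asIdeal := (w.isMaximal.eq_of_le v.isPrime.ne_top h1)
  exact hne h2

theorem thI_count_prod {ι : Type*} (v : HeightOneSpectrum R) (s : Finset ι) (f : ι → Ideal R)
    (hf : ∀ i ∈ s, f i ≠ ⊥) :
    thI_count v (∏ i ∈ s, f i) = ∑ i ∈ s, thI_count v (f i) := by
  classical
  induction s using Finset.induction with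
  | empty => rw [Finset.prod_empty, Finset.sum_empty, thI_count_one]
  | insert i s hi ih =>
    have hs : ∀ j ∈ s, f j ≠ ⊥ := fun j hj => hf j (Finset.mem_insert_of_mem hj)
    have h0 : ∏ j ∈ s, f j ≠ ⊥ := by
      rw [← Ideal.zero_eq_bot]
      exact Finset.prod_ne_zero_iff.mpr hs
    rw [Finset.prod_insert hi, Finset.sum_insert hi,
      thI_count_mul v (hf i (Finset.mem_insert_self i s)) h0, ih hs]

/-- The valuation of `b` in terms of the multiplicity of `v` in `span {b}`. -/
theorem thI_intValuation_eq (v : HeightOneSpectrum R) {b : R} (hb : b ≠ 0) :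
    v.intValuation b = WithZero.exp (-(thI_count v (Ideal.span {b}) : ℤ)) :=
  v.intValuation_if_neg hb

end general

end Fermat.Agent.S14
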