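import Mathlib
import Fermat.Agent.S14.ThaineIdeal

set_option autoImplicit false
set_option linter.style.haveILetI false
open IsDedekindDomain

/-!
# S14 (TH-L4, slice X): `span {b} * ∏ P_i ^ ((k - 1) r_i)` is a `k`-th power
-/

namespace Fermat.Agent.S14

theorem thA_exists_pow {R : Type*} [CommRing R] [IsDedekindDomain R] {ι : Type*} [Fintype ι]
    (P : ι → IsDedekindDomain.HeightOneSpectrum R) (hP : Function.Injective P) (b : R) (hb : b ≠ 0)
    (k : ℕ) (hk : 0 < k) (r : ι → ℕ)
    (hr : ∀ i, (P i).intValuation b = WithZero.exp (-(r i : ℤ)))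
    (h : ∀ v : IsDedekindDomain.HeightOneSpectrum R, (∀ i, P i ≠ v) →
      ∃ m : ℕ, v.intValuation b = WithZero.exp (-((k * m : ℕ) : ℤ))) :
    ∃ I : Ideal R, I ≠ ⊥ ∧ Ideal.span {b} * ∏ i, (P i).asIdeal ^ ((k - 1) * r i) = I ^ k := by
  classical
  have hb' : Ideal.span {b} ≠ (⊥ : Ideal R) := by
    rwa [Ne, Ideal.span_singleton_eq_bot]
  have hPi : ∀ i ∈ (Finset.univ : Finset ι), (P i).asIdeal ^ ((k - 1) * r i) ≠ (⊥ : Ideal R) :=
    fun i _ => pow_ne_zero _ (P i).ne_bot
  have hprod : (∏ i, (P i).asIdeal ^ ((k - 1) * r i)) ≠ (⊥ : Ideal R) := by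
    rw [← Ideal.zero_eq_bot]
    exact Finset.prod_ne_zero_iff.mpr hPi
  have hM : Ideal.span {b} * ∏ i, (P i).asIdeal ^ ((k - 1) * r i) ≠ (⊥ : Ideal R) :=
    mul_ne_zero hb' hprod
  -- counts of `span {b}`
  have hcount : ∀ (v : HeightOneSpectrum R) (n : ℕ),
      v.intValuation b = WithZero.exp (-(n : ℤ)) → thI_count v (Ideal.span {b}) = n := by
    intro v n hv
    rw [thI_intValuation_eq v hb, WithZero.exp_inj, neg_inj] at hv
    exact_mod_cast hv
  have key : ∀ v : HeightOneSpectrum R,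
      k ∣ thI_count v (Ideal.span {b} * ∏ i, (P i).asIdeal ^ ((k - 1) * r i)) := by
    intro v
    rw [thI_count_mul v hb' hprod, thI_count_prod v _ _ hPi]
    simp_rw [thI_count_pow v (P _).ne_bot]
    by_cases hv : ∃ i₀, P i₀ = v
    · obtain ⟨i₀, rfl⟩ := hv
      have hsum : ∑ i, (k - 1) * r i * thI_count (P i₀) (P i).asIdeal = (k - 1) * r i₀ := by
        rw [Finset.sum_eq_single i₀]
        · rw [thI_count_self, mul_one]
        · intro i _ hi
          have hne : (P i).asIdeal ≠ (P i₀).asIdeal := fun heq =>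
            hi (hP (HeightOneSpectrum.ext heq))
          rw [thI_count_prime_ne (P i₀) (P i).asIdeal (P i).isPrime (P i).ne_bot hne, mul_zero]
        · intro hi
          exact absurd (Finset.mem_univ i₀) hi
      rw [hsum, hcount (P i₀) (r i₀) (hr i₀)]
      refine ⟨r i₀, ?_⟩
      obtain ⟨k', rfl⟩ : ∃ k', k = k' + 1 := ⟨k - 1, by omega⟩
      simp only [Nat.add_sub_cancel]
      ring
    · simp only [not_exists] at hv
      obtain ⟨m, hm⟩ := h v hv
      have hsum : ∑ i, (k - 1) * r i * thI_count v (P i).asIdeal = 0 := by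
        apply Finset.sum_eq_zero
        intro i _
        have hne : (P i).asIdeal ≠ v.asIdeal := fun heq => hv i (HeightOneSpectrum.ext heq)
        rw [thI_count_prime_ne v (P i).asIdeal (P i).isPrime (P i).ne_bot hne, mul_zero]
      rw [hsum, add_zero, hcount v (k * m) hm]
      exact dvd_mul_right k m
  obtain ⟨I, hI⟩ := thI_exists_pow _ hM k key
  refine ⟨I, ?_, hI.symm⟩
  rintro rfl
  apply hM
  rw [← hI, Ideal.bot_pow hk.ne']

end Fermat.Agent.S14
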