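import Mathlib
import Fermat.Agent.S14.ThaineDefs
import Fermat.Agent.S14.ThaineField

/-!
# S14 (TH-B): ramification package, parts B1 and B2

Setting: `K = ℚ(ζ_p)`, `F = K(ζ_ℓ)`, `ℓ ≡ 1 mod p`.

* `thB_split : ThSplitStatement ℓ K` — `Gal(K/ℚ)` acts simply transitively on the primes of `K`
  above `ℓ`.
* `thB_ram : ThRamStatement ℓ K F` — a prime `w` of `F` over `v` has ramification index `ℓ - 1`
  if it lies over `ℓ` and `1` otherwise.
-/

set_option autoImplicit false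

open scoped NumberField Pointwise
open IsDedekindDomain Ideal

namespace Fermat.Agent.S14

/-- A prime ideal containing the prime number `ℓ` lies over `(ℓ) ⊆ ℤ`. -/
lemma thB_liesOver {R : Type*} [CommRing R] {ℓ : ℕ} (hℓ : ℓ.Prime) (P : Ideal R) [hP : P.IsPrime]
    (h : (ℓ : R) ∈ P) : P.LiesOver (Ideal.span {(ℓ : ℤ)}) := by
  have hmax : (Ideal.span {(ℓ : ℤ)}).IsMaximal :=
    ((Ideal.span_singleton_prime (by exact_mod_cast hℓ.ne_zero)).mpr
      (Nat.prime_iff_prime_int.mp hℓ)).isMaximal (by simpa using hℓ.ne_zero)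
  refine ⟨hmax.eq_of_le (Ideal.comap_ne_top _ hP.ne_top) ?_⟩
  rw [Ideal.span_singleton_le_iff_mem, Ideal.mem_comap]
  simpa using h

section split

variable {K : Type} [Field K] [NumberField K]

/-- `galInt σ` is the action of `σ` on `𝓞 K`. -/
lemma thB_map_galInt_eq_smul [IsGalois ℚ K] (σ : K ≃ₐ[ℚ] K) (I : Ideal (𝓞 K)) :
    I.map (galInt σ : 𝓞 K →+* 𝓞 K) = σ • I := by
  rw [Ideal.pointwise_smul_def]
  congr 1
  ext x
  exact algebraMap_galRestrict_apply ℤ σ x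

variable {p ℓ : ℕ} [hpF : Fact p.Prime] [hlF : Fact ℓ.Prime]
  [hK : IsCyclotomicExtension {p} ℚ K]

omit hpF hlF hK in
/-- `galInt σ` fixes natural numbers. -/
lemma thB_galInt_natCast (σ : K ≃ₐ[ℚ] K) (n : ℕ) : galInt σ (n : 𝓞 K) = (n : 𝓞 K) :=
  map_natCast (galInt σ) n

omit hpF hlF hK in
lemma thB_natCast_mem_map_galInt (σ : K ≃ₐ[ℚ] K) {lam : Ideal (𝓞 K)} {n : ℕ}
    (h : (n : 𝓞 K) ∈ lam) : (n : 𝓞 K) ∈ lam.map (galInt σ : 𝓞 K →+* 𝓞 K) := by
  have := Ideal.mem_map_of_mem (galInt σ : 𝓞 K →+* 𝓞 K) h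
  rwa [RingEquiv.coe_toRingHom, thB_galInt_natCast] at this

include hpF hlF hK in
/-- **(TH-B2)** `Gal(K/ℚ)` acts simply transitively on the primes of `K = ℚ(ζ_p)` above
`ℓ ≡ 1 mod p`. -/
theorem thB_split (hl : ℓ % p = 1) : ThSplitStatement ℓ K := by
  have hp : p.Prime := Fact.out
  have hℓ : ℓ.Prime := Fact.out
  have : NeZero p := ⟨hp.ne_zero⟩
  have : IsGalois ℚ K := IsCyclotomicExtension.isGalois {p} ℚ K
  have hpl : ¬ ℓ ∣ p := by
    intro h
    have := (Nat.prime_dvd_prime_iff_eq hℓ hp).mp h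
    subst this
    rw [Nat.mod_self] at hl
    exact zero_ne_one hl
  intro lam hlam hmem
  have hlo : lam.LiesOver (span {(ℓ : ℤ)}) := thB_liesOver hℓ lam hmem
  have htrans : ∀ q : Ideal (𝓞 K), q.IsPrime → (ℓ : 𝓞 K) ∈ q →
      ∃ σ : K ≃ₐ[ℚ] K, q = lam.map (galInt σ : 𝓞 K →+* 𝓞 K) := by
    intro q hq hqmem
    have : q.LiesOver (span {(ℓ : ℤ)}) := thB_liesOver hℓ q hqmem
    obtain ⟨σ, hσ⟩ := Ideal.exists_smul_eq_of_isGaloisGroup (span {(ℓ : ℤ)}) lam q (K ≃ₐ[ℚ] K)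
    exact ⟨σ, by rw [thB_map_galInt_eq_smul, hσ]⟩
  refine ⟨htrans, ?_⟩
  -- counting
  have hprime : (span {(ℓ : ℤ)}).IsPrime :=
    (Ideal.span_singleton_prime (by exact_mod_cast hℓ.ne_zero)).mpr (Nat.prime_iff_prime_int.mp hℓ)
  have hcard := Ideal.ncard_primesOver_mul_ramificationIdxIn_mul_inertiaDegIn
    (span {(ℓ : ℤ)}) (𝓞 K) (K ≃ₐ[ℚ] K)
  have hord : orderOf ((ℓ : ZMod p)) = 1 := by
    have : ((ℓ : ZMod p)) = 1 := by
      have h1 : ((1 : ℕ) : ZMod p) = 1 := Nat.cast_one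
      rw [← h1, ZMod.natCast_eq_natCast_iff', hl, Nat.mod_eq_of_lt hp.one_lt]
    rw [this, orderOf_one]
  rw [IsCyclotomicExtension.Rat.ramificationIdxIn_eq_of_not_dvd ℓ K hpl,
    IsCyclotomicExtension.Rat.inertiaDegIn_eq_of_not_dvd ℓ K hpl, hord, mul_one, mul_one]
    at hcard
  -- the orbit map
  have hprimeσ : ∀ σ : K ≃ₐ[ℚ] K, (lam.map (galInt σ : 𝓞 K →+* 𝓞 K)).IsPrime := fun σ =>
    Ideal.map_isPrime_of_equiv (galInt σ)
  let φ : (K ≃ₐ[ℚ] K) → primesOver (span {(ℓ : ℤ)}) (𝓞 K) := fun σ =>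
    ⟨lam.map (galInt σ : 𝓞 K →+* 𝓞 K), hprimeσ σ,
      @thB_liesOver _ _ _ hℓ _ (hprimeσ σ) (thB_natCast_mem_map_galInt σ hmem)⟩
  have hsurj : Function.Surjective φ := by
    rintro ⟨q, hq, hqo⟩
    have hqmem : (ℓ : 𝓞 K) ∈ q := by
      have : (ℓ : ℤ) ∈ q.under ℤ := by
        rw [← hqo.over]
        exact Ideal.subset_span rfl
      simpa [Ideal.under_def] using this
    obtain ⟨σ, hσ⟩ := htrans q hq hqmem
    exact ⟨σ, Subtype.ext hσ.symm⟩
  have hfin : Finite (primesOver (span {(ℓ : ℤ)}) (𝓞 K)) := Finite.of_surjective φ hsurj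
  have hbij : Function.Bijective φ := by
    apply hsurj.bijective_of_nat_card_le
    rw [← hcard, Nat.card_coe_set_eq]
  intro σ τ hστ
  exact hbij.1 (Subtype.ext hστ)

end split

section ram

variable {p ℓ : ℕ} [hpF : Fact p.Prime] [hlF : Fact ℓ.Prime] {K F : Type} [Field K]
  [NumberField K] [hK : IsCyclotomicExtension {p} ℚ K] [Field F] [NumberField F] [Algebra K F]
  [hF : IsCyclotomicExtension {ℓ} K F]

/-- Every nonzero prime of a ring of integers contains a prime number. -/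
lemma thB_exists_prime_mem {L : Type*} [Field L] [NumberField L] (P : Ideal (𝓞 L))
    [hP : P.IsPrime] (hP0 : P ≠ ⊥) : ∃ q : ℕ, q.Prime ∧ (q : 𝓞 L) ∈ P := by
  have hmax : P.IsMaximal := hP.isMaximal hP0
  obtain ⟨q, n, -, hmem, hq, -⟩ := Ideal.exists_prime_and_absNorm_eq_pow P
  exact ⟨q, hq, hmem⟩

include hpF hlF hK hF in
/-- The ramification index of a prime `P` of `F` over `𝓞 K`. -/
lemma thB_ramificationIdx (hl : ℓ % p = 1) (P : Ideal (𝓞 F)) [hP : P.IsPrime] (hP0 : P ≠ ⊥) :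
    ((ℓ : 𝓞 F) ∈ P → P.ramificationIdx (𝓞 K) = ℓ - 1) ∧
      ((ℓ : 𝓞 F) ∉ P → P.ramificationIdx (𝓞 K) = 1) := by
  have hp : p.Prime := Fact.out
  have hℓ : ℓ.Prime := Fact.out
  have : NeZero p := ⟨hp.ne_zero⟩
  have : NeZero ℓ := ⟨hℓ.ne_zero⟩
  have : NeZero (p * ℓ) := ⟨mul_ne_zero hp.ne_zero hℓ.ne_zero⟩
  have hpl : p ≠ ℓ := by
    rintro rfl
    rw [Nat.mod_self] at hl
    exact zero_ne_one hl
  have hlp : ¬ ℓ ∣ p := fun h => hpl ((Nat.prime_dvd_prime_iff_eq hℓ hp).mp h).symm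
  have hpl' : ¬ p ∣ ℓ := fun h => hpl ((Nat.prime_dvd_prime_iff_eq hp hℓ).mp h)
  have hcyc : IsCyclotomicExtension {p * ℓ} ℚ F := th_isCyclotomicExtension_mul K F hpl
  set Q : Ideal (𝓞 K) := P.under (𝓞 K) with hQ
  have hQprime : Q.IsPrime := Ideal.IsPrime.under (𝓞 K) P
  have hPQ : P.LiesOver Q := ⟨rfl⟩
  have htower : P.ramificationIdx ℤ = Q.ramificationIdx ℤ * P.ramificationIdx (𝓞 K) :=
    Ideal.ramificationIdx_tower Q P
  constructor
  · intro hmem
    have hPl : P.LiesOver (span {(ℓ : ℤ)}) := thB_liesOver hℓ P hmem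
    have hQl : Q.LiesOver (span {(ℓ : ℤ)}) := Ideal.LiesOver.tower_bot P Q _
    have h1 : P.ramificationIdx ℤ = ℓ ^ 0 * (ℓ - 1) :=
      IsCyclotomicExtension.Rat.ramificationIdx_eq (p * ℓ) (m := p) (p := ℓ) (k := 0) F P
        (by ring) hlp
    have h2 : Q.ramificationIdx ℤ = 1 :=
      IsCyclotomicExtension.Rat.ramificationIdx_eq_of_not_dvd (m := p) ℓ K Q hlp
    rw [h1, h2, pow_zero, one_mul, one_mul] at htower
    exact htower.symm
  · intro hnmem
    obtain ⟨q, hq, hqmem⟩ := thB_exists_prime_mem P hP0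
    have : Fact q.Prime := ⟨hq⟩
    have hqℓ : q ≠ ℓ := by
      rintro rfl
      exact hnmem hqmem
    have hPq : P.LiesOver (span {(q : ℤ)}) := thB_liesOver hq P hqmem
    have hQq : Q.LiesOver (span {(q : ℤ)}) := Ideal.LiesOver.tower_bot P Q _
    by_cases hqp : q = p
    · subst hqp
      have h1 : P.ramificationIdx ℤ = q ^ 0 * (q - 1) :=
        IsCyclotomicExtension.Rat.ramificationIdx_eq (q * ℓ) (m := ℓ) (p := q) (k := 0) F P
          (by ring) hpl'
      have h2 : Q.ramificationIdx ℤ = q - 1 :=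
        IsCyclotomicExtension.Rat.ramificationIdx_eq_of_prime q K Q
      rw [h1, h2, pow_zero, one_mul] at htower
      have hpos : 0 < q - 1 := Nat.sub_pos_of_lt hq.one_lt
      exact (Nat.eq_of_mul_eq_mul_left hpos (by rw [mul_one]; exact htower)).symm
    · have hndvd : ¬ q ∣ p * ℓ := by
        intro h
        rcases (Nat.Prime.dvd_mul hq).mp h with h | h
        · exact hqp ((Nat.prime_dvd_prime_iff_eq hq hp).mp h)
        · exact hqℓ ((Nat.prime_dvd_prime_iff_eq hq hℓ).mp h)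
      have h1 : P.ramificationIdx ℤ = 1 :=
        IsCyclotomicExtension.Rat.ramificationIdx_eq_of_not_dvd (m := p * ℓ) q F P hndvd
      rw [h1] at htower
      exact Nat.eq_one_of_mul_eq_one_left htower.symm

include hpF hlF hK hF in
/-- **(TH-B1)** ramification in `F/K`, in terms of valuations. -/
theorem thB_ram (hl : ℓ % p = 1) : ThRamStatement ℓ K F := by
  intro w v hwv x
  have he := IsDedekindDomain.HeightOneSpectrum.intValuation_liesOver v w x
  have heq : v.asIdeal.ramificationIdx' w.asIdeal = w.asIdeal.ramificationIdx (𝓞 K) :=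
    Ideal.ramificationIdx'_eq_ramificationIdx v.asIdeal w.asIdeal v.ne_bot
  have hram := thB_ramificationIdx (p := p) (K := K) hl w.asIdeal w.ne_bot
  rw [← he, heq]
  constructor
  · intro hmem
    rw [hram.1 hmem]
  · intro hnmem
    rw [hram.2 hnmem, pow_one]

end ram

end Fermat.Agent.S14
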