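import Mathlib
import Fermat.Agent.S14.ThaineDefs
import Fermat.Agent.S14.ThaineField

/-!
# S14 (TH-B3, TH-B4): total ramification of `F = K(ζ_ℓ)` over `K = ℚ(ζ_p)` at the primes over `ℓ`

For primes `p`, `ℓ` with `ℓ ≡ 1 mod p`, `K = ℚ(ζ_p)` and `F = K(ζ_ℓ) = ℚ(ζ_{pℓ})`:
* every prime `Q` of `F` over `ℓ` is the only prime of `F` over `Q ∩ 𝓞 K`, and its residue field is
  the prime field (`thB_totRam`);
* `1 - ζ_ℓ` is a uniformizer at every prime of `F` over `ℓ` (`thB3_unif`; the same statement is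
  also proved as `thB_unif` in `ThaineUnif.lean`).
-/

set_option autoImplicit false
set_option linter.style.haveILetI false

open scoped NumberField
open IsDedekindDomain

namespace Fermat.Agent.S14

section general

variable {ℓ : ℕ} {F : Type} [Field F] [NumberField F]

omit [NumberField F] in
/-- A prime of `𝓞 F` containing the prime number `ℓ` lies over `ℓ ℤ`. -/
theorem thB3_liesOver (hl : ℓ.Prime) (Q : Ideal (𝓞 F)) (hQ : Q.IsPrime) (hlQ : (ℓ : 𝓞 F) ∈ Q) :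
    Q.LiesOver (Ideal.span {(ℓ : ℤ)}) := by
  rw [Ideal.liesOver_iff]
  haveI : Fact ℓ.Prime := ⟨hl⟩
  refine Ideal.IsMaximal.eq_of_le (Int.ideal_span_isMaximal_of_prime ℓ) Ideal.IsPrime.ne_top' ?_
  rw [Ideal.span_singleton_le_iff_mem, Ideal.under_def, Ideal.mem_comap, algebraMap_int_eq,
    eq_intCast, Int.cast_natCast]
  exact hlQ

omit [NumberField F] in
/-- `1 - η` lies in every prime containing `ℓ`, for `η` an `ℓ`-th root of unity. -/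
theorem thB3_one_sub_mem (hl : ℓ.Prime) (Q : Ideal (𝓞 F)) (hQ : Q.IsPrime) (hlQ : (ℓ : 𝓞 F) ∈ Q)
    (η : 𝓞 F) (hη : η ^ ℓ = 1) : 1 - η ∈ Q := by
  haveI : Fact ℓ.Prime := ⟨hl⟩
  haveI : Nontrivial (𝓞 F ⧸ Q) := Ideal.Quotient.nontrivial_iff.2 hQ.ne_top
  haveI hchar : CharP (𝓞 F ⧸ Q) ℓ := by
    rw [CharP.charP_iff_prime_eq_zero hl]
    have : ((ℓ : 𝓞 F) : 𝓞 F ⧸ Q) = 0 := Ideal.Quotient.eq_zero_iff_mem.2 hlQ
    simpa using this
  haveI : IsDomain (𝓞 F ⧸ Q) := Ideal.Quotient.isDomain Q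
  have h1 : (Ideal.Quotient.mk Q (1 - η)) ^ ℓ = 0 := by
    rw [map_sub, map_one, sub_pow_char, one_pow, ← map_pow, hη, map_one, sub_self]
  have h2 : Ideal.Quotient.mk Q (1 - η) = 0 := pow_eq_zero_iff (hl.ne_zero) |>.1 h1
  exact Ideal.Quotient.eq_zero_iff_mem.1 h2

/-- If `ℓ` has ramification index `ℓ - 1` at `Q`, then `1 - η ∉ Q ^ 2` for a primitive `ℓ`-th root
of unity `η`. -/
theorem thB3_one_sub_not_mem_sq (hl : ℓ.Prime) (Q : Ideal (𝓞 F)) (hQ : Q.IsPrime)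
    (hlQ : (ℓ : 𝓞 F) ∈ Q) (he : Q.ramificationIdx ℤ = ℓ - 1)
    (η : 𝓞 F) (hη : IsPrimitiveRoot η ℓ) : 1 - η ∉ Q ^ 2 := by
  intro hmem
  haveI := thB3_liesOver hl Q hQ hlQ
  have hl0 : (ℓ : ℤ) ≠ 0 := by exact_mod_cast hl.ne_zero
  have hp0 : Ideal.map (algebraMap ℤ (𝓞 F)) (Ideal.span {(ℓ : ℤ)}) ≠ ⊥ := by
    rw [Ideal.map_span, Set.image_singleton, Ne, Ideal.span_singleton_eq_bot]
    simpa using hl.ne_zero
  have hmult := Ideal.IsDedekindDomain.ramificationIdx_eq_multiplicity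
    (Ideal.span {(ℓ : ℤ)}) Q hp0
  rw [he] at hmult
  -- `ℓ ∈ Q ^ (2 (ℓ - 1))`
  obtain ⟨z, -, hz⟩ := IsPrimitiveRoot.self_sub_one_pow_dvd_order (k := ℓ - 1) (n := ℓ)
    (Nat.sub_lt hl.pos Nat.one_pos) hη
  have hmem' : η - 1 ∈ Q ^ 2 := by
    have : η - 1 = -(1 - η) := by ring
    rw [this]; exact (Q ^ 2).neg_mem hmem
  have h3 : (ℓ : 𝓞 F) ∈ Q ^ (2 * (ℓ - 1)) := by
    rw [hz, pow_mul]
    exact Ideal.mul_mem_left _ _ (Ideal.pow_mem_pow hmem' _)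
  have h4 : Ideal.map (algebraMap ℤ (𝓞 F)) (Ideal.span {(ℓ : ℤ)}) ≤ Q ^ (2 * (ℓ - 1)) := by
    rw [Ideal.map_span, Set.image_singleton, Ideal.span_singleton_le_iff_mem]
    simpa using h3
  have hfin : FiniteMultiplicity Q (Ideal.map (algebraMap ℤ (𝓞 F)) (Ideal.span {(ℓ : ℤ)})) :=
    FiniteMultiplicity.of_not_isUnit (by
      rw [Ideal.isUnit_iff]; exact hQ.ne_top) hp0
  have h5 := hfin.le_multiplicity_of_pow_dvd (Ideal.dvd_iff_le.2 h4)
  rw [← hmult] at h5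
  have : 1 < ℓ := hl.one_lt
  omega

end general

section cyclo

variable {p ℓ : ℕ} [hpF : Fact p.Prime] [hlF : Fact ℓ.Prime] (K F : Type) [Field K] [NumberField K]
  [Field F] [NumberField F] [Algebra K F] [hK : IsCyclotomicExtension {p} ℚ K]
  [hF : IsCyclotomicExtension {ℓ} K F]

omit hpF hlF in
theorem thB3_ne (hl1 : ℓ % p = 1) : p ≠ ℓ := by
  rintro rfl
  rw [Nat.mod_self] at hl1
  exact zero_ne_one hl1

include hpF hlF in
theorem thB3_not_dvd (hl1 : ℓ % p = 1) : ¬ ℓ ∣ p := by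
  have hp : p.Prime := Fact.out
  have hl : ℓ.Prime := Fact.out
  intro h
  rcases (Nat.dvd_prime hp).1 h with h1 | h1
  · exact hl.ne_one h1
  · exact thB3_ne hl1 h1.symm

include hpF hlF hK hF in
/-- The ramification index over `ℤ` of a prime of `F = ℚ(ζ_{pℓ})` over `ℓ` is `ℓ - 1`. -/
theorem thB3_ramificationIdx (hl1 : ℓ % p = 1) (Q : Ideal (𝓞 F)) (hQ : Q.IsPrime)
    (hlQ : (ℓ : 𝓞 F) ∈ Q) : Q.ramificationIdx ℤ = ℓ - 1 := by
  have hl : ℓ.Prime := Fact.out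
  haveI := thB3_liesOver hl Q hQ hlQ
  haveI := th_isCyclotomicExtension_mul K F (thB3_ne hl1)
  have h := IsCyclotomicExtension.Rat.ramificationIdx_eq (p * ℓ) (m := p) (p := ℓ) (k := 0) F Q
    (by ring) (thB3_not_dvd hl1)
  simpa using h

include hpF hlF hK hF in
/-- The inertia degree over `ℤ` of a prime of `F = ℚ(ζ_{pℓ})` over `ℓ ≡ 1 mod p` is `1`. -/
theorem thB3_inertiaDeg (hl1 : ℓ % p = 1) (Q : Ideal (𝓞 F)) (hQ : Q.IsPrime)
    (hlQ : (ℓ : 𝓞 F) ∈ Q) : Q.inertiaDeg ℤ = 1 := by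
  have hl : ℓ.Prime := Fact.out
  haveI := thB3_liesOver hl Q hQ hlQ
  haveI := th_isCyclotomicExtension_mul K F (thB3_ne hl1)
  have h := IsCyclotomicExtension.Rat.inertiaDeg_eq (p * ℓ) (m := p) (p := ℓ) (k := 0) F Q
    (by ring) (thB3_not_dvd hl1)
  rw [h, orderOf_eq_one_iff]
  have : ((ℓ % p : ℕ) : ZMod p) = (ℓ : ZMod p) := ZMod.natCast_mod ℓ p
  rw [← this, hl1, Nat.cast_one]

include hpF hlF hK hF in
/-- (TH-B4) `1 - ζ_ℓ` is a uniformizer at every prime of `F` over `ℓ`. -/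
theorem thB3_unif (hl1 : ℓ % p = 1) : ThUnifStatement ℓ F := by
  have hl : ℓ.Prime := Fact.out
  intro Q hQ hlQ η hη
  exact ⟨thB3_one_sub_mem hl Q hQ hlQ η hη.pow_eq_one,
    thB3_one_sub_not_mem_sq hl Q hQ hlQ (thB3_ramificationIdx K F hl1 Q hQ hlQ) η hη⟩

include hpF hlF hK hF in
/-- The residue field of a prime of `F` over `ℓ` is the prime field. -/
theorem thB3_exists_nat_sub_mem (hl1 : ℓ % p = 1) (Q : Ideal (𝓞 F)) (hQ : Q.IsPrime)
    (hlQ : (ℓ : 𝓞 F) ∈ Q) (x : 𝓞 F) : ∃ n : ℕ, x - (n : 𝓞 F) ∈ Q := by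
  have hl : ℓ.Prime := Fact.out
  haveI := thB3_liesOver hl Q hQ hlQ
  have hN : Ideal.absNorm Q = ℓ := by
    rw [← Ideal.pow_inertiaDeg ℓ Q, thB3_inertiaDeg K F hl1 Q hQ hlQ, pow_one]
  have hcard : Nat.card (𝓞 F ⧸ Q) = ℓ := by
    rw [← hN, Ideal.absNorm_apply, Submodule.cardQuot_apply]
  haveI : Finite (𝓞 F ⧸ Q) := Nat.finite_of_card_ne_zero (by rw [hcard]; exact hl.ne_zero)
  letI : Fintype (𝓞 F ⧸ Q) := Fintype.ofFinite _
  have hcard' : Fintype.card (𝓞 F ⧸ Q) = ℓ := by rw [← Nat.card_eq_fintype_card, hcard]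
  let e := ZMod.ringEquivOfPrime (𝓞 F ⧸ Q) hl hcard'
  refine ⟨(e.symm (Ideal.Quotient.mk Q x)).val, ?_⟩
  rw [← Ideal.Quotient.eq_zero_iff_mem, map_sub, map_natCast, sub_eq_zero]
  have h1 : e (e.symm (Ideal.Quotient.mk Q x)) = Ideal.Quotient.mk Q x := e.apply_symm_apply _
  rw [← h1]
  conv_lhs => rw [← ZMod.natCast_zmod_val (e.symm (Ideal.Quotient.mk Q x))]
  rw [map_natCast]
  simp

end cyclo

section totram

variable {p ℓ : ℕ} [hpF : Fact p.Prime] [hlF : Fact ℓ.Prime] (K F : Type) [Field K] [NumberField K]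
  [Field F] [NumberField F] [Algebra K F] [hK : IsCyclotomicExtension {p} ℚ K]
  [hF : IsCyclotomicExtension {ℓ} K F]

include hpF hlF hK hF in
/-- The ramification index over `𝓞 K` of a prime of `F` over `ℓ` is `ℓ - 1 = [F : K]`. -/
theorem thB3_ramificationIdx_rel (hl1 : ℓ % p = 1) (Q : Ideal (𝓞 F)) (hQ : Q.IsPrime)
    (hlQ : (ℓ : 𝓞 F) ∈ Q) : Q.ramificationIdx (𝓞 K) = ℓ - 1 := by
  have hl : ℓ.Prime := Fact.out
  have hp : p.Prime := Fact.out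
  haveI : NeZero p := ⟨hp.ne_zero⟩
  have hlq : (ℓ : 𝓞 K) ∈ Q.under (𝓞 K) := by
    rw [Ideal.under_def, Ideal.mem_comap, map_natCast]; exact hlQ
  haveI hqprime : (Q.under (𝓞 K)).IsPrime := Ideal.IsPrime.under (𝓞 K) Q
  haveI := thB3_liesOver hl (Q.under (𝓞 K)) hqprime hlq
  haveI : Q.LiesOver (Q.under (𝓞 K)) := ⟨rfl⟩
  have h1 := thB3_ramificationIdx K F hl1 Q hQ hlQ
  have h2 := IsCyclotomicExtension.Rat.ramificationIdx_eq_of_not_dvd (m := p) ℓ K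
    (Q.under (𝓞 K)) (thB3_not_dvd hl1)
  have h3 := Ideal.ramificationIdx_tower (R := ℤ) (Q.under (𝓞 K)) Q
  rw [h1, h2, one_mul] at h3
  exact h3.symm

include hpF hlF hK hF in
/-- (TH-B3) the primes of `K` over `ℓ` are totally ramified in `F`. -/
theorem thB_totRam (hl1 : ℓ % p = 1) : ThTotRamStatement ℓ K F := by
  have hl : ℓ.Prime := Fact.out
  intro Q hQ hlQ
  refine ⟨fun Q' hQ' hQQ' => ?_, fun x => ?_⟩
  · by_contra hne
    have hlq : (ℓ : 𝓞 K) ∈ Q.under (𝓞 K) := by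
      rw [Ideal.under_def, Ideal.mem_comap, map_natCast]; exact hlQ
    have hlQ' : (ℓ : 𝓞 F) ∈ Q' := by
      rw [← hQQ', Ideal.under_def, Ideal.mem_comap, map_natCast] at hlq; exact hlq
    haveI hqprime : (Q.under (𝓞 K)).IsPrime := Ideal.IsPrime.under (𝓞 K) Q
    haveI : Q.LiesOver (Q.under (𝓞 K)) := ⟨rfl⟩
    haveI : Q'.LiesOver (Q.under (𝓞 K)) := ⟨hQQ'.symm⟩
    have he := thB3_ramificationIdx_rel K F hl1 Q hQ hlQ
    have he' := thB3_ramificationIdx_rel K F hl1 Q' hQ' hlQ'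
    have hf : 0 < Q.inertiaDeg (𝓞 K) := Ideal.inertiaDeg_pos Q (𝓞 K)
    have hf' : 0 < Q'.inertiaDeg (𝓞 K) := Ideal.inertiaDeg_pos Q' (𝓞 K)
    letI : Fintype ((Q.under (𝓞 K)).primesOver (𝓞 F)) :=
      (Algebra.QuasiFinite.finite_primesOver (S := 𝓞 F) (Q.under (𝓞 K))).fintype
    have hsum := Ideal.sum_ramification_inertia_eq_finrank (Q.under (𝓞 K)) (𝓞 F)
    have hrank : Module.finrank (𝓞 K) (𝓞 F) = ℓ - 1 := by
      rw [← th_finrank K F (thB3_ne hl1)]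
      exact (IsFractionRing.finrank_eq (𝓞 K) K (𝓞 F) F).symm
    rw [hrank] at hsum
    let a : (Q.under (𝓞 K)).primesOver (𝓞 F) := ⟨Q, hQ, inferInstance⟩
    let b : (Q.under (𝓞 K)).primesOver (𝓞 F) := ⟨Q', hQ', inferInstance⟩
    have hab : a ≠ b := fun h => hne (congrArg Subtype.val h).symm
    have hle : ∑ q ∈ ({a, b} : Finset ((Q.under (𝓞 K)).primesOver (𝓞 F))),
        q.1.ramificationIdx (𝓞 K) * q.1.inertiaDeg (𝓞 K) ≤
        ∑ q : (Q.under (𝓞 K)).primesOver (𝓞 F),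
          q.1.ramificationIdx (𝓞 K) * q.1.inertiaDeg (𝓞 K) :=
      Finset.sum_le_sum_of_subset (Finset.subset_univ _)
    rw [Finset.sum_pair hab, hsum] at hle
    change Q.ramificationIdx (𝓞 K) * Q.inertiaDeg (𝓞 K) +
      Q'.ramificationIdx (𝓞 K) * Q'.inertiaDeg (𝓞 K) ≤ ℓ - 1 at hle
    rw [he, he'] at hle
    have h1 : 1 < ℓ := hl.one_lt
    have h2 : ℓ - 1 ≤ (ℓ - 1) * Q.inertiaDeg (𝓞 K) := Nat.le_mul_of_pos_right _ hf
    have h3 : ℓ - 1 ≤ (ℓ - 1) * Q'.inertiaDeg (𝓞 K) := Nat.le_mul_of_pos_right _ hf'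
    omega
  · obtain ⟨n, hn⟩ := thB3_exists_nat_sub_mem K F hl1 Q hQ hlQ x
    exact ⟨(n : 𝓞 K), by rw [map_natCast]; exact hn⟩

end totram

section package

variable {p ℓ : ℕ} [hpF : Fact p.Prime] [hlF : Fact ℓ.Prime] (K F : Type) [Field K] [NumberField K]
  [Field F] [NumberField F] [Algebra K F] [hK : IsCyclotomicExtension {p} ℚ K]
  [hF : IsCyclotomicExtension {ℓ} K F]

include hpF hlF hK hF in
/-- (TH-B3) and (TH-B4) together, in the shape of the last two components of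
`ThRamPackageStatement`. -/
theorem thB3_totRam_unif (hl1 : ℓ % p = 1) : ThTotRamStatement ℓ K F ∧ ThUnifStatement ℓ F :=
  ⟨thB_totRam K F hl1, thB3_unif K F hl1⟩

end package

end Fermat.Agent.S14
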