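import Mathlib
import Fermat.Agent.S14.Defs
import Fermat.Agent.S14.ThaineDefs
import Fermat.Agent.S14.ThaineField
import Fermat.Agent.S14.ThaineGlobal
import Fermat.Agent.S14.ThaineNorm
import Fermat.Agent.S14.ThainePow
import Fermat.Agent.S14.ThaineCongrNF
import Fermat.Agent.S14.ThaineRam
import Fermat.Agent.S14.ThaineTotRam

set_option autoImplicit false
set_option linter.style.haveILetI false
open scoped NumberField Pointwise nonZeroDivisors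
open IsDedekindDomain

/-!
# S14 (TH): Thaine's relation

Assembly of the local and global pieces: for a prime `ℓ ≡ 1 mod p` and a prime `λ ∣ ℓ` of
`K = ℚ(ζ_p)`, the norm `b` of the Hilbert-90 element `β` of `F = K(ζ_ℓ)` satisfies
`(b) ∏_σ σ(λ)^((ℓ-2) r_σ) = I^(ℓ-1)` and `g^((ℓ-2) r_σ) ≡ 1 - ζ mod σ(λ)`.
-/

namespace Fermat.Agent.S14

section assembly
variable {p ℓ : ℕ} [hpF : Fact p.Prime] [hlF : Fact ℓ.Prime] {K F : Type} [Field K] [NumberField K]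
  [hK : IsCyclotomicExtension {p} ℚ K] [Field F] [NumberField F] [Algebra K F]
  [hF : IsCyclotomicExtension {ℓ} K F]

omit hpF hlF hK hF in
/-- A prime of `𝓞 F` over a given nonzero prime of `𝓞 K`. -/
theorem thaine_exists_over (v : HeightOneSpectrum (𝓞 K)) :
    ∃ w : HeightOneSpectrum (𝓞 F), w.asIdeal.LiesOver v.asIdeal := by
  obtain ⟨⟨Q, hQ, hQo⟩⟩ := (inferInstance : Nonempty (Ideal.primesOver v.asIdeal (𝓞 F)))
  have hQ0 : Q ≠ ⊥ := Ideal.ne_bot_of_liesOver_of_ne_bot v.ne_bot Q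
  exact ⟨⟨Q, hQ, hQ0⟩, hQo⟩

omit [NumberField K] [NumberField F] in
theorem thaine_natCast_mem_iff (w : Ideal (𝓞 F)) (v : Ideal (𝓞 K))
    [hwv : w.LiesOver v] (n : ℕ) : (n : 𝓞 F) ∈ w ↔ (n : 𝓞 K) ∈ v := by
  rw [hwv.over, Ideal.under_def, Ideal.mem_comap, map_natCast]

include hpF hlF hK hF in
/-- The local-global assembly of Thaine's relation. -/
theorem thaine_assembly (hpl : p ≠ ℓ) (hl1 : ℓ % p = 1)
    (hB1 : ThRamStatement ℓ K F) (hB2 : ThSplitStatement ℓ K)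
    (hB3 : ThTotRamStatement ℓ K F) (hB4 : ThUnifStatement ℓ F)
    {ζ : K} (hζ : IsPrimitiveRoot ζ p) {η : F} (hη : IsPrimitiveRoot η ℓ)
    (τ : F ≃ₐ[K] F) (hτ : ∀ x, x ∈ Subgroup.zpowers τ) (g : ℕ)
    (hg : ∀ η' : F, η' ^ ℓ = 1 → τ η' = η' ^ g) (hgl : ¬ ℓ ∣ g)
    (β : 𝓞 F) (hβ0 : β ≠ 0)
    (hβ : haveI : NeZero p := ⟨(Fact.out : p.Prime).ne_zero⟩
      haveI : NeZero ℓ := ⟨(Fact.out : ℓ.Prime).ne_zero⟩
      (1 - algebraMap (𝓞 K) (𝓞 F) hζ.toInteger * hη.toInteger) *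
        galRestrict (𝓞 K) K F (𝓞 F) τ β = β)
    (lam : Ideal (𝓞 K)) (hlam : lam.IsPrime) (hl : (ℓ : 𝓞 K) ∈ lam) :
    haveI : NeZero p := ⟨(Fact.out : p.Prime).ne_zero⟩
    ∃ (n : (K ≃ₐ[ℚ] K) → ℕ) (g' : ℤ) (b₁ b₂ : 𝓞 K) (I₁ I₂ : Ideal (𝓞 K)),
      b₁ ≠ 0 ∧ b₂ ≠ 0 ∧ I₁ ≠ ⊥ ∧ I₂ ≠ ⊥ ∧
      Ideal.span {b₁} * I₁ ^ p * ∏ σ : K ≃ₐ[ℚ] K, (lam.map (galInt σ : 𝓞 K →+* 𝓞 K)) ^ n σ =
        Ideal.span {b₂} * I₂ ^ p ∧
      ∀ σ : K ≃ₐ[ℚ] K, (g' : 𝓞 K) ^ n σ - (1 - hζ.toInteger) ∈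
        lam.map (galInt σ : 𝓞 K →+* 𝓞 K) := by
  haveI : NeZero p := ⟨(Fact.out : p.Prime).ne_zero⟩
  haveI : NeZero ℓ := ⟨(Fact.out : ℓ.Prime).ne_zero⟩
  have hp : p.Prime := Fact.out
  have hℓ : ℓ.Prime := Fact.out
  haveI : FiniteDimensional K F := IsCyclotomicExtension.finiteDimensional {ℓ} K F
  have hξ := thN_isUnit_xi hpl hl1 hζ hη
  set ξ : 𝓞 F := 1 - algebraMap (𝓞 K) (𝓞 F) hζ.toInteger * hη.toInteger with hξdef
  set b : 𝓞 K := Algebra.intNorm (𝓞 K) (𝓞 F) β with hbdef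
  have hb : b ≠ 0 := Algebra.intNorm_ne_zero.mpr hβ0
  obtain ⟨htrans, hinj⟩ := hB2 lam hlam hl
  -- the primes `σ(λ)`
  have hprime : ∀ σ : K ≃ₐ[ℚ] K, (lam.map (galInt σ : 𝓞 K →+* 𝓞 K)).IsPrime := fun σ =>
    Ideal.map_isPrime_of_equiv (galInt σ)
  have hmemσ : ∀ σ : K ≃ₐ[ℚ] K, (ℓ : 𝓞 K) ∈ lam.map (galInt σ : 𝓞 K →+* 𝓞 K) := fun σ =>
    thB_natCast_mem_map_galInt σ hl
  have hne : ∀ σ : K ≃ₐ[ℚ] K, lam.map (galInt σ : 𝓞 K →+* 𝓞 K) ≠ ⊥ := by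
    intro σ h0
    have := hmemσ σ
    rw [h0, Ideal.mem_bot] at this
    exact hℓ.ne_zero (by exact_mod_cast this)
  let P : (K ≃ₐ[ℚ] K) → HeightOneSpectrum (𝓞 K) := fun σ =>
    ⟨lam.map (galInt σ : 𝓞 K →+* 𝓞 K), hprime σ, hne σ⟩
  have hP : Function.Injective P := by
    intro σ σ' h
    exact hinj (congrArg HeightOneSpectrum.asIdeal h)
  let r : (K ≃ₐ[ℚ] K) → ℕ := fun σ => thI_count (P σ) (Ideal.span {b})
  have hr : ∀ σ, (P σ).intValuation b = WithZero.exp (-(r σ : ℤ)) := fun σ =>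
    thI_intValuation_eq (P σ) hb
  have hpos : 0 < ℓ - 1 := by have := hℓ.two_le; omega
  -- primes not above `ℓ`
  have hother : ∀ v : HeightOneSpectrum (𝓞 K), (∀ σ, P σ ≠ v) →
      ∃ m : ℕ, v.intValuation b = WithZero.exp (-(((ℓ - 1) * m : ℕ) : ℤ)) := by
    intro v hv
    have hlv : (ℓ : 𝓞 K) ∉ v.asIdeal := by
      intro hmem
      obtain ⟨σ, hσ⟩ := htrans v.asIdeal v.isPrime hmem
      exact hv σ (HeightOneSpectrum.ext hσ.symm)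
    obtain ⟨w, hwv⟩ := thaine_exists_over (F := F) v
    have hlw : (ℓ : 𝓞 F) ∉ w.asIdeal := by
      rw [thaine_natCast_mem_iff w.asIdeal v.asIdeal]
      exact hlv
    have h2 := (thN_valuation (p := p) hpl hB1 τ hτ ξ β hξ hβ w v hwv).2 hlw
    refine ⟨thI_count w (Ideal.span {β}), ?_⟩
    rw [← hbdef] at h2
    rw [h2, thI_intValuation_eq w hβ0, ← WithZero.exp_nsmul]
    congr 1
    push_cast
    ring
  obtain ⟨I, hI0, hI⟩ := thA_exists_pow P hP b hb (ℓ - 1) hpos r hr hother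
  have hdvd : p ∣ ℓ - 1 := by
    have := Nat.dvd_sub_mod (n := p) ℓ
    rwa [hl1] at this
  refine ⟨fun σ => (ℓ - 2) * r σ, (g : ℤ), b, 1, ⊤, I ^ ((ℓ - 1) / p), hb, one_ne_zero,
    top_ne_bot, pow_ne_zero _ hI0, ?_, ?_⟩
  · have h12 : ℓ - 1 - 1 = ℓ - 2 := by omega
    rw [h12] at hI
    rw [Ideal.top_pow, Ideal.mul_top, Ideal.span_singleton_one, Ideal.top_mul, ← pow_mul,
      Nat.div_mul_cancel hdvd]
    exact hI
  · intro σ
    obtain ⟨w, hwv⟩ := thaine_exists_over (F := F) (P σ)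
    have hlw : (ℓ : 𝓞 F) ∈ w.asIdeal := by
      rw [thaine_natCast_mem_iff w.asIdeal (P σ).asIdeal]
      exact hmemσ σ
    have h1 := (thN_valuation (p := p) hpl hB1 τ hτ ξ β hξ hβ w (P σ) hwv).1 hlw
    rw [← hbdef, hr σ] at h1
    have hr1 : β ∈ w.asIdeal ^ (r σ) := by
      rw [← w.intValuation_le_pow_iff_mem, ← h1]
    have hr2 : β ∉ w.asIdeal ^ (r σ + 1) := by
      rw [← w.intValuation_le_pow_iff_mem, ← h1, WithZero.exp_le_exp]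
      push_cast
      omega
    haveI := w.isPrime
    have := thY_congr hB3 hB4 hζ hη τ g hg hgl β hβ0 hβ w.asIdeal hlw (r σ) hr1 hr2
    rw [← hwv.over] at this
    exact this

end assembly

/-- **(TH)** Thaine's relation. -/
theorem thaine (p : ℕ) [Fact p.Prime] : ThaineStatement p := by
  intro K _ _ _ ζ hζ ℓ hℓ hl1 lam hlam hl
  haveI : Fact ℓ.Prime := ⟨hℓ⟩
  haveI : NeZero ℓ := ⟨hℓ.ne_zero⟩
  have hpl : p ≠ ℓ := by
    rintro rfl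
    rw [Nat.mod_self] at hl1
    exact zero_ne_one hl1
  have hB1 : ThRamStatement ℓ K (CyclotomicField ℓ K) := thB_ram (p := p) hl1
  have hB2 : ThSplitStatement ℓ K := thB_split (p := p) hl1
  obtain ⟨hB3, hB4⟩ := thB3_totRam_unif (p := p) K (CyclotomicField ℓ K) hl1
  obtain ⟨τ, g, hτ, hg, hgl⟩ := th_exists_generator (p := p) K (CyclotomicField ℓ K) hpl
  have hη := IsCyclotomicExtension.zeta_spec ℓ K (CyclotomicField ℓ K)
  obtain ⟨β, hβ0, hβ⟩ := th_hilbert90 hpl hl1 hζ hη τ hτ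
  exact thaine_assembly hpl hl1 hB1 hB2 hB3 hB4 hζ hη τ hτ g hg hgl β hβ0 hβ lam hlam hl

end Fermat.Agent.S14
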