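import Mathlib

/-!
# S14 / units package, linear algebra step

A matrix `A` of size `r = n - 1` with `A ^ n = 1` and `tr (A ^ i) = -1` for `0 < i < n`
(the shape of the action of a cyclic group of order `n` on the trace-zero hyperplane of its
regular representation) has one-dimensional eigenspaces for every `n`-th root of unity `t ≠ 1`.
-/

set_option autoImplicit false

namespace Fermat.Agent.S14

namespace UnitsLinAlg

open Finset

variable {k : Type*} [Field k]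

/-- The averaging operator `n⁻¹ ∑_{i<n} t⁻ⁱ Aⁱ`. -/
noncomputable def avg {r : ℕ} (A : Matrix (Fin r) (Fin r) k) (n : ℕ) (t : k) :
    Matrix (Fin r) (Fin r) k :=
  (n : k)⁻¹ • ∑ i ∈ range n, (t⁻¹) ^ i • A ^ i

theorem geom_sum_eq_zero_of_pow_eq_one {s : k} {n : ℕ} (hs : s ^ n = 1) (hs1 : s ≠ 1) :
    ∑ i ∈ range n, s ^ i = 0 := by
  have h := mul_geom_sum s n
  rw [hs, sub_self] at h
  exact (mul_eq_zero.mp h).resolve_left (sub_ne_zero.mpr hs1)

theorem trace_avg {r n : ℕ} (A : Matrix (Fin r) (Fin r) k) (hn : (n : k) ≠ 0)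
    (hr : r + 1 = n) (htr : ∀ i, 0 < i → i < n → (A ^ i).trace = -1)
    (t : k) (ht : t ^ n = 1) (ht1 : t ≠ 1) : (avg A n t).trace = 1 := by
  have hs : (t⁻¹) ^ n = 1 := by rw [inv_pow, ht, inv_one]
  have hs1 : t⁻¹ ≠ 1 := fun h => ht1 (by simpa using h)
  have hgeom := geom_sum_eq_zero_of_pow_eq_one hs hs1
  have h1 : ∀ i ∈ range n, ((t⁻¹) ^ i • A ^ i).trace =
      (if i = 0 then (n : k) else 0) - (t⁻¹) ^ i := by
    intro i hi
    rw [Matrix.trace_smul]
    rcases Nat.eq_zero_or_pos i with h0 | h0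
    · subst h0
      simp only [pow_zero, Matrix.trace_one, Fintype.card_fin, smul_eq_mul, one_mul, if_true]
      rw [← hr]
      push_cast
      ring
    · rw [htr i h0 (mem_range.mp hi), if_neg h0.ne']
      simp
  rw [avg, Matrix.trace_smul, Matrix.trace_sum, sum_congr rfl h1, sum_sub_distrib, hgeom,
    sub_zero, sum_ite_eq' (range n) 0 (fun _ => (n : k)), if_pos (mem_range.mpr (by omega)),
    smul_eq_mul, inv_mul_cancel₀ hn]

theorem mul_avg {r n : ℕ} (A : Matrix (Fin r) (Fin r) k)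
    (hA : A ^ n = 1) (t : k) (ht : t ^ n = 1) (ht0 : t ≠ 0) :
    A * avg A n t = t • avg A n t := by
  rcases Nat.eq_zero_or_pos n with h0 | hpos
  · subst h0; simp [avg]
  have key : A * ∑ i ∈ range n, (t⁻¹) ^ i • A ^ i = t • ∑ i ∈ range n, (t⁻¹) ^ i • A ^ i := by
    obtain ⟨m, rfl⟩ : ∃ m, n = m + 1 := ⟨n - 1, by omega⟩
    rw [Finset.mul_sum, Finset.smul_sum]
    -- left: ∑_{i<m+1} t⁻ⁱ A^{i+1};  right: ∑_{i<m+1} t^{1-i} A^i
    have hL : ∀ i ∈ range (m + 1), A * ((t⁻¹) ^ i • A ^ i) = t • ((t⁻¹) ^ (i + 1) • A ^ (i + 1)) := by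
      intro i _
      have hsc : t * (t⁻¹) ^ (i + 1) = (t⁻¹) ^ i := by
        rw [pow_succ, mul_comm, mul_assoc, inv_mul_cancel₀ ht0, mul_one]
      rw [Matrix.mul_smul, ← pow_succ', smul_smul, hsc]
    rw [sum_congr rfl hL, ← Finset.smul_sum, ← Finset.smul_sum]
    congr 1
    rw [sum_range_succ (fun i => (t⁻¹) ^ (i + 1) • A ^ (i + 1)), sum_range_succ'
      (fun i => (t⁻¹) ^ i • A ^ i)]
    congr 1
    rw [hA, inv_pow, ht]
    simp
  rw [avg, Matrix.mul_smul, key, smul_comm]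

theorem avg_mulVec_of_eigen {r n : ℕ} (A : Matrix (Fin r) (Fin r) k) (hn : (n : k) ≠ 0)
    (t : k) (ht0 : t ≠ 0) (e : Fin r → k) (he : A.mulVec e = t • e) :
    (avg A n t).mulVec e = e := by
  have hpow : ∀ i : ℕ, (A ^ i).mulVec e = t ^ i • e := by
    intro i
    induction i with
    | zero => simp
    | succ i ih =>
      rw [pow_succ, ← Matrix.mulVec_mulVec, he, Matrix.mulVec_smul, ih, smul_smul, pow_succ,
        mul_comm]
  rw [avg, Matrix.smul_mulVec, Matrix.sum_mulVec]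
  have : ∀ i ∈ range n, ((t⁻¹) ^ i • A ^ i).mulVec e = e := by
    intro i _
    rw [Matrix.smul_mulVec, hpow, smul_smul, ← mul_pow, inv_mul_cancel₀ ht0, one_pow, one_smul]
  rw [sum_congr rfl this, sum_const, card_range, ← Nat.cast_smul_eq_nsmul k, smul_smul,
    inv_mul_cancel₀ hn, one_smul]

/-- The eigenspace of `A` for the eigenvalue `t`. -/
def eigen {r : ℕ} (A : Matrix (Fin r) (Fin r) k) (t : k) : Submodule k (Fin r → k) where
  carrier := {e | A.mulVec e = t • e}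
  add_mem' := by
    intro a b ha hb
    simp only [Set.mem_setOf_eq] at ha hb ⊢
    rw [Matrix.mulVec_add, ha, hb, smul_add]
  zero_mem' := by simp
  smul_mem' := by
    intro c a ha
    simp only [Set.mem_setOf_eq] at ha ⊢
    rw [Matrix.mulVec_smul, ha, smul_comm]

theorem isProj_avg {r n : ℕ} (A : Matrix (Fin r) (Fin r) k) (hn : (n : k) ≠ 0)
    (hA : A ^ n = 1) (t : k) (ht : t ^ n = 1) (ht0 : t ≠ 0) :
    LinearMap.IsProj (eigen A t) (Matrix.toLin' (avg A n t)) where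
  map_mem := by
    intro x
    show A.mulVec ((Matrix.toLin' (avg A n t)) x) = t • (Matrix.toLin' (avg A n t)) x
    rw [Matrix.toLin'_apply, Matrix.mulVec_mulVec, mul_avg A hA t ht ht0, Matrix.smul_mulVec]
  map_id := by
    intro x hx
    rw [Matrix.toLin'_apply]
    exact avg_mulVec_of_eigen A hn t ht0 x hx

theorem finrank_eigen_eq_one {r n : ℕ} (A : Matrix (Fin r) (Fin r) k) (hn : (n : k) ≠ 0)
    (hr : r + 1 = n) (hchar : ∀ m : ℕ, m ≤ r → (m : k) = 1 → m = 1)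
    (hA : A ^ n = 1) (htr : ∀ i, 0 < i → i < n → (A ^ i).trace = -1)
    (t : k) (ht : t ^ n = 1) (ht1 : t ≠ 1) :
    Module.finrank k (eigen A t) = 1 := by
  have ht0 : t ≠ 0 := by
    rintro rfl
    rw [zero_pow (by omega)] at ht
    exact zero_ne_one ht
  have hproj := isProj_avg A hn hA t ht ht0
  have h1 := hproj.trace
  rw [Matrix.trace_toLin'_eq, trace_avg A hn hr htr t ht ht1] at h1
  refine hchar _ ?_ h1.symm
  calc Module.finrank k (eigen A t) ≤ Module.finrank k (Fin r → k) := Submodule.finrank_le _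
    _ = r := by simp

/-- Two eigenvectors of `A` for the eigenvalue `t` are linearly dependent. -/
theorem exists_smul_add_smul_eq_zero {r n : ℕ} (A : Matrix (Fin r) (Fin r) k) (hn : (n : k) ≠ 0)
    (hr : r + 1 = n) (hchar : ∀ m : ℕ, m ≤ r → (m : k) = 1 → m = 1)
    (hA : A ^ n = 1) (htr : ∀ i, 0 < i → i < n → (A ^ i).trace = -1)
    (t : k) (ht : t ^ n = 1) (ht1 : t ≠ 1) (e₁ e₂ : Fin r → k)
    (h₁ : A.mulVec e₁ = t • e₁) (h₂ : A.mulVec e₂ = t • e₂) :
    ∃ a b : k, (a ≠ 0 ∨ b ≠ 0) ∧ a • e₁ + b • e₂ = 0 := by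
  have hfr := finrank_eigen_eq_one A hn hr hchar hA htr t ht ht1
  obtain ⟨v, hv0, hv⟩ := finrank_eq_one_iff'.mp hfr
  obtain ⟨c₁, hc₁⟩ := hv ⟨e₁, h₁⟩
  obtain ⟨c₂, hc₂⟩ := hv ⟨e₂, h₂⟩
  have hc₁' : c₁ • (v : Fin r → k) = e₁ := congrArg Subtype.val hc₁
  have hc₂' : c₂ • (v : Fin r → k) = e₂ := congrArg Subtype.val hc₂
  by_cases hc : c₁ = 0 ∧ c₂ = 0
  · refine ⟨1, 0, Or.inl one_ne_zero, ?_⟩
    rw [← hc₁', hc.1]
    simp
  · refine ⟨c₂, -c₁, ?_, ?_⟩
    · by_contra h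
      push Not at h
      exact hc ⟨by simpa using h.2, h.1⟩
    · rw [← hc₁', ← hc₂', smul_smul, smul_smul, neg_mul, neg_smul, mul_comm, add_neg_cancel]

end UnitsLinAlg

end Fermat.Agent.S14
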