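import Mathlib
import Fermat.Agent.S14.UnitsLinAlg

/-!
# S14 / units package: the Galois action on the units modulo torsion

For a number field `K`, Galois over `ℚ`, every `σ ∈ Gal(K/ℚ)` acts on `(𝓞 K)ˣ / torsion ≅ ℤ^r`
by an integer matrix `galMat σ` (in the basis given by a fundamental system of units) and
`tr (galMat σ) = #{infinite places fixed by σ} - 1`.
-/

set_option autoImplicit false
set_option maxSynthPendingDepth 3

open scoped NumberField

namespace Fermat.Agent.S14

namespace UnitsRank

open NumberField NumberField.Units NumberField.InfinitePlace Module Finset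

set_option linter.unusedSectionVars false

variable {K : Type*} [Field K] [NumberField K]

/-- The action of `σ` on the units of `𝓞 K`. -/
noncomputable def unitsMap (σ : K ≃ₐ[ℚ] K) : (𝓞 K)ˣ →* (𝓞 K)ˣ :=
  Units.map (RingOfIntegers.mapRingHom (σ : K →+* K) : 𝓞 K →* 𝓞 K)

theorem coe_unitsMap (σ : K ≃ₐ[ℚ] K) (u : (𝓞 K)ˣ) :
    (((unitsMap σ u : (𝓞 K)ˣ) : 𝓞 K) : K) = σ ((u : 𝓞 K) : K) := rfl

theorem unitsMap_one (u : (𝓞 K)ˣ) : unitsMap (1 : K ≃ₐ[ℚ] K) u = u := by
  ext; rfl

theorem unitsMap_mul (σ τ : K ≃ₐ[ℚ] K) (u : (𝓞 K)ˣ) :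
    unitsMap (σ * τ) u = unitsMap σ (unitsMap τ u) := by
  ext; rfl

/-- The logarithms of the absolute values of a unit at all infinite places. -/
noncomputable def logAll (u : (𝓞 K)ˣ) : InfinitePlace K → ℝ :=
  fun w => Real.log (w ((u : 𝓞 K) : K))

theorem logAll_one : logAll (1 : (𝓞 K)ˣ) = 0 := by
  ext w; simp [logAll]

theorem logAll_mul (u v : (𝓞 K)ˣ) : logAll (u * v) = logAll u + logAll v := by
  ext w
  simp only [logAll, Units.val_mul, map_mul, Pi.add_apply]
  exact Real.log_mul (pos_at_place u w).ne' (pos_at_place v w).ne'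

theorem logAll_inv (u : (𝓞 K)ˣ) : logAll u⁻¹ = -logAll u := by
  have h := logAll_mul u u⁻¹
  rw [mul_inv_cancel, logAll_one] at h
  exact eq_neg_of_add_eq_zero_right h.symm

theorem logAll_pow (u : (𝓞 K)ˣ) (n : ℕ) : logAll (u ^ n) = (n : ℝ) • logAll u := by
  induction n with
  | zero => simp [logAll_one]
  | succ n ih => rw [pow_succ, logAll_mul, ih]; push_cast; rw [add_smul, one_smul]

theorem logAll_zpow (u : (𝓞 K)ˣ) (n : ℤ) : logAll (u ^ n) = (n : ℝ) • logAll u := by
  cases n with
  | ofNat n => simpa using logAll_pow u n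
  | negSucc n =>
    rw [zpow_negSucc, logAll_inv, logAll_pow]
    simp only [Int.cast_negSucc, neg_smul]

theorem logAll_prod {ι : Type*} (s : Finset ι) (f : ι → (𝓞 K)ˣ) :
    logAll (∏ i ∈ s, f i) = ∑ i ∈ s, logAll (f i) := by
  classical
  induction s using Finset.induction_on with
  | empty => simp [logAll_one]
  | insert a s ha ih => rw [prod_insert ha, sum_insert ha, logAll_mul, ih]

theorem logAll_eq_zero_iff {u : (𝓞 K)ˣ} : logAll u = 0 ↔ u ∈ torsion K := by
  rw [mem_torsion]
  constructor
  · intro h w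
    have hw := congrFun h w
    simp only [logAll, Pi.zero_apply] at hw
    have hpos := pos_at_place u w
    rcases Real.log_eq_zero.mp hw with h0 | h1 | h2
    · exact absurd h0 hpos.ne'
    · exact h1
    · linarith
  · intro h
    ext w
    simp [logAll, h w]

theorem logAll_unitsMap (σ : K ≃ₐ[ℚ] K) (u : (𝓞 K)ˣ) (w : InfinitePlace K) :
    logAll (unitsMap σ u) w = logAll u (σ⁻¹ • w) := by
  simp only [logAll, coe_unitsMap, InfinitePlace.smul_apply]
  rfl

theorem unitsMap_mem_torsion (σ : K ≃ₐ[ℚ] K) {u : (𝓞 K)ˣ} (hu : u ∈ torsion K) :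
    unitsMap σ u ∈ torsion K := by
  rw [← logAll_eq_zero_iff] at hu ⊢
  ext w
  rw [logAll_unitsMap, hu]
  rfl

/-! ### Exponent vectors -/

/-- The exponent vector of a unit with respect to the fundamental system. -/
noncomputable def expo (u : (𝓞 K)ˣ) : Fin (rank K) → ℤ :=
  (basisModTorsion K).repr (Additive.ofMul (QuotientGroup.mk u))

theorem expo_mul (u v : (𝓞 K)ˣ) : expo (u * v) = expo u + expo v := by
  ext i
  simp only [expo, QuotientGroup.mk_mul, ofMul_mul, map_add, Finsupp.coe_add, Pi.add_apply]

theorem expo_one : expo (1 : (𝓞 K)ˣ) = 0 := by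
  ext i
  simp [expo]

theorem expo_eq_zero_iff {u : (𝓞 K)ˣ} : expo u = 0 ↔ u ∈ torsion K := by
  rw [expo]
  constructor
  · intro h
    have h' : (basisModTorsion K).repr (Additive.ofMul (QuotientGroup.mk u)) = 0 := by
      ext i; exact congrFun h i
    rw [LinearEquiv.map_eq_zero_iff] at h'
    exact (QuotientGroup.eq_one_iff u).mp (by simpa using h')
  · intro h
    have : (QuotientGroup.mk u : (𝓞 K)ˣ ⧸ torsion K) = 1 := (QuotientGroup.eq_one_iff u).mpr h
    rw [this]
    simp

theorem expo_pow (u : (𝓞 K)ˣ) (n : ℕ) : expo (u ^ n) = (n : ℤ) • expo u := by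
  induction n with
  | zero => simp [expo_one]
  | succ n ih => rw [pow_succ, expo_mul, ih]; push_cast; rw [add_smul, one_smul]

theorem expo_inv (u : (𝓞 K)ˣ) : expo u⁻¹ = -expo u := by
  have h := expo_mul u u⁻¹
  rw [mul_inv_cancel, expo_one] at h
  exact eq_neg_of_add_eq_zero_right h.symm

theorem expo_zpow (u : (𝓞 K)ˣ) (n : ℤ) : expo (u ^ n) = n • expo u := by
  cases n with
  | ofNat n => simpa using expo_pow u n
  | negSucc n =>
    rw [zpow_negSucc, expo_inv, expo_pow]
    simp only [Int.negSucc_eq, neg_smul]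
    push_cast
    ring_nf

theorem expo_prod {ι : Type*} (s : Finset ι) (f : ι → (𝓞 K)ˣ) :
    expo (∏ i ∈ s, f i) = ∑ i ∈ s, expo (f i) := by
  classical
  induction s using Finset.induction_on with
  | empty => simp [expo_one]
  | insert a s ha ih => rw [prod_insert ha, sum_insert ha, expo_mul, ih]

theorem expo_of_mem_torsion {u : (𝓞 K)ˣ} (hu : u ∈ torsion K) : expo u = 0 :=
  expo_eq_zero_iff.mpr hu

/-- Every unit is a torsion unit times the product of the fundamental units to the powers
given by its exponent vector. -/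
theorem exists_torsion_mul_prod (u : (𝓞 K)ˣ) :
    ∃ τ ∈ torsion K, u = τ * ∏ i, fundSystem K i ^ expo u i := by
  obtain ⟨⟨τ, e⟩, h, -⟩ := exist_unique_eq_mul_prod K u
  have he : e = expo u := fun_eq_repr K τ.2 h
  exact ⟨τ, τ.2, by rw [← he]; exact h⟩

theorem expo_fundSystem (j : Fin (rank K)) : expo (fundSystem K j) = Pi.single j 1 := by
  ext i
  rw [expo, fundSystem_mk, Basis.repr_self, Finsupp.single_apply, Pi.single_apply]
  simp [eq_comm]

/-- The logarithm vector of a unit in terms of its exponent vector. -/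
theorem logAll_eq_sum (u : (𝓞 K)ˣ) :
    logAll u = ∑ i, (expo u i : ℝ) • logAll (fundSystem K i) := by
  obtain ⟨τ, hτ, h⟩ := exists_torsion_mul_prod u
  conv_lhs => rw [h]
  rw [logAll_mul, logAll_eq_zero_iff.mpr hτ, zero_add, logAll_prod]
  exact sum_congr rfl fun i _ => logAll_zpow _ _

/-- Units with the same logarithms have the same exponents. -/
theorem expo_eq_of_logAll_eq {u v : (𝓞 K)ˣ} (h : logAll u = logAll v) : expo u = expo v := by
  have h1 : logAll (u * v⁻¹) = 0 := by rw [logAll_mul, logAll_inv, h, add_neg_cancel]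
  have h2 := expo_of_mem_torsion (logAll_eq_zero_iff.mp h1)
  rw [expo_mul, expo_inv] at h2
  exact sub_eq_zero.mp (by rw [sub_eq_add_neg]; exact h2)

/-! ### The matrix of `σ` -/

/-- The integer matrix of `σ` acting on units modulo torsion. -/
noncomputable def galMat (σ : K ≃ₐ[ℚ] K) : Matrix (Fin (rank K)) (Fin (rank K)) ℤ :=
  fun i j => expo (unitsMap σ (fundSystem K j)) i

theorem expo_unitsMap (σ : K ≃ₐ[ℚ] K) (u : (𝓞 K)ˣ) :
    expo (unitsMap σ u) = (galMat σ).mulVec (expo u) := by
  obtain ⟨τ, hτ, h⟩ := exists_torsion_mul_prod u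
  conv_lhs => rw [h]
  rw [map_mul, expo_mul, expo_of_mem_torsion (unitsMap_mem_torsion σ hτ), zero_add, map_prod,
    expo_prod]
  ext i
  simp only [map_zpow, expo_zpow, Finset.sum_apply, Pi.smul_apply, smul_eq_mul, Matrix.mulVec,
    dotProduct, galMat]
  exact sum_congr rfl fun j _ => mul_comm _ _

theorem galMat_mul (σ τ : K ≃ₐ[ℚ] K) : galMat (σ * τ) = galMat σ * galMat τ := by
  ext i j
  have h := congrFun (expo_unitsMap σ (unitsMap τ (fundSystem K j))) i
  rw [← unitsMap_mul] at h
  rw [galMat, h, Matrix.mul_apply]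
  rfl

theorem galMat_one : galMat (1 : K ≃ₐ[ℚ] K) = 1 := by
  ext i j
  rw [galMat, unitsMap_one, expo_fundSystem, Matrix.one_apply, Pi.single_apply]

theorem galMat_pow (σ : K ≃ₐ[ℚ] K) (n : ℕ) : galMat (σ ^ n) = galMat σ ^ n := by
  induction n with
  | zero => simp [galMat_one]
  | succ n ih => rw [pow_succ, galMat_mul, ih, pow_succ]

/-- If `σ` fixes all infinite places, it acts trivially on units modulo torsion. -/
theorem galMat_eq_one_of_forall_smul_eq (σ : K ≃ₐ[ℚ] K)
    (h : ∀ w : InfinitePlace K, σ • w = w) : galMat σ = 1 := by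
  have h' : ∀ w : InfinitePlace K, σ⁻¹ • w = w := fun w => by
    conv_lhs => rw [← h w]
    rw [inv_smul_smul]
  rw [← galMat_one]
  ext i j
  rw [galMat, galMat, unitsMap_one]
  refine congrFun (expo_eq_of_logAll_eq ?_) i
  ext w
  rw [logAll_unitsMap, h']

/-! ### The trace formula -/

/-- The permutation operator on functions on the infinite places. -/
noncomputable def permOp (σ : K ≃ₐ[ℚ] K) :
    (InfinitePlace K → ℝ) →ₗ[ℝ] (InfinitePlace K → ℝ) :=
  LinearMap.funLeft ℝ ℝ (fun w => σ⁻¹ • w)

theorem permOp_apply (σ : K ≃ₐ[ℚ] K) (x : InfinitePlace K → ℝ) (w : InfinitePlace K) :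
    permOp σ x w = x (σ⁻¹ • w) := rfl

theorem permOp_logAll (σ : K ≃ₐ[ℚ] K) (u : (𝓞 K)ˣ) :
    permOp σ (logAll u) = logAll (unitsMap σ u) := by
  ext w
  rw [permOp_apply, logAll_unitsMap]

open scoped Classical in
theorem trace_permOp (σ : K ≃ₐ[ℚ] K) :
    LinearMap.trace ℝ _ (permOp σ) =
      ((Finset.univ.filter fun w : InfinitePlace K => σ • w = w).card : ℝ) := by
  rw [LinearMap.trace_eq_matrix_trace ℝ (Pi.basisFun ℝ (InfinitePlace K)), Matrix.trace]
  simp only [Matrix.diag_apply, LinearMap.toMatrix_apply, Pi.basisFun_apply, Pi.basisFun_repr,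
    permOp_apply, Pi.single_apply]
  rw [Finset.sum_boole]
  congr 2
  ext w
  simp only [Finset.mem_filter, Finset.mem_univ, true_and]
  constructor
  · intro h
    conv_lhs => rw [← h]
    rw [smul_inv_smul]
  · intro h
    conv_lhs => rw [← h]
    rw [inv_smul_smul]

/-- The weighted sum functional. -/
noncomputable def multSum : (InfinitePlace K → ℝ) →ₗ[ℝ] ℝ where
  toFun x := ∑ w, (mult w : ℝ) * x w
  map_add' x y := by simp [mul_add, Finset.sum_add_distrib]
  map_smul' c x := by simp [Finset.mul_sum, mul_left_comm]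

theorem multSum_logAll (u : (𝓞 K)ˣ) : multSum (logAll u) = 0 :=
  sum_mult_mul_log u

theorem multSum_one_pos : 0 < multSum (fun _ : InfinitePlace K => (1 : ℝ)) := by
  simp only [multSum, LinearMap.coe_mk, AddHom.coe_mk, mul_one]
  refine Finset.sum_pos (fun w _ => ?_) Finset.univ_nonempty
  exact_mod_cast mult_pos

/-- The restriction to the places different from `w₀`, weighted by the multiplicities. -/
noncomputable def resLog : (InfinitePlace K → ℝ) →ₗ[ℝ] dirichletUnitTheorem.logSpace K where
  toFun x := fun w => (mult w.1 : ℝ) * x w.1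
  map_add' x y := by ext w; simp [mul_add]
  map_smul' c x := by ext w; simp [mul_left_comm]

theorem resLog_logAll (u : (𝓞 K)ˣ) : resLog (logAll u) = logEmbedding K (Additive.ofMul u) := by
  ext w
  rfl

/-- The family consisting of the constant function `1` and the logarithm vectors of the
fundamental units. -/
noncomputable def logFamily : Option (Fin (rank K)) → (InfinitePlace K → ℝ) :=
  fun o => o.casesOn' (fun _ => (1 : ℝ)) (fun j => logAll (fundSystem K j))

theorem logFamily_none : logFamily (K := K) none = fun _ => (1 : ℝ) := rfl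

theorem logFamily_some (j : Fin (rank K)) : logFamily (some j) = logAll (fundSystem K j) := rfl

theorem linearIndependent_logAll_fundSystem :
    LinearIndependent ℝ (fun j => logAll (fundSystem K j)) := by
  refine LinearIndependent.of_comp (resLog (K := K)) ?_
  have h : (resLog (K := K)) ∘ (fun j => logAll (fundSystem K j)) =
      fun j => logEmbedding K (Additive.ofMul (fundSystem K j)) := by
    funext j
    exact resLog_logAll _
  rw [h]
  exact isMaxRank_fundSystem K

theorem linearIndependent_logFamily : LinearIndependent ℝ (logFamily (K := K)) := by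
  unfold logFamily
  rw [linearIndependent_option']
  refine ⟨linearIndependent_logAll_fundSystem, fun hmem => ?_⟩
  have h0 : ∀ x ∈ Submodule.span ℝ (Set.range fun j => logAll (fundSystem K j)),
      multSum x = 0 := by
    intro x hx
    refine Submodule.span_induction ?_ ?_ ?_ ?_ hx
    · rintro _ ⟨j, rfl⟩
      exact multSum_logAll _
    · exact map_zero _
    · intro a b _ _ ha hb
      rw [map_add, ha, hb, add_zero]
    · intro c a _ ha
      rw [map_smul, ha, smul_zero]
  exact (multSum_one_pos (K := K)).ne' (h0 _ hmem)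

theorem card_option_rank :
    Fintype.card (Option (Fin (rank K))) = Module.finrank ℝ (InfinitePlace K → ℝ) := by
  rw [Fintype.card_option, Fintype.card_fin, Module.finrank_fintype_fun_eq_card, rank]
  have : 0 < Fintype.card (InfinitePlace K) := Fintype.card_pos
  omega

/-- The basis of `InfinitePlace K → ℝ` given by `1` and the logarithm vectors of the
fundamental units. -/
noncomputable def logBasis : Basis (Option (Fin (rank K))) ℝ (InfinitePlace K → ℝ) :=
  basisOfLinearIndependentOfCardEqFinrank linearIndependent_logFamily card_option_rank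

theorem logBasis_apply (o : Option (Fin (rank K))) : logBasis (K := K) o = logFamily o := by
  rw [logBasis, coe_basisOfLinearIndependentOfCardEqFinrank]

theorem permOp_logBasis_none (σ : K ≃ₐ[ℚ] K) :
    permOp σ (logBasis (K := K) none) = logBasis none := by
  rw [logBasis_apply, logFamily_none]
  ext w
  rfl

theorem permOp_logBasis_some (σ : K ≃ₐ[ℚ] K) (j : Fin (rank K)) :
    permOp σ (logBasis (K := K) (some j)) =
      ∑ i, ((galMat σ i j : ℤ) : ℝ) • logBasis (K := K) (some i) := by
  rw [logBasis_apply, logFamily_some, permOp_logAll, logAll_eq_sum]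
  refine Finset.sum_congr rfl fun i _ => ?_
  rw [logBasis_apply, logFamily_some]
  rfl

/-- **Trace formula**: the trace of `σ` on the units modulo torsion is the number of infinite
places fixed by `σ`, minus one. -/
theorem trace_galMat (σ : K ≃ₐ[ℚ] K) :
    open scoped Classical in
    (((galMat σ).trace : ℤ) : ℝ) =
      ((Finset.univ.filter fun w : InfinitePlace K => σ • w = w).card : ℝ) - 1 := by
  classical
  have hdiag : ∀ j : Fin (rank K),
      (logBasis (K := K)).repr (permOp σ (logBasis (K := K) (some j))) (some j) =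
        ((galMat σ j j : ℤ) : ℝ) := by
    intro j
    rw [permOp_logBasis_some, map_sum, Finsupp.finset_sum_apply]
    simp only [map_smul, Basis.repr_self, Finsupp.smul_apply, Finsupp.single_apply,
      Option.some.injEq, smul_eq_mul, mul_ite, mul_one, mul_zero]
    rw [Finset.sum_ite_eq' Finset.univ j]
    simp
  have hR : (LinearMap.toMatrix (logBasis (K := K)) (logBasis (K := K)) (permOp σ)).trace =
      1 + ∑ j, ((galMat σ j j : ℤ) : ℝ) := by
    rw [Matrix.trace, Fintype.sum_option]
    simp only [Matrix.diag_apply, LinearMap.toMatrix_apply]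
    rw [permOp_logBasis_none, Basis.repr_self, Finsupp.single_eq_same,
      Finset.sum_congr rfl fun j _ => hdiag j]
  rw [← trace_permOp, LinearMap.trace_eq_matrix_trace ℝ (logBasis (K := K)), hR]
  simp only [Matrix.trace, Matrix.diag_apply]
  push_cast
  ring

end UnitsRank

end Fermat.Agent.S14
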