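import Mathlib
import Fermat.Agent.S14.UnitsRank

/-!
# S14 / units package: the Galois action on the infinite places of a cyclotomic field

`K` is a `p`-th cyclotomic field, `ζ` a primitive `p`-th root of unity.  An automorphism `σ`
with `σ ζ = ζ⁻¹` fixes all infinite places; an automorphism fixing some infinite place
satisfies `σ ζ = ζ` or `σ ζ = ζ⁻¹`.  For a generator `g` of the Galois group, the matrix
`A = galMat g` satisfies `A ^ n = 1` and `tr (A ^ i) = -1` for `0 < i < n`, `n = (p - 1) / 2`.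
-/

set_option autoImplicit false
set_option maxSynthPendingDepth 3

open scoped NumberField

namespace Fermat.Agent.S14

namespace UnitsGal

open NumberField NumberField.Units NumberField.InfinitePlace Module Finset UnitsRank

set_option linter.unusedSectionVars false

variable {p : ℕ} [hp : Fact p.Prime] {K : Type*} [Field K] [NumberField K]
  [IsCyclotomicExtension {p} ℚ K] {ζ : K}

/-- Ring homomorphisms `K → ℂ` are determined by their value at `ζ`. -/
theorem ringHom_ext_of_zeta (hζ : IsPrimitiveRoot ζ p) {φ ψ : K →+* ℂ} (h : φ ζ = ψ ζ) :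
    φ = ψ := by
  have h1 : φ.toRatAlgHom = ψ.toRatAlgHom := by
    apply (hζ.powerBasis ℚ).algHom_ext
    rw [IsPrimitiveRoot.powerBasis_gen]
    exact h
  ext x
  exact DFunLike.congr_fun h1 x

/-- Automorphisms of `K` are determined by their value at `ζ`. -/
theorem algEquiv_ext_of_zeta (hζ : IsPrimitiveRoot ζ p) {σ τ : K ≃ₐ[ℚ] K} (h : σ ζ = τ ζ) :
    σ = τ := by
  have h1 : σ.toAlgHom = τ.toAlgHom := by
    apply (hζ.powerBasis ℚ).algHom_ext
    rw [IsPrimitiveRoot.powerBasis_gen]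
    exact h
  exact AlgEquiv.coe_toAlgHom_injective h1

theorem star_embedding_zeta (hζ : IsPrimitiveRoot ζ p) (φ : K →+* ℂ) :
    star (φ ζ) = φ ζ⁻¹ := by
  have h1 : (φ ζ) ^ p = 1 := by rw [← map_pow, hζ.pow_eq_one, map_one]
  have hp0 : p ≠ 0 := hp.out.ne_zero
  have h2 : ‖φ ζ‖ = 1 := by
    have h3 : ‖φ ζ‖ ^ p = 1 := by rw [← norm_pow, h1, norm_one]
    exact (pow_eq_one_iff_of_nonneg (norm_nonneg _) hp0).mp h3
  rw [map_inv₀]
  have h4 : φ ζ * star (φ ζ) = 1 := by
    rw [Complex.star_def, Complex.mul_conj, Complex.normSq_eq_norm_sq, h2]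
    simp
  exact eq_inv_of_mul_eq_one_right h4

/-- An automorphism inverting `ζ` fixes every infinite place. -/
theorem smul_eq_self_of_zeta_inv (hζ : IsPrimitiveRoot ζ p) (σ : K ≃ₐ[ℚ] K) (h : σ ζ = ζ⁻¹)
    (w : InfinitePlace K) : σ • w = w := by
  rw [← mk_embedding w, smul_mk, mk_eq_iff]
  right
  apply ringHom_ext_of_zeta hζ
  have h' : σ.symm ζ = ζ⁻¹ := by
    have h1 : σ.symm ζ⁻¹ = ζ := by rw [← h, AlgEquiv.symm_apply_apply]
    rw [map_inv₀] at h1
    exact inv_eq_iff_eq_inv.mp h1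
  rw [ComplexEmbedding.conjugate_coe_eq]
  simp only [RingHom.coe_comp, Function.comp_apply, RingHom.coe_coe]
  rw [h', ← star_embedding_zeta hζ]
  exact star_star _

/-- An automorphism fixing some infinite place fixes or inverts `ζ`. -/
theorem zeta_of_smul_eq_self (hζ : IsPrimitiveRoot ζ p) (σ : K ≃ₐ[ℚ] K)
    (w : InfinitePlace K) (h : σ • w = w) : σ ζ = ζ ∨ σ ζ = ζ⁻¹ := by
  rw [← mk_embedding w, smul_mk, mk_eq_iff] at h
  rcases h with h | h
  · left
    have h1 := RingHom.congr_fun h (σ ζ)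
    simp only [RingHom.coe_comp, Function.comp_apply, RingHom.coe_coe,
      AlgEquiv.symm_apply_apply] at h1
    exact w.embedding.injective h1.symm
  · right
    have h1 := RingHom.congr_fun h (σ ζ)
    rw [ComplexEmbedding.conjugate_coe_eq] at h1
    simp only [RingHom.coe_comp, Function.comp_apply, RingHom.coe_coe,
      AlgEquiv.symm_apply_apply] at h1
    have h2 : (starRingEnd ℂ) (w.embedding ζ) = star (w.embedding ζ) := rfl
    rw [h2, star_embedding_zeta hζ] at h1
    exact w.embedding.injective h1.symm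

/-! ### The rank -/

theorem rank_add_one (hp3 : 3 ≤ p) : rank K + 1 = (p - 1) / 2 := by
  have h1 : nrRealPlaces K = 0 :=
    IsCyclotomicExtension.Rat.nrRealPlaces_eq_zero (n := p) K (by omega)
  have h2 : nrComplexPlaces K = (p - 1) / 2 := by
    rw [IsCyclotomicExtension.Rat.nrComplexPlaces_eq_totient_div_two p K,
      Nat.totient_prime hp.out]
  rw [rank, card_eq_nrRealPlaces_add_nrComplexPlaces, h1, h2]
  have h3 : 1 ≤ (p - 1) / 2 := by omega
  omega

/-! ### A generator of the Galois group -/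

theorem exists_generator (hζ : IsPrimitiveRoot ζ p) :
    ∃ (g : K ≃ₐ[ℚ] K) (k : ℕ), g ζ = ζ ^ k ∧ orderOf (k : ZMod p) = p - 1 := by
  have : NeZero p := ⟨hp.out.ne_zero⟩
  obtain ⟨u₀, hu₀⟩ := IsCyclic.exists_generator (α := (ZMod p)ˣ)
  have hord : orderOf u₀ = p - 1 := by
    rw [orderOf_eq_card_of_forall_mem_zpowers hu₀, Nat.card_eq_fintype_card, ZMod.card_units]
  refine ⟨(IsCyclotomicExtension.Rat.galEquivZMod p K).symm u₀, (u₀ : ZMod p).val, ?_, ?_⟩
  · have h := IsCyclotomicExtension.Rat.galEquivZMod_apply_of_pow_eq p K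
      ((IsCyclotomicExtension.Rat.galEquivZMod p K).symm u₀) hζ.pow_eq_one
    rw [h, MulEquiv.apply_symm_apply]
  · rw [ZMod.natCast_zmod_val, orderOf_units, hord]

theorem pow_gen_zeta (g : K ≃ₐ[ℚ] K) (k : ℕ) (hg : g ζ = ζ ^ k) (i : ℕ) :
    (g ^ i) ζ = ζ ^ (k ^ i) := by
  induction i with
  | zero => simp
  | succ i ih =>
    rw [pow_succ', AlgEquiv.mul_apply, ih, map_pow, hg, ← pow_mul, pow_succ']

theorem zeta_pow_eq_self_iff (hζ : IsPrimitiveRoot ζ p) (m : ℕ) :
    ζ ^ m = ζ ↔ (m : ZMod p) = 1 := by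
  have hζ0 : ζ ≠ 0 := hζ.ne_zero hp.out.ne_zero
  have hp1 : 1 ≤ p := hp.out.one_le
  have hpp : ζ * ζ ^ (p - 1) = 1 := by
    rw [← pow_succ', Nat.sub_add_cancel hp1, hζ.pow_eq_one]
  have h1 : ζ ^ m = ζ ↔ ζ ^ (m + (p - 1)) = 1 := by
    rw [pow_add]
    constructor
    · intro h; rw [h, hpp]
    · intro h
      exact mul_right_cancel₀ (pow_ne_zero (p - 1) hζ0) (h.trans hpp.symm)
  rw [h1, hζ.pow_eq_one_iff_dvd, ← ZMod.natCast_eq_zero_iff]
  push_cast [Nat.cast_sub hp1]
  rw [ZMod.natCast_self]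
  constructor
  · intro h; linear_combination h
  · intro h; linear_combination h

theorem zeta_pow_eq_inv_iff (hζ : IsPrimitiveRoot ζ p) (m : ℕ) :
    ζ ^ m = ζ⁻¹ ↔ (m : ZMod p) = -1 := by
  have hζ0 : ζ ≠ 0 := hζ.ne_zero hp.out.ne_zero
  have h1 : ζ ^ m = ζ⁻¹ ↔ ζ ^ (m + 1) = 1 := by
    rw [pow_succ]
    constructor
    · intro h; rw [h, inv_mul_cancel₀ hζ0]
    · intro h; exact eq_inv_of_mul_eq_one_left h
  rw [h1, hζ.pow_eq_one_iff_dvd, ← ZMod.natCast_eq_zero_iff]
  push_cast
  exact add_eq_zero_iff_eq_neg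

theorem gen_pow_half (hp5 : 5 ≤ p) (k : ℕ) (hk : orderOf (k : ZMod p) = p - 1) :
    (k : ZMod p) ^ ((p - 1) / 2) = -1 := by
  have hodd : p % 2 = 1 := by
    rcases hp.out.eq_two_or_odd with h | h
    · omega
    · exact h
  have h2 : 2 * ((p - 1) / 2) = p - 1 := by omega
  have h1 : ((k : ZMod p) ^ ((p - 1) / 2)) ^ 2 = 1 := by
    rw [← pow_mul, mul_comm, h2, ← hk, pow_orderOf_eq_one]
  have h3 : (k : ZMod p) ^ ((p - 1) / 2) ≠ 1 := by
    intro h
    have := orderOf_dvd_of_pow_eq_one h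
    rw [hk] at this
    have := Nat.le_of_dvd (by omega) this
    omega
  rcases sq_eq_one_iff.mp h1 with h | h
  · exact absurd h h3
  · exact h

theorem gen_pow_ne (k : ℕ) (hk : orderOf (k : ZMod p) = p - 1) (i : ℕ)
    (hi0 : 0 < i) (hi : i < (p - 1) / 2) :
    (k : ZMod p) ^ i ≠ 1 ∧ (k : ZMod p) ^ i ≠ -1 := by
  constructor
  · intro h
    have := orderOf_dvd_of_pow_eq_one h
    rw [hk] at this
    have := Nat.le_of_dvd hi0 this
    omega
  · intro h
    have h1 : (k : ZMod p) ^ (2 * i) = 1 := by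
      rw [mul_comm, pow_mul, h]; simp
    have := orderOf_dvd_of_pow_eq_one h1
    rw [hk] at this
    have := Nat.le_of_dvd (by omega) this
    omega

/-- The matrix of a generator of the Galois group on the units modulo torsion has order
dividing `(p - 1) / 2`, and its non-trivial powers have trace `-1`. -/
theorem galMat_gen (hζ : IsPrimitiveRoot ζ p) (hp5 : 5 ≤ p) (g : K ≃ₐ[ℚ] K) (k : ℕ)
    (hg : g ζ = ζ ^ k) (hk : orderOf (k : ZMod p) = p - 1) :
    galMat g ^ ((p - 1) / 2) = 1 ∧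
      ∀ i, 0 < i → i < (p - 1) / 2 → (galMat g ^ i).trace = -1 := by
  classical
  constructor
  · rw [← galMat_pow]
    apply galMat_eq_one_of_forall_smul_eq
    intro w
    apply smul_eq_self_of_zeta_inv hζ
    rw [pow_gen_zeta g k hg, zeta_pow_eq_inv_iff hζ]
    push_cast
    exact gen_pow_half hp5 k hk
  · intro i hi0 hi
    rw [← galMat_pow]
    have h := trace_galMat (g ^ i)
    have h0 : (Finset.univ.filter fun w : InfinitePlace K => (g ^ i) • w = w) = ∅ := by
      rw [Finset.filter_eq_empty_iff]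
      intro w _ hw
      obtain ⟨h1, h2⟩ := gen_pow_ne k hk i hi0 hi
      rcases zeta_of_smul_eq_self hζ (g ^ i) w hw with h3 | h3
      · rw [pow_gen_zeta g k hg, zeta_pow_eq_self_iff hζ] at h3
        push_cast at h3
        exact h1 h3
      · rw [pow_gen_zeta g k hg, zeta_pow_eq_inv_iff hζ] at h3
        push_cast at h3
        exact h2 h3
    have h' : (((galMat (g ^ i)).trace : ℤ) : ℝ) = -1 := by
      rw [h]
      have : ((Finset.univ.filter fun w : InfinitePlace K => (g ^ i) • w = w).card : ℝ) = 0 := by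
        rw [Finset.card_eq_zero.mpr]
        · simp
        · convert h0
      rw [this]
      norm_num
    exact_mod_cast h'

end UnitsGal

end Fermat.Agent.S14
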