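import Mathlib
import Fermat.Agent.S14.Defs
import Fermat.Agent.S14.UnitsGal

/-!
# S14 / units package: two `ω²`-eigen units are dependent modulo `p`-th powers

For a `p`-th cyclotomic field `K` (`p ≥ 5`), the `ω²`-eigenspace of `(𝓞 K)ˣ / (𝓞 K)ˣ ^ p` is at
most one-dimensional: for `ω²`-eigen units `u₁`, `u₂` there are integers `a`, `b`, not both
divisible by `p`, such that `u₁ ^ a * u₂ ^ b` is a `p`-th power of a unit.
-/

set_option autoImplicit false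
set_option maxSynthPendingDepth 3

open scoped NumberField

namespace Fermat.Agent.S14

namespace UnitsDep

open NumberField NumberField.Units Module Finset UnitsRank UnitsGal

set_option linter.unusedSectionVars false

variable {p : ℕ} [hp : Fact p.Prime] {K : Type} [Field K] [NumberField K]
  [IsCyclotomicExtension {p} ℚ K] {ζ : K}

/-- An element of `K` with a power which is a unit of `𝓞 K` is itself a unit of `𝓞 K`. -/
theorem exists_unit_of_pow_eq {n : ℕ} (hn : 0 < n) (γ : K) (w : (𝓞 K)ˣ)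
    (h : γ ^ n = ((w : 𝓞 K) : K)) :
    ∃ v : (𝓞 K)ˣ, ((v : 𝓞 K) : K) = γ ∧ v ^ n = w := by
  have hint : IsIntegral ℤ γ := by
    apply IsIntegral.of_pow hn
    rw [h]
    exact RingOfIntegers.isIntegral_coe _
  let c : 𝓞 K := ⟨γ, hint⟩
  have hc : c ^ n = (w : 𝓞 K) := by
    apply RingOfIntegers.ext
    rw [← h]
    rfl
  have hcu : IsUnit c := (isUnit_pow_iff hn.ne').mp (hc ▸ w.isUnit)
  refine ⟨hcu.unit, rfl, ?_⟩
  ext
  rw [Units.val_pow_eq_pow_val, IsUnit.unit_spec, hc]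

/-- For an `ω²`-eigen unit `u` and `g ζ = ζ ^ k`: `g u = u ^ (k ^ 2) * v ^ p` for a unit `v`. -/
theorem eigen_unitsMap (g : K ≃ₐ[ℚ] K) (k : ℕ) (hg : g ζ = ζ ^ k) (u : (𝓞 K)ˣ)
    (hu : IsOmegaSqEigen p ζ ((u : 𝓞 K) : K)) :
    ∃ v : (𝓞 K)ˣ, unitsMap g u = u ^ (k ^ 2) * v ^ p := by
  obtain ⟨γ, hγ⟩ := hu g k hg
  have hu0 : (((u : 𝓞 K) : K)) ^ (k ^ 2) ≠ 0 := by
    apply pow_ne_zero
    exact_mod_cast u.ne_zero
  have h1 : (u ^ (k ^ 2)) * (unitsMap g u * (u ^ (k ^ 2))⁻¹) = unitsMap g u := by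
    rw [mul_comm, inv_mul_cancel_right]
  have h2 : (((u : 𝓞 K) : K)) ^ (k ^ 2) *
      (((unitsMap g u * (u ^ (k ^ 2))⁻¹ : (𝓞 K)ˣ) : 𝓞 K) : K) = g ((u : 𝓞 K) : K) := by
    have h3 := congrArg (fun x : (𝓞 K)ˣ => ((x : 𝓞 K) : K)) h1
    simp only [Units.val_mul, map_mul, Units.val_pow_eq_pow_val, map_pow, coe_unitsMap] at h3
    exact h3
  have hw : γ ^ p = (((unitsMap g u * (u ^ (k ^ 2))⁻¹ : (𝓞 K)ˣ) : 𝓞 K) : K) := by
    apply mul_left_cancel₀ hu0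
    rw [← hγ, h2]
  obtain ⟨v, -, hv⟩ := exists_unit_of_pow_eq hp.out.pos γ _ hw
  refine ⟨v, ?_⟩
  rw [hv, mul_comm, inv_mul_cancel_right]

/-- The exponent vector modulo `p`. -/
noncomputable def expoMod (p : ℕ) (u : (𝓞 K)ˣ) : Fin (rank K) → ZMod p :=
  fun i => ((expo u i : ℤ) : ZMod p)

theorem expoMod_mul (u v : (𝓞 K)ˣ) : expoMod p (u * v) = expoMod p u + expoMod p v := by
  ext i
  simp [expoMod, expo_mul]

theorem expoMod_zpow (u : (𝓞 K)ˣ) (n : ℤ) : expoMod p (u ^ n) = (n : ZMod p) • expoMod p u := by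
  ext i
  simp [expoMod, expo_zpow]

theorem expoMod_pow_prime (u : (𝓞 K)ˣ) : expoMod p (u ^ p) = 0 := by
  ext i
  simp [expoMod, expo_pow]

/-- The matrix of `g` modulo `p`. -/
noncomputable def galMatMod (p : ℕ) (g : K ≃ₐ[ℚ] K) :
    Matrix (Fin (rank K)) (Fin (rank K)) (ZMod p) :=
  (galMat g).map (Int.castRingHom (ZMod p))

theorem galMatMod_mulVec (g : K ≃ₐ[ℚ] K) (u : (𝓞 K)ˣ) :
    (galMatMod p g).mulVec (expoMod p u) = expoMod p (unitsMap g u) := by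
  ext i
  rw [expoMod, expo_unitsMap]
  simp only [galMatMod, Matrix.mulVec, dotProduct, Matrix.map_apply, expoMod,
    Int.coe_castRingHom]
  push_cast
  rfl

theorem galMatMod_mulVec_eigen (g : K ≃ₐ[ℚ] K) (k : ℕ) (hg : g ζ = ζ ^ k) (u : (𝓞 K)ˣ)
    (hu : IsOmegaSqEigen p ζ ((u : 𝓞 K) : K)) :
    (galMatMod p g).mulVec (expoMod p u) = ((k : ZMod p) ^ 2) • expoMod p u := by
  obtain ⟨v, hv⟩ := eigen_unitsMap g k hg u hu
  rw [galMatMod_mulVec, hv, expoMod_mul, expoMod_pow_prime, add_zero]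
  ext i
  simp [expoMod, expo_pow]

theorem galMatMod_pow (g : K ≃ₐ[ℚ] K) (n : ℕ) : galMatMod p g ^ n = galMatMod p (g ^ n) := by
  rw [galMatMod, galMatMod, galMat_pow, Matrix.map_pow]

/-- The exponent vectors modulo `p` of two `ω²`-eigen units are linearly dependent. -/
theorem exists_expoMod_dep (hζ : IsPrimitiveRoot ζ p) (hp5 : 5 ≤ p) (u₁ u₂ : (𝓞 K)ˣ)
    (h₁ : IsOmegaSqEigen p ζ ((u₁ : 𝓞 K) : K)) (h₂ : IsOmegaSqEigen p ζ ((u₂ : 𝓞 K) : K)) :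
    ∃ a b : ZMod p, (a ≠ 0 ∨ b ≠ 0) ∧ a • expoMod p u₁ + b • expoMod p u₂ = 0 := by
  obtain ⟨g, k, hg, hk⟩ := exists_generator (K := K) hζ
  obtain ⟨hA, htr⟩ := galMat_gen hζ hp5 g k hg hk
  have hodd : p % 2 = 1 := by
    rcases hp.out.eq_two_or_odd with h | h
    · omega
    · exact h
  have hn : (((p - 1) / 2 : ℕ) : ZMod p) ≠ 0 := by
    rw [Ne, ZMod.natCast_eq_zero_iff]
    intro h
    have := Nat.le_of_dvd (by omega) h
    omega
  have hr := rank_add_one (K := K) (p := p) (by omega)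
  refine UnitsLinAlg.exists_smul_add_smul_eq_zero (galMatMod p g) hn hr ?_ ?_ ?_
    ((k : ZMod p) ^ 2) ?_ ?_ _ _ (galMatMod_mulVec_eigen g k hg u₁ h₁)
    (galMatMod_mulVec_eigen g k hg u₂ h₂)
  · intro m hm h
    have hmp : m < p := by omega
    have h1 : ((m : ℕ) : ZMod p) = ((1 : ℕ) : ZMod p) := by simpa using h
    rw [ZMod.natCast_eq_natCast_iff'] at h1
    rw [Nat.mod_eq_of_lt hmp, Nat.mod_eq_of_lt (by omega)] at h1
    exact h1
  · rw [galMatMod_pow, galMatMod, galMat_pow, hA]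
    exact Matrix.map_one _ (map_zero _) (map_one _)
  · intro i hi0 hi
    rw [galMatMod_pow, galMatMod, galMat_pow]
    have h := AddMonoidHom.map_trace (Int.castRingHom (ZMod p)) (galMat g ^ i)
    rw [← h, htr i hi0 hi]
    simp
  · rw [← pow_mul]
    have h2 : 2 * ((p - 1) / 2) = p - 1 := by omega
    rw [h2, ← hk, pow_orderOf_eq_one]
  · intro h
    have := orderOf_dvd_of_pow_eq_one h
    rw [hk] at this
    have := Nat.le_of_dvd (by omega) this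
    omega

/-- Two `ω²`-eigen units are dependent modulo `p`-th powers and torsion. -/
theorem exists_zpow_mul_zpow_eq_torsion_mul (hζ : IsPrimitiveRoot ζ p) (hp5 : 5 ≤ p)
    (u₁ u₂ : (𝓞 K)ˣ)
    (h₁ : IsOmegaSqEigen p ζ ((u₁ : 𝓞 K) : K)) (h₂ : IsOmegaSqEigen p ζ ((u₂ : 𝓞 K) : K)) :
    ∃ a b : ℤ, ¬ ((p : ℤ) ∣ a ∧ (p : ℤ) ∣ b) ∧
      ∃ τ w : (𝓞 K)ˣ, τ ∈ torsion K ∧ u₁ ^ a * u₂ ^ b = τ * w ^ p := by
  have : NeZero p := ⟨hp.out.ne_zero⟩
  obtain ⟨a, b, hab, hdep⟩ := exists_expoMod_dep hζ hp5 u₁ u₂ h₁ h₂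
  have hval : ∀ x : ZMod p, (((x.val : ℕ) : ℤ) : ZMod p) = x := fun x => by
    rw [Int.cast_natCast, ZMod.natCast_zmod_val]
  refine ⟨(a.val : ℤ), (b.val : ℤ), ?_, ?_⟩
  · rintro ⟨ha, hb⟩
    rw [← ZMod.intCast_zmod_eq_zero_iff_dvd, hval] at ha hb
    rcases hab with h | h
    · exact h ha
    · exact h hb
  · have hU : expoMod p (u₁ ^ (a.val : ℤ) * u₂ ^ (b.val : ℤ)) = 0 := by
      rw [expoMod_mul, expoMod_zpow, expoMod_zpow, hval, hval]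
      exact hdep
    have hdvd : ∀ i, (p : ℤ) ∣ expo (u₁ ^ (a.val : ℤ) * u₂ ^ (b.val : ℤ)) i := fun i =>
      (ZMod.intCast_zmod_eq_zero_iff_dvd _ p).mp (congrFun hU i)
    choose c hc using hdvd
    obtain ⟨τ, hτ, hτU⟩ := exists_torsion_mul_prod (u₁ ^ (a.val : ℤ) * u₂ ^ (b.val : ℤ))
    refine ⟨τ, ∏ i, fundSystem K i ^ c i, hτ, ?_⟩
    rw [← Finset.prod_pow]
    conv_lhs => rw [hτU]
    congr 1
    refine Finset.prod_congr rfl fun i _ => ?_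
    rw [hc i, zpow_mul', zpow_natCast]

/-! ### Closure properties of `ω²`-eigen elements -/

theorem eigen_one : IsOmegaSqEigen p ζ (1 : K) := fun σ k _ => ⟨1, by simp⟩

theorem eigen_mul {α β : K} (hα : IsOmegaSqEigen p ζ α) (hβ : IsOmegaSqEigen p ζ β) :
    IsOmegaSqEigen p ζ (α * β) := by
  intro σ k hσ
  obtain ⟨γ₁, h1⟩ := hα σ k hσ
  obtain ⟨γ₂, h2⟩ := hβ σ k hσ
  exact ⟨γ₁ * γ₂, by rw [map_mul, h1, h2]; ring⟩

theorem eigen_inv {α : K} (hα : IsOmegaSqEigen p ζ α) : IsOmegaSqEigen p ζ α⁻¹ := by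
  intro σ k hσ
  obtain ⟨γ, h⟩ := hα σ k hσ
  exact ⟨γ⁻¹, by rw [map_inv₀, h, mul_inv, inv_pow, inv_pow]⟩

theorem eigen_pow {α : K} (hα : IsOmegaSqEigen p ζ α) (n : ℕ) :
    IsOmegaSqEigen p ζ (α ^ n) := by
  induction n with
  | zero => rw [pow_zero]; exact eigen_one
  | succ n ih => rw [pow_succ]; exact eigen_mul ih hα

theorem eigen_zpow {α : K} (hα : IsOmegaSqEigen p ζ α) (n : ℤ) :
    IsOmegaSqEigen p ζ (α ^ n) := by
  cases n with
  | ofNat n => simpa using eigen_pow hα n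
  | negSucc n => rw [zpow_negSucc]; exact eigen_inv (eigen_pow hα _)

theorem eigen_pow_prime {β : K} (hβ : β ≠ 0) : IsOmegaSqEigen p ζ (β ^ p) := by
  intro σ k _
  refine ⟨σ β / β ^ (k ^ 2), ?_⟩
  have hb : β ^ (k ^ 2 * p) ≠ 0 := pow_ne_zero _ hβ
  rw [map_pow, div_pow, ← pow_mul, ← pow_mul, mul_comm p (k ^ 2), mul_div_assoc',
    mul_div_cancel_left₀ _ hb]

/-- The coercion from the units of `𝓞 K` to `K` as a monoid homomorphism. -/
noncomputable def coeK : (𝓞 K)ˣ →* K :=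
  ((algebraMap (𝓞 K) K : 𝓞 K →+* K) : 𝓞 K →* K).comp (Units.coeHom (𝓞 K))

theorem coeK_apply (u : (𝓞 K)ˣ) : coeK u = ((u : 𝓞 K) : K) := rfl

theorem coeK_injective : Function.Injective (coeK (K := K)) := by
  intro u v h
  rw [coeK_apply, coeK_apply] at h
  exact Units.ext (RingOfIntegers.ext h)

theorem coeK_ne_zero (u : (𝓞 K)ˣ) : coeK u ≠ 0 := by
  rw [coeK_apply]
  exact_mod_cast u.ne_zero

/-! ### Torsion -/

theorem zeta_pow_eq_pow_iff (hζ : IsPrimitiveRoot ζ p) (a b : ℕ) :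
    ζ ^ a = ζ ^ b ↔ (a : ZMod p) = (b : ZMod p) := by
  have hζ0 : ζ ≠ 0 := hζ.ne_zero hp.out.ne_zero
  have h1 : ζ ^ a = ζ ^ b ↔ (Units.mk0 ζ hζ0) ^ a = (Units.mk0 ζ hζ0) ^ b := by
    rw [Units.ext_iff]
    simp
  have h2 : orderOf (Units.mk0 ζ hζ0) = p := by
    rw [← orderOf_units, Units.val_mk0, ← hζ.eq_orderOf]
  rw [h1, pow_eq_pow_iff_modEq, h2, ZMod.natCast_eq_natCast_iff]

/-- A torsion unit which is `ω²`-eigen is `±1`, hence equal to its `p`-th power. -/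
theorem torsion_eigen (hζ : IsPrimitiveRoot ζ p) (hp5 : 5 ≤ p) (τ : (𝓞 K)ˣ)
    (hτ : τ ∈ torsion K) (h : IsOmegaSqEigen p ζ ((τ : 𝓞 K) : K)) : τ ^ p = τ := by
  have hodd : Odd p := hp.out.odd_of_ne_two (by omega)
  have hτK : IsOfFinOrder (coeK τ) := MonoidHom.isOfFinOrder _ ((CommGroup.mem_torsion _).mp hτ)
  obtain ⟨j, hj, hτj⟩ := hζ.exists_pow_or_neg_mul_pow_of_isOfFinOrder hodd hτK
  have hτ2 : (coeK τ) ^ 2 = ζ ^ (2 * j) := by
    rcases hτj with h1 | h1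
    · rw [h1, ← pow_mul, mul_comm]
    · rw [h1, neg_sq, ← pow_mul, mul_comm]
  have hτ2p : (coeK τ) ^ (2 * p) = 1 := by
    rw [pow_mul, hτ2, ← pow_mul, mul_comm, pow_mul, hζ.pow_eq_one, one_pow]
  obtain ⟨g, k, hg, hk⟩ := exists_generator (K := K) hζ
  obtain ⟨γ, hγ⟩ := h g k hg
  rw [← coeK_apply] at hγ
  have hγfin : IsOfFinOrder γ := by
    rw [isOfFinOrder_iff_pow_eq_one]
    refine ⟨p * (2 * p), by have := hp.out.pos; positivity, ?_⟩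
    have h1 : (g (coeK τ)) ^ (2 * p) = (coeK τ ^ k ^ 2 * γ ^ p) ^ (2 * p) := by rw [hγ]
    rw [← map_pow, hτ2p, map_one, mul_pow, ← pow_mul, mul_comm (k ^ 2), pow_mul, hτ2p, one_pow,
      one_mul, ← pow_mul] at h1
    exact h1.symm
  obtain ⟨s, hs, hγs⟩ := hζ.exists_pow_or_neg_mul_pow_of_isOfFinOrder hodd hγfin
  have hzs : (ζ ^ s) ^ p = 1 := by rw [← pow_mul, mul_comm, pow_mul, hζ.pow_eq_one, one_pow]
  have hγp2 : (γ ^ p) ^ 2 = 1 := by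
    rcases hγs with h1 | h1
    · rw [h1, hzs, one_pow]
    · rw [h1, hodd.neg_pow, hzs, neg_sq, one_pow]
  have h3 : ζ ^ (k * (2 * j)) = ζ ^ (2 * j * k ^ 2) := by
    have h1 : (g (coeK τ)) ^ 2 = (coeK τ ^ k ^ 2 * γ ^ p) ^ 2 := by rw [hγ]
    have h4 : (g (coeK τ)) ^ 2 = ζ ^ (k * (2 * j)) := by
      rw [← map_pow, hτ2, map_pow, hg, ← pow_mul]
    have h5 : (coeK τ ^ k ^ 2 * γ ^ p) ^ 2 = ζ ^ (2 * j * k ^ 2) := by
      rw [mul_pow, hγp2, mul_one, ← pow_mul, mul_comm (k ^ 2) 2, pow_mul, hτ2, ← pow_mul]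
    rw [← h4, h1, h5]
  rw [zeta_pow_eq_pow_iff hζ] at h3
  push_cast at h3
  have hk0 : (k : ZMod p) ≠ 0 := by
    intro h0
    have h1 : (k : ZMod p) ^ (p - 1) = 1 := by rw [← hk]; exact pow_orderOf_eq_one _
    rw [h0, zero_pow (by omega)] at h1
    exact zero_ne_one h1
  have hk1 : (k : ZMod p) ≠ 1 := by
    intro h1
    rw [h1, orderOf_one] at hk
    omega
  have h2 : (2 : ZMod p) ≠ 0 := by
    intro h0
    have h1 : ((2 : ℕ) : ZMod p) = 0 := by exact_mod_cast h0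
    rw [ZMod.natCast_eq_zero_iff] at h1
    have := Nat.le_of_dvd (by omega) h1
    omega
  have hj0 : (j : ZMod p) = 0 := by
    have h4 : (2 : ZMod p) * k * ((k : ZMod p) - 1) * j = 0 := by linear_combination -h3
    rcases mul_eq_zero.mp h4 with h5 | h5
    · rcases mul_eq_zero.mp h5 with h6 | h6
      · rcases mul_eq_zero.mp h6 with h7 | h7
        · exact absurd h7 h2
        · exact absurd h7 hk0
      · exact absurd (sub_eq_zero.mp h6) hk1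
    · exact h5
  rw [ZMod.natCast_eq_zero_iff] at hj0
  have hj00 : j = 0 := Nat.eq_zero_of_dvd_of_lt hj0 hj
  subst hj00
  apply coeK_injective
  rw [map_pow]
  rcases hτj with h1 | h1
  · rw [h1]; simp
  · rw [h1]; simp [hodd.neg_pow]

/-- **Dependency**: two `ω²`-eigen units are dependent modulo `p`-th powers. -/
theorem exists_zpow_mul_zpow_eq_pow (hζ : IsPrimitiveRoot ζ p) (hp5 : 5 ≤ p)
    (u₁ u₂ : (𝓞 K)ˣ)
    (h₁ : IsOmegaSqEigen p ζ ((u₁ : 𝓞 K) : K)) (h₂ : IsOmegaSqEigen p ζ ((u₂ : 𝓞 K) : K)) :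
    ∃ a b : ℤ, ¬ ((p : ℤ) ∣ a ∧ (p : ℤ) ∣ b) ∧ ∃ w : (𝓞 K)ˣ, u₁ ^ a * u₂ ^ b = w ^ p := by
  obtain ⟨a, b, hab, τ, w, hτ, hU⟩ :=
    exists_zpow_mul_zpow_eq_torsion_mul hζ hp5 u₁ u₂ h₁ h₂
  refine ⟨a, b, hab, τ * w, ?_⟩
  have hτeq : τ = u₁ ^ a * u₂ ^ b * (w ^ p)⁻¹ := by
    rw [hU, mul_inv_cancel_right]
  have hτe : IsOmegaSqEigen p ζ ((τ : 𝓞 K) : K) := by
    rw [← coeK_apply, hτeq, map_mul, map_mul, map_zpow, map_zpow, map_inv, map_pow]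
    rw [← coeK_apply] at h₁ h₂
    exact eigen_mul (eigen_mul (eigen_zpow h₁ a) (eigen_zpow h₂ b))
      (eigen_inv (eigen_pow_prime (coeK_ne_zero w)))
  rw [hU, mul_pow, torsion_eigen hζ hp5 τ hτ hτe]

end UnitsDep

end Fermat.Agent.S14
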