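import Mathlib

/-!
# S14, package (UN), local part: the `π²`-coefficient of the logarithm

For a prime `p ≥ 5`, `K` a `p`-th cyclotomic field, `ζ` a primitive `p`-th root of unity and
`π = ζ - 1`, the ring `𝓞 K / π³` is the truncated polynomial ring `𝔽_p[X] / X³` (`ζ ↦ 1 + X`).
For a unit `u ↦ c₀ + c₁ X + c₂ X²` the quantity `Λ₂(u) = c₂ / c₀ - (c₁ / c₀)² / 2` (the
`X²`-coefficient of `log (u / c₀)`) is additive in `u`; it vanishes on units congruent to a
rational integer modulo `π³`, and it is `-1/24 ≠ 0` on the cyclotomic unit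
`E₂ = ∏_{0<a<p} ((ζ^a - 1)/(ζ - 1))^(a^(p-3))`.

Main declarations (namespace `Fermat.Agent.S14`):
* `localInv hζ hp5 : (𝓞 K)ˣ →* Multiplicative (ZMod p)`
* `localInv_eq_one_of_congr`
* `localInv_prod_cycloUnit_ne_one`
-/

set_option autoImplicit false

open scoped NumberField
open Polynomial

namespace Fermat.Agent.S14

section Trunc

variable (p : ℕ) [Fact p.Prime]

/-- The truncated polynomial ring `𝔽_p[X] / X³`. -/
abbrev unitsLocal_T : Type := (ZMod p)[X] ⧸ Ideal.span {(X : (ZMod p)[X]) ^ 3}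

/-- The quotient map `𝔽_p[X] → 𝔽_p[X] / X³`. -/
noncomputable abbrev unitsLocal_mk : (ZMod p)[X] →+* unitsLocal_T p :=
  Ideal.Quotient.mk (Ideal.span {(X : (ZMod p)[X]) ^ 3})

/-- The `i`-th coefficient of a truncated polynomial (meaningful for `i < 3`). -/
noncomputable def unitsLocal_coeff (i : ℕ) (t : unitsLocal_T p) : ZMod p :=
  (Quotient.out t).coeff i

variable {p}

theorem unitsLocal_coeff_mk {i : ℕ} (hi : i < 3) (f : (ZMod p)[X]) :
    unitsLocal_coeff p i (unitsLocal_mk p f) = f.coeff i := by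
  have h : unitsLocal_mk p (Quotient.out (unitsLocal_mk p f)) = unitsLocal_mk p f :=
    Ideal.Quotient.mk_out _
  rw [Ideal.Quotient.eq, Ideal.mem_span_singleton] at h
  obtain ⟨q, hq⟩ := h
  have h2 : (Quotient.out (unitsLocal_mk p f)) = f + X ^ 3 * q := by
    rw [← hq]; ring
  unfold unitsLocal_coeff
  rw [h2, coeff_add, coeff_X_pow_mul', if_neg (by omega), add_zero]

theorem unitsLocal_exists_rep (t : unitsLocal_T p) : ∃ f : (ZMod p)[X], unitsLocal_mk p f = t :=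
  Ideal.Quotient.mk_surjective t

theorem unitsLocal_coeff_zero_mul (s t : unitsLocal_T p) :
    unitsLocal_coeff p 0 (s * t) = unitsLocal_coeff p 0 s * unitsLocal_coeff p 0 t := by
  obtain ⟨f, rfl⟩ := unitsLocal_exists_rep s
  obtain ⟨g, rfl⟩ := unitsLocal_exists_rep t
  rw [← map_mul, unitsLocal_coeff_mk (by norm_num), unitsLocal_coeff_mk (by norm_num),
    unitsLocal_coeff_mk (by norm_num), mul_coeff_zero]

theorem unitsLocal_coeff_one_mul (s t : unitsLocal_T p) :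
    unitsLocal_coeff p 1 (s * t) =
      unitsLocal_coeff p 0 s * unitsLocal_coeff p 1 t +
        unitsLocal_coeff p 1 s * unitsLocal_coeff p 0 t := by
  obtain ⟨f, rfl⟩ := unitsLocal_exists_rep s
  obtain ⟨g, rfl⟩ := unitsLocal_exists_rep t
  rw [← map_mul]
  simp only [unitsLocal_coeff_mk (show 0 < 3 by norm_num), unitsLocal_coeff_mk
    (show 1 < 3 by norm_num)]
  rw [coeff_mul, Finset.Nat.sum_antidiagonal_eq_sum_range_succ_mk]
  simp [Finset.sum_range_succ]

theorem unitsLocal_coeff_two_mul (s t : unitsLocal_T p) :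
    unitsLocal_coeff p 2 (s * t) =
      unitsLocal_coeff p 0 s * unitsLocal_coeff p 2 t +
        unitsLocal_coeff p 1 s * unitsLocal_coeff p 1 t +
        unitsLocal_coeff p 2 s * unitsLocal_coeff p 0 t := by
  obtain ⟨f, rfl⟩ := unitsLocal_exists_rep s
  obtain ⟨g, rfl⟩ := unitsLocal_exists_rep t
  rw [← map_mul]
  simp only [unitsLocal_coeff_mk (show 0 < 3 by norm_num), unitsLocal_coeff_mk
    (show 1 < 3 by norm_num), unitsLocal_coeff_mk (show 2 < 3 by norm_num)]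
  rw [coeff_mul, Finset.Nat.sum_antidiagonal_eq_sum_range_succ_mk]
  simp [Finset.sum_range_succ]

theorem unitsLocal_coeff_zero_one : unitsLocal_coeff p 0 (1 : unitsLocal_T p) = 1 := by
  rw [← map_one (unitsLocal_mk p), unitsLocal_coeff_mk (by norm_num), coeff_one_zero]

theorem unitsLocal_coeff_one_one : unitsLocal_coeff p 1 (1 : unitsLocal_T p) = 0 := by
  rw [← map_one (unitsLocal_mk p), unitsLocal_coeff_mk (by norm_num), coeff_one]
  simp

theorem unitsLocal_coeff_two_one : unitsLocal_coeff p 2 (1 : unitsLocal_T p) = 0 := by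
  rw [← map_one (unitsLocal_mk p), unitsLocal_coeff_mk (by norm_num), coeff_one]
  simp

theorem unitsLocal_coeff_zero_ne_zero_of_isUnit {t : unitsLocal_T p} (ht : IsUnit t) :
    unitsLocal_coeff p 0 t ≠ 0 := by
  obtain ⟨u, rfl⟩ := ht
  intro h
  have h1 := unitsLocal_coeff_zero_mul (p := p) (u : unitsLocal_T p) ((u⁻¹ : (unitsLocal_T p)ˣ))
  rw [Units.mul_inv, unitsLocal_coeff_zero_one, h, zero_mul] at h1
  exact one_ne_zero h1

/-- The `X²`-coefficient of the logarithm of `t / c₀(t)`. -/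
noncomputable def unitsLocal_lam (t : unitsLocal_T p) : ZMod p :=
  unitsLocal_coeff p 2 t / unitsLocal_coeff p 0 t -
    (unitsLocal_coeff p 1 t / unitsLocal_coeff p 0 t) ^ 2 / 2

theorem unitsLocal_lam_one : unitsLocal_lam (1 : unitsLocal_T p) = 0 := by
  unfold unitsLocal_lam
  rw [unitsLocal_coeff_zero_one, unitsLocal_coeff_one_one, unitsLocal_coeff_two_one]
  simp

theorem unitsLocal_lam_mul (hp2 : p ≠ 2) {s t : unitsLocal_T p}
    (hs : unitsLocal_coeff p 0 s ≠ 0) (ht : unitsLocal_coeff p 0 t ≠ 0) :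
    unitsLocal_lam (s * t) = unitsLocal_lam s + unitsLocal_lam t := by
  have h2 : (2 : ZMod p) ≠ 0 := by
    intro h
    have : ((2 : ℕ) : ZMod p) = 0 := by exact_mod_cast h
    rw [ZMod.natCast_eq_zero_iff] at this
    exact hp2 ((Nat.prime_dvd_prime_iff_eq (Fact.out : p.Prime) Nat.prime_two).1 this)
  unfold unitsLocal_lam
  rw [unitsLocal_coeff_zero_mul, unitsLocal_coeff_one_mul, unitsLocal_coeff_two_mul]
  field_simp
  ring

end Trunc

section Cyclo

variable {p : ℕ} [Fact p.Prime]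

theorem unitsLocal_mk_X_pow_three : (unitsLocal_mk p X) ^ 3 = 0 := by
  rw [← map_pow, Ideal.Quotient.eq_zero_iff_mem]
  exact Ideal.subset_span rfl

theorem unitsLocal_geom_sum (hp5 : 5 ≤ p) :
    ∑ i ∈ Finset.range p, (unitsLocal_mk p (1 + X)) ^ i = 0 := by
  have h1 : (∑ i ∈ Finset.range p, ((1 : (ZMod p)[X]) + X) ^ i) * X = X ^ p := by
    have := geom_sum_mul ((1 : (ZMod p)[X]) + X) p
    rw [add_sub_cancel_left] at this
    rw [this, add_pow_char, one_pow, add_sub_cancel_left]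
  have h2 : (∑ i ∈ Finset.range p, ((1 : (ZMod p)[X]) + X) ^ i) = X ^ (p - 1) := by
    apply mul_right_cancel₀ (X_ne_zero (R := ZMod p))
    rw [h1, ← pow_succ]
    congr 1
    omega
  have h3 : ∑ i ∈ Finset.range p, (unitsLocal_mk p (1 + X)) ^ i =
      unitsLocal_mk p (∑ i ∈ Finset.range p, ((1 : (ZMod p)[X]) + X) ^ i) := by
    rw [map_sum]
    exact Finset.sum_congr rfl fun i _ => (map_pow _ _ _).symm
  rw [h3, h2, Ideal.Quotient.eq_zero_iff_mem, Ideal.mem_span_singleton]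
  exact pow_dvd_pow X (by omega)

variable {K : Type*} [Field K] [NumberField K] [IsCyclotomicExtension {p} ℚ K] {ζ : K}
  (hζ : IsPrimitiveRoot ζ p)

theorem unitsLocal_aeval_minpoly (hp5 : 5 ≤ p) :
    aeval (unitsLocal_mk p (1 + X)) (minpoly ℤ hζ.integralPowerBasis.gen) = 0 := by
  have h1 : minpoly ℤ hζ.toInteger = cyclotomic p ℤ := by
    rw [← NumberField.RingOfIntegers.minpoly_coe]
    exact (cyclotomic_eq_minpoly hζ (Fact.out : p.Prime).pos).symm
  rw [hζ.integralPowerBasis_gen, h1, cyclotomic_prime, map_sum]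
  simp only [map_pow, aeval_X]
  exact unitsLocal_geom_sum hp5

/-- The reduction map `𝓞 K → 𝔽_p[X] / X³`, `ζ ↦ 1 + X`. -/
noncomputable def unitsLocal_rho (hp5 : 5 ≤ p) : 𝓞 K →+* unitsLocal_T p :=
  (hζ.integralPowerBasis.lift (unitsLocal_mk p (1 + X))
    (unitsLocal_aeval_minpoly hζ hp5)).toRingHom

theorem unitsLocal_rho_zeta (hp5 : 5 ≤ p) :
    unitsLocal_rho hζ hp5 hζ.toInteger = unitsLocal_mk p (1 + X) := by
  have := hζ.integralPowerBasis.lift_gen (unitsLocal_mk p (1 + X))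
    (unitsLocal_aeval_minpoly hζ hp5)
  rw [hζ.integralPowerBasis_gen] at this
  exact this

theorem unitsLocal_rho_pi (hp5 : 5 ≤ p) :
    unitsLocal_rho hζ hp5 (hζ.toInteger - 1) = unitsLocal_mk p X := by
  rw [map_sub, unitsLocal_rho_zeta, map_one, map_add, map_one, add_sub_cancel_left]

theorem unitsLocal_rho_intCast (hp5 : 5 ≤ p) (m : ℤ) :
    unitsLocal_rho hζ hp5 (m : 𝓞 K) = unitsLocal_mk p (C (m : ZMod p)) := by
  rw [map_intCast, ← map_intCast (unitsLocal_mk p), ← map_intCast (C : ZMod p →+* (ZMod p)[X])]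

theorem unitsLocal_coeff_zero_rho_ne_zero (hp5 : 5 ≤ p) (u : (𝓞 K)ˣ) :
    unitsLocal_coeff p 0 (unitsLocal_rho hζ hp5 (u : 𝓞 K)) ≠ 0 :=
  unitsLocal_coeff_zero_ne_zero_of_isUnit (u.isUnit.map (unitsLocal_rho hζ hp5))

/-- The local invariant: the `π²`-coefficient of the logarithm, as a group homomorphism. -/
noncomputable def localInv (hp5 : 5 ≤ p) : (𝓞 K)ˣ →* Multiplicative (ZMod p) where
  toFun u := Multiplicative.ofAdd (unitsLocal_lam (unitsLocal_rho hζ hp5 (u : 𝓞 K)))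
  map_one' := by
    rw [Units.val_one, map_one, unitsLocal_lam_one, ofAdd_zero]
  map_mul' u v := by
    rw [Units.val_mul, map_mul, unitsLocal_lam_mul (by omega)
      (unitsLocal_coeff_zero_rho_ne_zero hζ hp5 u) (unitsLocal_coeff_zero_rho_ne_zero hζ hp5 v),
      ofAdd_add]

theorem localInv_apply (hp5 : 5 ≤ p) (u : (𝓞 K)ˣ) :
    localInv hζ hp5 u = Multiplicative.ofAdd (unitsLocal_lam (unitsLocal_rho hζ hp5 (u : 𝓞 K))) :=
  rfl

/-- A unit congruent to a rational integer modulo `π³` has trivial local invariant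
(divisibility form). -/
theorem unitsLocal_localInv_eq_one_of_dvd (hp5 : 5 ≤ p) (u : (𝓞 K)ˣ)
    (h : ∃ m : ℤ, (hζ.toInteger - 1) ^ 3 ∣ (u : 𝓞 K) - (m : 𝓞 K)) :
    localInv hζ hp5 u = 1 := by
  obtain ⟨m, q, hq⟩ := h
  have h1 : unitsLocal_rho hζ hp5 (u : 𝓞 K) = unitsLocal_mk p (C (m : ZMod p)) := by
    have h2 : (u : 𝓞 K) = (m : 𝓞 K) + (hζ.toInteger - 1) ^ 3 * q := by
      rw [← hq]; ring
    rw [h2, map_add, map_mul, map_pow, unitsLocal_rho_pi, unitsLocal_mk_X_pow_three, zero_mul,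
      add_zero, unitsLocal_rho_intCast]
  have c1 : unitsLocal_coeff p 1 (unitsLocal_mk p (C (m : ZMod p))) = 0 := by
    rw [unitsLocal_coeff_mk (by norm_num), coeff_C, if_neg one_ne_zero]
  have c2 : unitsLocal_coeff p 2 (unitsLocal_mk p (C (m : ZMod p))) = 0 := by
    rw [unitsLocal_coeff_mk (by norm_num), coeff_C, if_neg two_ne_zero]
  rw [localInv_apply, h1, ofAdd_eq_one]
  unfold unitsLocal_lam
  rw [c1, c2]
  simp

/-- A unit congruent to a rational integer modulo `π³` has trivial local invariant. -/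
theorem localInv_eq_one_of_congr (hp5 : 5 ≤ p) (u : (𝓞 K)ˣ)
    (h : ∃ m : ℤ, (u : 𝓞 K) - (m : 𝓞 K) ∈ Ideal.span {(hζ.toInteger - 1) ^ 3}) :
    localInv hζ hp5 u = 1 := by
  obtain ⟨m, hm⟩ := h
  exact unitsLocal_localInv_eq_one_of_dvd hζ hp5 u ⟨m, Ideal.mem_span_singleton.1 hm⟩

end Cyclo

section Sums

variable {p : ℕ} [Fact p.Prime]

theorem unitsLocal_coeff_zero_pow (t : unitsLocal_T p) (n : ℕ) :
    unitsLocal_coeff p 0 (t ^ n) = unitsLocal_coeff p 0 t ^ n := by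
  induction n with
  | zero => rw [pow_zero, pow_zero, unitsLocal_coeff_zero_one]
  | succ n ih =>
    rw [pow_succ t n, pow_succ (unitsLocal_coeff p 0 t) n, unitsLocal_coeff_zero_mul, ih]

theorem unitsLocal_lam_pow (hp2 : p ≠ 2) {t : unitsLocal_T p}
    (ht : unitsLocal_coeff p 0 t ≠ 0) (n : ℕ) :
    unitsLocal_lam (t ^ n) = (n : ZMod p) * unitsLocal_lam t := by
  induction n with
  | zero => rw [pow_zero, unitsLocal_lam_one, Nat.cast_zero, zero_mul]
  | succ n ih =>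
    have h1 : unitsLocal_coeff p 0 (t ^ n) ≠ 0 := by
      rw [unitsLocal_coeff_zero_pow]; exact pow_ne_zero _ ht
    rw [pow_succ t n, unitsLocal_lam_mul hp2 h1 ht, ih]
    push_cast
    ring

theorem unitsLocal_lam_prod (hp2 : p ≠ 2) {ι : Type*} (s : Finset ι) (f : ι → unitsLocal_T p)
    (n : ι → ℕ) (hf : ∀ a ∈ s, unitsLocal_coeff p 0 (f a) ≠ 0) :
    unitsLocal_coeff p 0 (∏ a ∈ s, f a ^ n a) ≠ 0 ∧
      unitsLocal_lam (∏ a ∈ s, f a ^ n a) = ∑ a ∈ s, (n a : ZMod p) * unitsLocal_lam (f a) := by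
  classical
  induction s using Finset.induction_on with
  | empty =>
    refine ⟨?_, ?_⟩
    · rw [Finset.prod_empty, unitsLocal_coeff_zero_one]; exact one_ne_zero
    · rw [Finset.prod_empty, Finset.sum_empty, unitsLocal_lam_one]
  | insert a s ha ih =>
    have hfa : unitsLocal_coeff p 0 (f a) ≠ 0 := hf a (Finset.mem_insert_self a s)
    obtain ⟨ih1, ih2⟩ := ih fun b hb => hf b (Finset.mem_insert_of_mem hb)
    have h1 : unitsLocal_coeff p 0 (f a ^ n a) ≠ 0 := by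
      rw [unitsLocal_coeff_zero_pow]; exact pow_ne_zero _ hfa
    refine ⟨?_, ?_⟩
    · rw [Finset.prod_insert ha, unitsLocal_coeff_zero_mul]
      exact mul_ne_zero h1 ih1
    · rw [Finset.prod_insert ha, Finset.sum_insert ha, unitsLocal_lam_mul hp2 h1 ih1, ih2,
        unitsLocal_lam_pow hp2 hfa]

/-- The polynomial `∑_{j<a} (1 + X)^j`, the image of `(ζ^a - 1)/(ζ - 1)`. -/
noncomputable def unitsLocal_S (p : ℕ) (a : ℕ) : (ZMod p)[X] :=
  ∑ j ∈ Finset.range a, ((1 : (ZMod p)[X]) + X) ^ j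

theorem unitsLocal_coeff_S (a k : ℕ) :
    (unitsLocal_S p a).coeff k = ((a.choose (k + 1) : ℕ) : ZMod p) := by
  unfold unitsLocal_S
  induction a with
  | zero => simp
  | succ a ih =>
    rw [Finset.sum_range_succ, coeff_add, ih, coeff_one_add_X_pow, Nat.choose_succ_succ,
      Nat.cast_add, add_comm]

theorem unitsLocal_two_mul_choose_two (a : ℕ) :
    (2 : ZMod p) * ((a.choose 2 : ℕ) : ZMod p) = (a : ZMod p) * ((a : ZMod p) - 1) := by
  induction a with
  | zero => simp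
  | succ a ih =>
    rw [Nat.choose_succ_succ, Nat.choose_one_right, Nat.cast_add, mul_add, ih]
    push_cast
    ring

theorem unitsLocal_six_mul_choose_three (a : ℕ) :
    (6 : ZMod p) * ((a.choose 3 : ℕ) : ZMod p) =
      (a : ZMod p) * ((a : ZMod p) - 1) * ((a : ZMod p) - 2) := by
  induction a with
  | zero => simp
  | succ a ih =>
    have h2 := unitsLocal_two_mul_choose_two (p := p) a
    rw [Nat.choose_succ_succ, Nat.cast_add, mul_add, ih]
    push_cast
    linear_combination 3 * h2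

theorem unitsLocal_natCast_ne_zero {a : ℕ} (ha0 : 0 < a) (hap : a < p) :
    ((a : ℕ) : ZMod p) ≠ 0 := by
  intro h
  rw [ZMod.natCast_eq_zero_iff] at h
  exact absurd (Nat.le_of_dvd ha0 h) (not_le.2 hap)

theorem unitsLocal_two_ne_zero (hp5 : 5 ≤ p) : (2 : ZMod p) ≠ 0 := by
  have := unitsLocal_natCast_ne_zero (p := p) (a := 2) (by norm_num) (by omega)
  exact_mod_cast this

theorem unitsLocal_three_ne_zero (hp5 : 5 ≤ p) : (3 : ZMod p) ≠ 0 := by
  have := unitsLocal_natCast_ne_zero (p := p) (a := 3) (by norm_num) (by omega)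
  exact_mod_cast this

theorem unitsLocal_coeff_zero_mk_S (a : ℕ) :
    unitsLocal_coeff p 0 (unitsLocal_mk p (unitsLocal_S p a)) = (a : ZMod p) := by
  rw [unitsLocal_coeff_mk (by norm_num), unitsLocal_coeff_S, Nat.choose_one_right]

/-- `Λ₂` of the image of `(ζ^a - 1)/(ζ - 1)` is `(a - 1)(a - 5)/24`. -/
theorem unitsLocal_lam_mk_S (hp5 : 5 ≤ p) {a : ℕ} (ha : ((a : ℕ) : ZMod p) ≠ 0) :
    unitsLocal_lam (unitsLocal_mk p (unitsLocal_S p a)) =
      ((a : ZMod p) - 1) * ((a : ZMod p) - 5) / 24 := by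
  have h2 : (2 : ZMod p) ≠ 0 := unitsLocal_two_ne_zero hp5
  have h3 : (3 : ZMod p) ≠ 0 := unitsLocal_three_ne_zero hp5
  have h6 : (6 : ZMod p) ≠ 0 := by
    have : (6 : ZMod p) = 2 * 3 := by norm_num
    rw [this]; exact mul_ne_zero h2 h3
  have h24 : (24 : ZMod p) ≠ 0 := by
    have : (24 : ZMod p) = 2 * 2 * 2 * 3 := by norm_num
    rw [this]; exact mul_ne_zero (mul_ne_zero (mul_ne_zero h2 h2) h2) h3
  have c0 : unitsLocal_coeff p 0 (unitsLocal_mk p (unitsLocal_S p a)) = (a : ZMod p) :=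
    unitsLocal_coeff_zero_mk_S a
  have c1 : unitsLocal_coeff p 1 (unitsLocal_mk p (unitsLocal_S p a)) =
      (a : ZMod p) * ((a : ZMod p) - 1) / 2 := by
    rw [unitsLocal_coeff_mk (by norm_num), unitsLocal_coeff_S, eq_div_iff h2, mul_comm]
    exact unitsLocal_two_mul_choose_two a
  have c2 : unitsLocal_coeff p 2 (unitsLocal_mk p (unitsLocal_S p a)) =
      (a : ZMod p) * ((a : ZMod p) - 1) * ((a : ZMod p) - 2) / 6 := by
    rw [unitsLocal_coeff_mk (by norm_num), unitsLocal_coeff_S, eq_div_iff h6, mul_comm]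
    exact unitsLocal_six_mul_choose_three a
  unfold unitsLocal_lam
  rw [c0, c1, c2]
  field_simp
  ring

theorem unitsLocal_sum_range_eq (f : ZMod p → ZMod p) :
    ∑ a ∈ Finset.range p, f (a : ZMod p) = ∑ x : ZMod p, f x := by
  refine Finset.sum_bij' (fun a _ => ((a : ℕ) : ZMod p)) (fun x _ => x.val) ?_ ?_ ?_ ?_ ?_
  · intro a _; exact Finset.mem_univ _
  · intro x _; exact Finset.mem_range.2 (ZMod.val_lt x)
  · intro a ha; exact ZMod.val_natCast_of_lt (Finset.mem_range.1 ha)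
  · intro x _; exact ZMod.natCast_zmod_val x
  · intro a _; rfl

theorem unitsLocal_sum_Ioo_pow {k : ℕ} (hk0 : 0 < k) (hk : k < p - 1) :
    ∑ a ∈ Finset.Ioo 0 p, ((a : ℕ) : ZMod p) ^ k = 0 := by
  have hp : 0 < p := (Fact.out : p.Prime).pos
  have h1 : Finset.range p = insert 0 (Finset.Ioo 0 p) := by
    ext x
    simp only [Finset.mem_range, Finset.mem_insert, Finset.mem_Ioo]
    omega
  have h2 : ∑ a ∈ Finset.range p, ((a : ℕ) : ZMod p) ^ k =
      ∑ a ∈ Finset.Ioo 0 p, ((a : ℕ) : ZMod p) ^ k := by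
    rw [h1, Finset.sum_insert (by simp), Nat.cast_zero, zero_pow hk0.ne', zero_add]
  rw [← h2, unitsLocal_sum_range_eq (fun x => x ^ k)]
  apply FiniteField.sum_pow_lt_card_sub_one
  rw [ZMod.card]
  exact hk

/-- The key character sum: `∑_{0<a<p} a⁻² (a - 1)(a - 5) = -1` in `𝔽_p`. -/
theorem unitsLocal_key_sum (hp5 : 5 ≤ p) (e : ℕ → ℕ)
    (he : ∀ a ∈ Finset.Ioo 0 p, ((e a : ℕ) : ZMod p) * (a : ZMod p) ^ 2 = 1) :
    ∑ a ∈ Finset.Ioo 0 p, ((e a : ℕ) : ZMod p) * (((a : ZMod p) - 1) * ((a : ZMod p) - 5)) =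
      -1 := by
  have hterm : ∀ a ∈ Finset.Ioo 0 p,
      ((e a : ℕ) : ZMod p) * (((a : ZMod p) - 1) * ((a : ZMod p) - 5)) =
        1 - 6 * (a : ZMod p) ^ (p - 2) + 5 * (a : ZMod p) ^ (p - 3) := by
    intro a ha
    have hea := he a ha
    rw [Finset.mem_Ioo] at ha
    have hx : ((a : ℕ) : ZMod p) ≠ 0 := unitsLocal_natCast_ne_zero ha.1 ha.2
    have hx1 : ((a : ℕ) : ZMod p) ^ (p - 1) = 1 := ZMod.pow_card_sub_one_eq_one hx
    have e1 : ((a : ℕ) : ZMod p) ^ (p - 1) = (a : ZMod p) ^ (p - 3) * (a : ZMod p) ^ 2 := by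
      rw [← pow_add]; congr 1; omega
    have e2 : ((a : ℕ) : ZMod p) ^ (p - 2) = (a : ZMod p) ^ (p - 3) * (a : ZMod p) := by
      rw [← pow_succ]; congr 1; omega
    rw [e1] at hx1
    have e3 : ((e a : ℕ) : ZMod p) = (a : ZMod p) ^ (p - 3) := by
      linear_combination (a : ZMod p) ^ (p - 3) * hea - ((e a : ℕ) : ZMod p) * hx1
    rw [e2, e3]
    linear_combination hx1
  rw [Finset.sum_congr rfl hterm, Finset.sum_add_distrib, Finset.sum_sub_distrib,
    ← Finset.mul_sum, ← Finset.mul_sum, unitsLocal_sum_Ioo_pow (by omega) (by omega),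
    unitsLocal_sum_Ioo_pow (by omega) (by omega), Finset.sum_const, Nat.card_Ioo, nsmul_eq_mul,
    mul_one, mul_zero, mul_zero, sub_zero, add_zero, Nat.sub_zero,
    Nat.cast_sub (Fact.out : p.Prime).one_le, ZMod.natCast_self, Nat.cast_one, zero_sub]

end Sums

section Main

variable {p : ℕ} [Fact p.Prime] {K : Type*} [Field K] [NumberField K]
  [IsCyclotomicExtension {p} ℚ K] {ζ : K} (hζ : IsPrimitiveRoot ζ p)

theorem unitsLocal_rho_sum_zeta (hp5 : 5 ≤ p) (a : ℕ) :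
    unitsLocal_rho hζ hp5 (∑ j ∈ Finset.range a, hζ.toInteger ^ j) =
      unitsLocal_mk p (unitsLocal_S p a) := by
  unfold unitsLocal_S
  rw [map_sum, map_sum]
  refine Finset.sum_congr rfl fun j _ => ?_
  rw [map_pow, map_pow, unitsLocal_rho_zeta]

/-- The local invariant of the cyclotomic unit `∏_{0<a<p} ((ζ^a - 1)/(ζ - 1))^(e a)`, where
`e a ≡ a⁻² mod p`, is `-1/24 ≠ 0`. -/
theorem localInv_prod_cycloUnit_ne_one (hp5 : 5 ≤ p) (e : ℕ → ℕ)
    (he : ∀ a ∈ Finset.Ioo 0 p, ((e a : ℕ) : ZMod p) * (a : ZMod p) ^ 2 = 1) (E : (𝓞 K)ˣ)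
    (hE : (E : 𝓞 K) =
      ∏ a ∈ Finset.Ioo 0 p, (∑ j ∈ Finset.range a, hζ.toInteger ^ j) ^ e a) :
    localInv hζ hp5 E ≠ 1 := by
  have h2 : (2 : ZMod p) ≠ 0 := unitsLocal_two_ne_zero hp5
  have h3 : (3 : ZMod p) ≠ 0 := unitsLocal_three_ne_zero hp5
  have h24 : (24 : ZMod p) ≠ 0 := by
    have : (24 : ZMod p) = 2 * 2 * 2 * 3 := by norm_num
    rw [this]; exact mul_ne_zero (mul_ne_zero (mul_ne_zero h2 h2) h2) h3
  have hne : ∀ a ∈ Finset.Ioo 0 p, ((a : ℕ) : ZMod p) ≠ 0 := fun a ha =>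
    unitsLocal_natCast_ne_zero (Finset.mem_Ioo.1 ha).1 (Finset.mem_Ioo.1 ha).2
  have hρ : unitsLocal_rho hζ hp5 (E : 𝓞 K) =
      ∏ a ∈ Finset.Ioo 0 p, (unitsLocal_mk p (unitsLocal_S p a)) ^ e a := by
    rw [hE, map_prod]
    refine Finset.prod_congr rfl fun a _ => ?_
    rw [map_pow, unitsLocal_rho_sum_zeta]
  have hprod := (unitsLocal_lam_prod (p := p) (by omega) (Finset.Ioo 0 p)
    (fun a => unitsLocal_mk p (unitsLocal_S p a)) e
    (fun a ha => by rw [unitsLocal_coeff_zero_mk_S]; exact hne a ha)).2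
  have hsum : ∑ a ∈ Finset.Ioo 0 p, ((e a : ℕ) : ZMod p) *
      unitsLocal_lam (unitsLocal_mk p (unitsLocal_S p a)) = -1 / 24 := by
    rw [← unitsLocal_key_sum hp5 e he, Finset.sum_div]
    refine Finset.sum_congr rfl fun a ha => ?_
    rw [unitsLocal_lam_mk_S hp5 (hne a ha)]
    ring
  rw [localInv_apply, hρ, hprod, hsum]
  intro h
  rw [ofAdd_eq_one, div_eq_zero_iff] at h
  rcases h with h | h
  · exact one_ne_zero (neg_eq_zero.1 h)
  · exact h24 h

end Main

end Fermat.Agent.S14
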