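import Mathlib
import Fermat.Agent.S14.Defs
import Fermat.Agent.S14.UnitsDep
import Fermat.Agent.S14.UnitsLocal

/-!
# S14 / units package: the cyclotomic unit `E₂`

`omegaSqElt p ζ = ∏_{0<a<p} (1 - ζ^a)^(e_a)` is `(1 - ζ)^(∑ e_a)` times the unit
`E₂ = ∏_{0<a<p} (∑_{j<a} ζ^j)^(e_a)`, and `p ∣ ∑ e_a`.  Both are `ω²`-eigen modulo `p`-th powers.
-/

set_option autoImplicit false
set_option maxSynthPendingDepth 3

open scoped NumberField

namespace Fermat.Agent.S14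

section

open Finset UnitsDep UnitsGal

variable {p : ℕ} [hp : Fact p.Prime] {K : Type} [Field K] [NumberField K]
  [IsCyclotomicExtension {p} ℚ K] {ζ : K}

/-- Reindexing a product over `0 < a < p` by the units of `ZMod p`. -/
theorem un_prod_Ioo_eq_prod_units {M : Type*} [CommMonoid M] (f : ℕ → M) :
    ∏ a ∈ Finset.Ioo 0 p, f a = ∏ d : (ZMod p)ˣ, f ((d : ZMod p).val) := by
  symm
  refine Finset.prod_bij (fun d _ => ((d : (ZMod p)ˣ) : ZMod p).val) ?_ ?_ ?_ ?_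
  · intro d _
    rw [Finset.mem_Ioo]
    exact ⟨(ZMod.val_pos).mpr d.ne_zero, ZMod.val_lt _⟩
  · intro d₁ _ d₂ _ h
    exact Units.ext (ZMod.val_injective p h)
  · intro a ha
    rw [Finset.mem_Ioo] at ha
    have hcop : a.Coprime p :=
      ((Nat.Prime.coprime_iff_not_dvd hp.out).mpr (Nat.not_dvd_of_pos_of_lt ha.1 ha.2)).symm
    refine ⟨ZMod.unitOfCoprime a hcop, Finset.mem_univ _, ?_⟩
    rw [ZMod.coe_unitOfCoprime, ZMod.val_natCast, Nat.mod_eq_of_lt ha.2]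
  · intro d _
    rfl

/-! ### The exponents -/

theorem un_omegaSqExp_cast (a : ℕ) :
    ((omegaSqExp p a : ℕ) : ZMod p) = ((a : ZMod p)⁻¹) ^ 2 := by
  rw [omegaSqExp, ZMod.natCast_zmod_val]

theorem un_omegaSqExp_mul (a : ℕ) (ha : a ∈ Finset.Ioo 0 p) :
    ((omegaSqExp p a : ℕ) : ZMod p) * (a : ZMod p) ^ 2 = 1 := by
  rw [Finset.mem_Ioo] at ha
  have hx : ((a : ℕ) : ZMod p) ≠ 0 := unitsLocal_natCast_ne_zero ha.1 ha.2
  rw [un_omegaSqExp_cast, ← mul_pow, inv_mul_cancel₀ hx, one_pow]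

theorem un_omegaSqExp_lt (a : ℕ) : omegaSqExp p a < p := by
  have : NeZero p := ⟨hp.out.ne_zero⟩
  exact ZMod.val_lt _

/-- `p` divides the sum of the exponents. -/
theorem un_dvd_sum_omegaSqExp (hp5 : 5 ≤ p) : p ∣ ∑ a ∈ Finset.Ioo 0 p, omegaSqExp p a := by
  rw [← ZMod.natCast_eq_zero_iff]
  push_cast
  have h1 : ∀ a ∈ Finset.Ioo 0 p, ((omegaSqExp p a : ℕ) : ZMod p) = (a : ZMod p) ^ (p - 3) := by
    intro a ha
    have hea := un_omegaSqExp_mul a ha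
    rw [Finset.mem_Ioo] at ha
    have hx : ((a : ℕ) : ZMod p) ≠ 0 := unitsLocal_natCast_ne_zero ha.1 ha.2
    have hx1 : ((a : ℕ) : ZMod p) ^ (p - 1) = 1 := ZMod.pow_card_sub_one_eq_one hx
    have e1 : ((a : ℕ) : ZMod p) ^ (p - 1) = (a : ZMod p) ^ (p - 3) * (a : ZMod p) ^ 2 := by
      rw [← pow_add]; congr 1; omega
    rw [e1] at hx1
    linear_combination (a : ZMod p) ^ (p - 3) * hea - ((omegaSqExp p a : ℕ) : ZMod p) * hx1
  rw [Finset.sum_congr rfl h1]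
  exact unitsLocal_sum_Ioo_pow (by omega) (by omega)

/-! ### The unit `E₂` -/

/-- The cyclotomic unit `E₂ = ∏_{0<a<p} (∑_{j<a} ζ^j)^(e_a)`, as an element of `𝓞 K`. -/
noncomputable def un_E2 (hζ : IsPrimitiveRoot ζ p) : 𝓞 K :=
  ∏ a ∈ Finset.Ioo 0 p, (∑ j ∈ Finset.range a, hζ.toInteger ^ j) ^ omegaSqExp p a

theorem un_E2_isUnit (hζ : IsPrimitiveRoot ζ p) : IsUnit (un_E2 hζ) := by
  unfold un_E2
  rw [IsUnit.prod_iff]
  intro a ha
  rw [Finset.mem_Ioo] at ha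
  have hcop : a.Coprime p :=
    ((Nat.Prime.coprime_iff_not_dvd hp.out).mpr (Nat.not_dvd_of_pos_of_lt ha.1 ha.2)).symm
  exact (hζ.toInteger_isPrimitiveRoot.geom_sum_isUnit hp.out.two_le hcop).pow _

/-- The cyclotomic unit `E₂`, as a unit of `𝓞 K`. -/
noncomputable def un_E2u (hζ : IsPrimitiveRoot ζ p) : (𝓞 K)ˣ := (un_E2_isUnit hζ).unit

theorem un_E2u_val (hζ : IsPrimitiveRoot ζ p) :
    ((un_E2u hζ : (𝓞 K)ˣ) : 𝓞 K) =
      ∏ a ∈ Finset.Ioo 0 p, (∑ j ∈ Finset.range a, hζ.toInteger ^ j) ^ omegaSqExp p a := rfl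

/-- `E₂* = (1 - ζ)^(∑ e_a) * E₂`. -/
theorem un_omegaSqElt_eq (hζ : IsPrimitiveRoot ζ p) :
    omegaSqElt p hζ.toInteger =
      (1 - hζ.toInteger) ^ (∑ a ∈ Finset.Ioo 0 p, omegaSqExp p a) * un_E2 hζ := by
  unfold omegaSqElt un_E2
  rw [← Finset.prod_pow_eq_pow_sum, ← Finset.prod_mul_distrib]
  refine Finset.prod_congr rfl fun a _ => ?_
  rw [← mul_pow, mul_neg_geom_sum]

/-- The local invariant of `E₂` is non-trivial. -/
theorem un_localInv_E2u_ne_one (hζ : IsPrimitiveRoot ζ p) (hp5 : 5 ≤ p) :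
    localInv hζ hp5 (un_E2u hζ) ≠ 1 :=
  localInv_prod_cycloUnit_ne_one hζ hp5 (omegaSqExp p) (fun a ha => un_omegaSqExp_mul a ha)
    (un_E2u hζ) (un_E2u_val hζ)

/-! ### Eigen properties -/

theorem un_one_sub_zeta_pow_ne_zero (hζ : IsPrimitiveRoot ζ p) (d : (ZMod p)ˣ) :
    (1 : K) - ζ ^ ((d : ZMod p).val) ≠ 0 := by
  have : NeZero p := ⟨hp.out.ne_zero⟩
  intro h
  have h1 : ζ ^ ((d : ZMod p).val) = 1 := (sub_eq_zero.mp h).symm
  rw [hζ.pow_eq_one_iff_dvd, ← ZMod.natCast_eq_zero_iff, ZMod.natCast_zmod_val] at h1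
  exact d.ne_zero h1

/-- `E₂* = ∏ (1 - ζ^a)^(e_a)` is an `ω²`-eigenvector modulo `p`-th powers. -/
theorem un_omegaSqElt_eigen (hζ : IsPrimitiveRoot ζ p) :
    IsOmegaSqEigen p ζ (omegaSqElt p ζ) := by
  intro σ k hσ
  have : NeZero p := ⟨hp.out.ne_zero⟩
  have hk0 : (k : ZMod p) ≠ 0 := by
    intro h0
    rw [ZMod.natCast_eq_zero_iff] at h0
    obtain ⟨m, rfl⟩ := h0
    rw [pow_mul, hζ.pow_eq_one, one_pow] at hσ
    exact hζ.ne_one hp.out.one_lt (σ.injective (hσ.trans (map_one σ).symm))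
  set κ : (ZMod p)ˣ := Units.mk0 (k : ZMod p) hk0 with hκ
  set F : (ZMod p)ˣ → K := fun d => 1 - ζ ^ ((d : ZMod p).val) with hF
  set ε : (ZMod p)ˣ → ℕ := fun d => omegaSqExp p ((d : ZMod p).val) with hε
  have hE : omegaSqElt p ζ = ∏ d : (ZMod p)ˣ, F d ^ ε d :=
    un_prod_Ioo_eq_prod_units (fun a => (1 - ζ ^ a) ^ omegaSqExp p a)
  have hF0 : ∀ d, F d ≠ 0 := fun d => un_one_sub_zeta_pow_ne_zero hζ d
  have hσF : ∀ d, σ (F d) = F (κ * d) := by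
    intro d
    simp only [hF, map_sub, map_one, map_pow, hσ]
    rw [← pow_mul]
    congr 1
    rw [zeta_pow_eq_pow_iff hζ]
    push_cast
    rw [ZMod.natCast_zmod_val, ZMod.natCast_zmod_val]
    rfl
  have hεmod : ∀ d, ε (κ⁻¹ * d) = (k ^ 2 * ε d) % p := by
    intro d
    rw [← ZMod.val_natCast]
    simp only [hε, omegaSqExp]
    congr 1
    push_cast
    rw [ZMod.natCast_zmod_val, ZMod.natCast_zmod_val, ZMod.natCast_zmod_val]
    have h1 : ((κ : (ZMod p)ˣ) : ZMod p) = (k : ZMod p) := rfl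
    have hd0 : ((d : (ZMod p)ˣ) : ZMod p) ≠ 0 := d.ne_zero
    rw [h1]
    field_simp
  have h1 : σ (omegaSqElt p ζ) = ∏ d, F d ^ ε (κ⁻¹ * d) := by
    rw [hE, map_prod]
    simp only [map_pow, hσF]
    exact Fintype.prod_equiv (Equiv.mulLeft κ) _ _ (fun d => by simp)
  set G : K := ∏ d, F d ^ ((k ^ 2 * ε d) / p) with hG
  have hG0 : G ≠ 0 := Finset.prod_ne_zero_iff.mpr fun d _ => pow_ne_zero _ (hF0 d)
  refine ⟨G⁻¹, ?_⟩
  have h2 : omegaSqElt p ζ ^ (k ^ 2) = σ (omegaSqElt p ζ) * G ^ p := by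
    rw [h1, hE, hG, ← Finset.prod_pow, ← Finset.prod_pow, ← Finset.prod_mul_distrib]
    refine Finset.prod_congr rfl fun d _ => ?_
    rw [← pow_mul, ← pow_mul, ← pow_add, hεmod d]
    congr 1
    rw [mul_comm (ε d), mul_comm _ p, Nat.mod_add_div]
  rw [h2, inv_pow, mul_assoc, mul_inv_cancel₀ (pow_ne_zero _ hG0), mul_one]

theorem un_coe_omegaSqElt (hζ : IsPrimitiveRoot ζ p) :
    ((omegaSqElt p hζ.toInteger : 𝓞 K) : K) = omegaSqElt p ζ := by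
  unfold omegaSqElt
  change algebraMap (𝓞 K) K _ = _
  rw [map_prod]
  refine Finset.prod_congr rfl fun a _ => ?_
  rw [map_pow, map_sub, map_one, map_pow]
  rfl

/-- The unit `E₂` is an `ω²`-eigenvector modulo `p`-th powers. -/
theorem un_E2u_eigen (hζ : IsPrimitiveRoot ζ p) (hp5 : 5 ≤ p) :
    IsOmegaSqEigen p ζ (((un_E2u hζ : (𝓞 K)ˣ) : 𝓞 K) : K) := by
  obtain ⟨s, hs⟩ := un_dvd_sum_omegaSqExp (p := p) hp5
  have hπ0 : (1 : K) - ζ ≠ 0 := sub_ne_zero.mpr (hζ.ne_one hp.out.one_lt).symm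
  have h1 : omegaSqElt p ζ = ((1 - ζ) ^ s) ^ p * (((un_E2u hζ : (𝓞 K)ˣ) : 𝓞 K) : K) := by
    rw [← un_coe_omegaSqElt hζ, un_omegaSqElt_eq hζ, hs]
    change algebraMap (𝓞 K) K _ = _
    rw [map_mul, map_pow, map_sub, map_one, mul_comm p s, pow_mul]
    rfl
  have h2 : (((un_E2u hζ : (𝓞 K)ˣ) : 𝓞 K) : K) = omegaSqElt p ζ * (((1 - ζ) ^ s) ^ p)⁻¹ := by
    rw [h1, mul_comm, ← mul_assoc, inv_mul_cancel₀ (pow_ne_zero _ (pow_ne_zero _ hπ0)), one_mul]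
  rw [h2]
  exact eigen_mul (un_omegaSqElt_eigen hζ) (eigen_inv (eigen_pow_prime (pow_ne_zero _ hπ0)))

end

end Fermat.Agent.S14
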