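import Mathlib
import Fermat.Agent.S14.Defs
import Fermat.Agent.S14.UnitsCyclo

/-!
# S14 / units package (UN): final exports

* `units : UnitsStatement p` (`p ≥ 5`): an `ω²`-eigen unit which is a `p`-th power modulo `π³` is
  a `p`-th power of a unit.

(`omegaSqElt_not_pow` is in `UnitsOmega.lean`.)
-/

set_option autoImplicit false
set_option maxSynthPendingDepth 3

open scoped NumberField

namespace Fermat.Agent.S14

section

open Finset Polynomial UnitsDep UnitsGal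

variable {p : ℕ} [hp : Fact p.Prime] {K : Type} [Field K] [NumberField K]
  [IsCyclotomicExtension {p} ℚ K] {ζ : K}

/-- In the truncated polynomial ring `𝔽_p[X] / X³`, `p`-th powers are constants. -/
theorem un_pow_prime_eq_C (hp3 : 3 ≤ p) (t : unitsLocal_T p) :
    ∃ c : ZMod p, t ^ p = unitsLocal_mk p (C c) := by
  obtain ⟨f, rfl⟩ := unitsLocal_exists_rep t
  refine ⟨(f.coeff 0) ^ p, ?_⟩
  have hX : unitsLocal_mk p (X ^ p) = 0 := by
    rw [Ideal.Quotient.eq_zero_iff_mem, Ideal.mem_span_singleton]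
    exact pow_dvd_pow X hp3
  rw [← map_pow]
  conv_lhs => rw [← Polynomial.divX_mul_X_add f]
  rw [add_pow_char, map_add, mul_pow, map_mul, hX, mul_zero, zero_add, ← map_pow C]

/-- The local invariant of a constant vanishes. -/
theorem un_lam_C (c : ZMod p) : unitsLocal_lam (unitsLocal_mk p (C c)) = 0 := by
  have c1 : unitsLocal_coeff p 1 (unitsLocal_mk p (C c)) = 0 := by
    rw [unitsLocal_coeff_mk (by norm_num), coeff_C, if_neg one_ne_zero]
  have c2 : unitsLocal_coeff p 2 (unitsLocal_mk p (C c)) = 0 := by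
    rw [unitsLocal_coeff_mk (by norm_num), coeff_C, if_neg two_ne_zero]
  unfold unitsLocal_lam
  rw [c1, c2]
  simp

/-- A unit which is a `p`-th power modulo `π³` has trivial local invariant. -/
theorem un_localInv_eq_one (hζ : IsPrimitiveRoot ζ p) (hp5 : 5 ≤ p) (u : (𝓞 K)ˣ)
    (h : ∃ y : 𝓞 K, (u : 𝓞 K) - y ^ p ∈ Ideal.span {(1 - hζ.toInteger) ^ 3}) :
    localInv hζ hp5 u = 1 := by
  obtain ⟨y, hy⟩ := h
  rw [Ideal.mem_span_singleton] at hy
  obtain ⟨q, hq⟩ := hy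
  have h1 : unitsLocal_rho hζ hp5 (u : 𝓞 K) = (unitsLocal_rho hζ hp5 y) ^ p := by
    have h2 : (u : 𝓞 K) = y ^ p + (-(hζ.toInteger - 1)) ^ 3 * q := by
      rw [neg_sub, ← hq]; ring
    rw [h2, map_add, map_mul, map_pow, map_pow, map_neg, unitsLocal_rho_pi, neg_pow,
      unitsLocal_mk_X_pow_three, mul_zero, zero_mul, add_zero]
  obtain ⟨c, hc⟩ := un_pow_prime_eq_C (p := p) (by omega) (unitsLocal_rho hζ hp5 y)
  rw [localInv_apply, h1, hc, un_lam_C]
  rfl

/-- The local invariant kills `p`-th powers. -/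
theorem un_localInv_pow_prime (hζ : IsPrimitiveRoot ζ p) (hp5 : 5 ≤ p) (v : (𝓞 K)ˣ) :
    localInv hζ hp5 (v ^ p) = 1 := by
  rw [map_pow]
  apply Multiplicative.toAdd.injective
  rw [toAdd_pow, toAdd_one, nsmul_eq_mul, ZMod.natCast_self, zero_mul]

/-- In `Multiplicative (ZMod p)`: `x ^ b = 1` with `x ≠ 1` forces `p ∣ b`. -/
theorem un_dvd_of_zpow_eq_one {x : Multiplicative (ZMod p)} (hx : x ≠ 1) {b : ℤ}
    (h : x ^ b = 1) : (p : ℤ) ∣ b := by
  have h1 : b • Multiplicative.toAdd x = 0 := by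
    rw [← toAdd_zpow, h, toAdd_one]
  rw [zsmul_eq_mul] at h1
  rcases mul_eq_zero.mp h1 with h2 | h2
  · exact (ZMod.intCast_zmod_eq_zero_iff_dvd b p).mp h2
  · exact absurd (Multiplicative.toAdd.injective (h2.trans toAdd_one.symm)) hx

/-- (UN) An `ω²`-eigen unit which is a `p`-th power modulo `π³` is a `p`-th power. -/
theorem units {p : ℕ} [Fact p.Prime] (hp5 : 5 ≤ p) : UnitsStatement p := by
  intro K _ _ _ ζ hζ u hu hloc
  obtain ⟨a, b, hab, w, hw⟩ :=
    exists_zpow_mul_zpow_eq_pow hζ hp5 u (un_E2u hζ) hu (un_E2u_eigen hζ hp5)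
  have h1 : localInv hζ hp5 u = 1 := un_localInv_eq_one hζ hp5 u hloc
  have h2 := congrArg (localInv hζ hp5) hw
  rw [map_mul, map_zpow, map_zpow, h1, one_zpow, one_mul, un_localInv_pow_prime] at h2
  have hb : (p : ℤ) ∣ b := un_dvd_of_zpow_eq_one (un_localInv_E2u_ne_one hζ hp5) h2
  have ha : ¬ (p : ℤ) ∣ a := fun ha => hab ⟨ha, hb⟩
  obtain ⟨b', rfl⟩ := hb
  -- `u ^ a = (w * E₂ ^ (-b')) ^ p`
  have h3 : u ^ a = (w * (un_E2u hζ) ^ (-b')) ^ p := by
    rw [mul_pow, ← hw, ← zpow_natCast ((un_E2u hζ) ^ (-b')) p, ← zpow_mul, mul_assoc,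
      ← zpow_add]
    have : (p : ℤ) * b' + -b' * (p : ℤ) = 0 := by ring
    rw [this, zpow_zero, mul_one]
  -- Bezout
  have hpZ : Prime (p : ℤ) := Nat.prime_iff_prime_int.mp (Fact.out : p.Prime)
  have hcop : IsCoprime a (p : ℤ) := (hpZ.coprime_iff_not_dvd.mpr ha).symm
  obtain ⟨s, t, hst⟩ := hcop
  generalize w * (un_E2u hζ) ^ (-b') = W at h3
  refine ⟨W ^ s * u ^ t, ?_⟩
  calc u = u ^ (s * a + t * (p : ℤ)) := by rw [hst, zpow_one]
    _ = (u ^ a) ^ s * (u ^ t) ^ (p : ℤ) := by rw [zpow_add, mul_comm s a, zpow_mul, zpow_mul]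
    _ = (W ^ s * u ^ t) ^ p := by
      rw [h3, mul_pow, zpow_natCast]
      congr 1
      rw [← zpow_natCast W p, ← zpow_natCast (W ^ s) p, ← zpow_mul, ← zpow_mul, mul_comm]

end

end Fermat.Agent.S14
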