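import Mathlib
import Fermat.Agent.S14.Defs
import Fermat.Agent.S14.UnitsLocal

/-!
# S14, package (UN): the `ω²`-element `E₂*` is not a `p`-th power

`omegaSqElt p ζ = ∏_{0<a<p} (1 - ζ^a)^(e_a)` with `e_a ≡ a⁻² mod p`.  Since
`1 - ζ^a = (1 - ζ) * ∑_{j<a} ζ^j` and `p ∣ ∑ e_a` (for `p ≥ 5`), it is `(1 - ζ)^(p m)` times the
unit `E = ∏ (∑_{j<a} ζ^j)^(e_a)`, whose local invariant `localInv` is non-trivial
(`localInv_prod_cycloUnit_ne_one`).  As `localInv` takes values in a group of exponent `p`,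
`E` is not a `p`-th power of a unit, hence `omegaSqElt` is not a `p`-th power in `K`.

Main declaration (namespace `Fermat.Agent.S14`): `omegaSqElt_not_pow`.
-/

set_option autoImplicit false

open scoped NumberField

namespace Fermat.Agent.S14

section Exponents

variable {p : ℕ} [Fact p.Prime]

/-- `e_a * a² = 1` in `𝔽_p` for `0 < a < p`. -/
theorem unOm_exp_spec {a : ℕ} (ha : a ∈ Finset.Ioo 0 p) :
    ((omegaSqExp p a : ℕ) : ZMod p) * (a : ZMod p) ^ 2 = 1 := by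
  have hx : ((a : ℕ) : ZMod p) ≠ 0 :=
    unitsLocal_natCast_ne_zero (Finset.mem_Ioo.1 ha).1 (Finset.mem_Ioo.1 ha).2
  unfold omegaSqExp
  rw [ZMod.natCast_zmod_val, ← mul_pow, inv_mul_cancel₀ hx, one_pow]

/-- `e_a = a^(p-3)` in `𝔽_p` for `0 < a < p`. -/
theorem unOm_exp_eq_pow (hp5 : 5 ≤ p) {a : ℕ} (ha : a ∈ Finset.Ioo 0 p) :
    ((omegaSqExp p a : ℕ) : ZMod p) = (a : ZMod p) ^ (p - 3) := by
  have hea := unOm_exp_spec ha
  have hx : ((a : ℕ) : ZMod p) ≠ 0 :=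
    unitsLocal_natCast_ne_zero (Finset.mem_Ioo.1 ha).1 (Finset.mem_Ioo.1 ha).2
  have hx1 : ((a : ℕ) : ZMod p) ^ (p - 1) = 1 := ZMod.pow_card_sub_one_eq_one hx
  have e1 : ((a : ℕ) : ZMod p) ^ (p - 1) = (a : ZMod p) ^ (p - 3) * (a : ZMod p) ^ 2 := by
    rw [← pow_add]; congr 1; omega
  rw [e1] at hx1
  linear_combination (a : ZMod p) ^ (p - 3) * hea - ((omegaSqExp p a : ℕ) : ZMod p) * hx1

/-- `p ∣ ∑_{0<a<p} e_a` for `p ≥ 5`. -/
theorem unOm_dvd_sum_exp (hp5 : 5 ≤ p) : p ∣ ∑ a ∈ Finset.Ioo 0 p, omegaSqExp p a := by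
  rw [← ZMod.natCast_eq_zero_iff, Nat.cast_sum,
    Finset.sum_congr rfl (fun a ha => unOm_exp_eq_pow hp5 ha)]
  exact unitsLocal_sum_Ioo_pow (by omega) (by omega)

theorem unOm_pow_prime_eq_one (y : Multiplicative (ZMod p)) : y ^ p = 1 := by
  rw [← ofAdd_toAdd y, ← ofAdd_nsmul, nsmul_eq_mul, ZMod.natCast_self, zero_mul, ofAdd_zero]

end Exponents

section Main

variable {p : ℕ} [Fact p.Prime] {K : Type*} [Field K] [NumberField K]
  [IsCyclotomicExtension {p} ℚ K] {ζ : K} (hζ : IsPrimitiveRoot ζ p)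

omit [NumberField K] [IsCyclotomicExtension {p} ℚ K] in
theorem unOm_isUnit_geom (hp5 : 5 ≤ p) {a : ℕ} (ha : a ∈ Finset.Ioo 0 p) :
    IsUnit (∑ j ∈ Finset.range a, hζ.toInteger ^ j) := by
  rw [Finset.mem_Ioo] at ha
  refine hζ.toInteger_isPrimitiveRoot.geom_sum_isUnit (by omega) ?_
  exact Nat.Coprime.symm
    ((Nat.Prime.coprime_iff_not_dvd Fact.out).2 (Nat.not_dvd_of_pos_of_lt ha.1 ha.2))

omit [NumberField K] [IsCyclotomicExtension {p} ℚ K] in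
theorem unOm_isUnit_prod (hp5 : 5 ≤ p) :
    IsUnit (∏ a ∈ Finset.Ioo 0 p,
      (∑ j ∈ Finset.range a, hζ.toInteger ^ j) ^ omegaSqExp p a) :=
  Finset.prod_induction _ IsUnit (fun _ _ => IsUnit.mul) isUnit_one
    fun _ ha => (unOm_isUnit_geom hζ hp5 ha).pow _

/-- The unit part `∏_{0<a<p} (∑_{j<a} ζ^j)^(e_a)` of `omegaSqElt`. -/
noncomputable def unOm_unit (hp5 : 5 ≤ p) : (𝓞 K)ˣ := (unOm_isUnit_prod hζ hp5).unit

omit [NumberField K] [IsCyclotomicExtension {p} ℚ K] in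
theorem unOm_unit_coe (hp5 : 5 ≤ p) :
    (unOm_unit hζ hp5 : 𝓞 K) =
      ∏ a ∈ Finset.Ioo 0 p, (∑ j ∈ Finset.range a, hζ.toInteger ^ j) ^ omegaSqExp p a :=
  rfl

omit [NumberField K] [IsCyclotomicExtension {p} ℚ K] in
/-- `omegaSqElt = (1 - ζ)^(∑ e_a) * unit`. -/
theorem unOm_omegaSqElt_eq (hp5 : 5 ≤ p) :
    omegaSqElt p hζ.toInteger =
      (1 - hζ.toInteger) ^ (∑ a ∈ Finset.Ioo 0 p, omegaSqExp p a) *
        (unOm_unit hζ hp5 : 𝓞 K) := by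
  rw [unOm_unit_coe, ← Finset.prod_pow_eq_pow_sum, ← Finset.prod_mul_distrib]
  unfold omegaSqElt
  refine Finset.prod_congr rfl fun a _ => ?_
  rw [← mul_pow, mul_neg_geom_sum]

/-- The local invariant of the unit part of `omegaSqElt` is non-trivial. -/
theorem unOm_localInv_unit_ne_one (hp5 : 5 ≤ p) :
    localInv hζ hp5 (unOm_unit hζ hp5) ≠ 1 :=
  localInv_prod_cycloUnit_ne_one hζ hp5 (omegaSqExp p) (fun _ ha => unOm_exp_spec ha)
    (unOm_unit hζ hp5) (unOm_unit_coe hζ hp5)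

/-- The unit part of `omegaSqElt` is not a `p`-th power of a unit. -/
theorem unOm_unit_ne_pow (hp5 : 5 ≤ p) (w : (𝓞 K)ˣ) : unOm_unit hζ hp5 ≠ w ^ p := by
  intro h
  apply unOm_localInv_unit_ne_one hζ hp5
  rw [h, map_pow, unOm_pow_prime_eq_one]

/-- The unit part of `omegaSqElt` is not a `p`-th power in `K`. -/
theorem unOm_unit_not_pow (hp5 : 5 ≤ p) :
    ¬ ∃ v : K, v ^ p = ((unOm_unit hζ hp5 : 𝓞 K) : K) := by
  rintro ⟨v, hv⟩
  have hp0 : 0 < p := (Fact.out : p.Prime).pos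
  have hvint : IsIntegral ℤ v := by
    refine IsIntegral.of_pow hp0 ?_
    rw [hv]
    exact NumberField.RingOfIntegers.isIntegral_coe _
  have hw : (⟨v, hvint⟩ : 𝓞 K) ^ p = (unOm_unit hζ hp5 : 𝓞 K) := by
    apply NumberField.RingOfIntegers.ext
    rw [← hv]
    rfl
  have hwu : IsUnit (⟨v, hvint⟩ : 𝓞 K) := by
    rw [← isUnit_pow_iff hp0.ne', hw]
    exact Units.isUnit _
  refine unOm_unit_ne_pow hζ hp5 hwu.unit (Units.ext ?_)
  rw [Units.val_pow_eq_pow_val, IsUnit.unit_spec]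
  exact hw.symm

end Main

/-- The `ω²`-element `E₂* = ∏_{0<a<p} (1 - ζ^a)^(e_a)` is not a `p`-th power in `K`. -/
theorem omegaSqElt_not_pow {p : ℕ} [Fact p.Prime] (hp5 : 5 ≤ p) (K : Type) [Field K]
    [NumberField K] [IsCyclotomicExtension {p} ℚ K] (ζ : K) (hζ : IsPrimitiveRoot ζ p) :
    ¬ ∃ x : K, x ^ p = ((omegaSqElt p hζ.toInteger : 𝓞 K) : K) := by
  rintro ⟨x, hx⟩
  obtain ⟨m, hm⟩ := unOm_dvd_sum_exp (p := p) hp5
  have hp1 : 1 < p := (Fact.out : p.Prime).one_lt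
  have hπ : ((1 - hζ.toInteger : 𝓞 K) : K) ≠ 0 := by
    intro h
    have h1 : (1 : K) - ζ = 0 := by
      simpa using h
    exact hζ.ne_one hp1 (sub_eq_zero.1 h1).symm
  apply unOm_unit_not_pow hζ hp5
  refine ⟨x / ((1 - hζ.toInteger : 𝓞 K) : K) ^ m, ?_⟩
  have h2 : ((omegaSqElt p hζ.toInteger : 𝓞 K) : K) =
      ((1 - hζ.toInteger : 𝓞 K) : K) ^ (p * m) * ((unOm_unit hζ hp5 : 𝓞 K) : K) := by
    rw [unOm_omegaSqElt_eq hζ hp5, hm, NumberField.RingOfIntegers.coe_eq_algebraMap, map_mul,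
      map_pow]
  rw [div_pow, hx, h2, ← pow_mul, mul_comm m p, mul_div_cancel_left₀ _ (pow_ne_zero _ hπ)]

end Fermat.Agent.S14
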