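import Mathlib

/-!
# S14, package (AN3), hedge by helper1: Kummer splitting

Let `K` be a number field containing a primitive `p`-th root of unity `ζ`, and `E ∈ 𝓞 K` not a
`p`-th power in `K`.  Then `K' = K(E^(1/p))` is a number field of degree `p` over `K`, and every
prime `λ` of `𝓞 K` of prime norm with `p ∉ λ`, `E ∉ λ` and `E` a `p`-th power modulo `λ` has `p`
distinct primes of `𝓞 K'` above it, all of norm `N(λ)`.

The primes are `P i = λ 𝓞 K' + (x - ζ ^ i β)`, where `β ^ p = E` and `x ^ p ≡ E mod λ`.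
-/

open scoped NumberField
open Polynomial

namespace Fermat.Agent.S14

/-- `∏_{i < n} (x - ζ ^ i y) = x ^ n - y ^ n` for a primitive `n`-th root of unity `ζ`. -/
lemma ksp_prod_sub_pow_mul {R : Type*} [CommRing R] [IsDomain R] {n : ℕ} (hn : 0 < n) {ζ : R}
    (hζ : IsPrimitiveRoot ζ n) (x y : R) :
    ∏ i ∈ Finset.range n, (x - ζ ^ i * y) = x ^ n - y ^ n := by
  rw [hζ.pow_sub_pow_eq_prod_sub_mul x y hn]
  refine Finset.prod_bij (fun i _ => ζ ^ i) ?_ ?_ ?_ ?_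
  · intro i _
    rw [mem_nthRootsFinset hn, ← pow_mul, mul_comm, pow_mul, hζ.pow_eq_one, one_pow]
  · intro i hi j hj hij
    exact hζ.pow_inj (Finset.mem_range.mp hi) (Finset.mem_range.mp hj) hij
  · intro η hη
    rw [mem_nthRootsFinset hn] at hη
    have : NeZero n := ⟨hn.ne'⟩
    obtain ⟨i, hi, rfl⟩ := hζ.eq_pow_of_pow_eq_one hη
    exact ⟨i, Finset.mem_range.mpr hi, rfl⟩
  · intro i _
    rfl

/-- `∏ (I ⊔ (g i)) ≤ I ⊔ (∏ g i)`. -/
lemma ksp_prod_sup_span_le {R : Type*} [CommRing R] (I : Ideal R) {ι : Type*} (s : Finset ι)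
    (g : ι → R) : ∏ i ∈ s, (I ⊔ Ideal.span {g i}) ≤ I ⊔ Ideal.span {∏ i ∈ s, g i} := by
  classical
  induction s using Finset.induction_on with
  | empty =>
    rw [Finset.prod_empty, Finset.prod_empty, Ideal.span_singleton_one, Ideal.one_eq_top]
    exact le_sup_right
  | insert a s ha ih =>
    rw [Finset.prod_insert ha, Finset.prod_insert ha]
    have h1 : (I ⊔ Ideal.span {g a}) * ∏ i ∈ s, (I ⊔ Ideal.span {g i}) ≤
        (I ⊔ Ideal.span {g a}) * (I ⊔ Ideal.span {∏ i ∈ s, g i}) :=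
      Ideal.mul_mono_right ih
    refine h1.trans ?_
    rw [Ideal.mul_le]
    intro r hr t ht
    obtain ⟨r₁, hr₁, r₂, hr₂, rfl⟩ := Submodule.mem_sup.mp hr
    obtain ⟨t₁, ht₁, t₂, ht₂, rfl⟩ := Submodule.mem_sup.mp ht
    obtain ⟨c, rfl⟩ := Ideal.mem_span_singleton'.mp hr₂
    obtain ⟨d, rfl⟩ := Ideal.mem_span_singleton'.mp ht₂
    have e : (r₁ + c * g a) * (t₁ + d * ∏ i ∈ s, g i) =
        (r₁ * (t₁ + d * ∏ i ∈ s, g i) + t₁ * (c * g a)) + (c * d) * (g a * ∏ i ∈ s, g i) := by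
      ring
    rw [e]
    refine Ideal.add_mem _ (Ideal.mem_sup_left ?_) (Ideal.mem_sup_right ?_)
    · exact Ideal.add_mem _ (Ideal.mul_mem_right _ _ hr₁) (Ideal.mul_mem_right _ _ ht₁)
    · exact Ideal.mul_mem_left _ _ (Ideal.subset_span rfl)

/-- The absolute norm is invariant under ring automorphisms. -/
lemma ksp_absNorm_map_equiv {S : Type*} [CommRing S] [IsDedekindDomain S]
    [Module.Free ℤ S] (e : S ≃+* S) (I : Ideal S) :
    Ideal.absNorm (I.map (e : S →+* S)) = Ideal.absNorm I := by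
  rw [Ideal.absNorm_apply, Ideal.absNorm_apply, Submodule.cardQuot_apply, Submodule.cardQuot_apply]
  exact (Nat.card_congr (Ideal.quotientEquiv I (I.map (e : S →+* S)) e rfl).toEquiv).symm

section abstract

variable {K L : Type*} [Field K] [NumberField K] [Field L] [NumberField L] [Algebra K L]

/-- The ideal `P i = λ 𝓞 L + (x - ζ ^ i β)`. -/
def ksp_P (lam : Ideal (𝓞 K)) (ζ x : 𝓞 K) (β : 𝓞 L) (i : ℕ) : Ideal (𝓞 L) :=
  lam.map (algebraMap (𝓞 K) (𝓞 L)) ⊔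
    Ideal.span {algebraMap (𝓞 K) (𝓞 L) x - algebraMap (𝓞 K) (𝓞 L) ζ ^ i * β}

omit [NumberField K] in
/-- If `p ∉ λ`, then `1 - η ∉ λ` for every primitive `p`-th root of unity `η`. -/
lemma ksp_one_sub_not_mem {p : ℕ} (hp : p.Prime) {lam : Ideal (𝓞 K)}
    (hpl : (p : 𝓞 K) ∉ lam) {η : 𝓞 K} (hη : IsPrimitiveRoot η p) : 1 - η ∉ lam := by
  intro hmem
  apply hpl
  have hsum : ∑ i ∈ Finset.range p, η ^ i = 0 := hη.geom_sum_eq_zero hp.one_lt
  have hη1 : Ideal.Quotient.mk lam η = 1 := by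
    have : Ideal.Quotient.mk lam (1 - η) = 0 := Ideal.Quotient.eq_zero_iff_mem.mpr hmem
    rw [map_sub, map_one, sub_eq_zero] at this
    exact this.symm
  have := congrArg (Ideal.Quotient.mk lam) hsum
  rw [map_sum, map_zero] at this
  simp only [map_pow, hη1, one_pow, Finset.sum_const, Finset.card_range, nsmul_eq_mul,
    mul_one] at this
  rw [← map_natCast (Ideal.Quotient.mk lam)] at this
  exact Ideal.Quotient.eq_zero_iff_mem.mp this

omit [NumberField K] in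
/-- If `p ∉ λ`, then `ζ ^ i - ζ ^ j ∉ λ` for `i < j < p`. -/
lemma ksp_pow_sub_pow_not_mem {p : ℕ} (hp : p.Prime) {lam : Ideal (𝓞 K)} [lam.IsPrime]
    (hpl : (p : 𝓞 K) ∉ lam) {ζ : 𝓞 K} (hζ : IsPrimitiveRoot ζ p) {i j : ℕ} (hij : i < j)
    (hj : j < p) : ζ ^ i - ζ ^ j ∉ lam := by
  intro hmem
  have hk : (j - i).Coprime p :=
    (hp.coprime_iff_not_dvd.mpr (Nat.not_dvd_of_pos_of_lt (by omega) (by omega))).symm
  have hη : IsPrimitiveRoot (ζ ^ (j - i)) p := hζ.pow_of_coprime _ hk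
  have hfac : ζ ^ i - ζ ^ j = ζ ^ i * (1 - ζ ^ (j - i)) := by
    rw [mul_sub, mul_one, ← pow_add, Nat.add_sub_cancel' hij.le]
  rw [hfac] at hmem
  rcases Ideal.IsPrime.mem_or_mem ‹lam.IsPrime› hmem with h | h
  · have h1 : (ζ ^ i) ^ p ∈ lam := Ideal.pow_mem_of_mem lam h p hp.pos
    rw [← pow_mul, mul_comm, pow_mul, hζ.pow_eq_one, one_pow] at h1
    exact (Ideal.ne_top_iff_one lam).mp (Ideal.IsPrime.ne_top ‹lam.IsPrime›) h1
  · exact ksp_one_sub_not_mem hp hpl hη h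

omit [NumberField K] [NumberField L] in
lemma ksp_map_le_P (lam : Ideal (𝓞 K)) (ζ x : 𝓞 K) (β : 𝓞 L) (i : ℕ) :
    lam.map (algebraMap (𝓞 K) (𝓞 L)) ≤ ksp_P lam ζ x β i :=
  le_sup_left

omit [NumberField K] [NumberField L] in
lemma ksp_gen_mem_P (lam : Ideal (𝓞 K)) (ζ x : 𝓞 K) (β : 𝓞 L) (i : ℕ) :
    algebraMap (𝓞 K) (𝓞 L) x - algebraMap (𝓞 K) (𝓞 L) ζ ^ i * β ∈ ksp_P lam ζ x β i :=
  Ideal.mem_sup_right (Ideal.subset_span rfl)

omit [NumberField K] [NumberField L] in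
/-- The ideals `P i`, `P j` are coprime for `i < j < p`. -/
lemma ksp_P_sup_eq_top {p : ℕ} (hp : p.Prime) {lam : Ideal (𝓞 K)} [hmax : lam.IsMaximal]
    (hpl : (p : 𝓞 K) ∉ lam) {ζ : 𝓞 K} (hζ : IsPrimitiveRoot ζ p) (x : 𝓞 K) {E : 𝓞 K}
    (hE : E ∉ lam) {β : 𝓞 L} (hβ : β ^ p = algebraMap (𝓞 K) (𝓞 L) E) {i j : ℕ} (hij : i < j)
    (hj : j < p) : ksp_P lam ζ x β i ⊔ ksp_P lam ζ x β j = ⊤ := by
  have hu : (ζ ^ i - ζ ^ j) * E ∉ lam := fun h =>
    (Ideal.IsPrime.mem_or_mem hmax.isPrime h).elim (ksp_pow_sub_pow_not_mem hp hpl hζ hij hj) hE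
  obtain ⟨b, a, ha, hab⟩ := hmax.exists_inv hu
  rw [Ideal.eq_top_iff_one]
  have h1 : algebraMap (𝓞 K) (𝓞 L) a ∈ ksp_P lam ζ x β i ⊔ ksp_P lam ζ x β j :=
    Ideal.mem_sup_left (ksp_map_le_P lam ζ x β i (Ideal.mem_map_of_mem _ ha))
  have h2 : algebraMap (𝓞 K) (𝓞 L) ((ζ ^ i - ζ ^ j) * E) ∈
      ksp_P lam ζ x β i ⊔ ksp_P lam ζ x β j := by
    have hi : _ ∈ ksp_P lam ζ x β i ⊔ ksp_P lam ζ x β j :=
      Ideal.mem_sup_left (ksp_gen_mem_P lam ζ x β i)
    have hj' : _ ∈ ksp_P lam ζ x β i ⊔ ksp_P lam ζ x β j :=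
      Ideal.mem_sup_right (ksp_gen_mem_P lam ζ x β j)
    have hsub := Ideal.mul_mem_left _ (β ^ (p - 1)) (Ideal.sub_mem _ hj' hi)
    have hpp : β ^ (p - 1) * β = β ^ p := by
      rw [← pow_succ, Nat.sub_add_cancel hp.pos]
    convert hsub using 1
    rw [map_mul, map_sub, map_pow, map_pow, ← hβ, ← hpp]
    ring
  have h3 := Ideal.add_mem _ (Ideal.mul_mem_left _ (algebraMap (𝓞 K) (𝓞 L) b) h2) h1
  rw [← map_mul, ← map_add, hab, map_one] at h3
  exact h3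

omit [NumberField K] [NumberField L] in
/-- The product of the `P i`, `i < p`, is contained in `λ 𝓞 L`. -/
lemma ksp_prod_P_le {p : ℕ} (hp : p.Prime) (lam : Ideal (𝓞 K)) {ζ : 𝓞 K}
    (hζ : IsPrimitiveRoot ζ p) {x E : 𝓞 K} (hx : x ^ p - E ∈ lam) {β : 𝓞 L}
    (hβ : β ^ p = algebraMap (𝓞 K) (𝓞 L) E) :
    ∏ i ∈ Finset.range p, ksp_P lam ζ x β i ≤ lam.map (algebraMap (𝓞 K) (𝓞 L)) := by
  have hζ' : IsPrimitiveRoot (algebraMap (𝓞 K) (𝓞 L) ζ) p :=
    hζ.map_of_injective (FaithfulSMul.algebraMap_injective (𝓞 K) (𝓞 L))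
  refine (ksp_prod_sup_span_le _ _ _).trans (sup_le le_rfl ?_)
  rw [Ideal.span_singleton_le_iff_mem, ksp_prod_sub_pow_mul hp.pos hζ', hβ, ← map_pow,
    ← map_sub]
  exact Ideal.mem_map_of_mem _ hx

omit [NumberField K] [NumberField L] in
/-- An automorphism `τ` of `𝓞 L` over `𝓞 K` with `τ β = ζ β` maps `P i` to `P (i + 1)`. -/
lemma ksp_map_P (lam : Ideal (𝓞 K)) (ζ x : 𝓞 K) (β : 𝓞 L) (τ : 𝓞 L ≃+* 𝓞 L)
    (hτ : ∀ a : 𝓞 K, τ (algebraMap (𝓞 K) (𝓞 L) a) = algebraMap (𝓞 K) (𝓞 L) a)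
    (hτβ : τ β = algebraMap (𝓞 K) (𝓞 L) ζ * β) (i : ℕ) :
    (ksp_P lam ζ x β i).map (τ : 𝓞 L →+* 𝓞 L) = ksp_P lam ζ x β (i + 1) := by
  have hcomp : (τ : 𝓞 L →+* 𝓞 L).comp (algebraMap (𝓞 K) (𝓞 L)) = algebraMap (𝓞 K) (𝓞 L) :=
    RingHom.ext fun a => hτ a
  unfold ksp_P
  rw [Ideal.map_sup, Ideal.map_map, hcomp, Ideal.map_span, Set.image_singleton]
  congr 3
  simp only [RingEquiv.coe_toRingHom, map_sub, map_mul, map_pow, hτ, hτβ]
  ring

/-- **Abstract Kummer splitting.** -/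
theorem ksp_exists_primes {p : ℕ} (hp : p.Prime) (hfr : Module.finrank K L = p)
    {ζ : 𝓞 K} (hζ : IsPrimitiveRoot ζ p) {E : 𝓞 K} {β : 𝓞 L}
    (hβ : β ^ p = algebraMap (𝓞 K) (𝓞 L) E) (τ : 𝓞 L ≃+* 𝓞 L)
    (hτ : ∀ a : 𝓞 K, τ (algebraMap (𝓞 K) (𝓞 L) a) = algebraMap (𝓞 K) (𝓞 L) a)
    (hτβ : τ β = algebraMap (𝓞 K) (𝓞 L) ζ * β)
    (lam : Ideal (𝓞 K)) (hlam : lam.IsPrime) (hN : (Ideal.absNorm lam).Prime)
    (hpl : (p : 𝓞 K) ∉ lam) (hE : E ∉ lam) (hx : ∃ x : 𝓞 K, x ^ p - E ∈ lam) :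
    ∃ S : Finset (Ideal (𝓞 L)), S.card = p ∧
      ∀ P ∈ S, P.IsPrime ∧ Ideal.absNorm P = Ideal.absNorm lam ∧
        P.comap (algebraMap (𝓞 K) (𝓞 L)) = lam := by
  classical
  obtain ⟨x, hx⟩ := hx
  have hne : lam ≠ ⊥ := by
    rintro rfl
    rw [Ideal.absNorm_bot] at hN
    exact Nat.not_prime_zero hN
  have hmax : lam.IsMaximal := hlam.isMaximal hne
  set P : ℕ → Ideal (𝓞 L) := ksp_P lam ζ x β with hP
  set ℓ := Ideal.absNorm lam with hℓ
  -- all norms are equal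
  have hnorm : ∀ i, Ideal.absNorm (P i) = Ideal.absNorm (P 0) := by
    intro i
    induction i with
    | zero => rfl
    | succ i ih =>
      rw [← ih, hP, ← ksp_map_P lam ζ x β τ hτ hτβ i, ksp_absNorm_map_equiv]
  -- the norm of `λ 𝓞 L`
  have hnormlam : Ideal.absNorm (lam.map (algebraMap (𝓞 K) (𝓞 L))) = ℓ ^ p := by
    rw [← hfr, IsFractionRing.finrank_eq (𝓞 K) K (𝓞 L) L]
    exact Ideal.absNorm_algebraMap (𝓞 K) (𝓞 L) lam
  have hnormprod : Ideal.absNorm (∏ i ∈ Finset.range p, P i) = Ideal.absNorm (P 0) ^ p := by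
    rw [map_prod, Finset.prod_congr rfl (fun i _ => hnorm i), Finset.prod_const,
      Finset.card_range]
  -- `ℓ ∣ N(P 0)`
  have h1 : ℓ ∣ Ideal.absNorm (P 0) := by
    have := Ideal.absNorm_dvd_absNorm_of_le (ksp_prod_P_le (L := L) hp lam hζ hx hβ)
    rw [hnormlam, hnormprod] at this
    exact (Nat.pow_dvd_pow_iff hp.ne_zero).mp this
  -- `N(P 0) ∣ ℓ`
  have hcop : ∀ i j, i < j → j < p → P i ⊔ P j = ⊤ := fun i j hij hj =>
    ksp_P_sup_eq_top hp hpl hζ x hE hβ hij hj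
  have h2 : Ideal.absNorm (P 0) ∣ ℓ := by
    have hdvd : ∏ i ∈ Finset.range p, P i ∣ lam.map (algebraMap (𝓞 K) (𝓞 L)) := by
      refine Finset.prod_dvd_of_coprime ?_ ?_
      · intro i hi j hj hij
        rw [Function.onFun, Ideal.isCoprime_iff_sup_eq]
        rcases lt_or_gt_of_ne hij with h | h
        · exact hcop i j h (Finset.mem_range.mp hj)
        · rw [sup_comm]
          exact hcop j i h (Finset.mem_range.mp hi)
      · intro i _
        exact Ideal.dvd_iff_le.mpr (ksp_map_le_P lam ζ x β i)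
    have := Ideal.absNorm_dvd_absNorm_of_le (Ideal.dvd_iff_le.mp hdvd)
    rw [hnormlam, hnormprod] at this
    exact (Nat.pow_dvd_pow_iff hp.ne_zero).mp this
  have hnorm0 : Ideal.absNorm (P 0) = ℓ := Nat.dvd_antisymm h2 h1
  have hnormi : ∀ i, Ideal.absNorm (P i) = ℓ := fun i => (hnorm i).trans hnorm0
  have hnetop : ∀ i, P i ≠ ⊤ := by
    intro i htop
    have := hnormi i
    rw [htop, Ideal.absNorm_top] at this
    exact hN.one_lt.ne this
  have hinj : Set.InjOn P (Finset.range p : Set ℕ) := by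
    intro i hi j hj hij
    by_contra hne'
    rcases lt_or_gt_of_ne hne' with h | h
    · have := hcop i j h (Finset.mem_range.mp hj)
      rw [hij, sup_idem] at this
      exact hnetop j this
    · have := hcop j i h (Finset.mem_range.mp hi)
      rw [hij, sup_idem] at this
      exact hnetop j this
  refine ⟨(Finset.range p).image P, ?_, ?_⟩
  · rw [Finset.card_image_of_injOn hinj, Finset.card_range]
  · intro Q hQ
    obtain ⟨i, -, rfl⟩ := Finset.mem_image.mp hQ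
    refine ⟨?_, hnormi i, ?_⟩
    · apply Ideal.isPrime_of_irreducible_absNorm
      rw [hnormi i]
      exact hN.prime.irreducible
    · symm
      apply hmax.eq_of_le (Ideal.comap_ne_top _ (hnetop i))
      exact (Ideal.le_comap_map).trans (Ideal.comap_mono (ksp_map_le_P lam ζ x β i))

end abstract

/-- (AN3) Kummer splitting: statement. -/
def KspSplittingStatement : Prop :=
  ∀ (p : ℕ), p.Prime → ∀ (K : Type) [Field K] [NumberField K] (ζ : K), IsPrimitiveRoot ζ p →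
    ∀ E : 𝓞 K, (¬ ∃ x : K, x ^ p = (E : K)) →
    ∃ (K' : Type) (_ : Field K') (_ : NumberField K') (_ : Algebra K K'),
      Module.finrank K K' = p ∧
      ∀ lam : Ideal (𝓞 K), lam.IsPrime → (Ideal.absNorm lam).Prime →
        (p : 𝓞 K) ∉ lam → E ∉ lam → (∃ x : 𝓞 K, x ^ p - E ∈ lam) →
        ∃ S : Finset (Ideal (𝓞 K')), S.card = p ∧
          ∀ P ∈ S, P.IsPrime ∧ Ideal.absNorm P = Ideal.absNorm lam ∧
            P.comap (algebraMap (𝓞 K) (𝓞 K')) = lam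

lemma ksp_eval₂ {R S : Type*} [CommRing R] [CommRing S] (i : R →+* S) (e : R) (y : S)
    (p : ℕ) : (X ^ p - C e : R[X]).eval₂ i y = y ^ p - i e := by
  rw [eval₂_sub, eval₂_pow, eval₂_X, eval₂_C]

/-- **(AN3) Kummer splitting.** -/
theorem ksp_kummerSplitting : KspSplittingStatement := by
  intro p hp K _ _ ζ hζ E hE
  have : NeZero p := ⟨hp.ne_zero⟩
  have hirr : Irreducible (X ^ p - C (E : K) : K[X]) :=
    X_pow_sub_C_irreducible_of_prime hp (fun b hb => hE ⟨b, hb⟩)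
  have : Fact (Irreducible (X ^ p - C (E : K) : K[X])) := ⟨hirr⟩
  have : Module.Finite K (AdjoinRoot (X ^ p - C (E : K) : K[X])) :=
    (AdjoinRoot.powerBasis hirr.ne_zero).finite
  let inst : NumberField (AdjoinRoot (X ^ p - C (E : K) : K[X])) :=
    NumberField.of_module_finite K (AdjoinRoot (X ^ p - C (E : K) : K[X]))
  have hfr : Module.finrank K (AdjoinRoot (X ^ p - C (E : K) : K[X])) = p := by
    rw [(AdjoinRoot.powerBasis hirr.ne_zero).finrank, AdjoinRoot.powerBasis_dim,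
      natDegree_X_pow_sub_C]
  refine ⟨AdjoinRoot (X ^ p - C (E : K) : K[X]), inferInstance, inst, inferInstance, hfr, ?_⟩
  -- the root
  have hroot : (AdjoinRoot.root (X ^ p - C (E : K) : K[X])) ^ p =
      algebraMap K (AdjoinRoot (X ^ p - C (E : K) : K[X])) (E : K) := by
    have := AdjoinRoot.eval₂_root (X ^ p - C (E : K) : K[X])
    rw [ksp_eval₂, sub_eq_zero] at this
    exact this
  have hint : IsIntegral ℤ (AdjoinRoot.root (X ^ p - C (E : K) : K[X])) := by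
    refine IsIntegral.of_pow hp.pos ?_
    rw [hroot]
    exact E.2.map (IsScalarTower.toAlgHom ℤ K (AdjoinRoot (X ^ p - C (E : K) : K[X])))
  set β : 𝓞 (AdjoinRoot (X ^ p - C (E : K) : K[X])) :=
    ⟨AdjoinRoot.root (X ^ p - C (E : K) : K[X]), hint⟩ with hβdef
  have hβ : β ^ p = algebraMap (𝓞 K) (𝓞 (AdjoinRoot (X ^ p - C (E : K) : K[X]))) E := by
    apply NumberField.RingOfIntegers.ext
    show (AdjoinRoot.root (X ^ p - C (E : K) : K[X])) ^ p = _
    rw [hroot]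
    rfl
  -- the automorphism
  have hζβ : (X ^ p - C (E : K) : K[X]).eval₂
      (Algebra.ofId K (AdjoinRoot (X ^ p - C (E : K) : K[X])) :
        K →+* AdjoinRoot (X ^ p - C (E : K) : K[X]))
      (algebraMap K (AdjoinRoot (X ^ p - C (E : K) : K[X])) ζ *
        AdjoinRoot.root (X ^ p - C (E : K) : K[X])) = 0 := by
    rw [ksp_eval₂, mul_pow, ← map_pow, hζ.pow_eq_one, map_one, one_mul, hroot]
    exact sub_self _
  set τ₀ : AdjoinRoot (X ^ p - C (E : K) : K[X]) →ₐ[K] AdjoinRoot (X ^ p - C (E : K) : K[X]) :=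
    AdjoinRoot.liftAlgHom (X ^ p - C (E : K) : K[X])
      (Algebra.ofId K (AdjoinRoot (X ^ p - C (E : K) : K[X])))
      (algebraMap K (AdjoinRoot (X ^ p - C (E : K) : K[X])) ζ *
        AdjoinRoot.root (X ^ p - C (E : K) : K[X])) hζβ with hτ₀
  have hτ₀root : τ₀ (AdjoinRoot.root (X ^ p - C (E : K) : K[X])) =
      algebraMap K (AdjoinRoot (X ^ p - C (E : K) : K[X])) ζ *
        AdjoinRoot.root (X ^ p - C (E : K) : K[X]) :=
    AdjoinRoot.liftAlgHom_root _ _ _ _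
  set τ₁ : AdjoinRoot (X ^ p - C (E : K) : K[X]) ≃ₐ[K] AdjoinRoot (X ^ p - C (E : K) : K[X]) :=
    AlgEquiv.ofBijective τ₀ (AlgHom.bijective τ₀) with hτ₁
  set τ : 𝓞 (AdjoinRoot (X ^ p - C (E : K) : K[X])) ≃+*
      𝓞 (AdjoinRoot (X ^ p - C (E : K) : K[X])) :=
    NumberField.RingOfIntegers.mapRingEquiv
      (τ₁ : AdjoinRoot (X ^ p - C (E : K) : K[X]) ≃+* AdjoinRoot (X ^ p - C (E : K) : K[X]))
    with hτdef
  have hτ : ∀ a : 𝓞 K, τ (algebraMap (𝓞 K) (𝓞 (AdjoinRoot (X ^ p - C (E : K) : K[X]))) a) =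
      algebraMap (𝓞 K) (𝓞 (AdjoinRoot (X ^ p - C (E : K) : K[X]))) a := by
    intro a
    apply NumberField.RingOfIntegers.ext
    show τ₁ (algebraMap K (AdjoinRoot (X ^ p - C (E : K) : K[X])) (a : K)) =
      algebraMap K (AdjoinRoot (X ^ p - C (E : K) : K[X])) (a : K)
    exact τ₁.commutes _
  have hτβ : τ β =
      algebraMap (𝓞 K) (𝓞 (AdjoinRoot (X ^ p - C (E : K) : K[X]))) hζ.toInteger * β := by
    apply NumberField.RingOfIntegers.ext
    show τ₀ (AdjoinRoot.root (X ^ p - C (E : K) : K[X])) =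
      algebraMap K (AdjoinRoot (X ^ p - C (E : K) : K[X])) ζ *
        AdjoinRoot.root (X ^ p - C (E : K) : K[X])
    exact hτ₀root
  intro lam hlam hN hpl hEl hx
  exact ksp_exists_primes hp hfr hζ.toInteger_isPrimitiveRoot hβ τ hτ hτβ lam hlam hN hpl hEl hx

/-- If `N(λ)` is a prime different from `p`, then `p ∉ λ`. -/
lemma ksp_natCast_not_mem {K : Type*} [Field K] [NumberField K] {p : ℕ} (hp : p.Prime)
    {lam : Ideal (𝓞 K)} (hlam : lam.IsPrime) (hN : (Ideal.absNorm lam).Prime)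
    (hNp : Ideal.absNorm lam ≠ p) : (p : 𝓞 K) ∉ lam := by
  intro hmem
  have hℓ : ((Ideal.absNorm lam : ℕ) : 𝓞 K) ∈ lam := Ideal.absNorm_mem lam
  have hcop : Nat.Coprime (Ideal.absNorm lam) p := (Nat.coprime_primes hN hp).mpr hNp
  have h1 : ((1 : ℤ) : 𝓞 K) ∈ lam := by
    have hb := Nat.gcd_eq_gcd_ab (Ideal.absNorm lam) p
    rw [hcop.gcd_eq_one] at hb
    have : ((1 : ℤ) : 𝓞 K) = ((Ideal.absNorm lam : ℕ) : 𝓞 K) * ((Nat.gcdA (Ideal.absNorm lam) p : ℤ) : 𝓞 K)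
        + (p : 𝓞 K) * ((Nat.gcdB (Ideal.absNorm lam) p : ℤ) : 𝓞 K) := by
      have := congrArg (fun z : ℤ => (z : 𝓞 K)) hb
      simpa using this
    rw [this]
    exact Ideal.add_mem _ (Ideal.mul_mem_right _ _ hℓ) (Ideal.mul_mem_right _ _ hmem)
  rw [Int.cast_one] at h1
  exact (Ideal.ne_top_iff_one lam).mp hlam.ne_top h1

/-- **(AN3) Kummer splitting**, in the shape of board message #223: an injective family
`P : Fin p → Ideal (𝓞 K')`. -/
theorem ksp_kummerSplit {p : ℕ} (hp : p.Prime) (K : Type) [Field K] [NumberField K] (ζ : K)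
    (hζ : IsPrimitiveRoot ζ p) (E : 𝓞 K) (hE : ¬ ∃ x : K, x ^ p = (E : K)) :
    ∃ (K' : Type) (_ : Field K') (_ : NumberField K') (_ : Algebra K K'),
      Module.finrank K K' = p ∧
      ∀ lam : Ideal (𝓞 K), lam.IsPrime → (Ideal.absNorm lam).Prime → Ideal.absNorm lam ≠ p →
        (∃ x : 𝓞 K, x ^ p - E ∈ lam) → E ∉ lam →
        ∃ P : Fin p → Ideal (𝓞 K'), Function.Injective P ∧
          ∀ i, (P i).IsPrime ∧ Ideal.absNorm (P i) = Ideal.absNorm lam ∧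
            (P i).comap (algebraMap (𝓞 K) (𝓞 K')) = lam := by
  obtain ⟨K', i1, i2, i3, hfr, h⟩ := ksp_kummerSplitting p hp K ζ hζ E hE
  refine ⟨K', i1, i2, i3, hfr, ?_⟩
  intro lam hlam hN hNp hx hEl
  obtain ⟨S, hcard, hS⟩ := h lam hlam hN (ksp_natCast_not_mem hp hlam hN hNp) hEl hx
  have e : Fin p ≃ S := (Fintype.equivFinOfCardEq (by rw [Fintype.card_coe, hcard])).symm
  refine ⟨fun i => (e i : Ideal (𝓞 K')), ?_, fun i => hS _ (e i).2⟩
  intro i j hij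
  exact e.injective (Subtype.ext hij)

end Fermat.Agent.S14
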