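import Mathlib
import Fermat.Agent.S14.LBoundAlg
import Fermat.Agent.S14.PhiLip
import Fermat.Agent.S14.EulerProd
import Fermat.Agent.S14.EulerLogFinal

/-
S14 / AN-B4 (endgame, glue): the `L`-series `anA_L K ψ s` of a nontrivial class group character
is bounded on `(1, 2]`, given the orbit bookkeeping (AN-B3) in the shape `AnB3OrbitStatement`.
Inputs: `anB1_bound`, `anB1_lipschitz` (PhiLip), `anLog_zeta_le_div` (EulerLogFinal),
`anA_summable_ideal` (EulerProd), `anB4_lbound` (LBoundAlg).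
-/

set_option autoImplicit false

namespace Fermat.Agent.S14

open NumberField NumberField.mixedEmbedding
open scoped nonZeroDivisors Classical

/-- (AN-B3) the orbit bookkeeping, in the shape exported by `Orbit.lean`. -/
def AnB3OrbitStatement (K : Type) [Field K] [NumberField K] : Prop :=
  ∀ (J : (Ideal (𝓞 K))⁰) (s : ℝ), 1 < s →
    (NumberField.Units.torsionOrder K : ℝ) *
        ∑' I : {I : (Ideal (𝓞 K))⁰ // ClassGroup.mk0 I = (ClassGroup.mk0 J)⁻¹},
          (Ideal.absNorm ((I : (Ideal (𝓞 K))⁰) : Ideal (𝓞 K)) : ℝ) ^ (-s)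
      = (Ideal.absNorm (J : Ideal (𝓞 K)) : ℝ) ^ s *
        ∑' x : mixedEmbedding.idealLattice K (FractionalIdeal.mk0 K J),
          anB1_g K s (x : mixedSpace K)

variable (K : Type) [Field K] [NumberField K]

/-- The normalised weight `g_s / w`. -/
noncomputable def anB4_g (s : ℝ) (x : mixedSpace K) : ℝ :=
  (NumberField.Units.torsionOrder K : ℝ)⁻¹ * anB1_g K s x

lemma anB4_torsionOrder_pos : 0 < (NumberField.Units.torsionOrder K : ℝ) := by
  exact_mod_cast NumberField.Units.torsionOrder_pos K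

lemma anB4_isLipWeight : anB4_IsLipWeight K (anB4_g K) := by
  obtain ⟨A, hA, hAb⟩ := anB1_bound K
  obtain ⟨B, hB, hBb⟩ := anB1_lipschitz K
  have hw := anB4_torsionOrder_pos K
  have hwi : 0 ≤ (NumberField.Units.torsionOrder K : ℝ)⁻¹ := inv_nonneg.mpr hw.le
  refine ⟨fun s => ?_, fun J => ⟨(NumberField.Units.torsionOrder K : ℝ)⁻¹ * A,
    (NumberField.Units.torsionOrder K : ℝ)⁻¹ * B, mul_nonneg hwi hA, mul_nonneg hwi hB,
    fun s hs1 hs2 => ⟨fun x _ hx => ?_, fun x _ y _ hxy => ?_⟩⟩⟩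
  · unfold anB4_g
    rw [anB1_g_zero, mul_zero]
  · unfold anB4_g
    rw [abs_mul, abs_of_nonneg hwi, mul_assoc]
    exact mul_le_mul_of_nonneg_left (hAb s hs1.le hs2 x hx) hwi
  · unfold anB4_g
    rw [← mul_sub, abs_mul, abs_of_nonneg hwi, mul_assoc, mul_assoc]
    have := hBb s hs1.le hs2 x y hxy
    rw [mul_assoc] at this
    exact mul_le_mul_of_nonneg_left this hwi

lemma anB4_isZetaWeight (h3 : AnB3OrbitStatement K) : anB4_IsZetaWeight K (anB4_g K) := by
  intro C J hJ s hs1 _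
  have hC : C = (ClassGroup.mk0 J)⁻¹ := by rw [hJ, inv_inv]
  subst hC
  have h := h3 J s hs1
  have hw := anB4_torsionOrder_pos K
  unfold anB4_Z anB4_S anB4_N anB4_g
  rw [tsum_mul_left, ← mul_assoc, mul_comm _ (_)⁻¹, mul_assoc, ← h, ← mul_assoc,
    inv_mul_cancel₀ hw.ne', one_mul]

lemma anB4_zetaBound : anB4_ZetaBound K := by
  obtain ⟨c, -, hc⟩ := anLog_zeta_le_div K
  exact ⟨c, fun s hs1 hs2 => ⟨anA_summable_ideal K hs1, hc s hs1 hs2⟩⟩

/-- **Boundedness of the class group `L`-functions on `(1, 2]`**, given the orbit bookkeeping. -/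
theorem an2_lbound_of_orbit (h3 : AnB3OrbitStatement K)
    (ψ : ClassGroup (𝓞 K) →* ℂˣ) (hψ : ψ ≠ 1) :
    ∃ C : ℝ, ∀ s : ℝ, 1 < s → s ≤ 2 → ‖anA_L K ψ s‖ ≤ C :=
  anB4_lbound K (anB4_isLipWeight K) (anB4_isZetaWeight K h3) (anB4_zetaBound K) ψ hψ

end Fermat.Agent.S14
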