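import Mathlib

/-!
# S14 / (AN-B3b): the dictionary between ideals in the class of `J⁻¹` and generators

For a non-zero ideal `J` of the ring of integers of a number field `K`, the non-zero elements
`a ∈ J` modulo units correspond to the non-zero ideals `I` with `I * J = (a)` principal, i.e. to
the integral ideals in the class `[J]⁻¹`; moreover `|N(a)| = N(I) N(J)`.
-/

set_option autoImplicit false

open scoped NumberField nonZeroDivisors

namespace Fermat.Agent.S14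

open NumberField

variable {K : Type} [Field K] [NumberField K] {J : (Ideal (𝓞 K))⁰}

theorem anB3i_exists_ideal (a : 𝓞 K) (ha : a ∈ (J : Ideal (𝓞 K))) (ha0 : a ≠ 0) :
    ∃ I : (Ideal (𝓞 K))⁰, Ideal.span {a} = (I : Ideal (𝓞 K)) * (J : Ideal (𝓞 K)) := by
  have hle : Ideal.span {a} ≤ (J : Ideal (𝓞 K)) := (Ideal.span_singleton_le_iff_mem _).mpr ha
  obtain ⟨I, hI⟩ := Ideal.dvd_iff_le.mpr hle
  have hI0 : I ≠ ⊥ := by
    rintro rfl
    rw [Ideal.mul_bot, Ideal.span_singleton_eq_bot] at hI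
    exact ha0 hI
  exact ⟨⟨I, mem_nonZeroDivisors_iff_ne_zero.mpr hI0⟩, by rw [hI, mul_comm]⟩

theorem anB3i_ideal_unique (I I' : (Ideal (𝓞 K))⁰)
    (h : (I : Ideal (𝓞 K)) * J = (I' : Ideal (𝓞 K)) * J) : I = I' := by
  have hJ0 : (J : Ideal (𝓞 K)) ≠ 0 := nonZeroDivisors.coe_ne_zero J
  exact Subtype.ext (mul_right_cancel₀ hJ0 h)

theorem anB3i_class (I : (Ideal (𝓞 K))⁰) (a : 𝓞 K)
    (h : Ideal.span {a} = (I : Ideal (𝓞 K)) * (J : Ideal (𝓞 K))) :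
    ClassGroup.mk0 I = (ClassGroup.mk0 J)⁻¹ := by
  apply eq_inv_of_mul_eq_one_left
  rw [← map_mul, ClassGroup.mk0_eq_one_iff]
  exact ⟨⟨a, by rw [Submonoid.coe_mul, ← h]⟩⟩

theorem anB3i_exists_gen (I : (Ideal (𝓞 K))⁰) (h : ClassGroup.mk0 I = (ClassGroup.mk0 J)⁻¹) :
    ∃ a : 𝓞 K, a ∈ (J : Ideal (𝓞 K)) ∧ a ≠ 0 ∧
      Ideal.span {a} = (I : Ideal (𝓞 K)) * (J : Ideal (𝓞 K)) := by
  have h1 : ClassGroup.mk0 (I * J) = 1 := by
    rw [map_mul, h, inv_mul_cancel]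
  rw [ClassGroup.mk0_eq_one_iff] at h1
  obtain ⟨⟨a, ha⟩⟩ := h1
  rw [Submonoid.coe_mul] at ha
  have ha' : Ideal.span {a} = (I : Ideal (𝓞 K)) * (J : Ideal (𝓞 K)) := by
    rw [ha]
  refine ⟨a, ?_, ?_, ha'⟩
  · have h2 : a ∈ Ideal.span {a} := Ideal.mem_span_singleton_self a
    rw [ha'] at h2
    exact Ideal.mul_le_right h2
  · rintro rfl
    have h3 : (I : Ideal (𝓞 K)) * (J : Ideal (𝓞 K)) = ⊥ := by
      rw [← ha']; simp
    have hI0 : (I : Ideal (𝓞 K)) ≠ 0 := nonZeroDivisors.coe_ne_zero I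
    have hJ0 : (J : Ideal (𝓞 K)) ≠ 0 := nonZeroDivisors.coe_ne_zero J
    exact mul_ne_zero hI0 hJ0 h3

theorem anB3i_unit_of_span_eq (a b : 𝓞 K) (hb : b ≠ 0)
    (h : Ideal.span {a} = Ideal.span {b}) : ∃! u : (𝓞 K)ˣ, (u : 𝓞 K) * a = b := by
  rw [Ideal.span_singleton_eq_span_singleton] at h
  obtain ⟨u, hu⟩ := h
  have ha0 : a ≠ 0 := by
    rintro rfl
    rw [zero_mul] at hu
    exact hb hu.symm
  refine ⟨u, (mul_comm _ _).trans hu, ?_⟩
  intro v hv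
  have h1 : (v : 𝓞 K) * a = (u : 𝓞 K) * a := hv.trans ((mul_comm _ _).trans hu).symm
  exact Units.ext (mul_right_cancel₀ ha0 h1)

theorem anB3i_norm (I : (Ideal (𝓞 K))⁰) (a : 𝓞 K)
    (h : Ideal.span {a} = (I : Ideal (𝓞 K)) * (J : Ideal (𝓞 K))) :
    mixedEmbedding.norm (mixedEmbedding K (a : K)) =
      (Ideal.absNorm (I : Ideal (𝓞 K)) : ℝ) * (Ideal.absNorm (J : Ideal (𝓞 K)) : ℝ) := by
  rw [mixedEmbedding.norm_eq_norm, ← Nat.cast_mul, ← map_mul, ← h, Ideal.absNorm_span_singleton,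
    ← Algebra.coe_norm_int, Nat.cast_natAbs]
  push_cast
  rfl

theorem anB3i_smul (u : (𝓞 K)ˣ) (a : 𝓞 K) :
    mixedEmbedding K (((u : 𝓞 K) * a : 𝓞 K) : K) = u • mixedEmbedding K (a : K) := by
  rw [mixedEmbedding.unitSMul_smul, ← map_mul]
  rfl

end Fermat.Agent.S14
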