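import Mathlib

/-!
# S14, package (AN-B3), slice (O3): a sum over the ideal lattice is a sum over the ideal

For an integral ideal `J ≠ 0` of `𝓞 K` and a function `g` on the mixed space with `g 0 = 0`, the
sum of `g` over the lattice `mixedEmbedding.idealLattice K (FractionalIdeal.mk0 K J)` is the sum of
`g ∘ mixedEmbedding K` over the nonzero elements of `J`.

Main declarations (namespace `Fermat.Agent.S14`):
* `anB3l_toLattice`: the injection `{a // a ∈ J ∧ a ≠ 0} → idealLattice K (mk0 K J)`;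
* `anB3l_hasSum_lattice_iff`, `anB3l_summable_lattice_iff`, `anB3l_tsum_lattice`.
-/

set_option autoImplicit false

noncomputable section

open NumberField NumberField.mixedEmbedding

open scoped nonZeroDivisors

namespace Fermat.Agent.S14

variable {K : Type} [Field K] [NumberField K] (J : (Ideal (𝓞 K))⁰)

theorem anB3l_mem_lattice (a : 𝓞 K) (ha : a ∈ (J : Ideal (𝓞 K))) :
    mixedEmbedding K ((a : 𝓞 K) : K) ∈
      mixedEmbedding.idealLattice K (FractionalIdeal.mk0 K J) := by
  rw [mixedEmbedding.mem_idealLattice]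
  refine ⟨(a : K), ?_, rfl⟩
  rw [SetLike.mem_coe, FractionalIdeal.coe_mk0, FractionalIdeal.mem_coeIdeal]
  exact ⟨a, ha, rfl⟩

theorem anB3l_exists_of_mem_lattice {x : mixedSpace K}
    (hx : x ∈ mixedEmbedding.idealLattice K (FractionalIdeal.mk0 K J)) :
    ∃ a : 𝓞 K, a ∈ (J : Ideal (𝓞 K)) ∧ mixedEmbedding K ((a : 𝓞 K) : K) = x := by
  rw [mixedEmbedding.mem_idealLattice] at hx
  obtain ⟨y, hy, rfl⟩ := hx
  rw [SetLike.mem_coe, FractionalIdeal.coe_mk0, FractionalIdeal.mem_coeIdeal] at hy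
  obtain ⟨a, ha, rfl⟩ := hy
  exact ⟨a, ha, rfl⟩

/-- The injection of the nonzero elements of `J` into the ideal lattice of `J`. -/
def anB3l_toLattice (a : {a : 𝓞 K // a ∈ (J : Ideal (𝓞 K)) ∧ a ≠ 0}) :
    mixedEmbedding.idealLattice K (FractionalIdeal.mk0 K J) :=
  ⟨mixedEmbedding K ((a : 𝓞 K) : K), anB3l_mem_lattice J a.1 a.2.1⟩

@[simp]
theorem anB3l_toLattice_coe (a : {a : 𝓞 K // a ∈ (J : Ideal (𝓞 K)) ∧ a ≠ 0}) :
    ((anB3l_toLattice J a : mixedEmbedding.idealLattice K (FractionalIdeal.mk0 K J)) :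
      mixedSpace K) = mixedEmbedding K ((a : 𝓞 K) : K) :=
  rfl

theorem anB3l_toLattice_injective : Function.Injective (anB3l_toLattice J) := by
  intro a b h
  have h1 : mixedEmbedding K ((a : 𝓞 K) : K) = mixedEmbedding K ((b : 𝓞 K) : K) :=
    congrArg Subtype.val h
  have h2 : ((a : 𝓞 K) : K) = ((b : 𝓞 K) : K) := mixedEmbedding_injective K h1
  exact Subtype.ext (RingOfIntegers.ext h2)

theorem anB3l_mem_range_of_ne_zero
    (x : mixedEmbedding.idealLattice K (FractionalIdeal.mk0 K J)) (hx : (x : mixedSpace K) ≠ 0) :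
    x ∈ Set.range (anB3l_toLattice J) := by
  obtain ⟨a, ha, hax⟩ := anB3l_exists_of_mem_lattice J x.2
  have ha0 : a ≠ 0 := by
    rintro rfl
    apply hx
    rw [← hax]
    simp
  exact ⟨⟨a, ha, ha0⟩, Subtype.ext hax⟩

theorem anB3l_eq_zero_of_notMem_range (g : mixedSpace K → ℝ) (hg0 : g 0 = 0)
    (x : mixedEmbedding.idealLattice K (FractionalIdeal.mk0 K J))
    (hx : x ∉ Set.range (anB3l_toLattice J)) : g (x : mixedSpace K) = 0 := by
  by_cases h0 : (x : mixedSpace K) = 0
  · rw [h0, hg0]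
  · exact absurd (anB3l_mem_range_of_ne_zero J x h0) hx

/-- `HasSum` over the ideal lattice of `J` is `HasSum` over the nonzero elements of `J`. -/
theorem anB3l_hasSum_lattice_iff (g : mixedSpace K → ℝ) (hg0 : g 0 = 0) (S : ℝ) :
    HasSum (fun x : mixedEmbedding.idealLattice K (FractionalIdeal.mk0 K J) =>
        g (x : mixedSpace K)) S ↔
      HasSum (fun a : {a : 𝓞 K // a ∈ (J : Ideal (𝓞 K)) ∧ a ≠ 0} =>
        g (mixedEmbedding K ((a : 𝓞 K) : K))) S :=
  ((anB3l_toLattice_injective J).hasSum_iff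
    (f := fun x : mixedEmbedding.idealLattice K (FractionalIdeal.mk0 K J) =>
      g (x : mixedSpace K))
    (fun x hx => anB3l_eq_zero_of_notMem_range J g hg0 x hx)).symm

/-- Summability over the ideal lattice of `J` is summability over the nonzero elements of `J`. -/
theorem anB3l_summable_lattice_iff (g : mixedSpace K → ℝ) (hg0 : g 0 = 0) :
    Summable (fun x : mixedEmbedding.idealLattice K (FractionalIdeal.mk0 K J) =>
        g (x : mixedSpace K)) ↔
      Summable (fun a : {a : 𝓞 K // a ∈ (J : Ideal (𝓞 K)) ∧ a ≠ 0} =>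
        g (mixedEmbedding K ((a : 𝓞 K) : K))) :=
  ((anB3l_toLattice_injective J).summable_iff
    (f := fun x : mixedEmbedding.idealLattice K (FractionalIdeal.mk0 K J) =>
      g (x : mixedSpace K))
    (fun x hx => anB3l_eq_zero_of_notMem_range J g hg0 x hx)).symm

/-- The sum of `g` over the ideal lattice of `J` is the sum of `g ∘ mixedEmbedding K` over the
nonzero elements of `J`. -/
theorem anB3l_tsum_lattice (g : mixedSpace K → ℝ) (hg0 : g 0 = 0) :
    ∑' x : mixedEmbedding.idealLattice K (FractionalIdeal.mk0 K J), g (x : mixedSpace K) =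
      ∑' a : {a : 𝓞 K // a ∈ (J : Ideal (𝓞 K)) ∧ a ≠ 0},
        g (mixedEmbedding K ((a : 𝓞 K) : K)) := by
  refine ((anB3l_toLattice_injective J).tsum_eq
    (f := fun x : mixedEmbedding.idealLattice K (FractionalIdeal.mk0 K J) =>
      g (x : mixedSpace K)) ?_).symm
  intro x hx
  by_contra hx'
  exact hx (anB3l_eq_zero_of_notMem_range J g hg0 x hx')

end Fermat.Agent.S14
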