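import Mathlib

/-!
# S14, package (AN-B3): the abstract orbit-sum lemma

Let a group `G` act freely on `X`, let `N : X → ℝ` be a non-negative `G`-invariant function and
`Φ : X → ℝ` a non-negative function with `∑_g Φ (g • x) = w` for all `x` (a partition of unity
along the orbits).  Then `∑_x Φ x * N x = w * ∑_{orbits} N`.

Main declarations (namespace `Fermat.Agent.S14`):
* `anB3o_hasSum_of_reps`: orbit representatives given by an arbitrary map `e : Y → X`;
* `anB3o_hasSum_orbit`: orbit representatives `Quotient.out`.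
-/

set_option autoImplicit false

namespace Fermat.Agent.S14

section

variable {G X : Type*} [Group G] [MulAction G X]

/-- The bijection `Y × G ≃ X`, `(y, g) ↦ g • e y`, for a free action and a system `e` of orbit
representatives. -/
noncomputable def anB3o_equiv {Y : Type*} (hfree : ∀ (g : G) (x : X), g • x = x → g = 1)
    (e : Y → X) (he : ∀ x : X, ∃! y : Y, ∃ g : G, g • e y = x) : Y × G ≃ X :=
  Equiv.ofBijective (fun p => p.2 • e p.1) <| by
    constructor
    · rintro ⟨y, g⟩ ⟨y', g'⟩ h
      simp only at h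
      have hy : y = y' := (he (g • e y)).unique ⟨g, rfl⟩ ⟨g', h.symm⟩
      subst hy
      have hg : g'⁻¹ * g = 1 := by
        apply hfree _ (e y)
        rw [mul_smul, h, inv_smul_smul]
      have : g = g' := by
        have := congrArg (fun t => g' * t) hg
        simpa using this
      rw [this]
    · intro x
      obtain ⟨y, ⟨g, hg⟩, -⟩ := he x
      exact ⟨⟨y, g⟩, hg⟩

theorem anB3o_equiv_apply {Y : Type*} (hfree : ∀ (g : G) (x : X), g • x = x → g = 1)
    (e : Y → X) (he : ∀ x : X, ∃! y : Y, ∃ g : G, g • e y = x) (p : Y × G) :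
    anB3o_equiv hfree e he p = p.2 • e p.1 :=
  rfl

/-- Orbit-sum lemma, with an arbitrary system `e : Y → X` of orbit representatives. -/
theorem anB3o_hasSum_of_reps {Y : Type*} (hfree : ∀ (g : G) (x : X), g • x = x → g = 1)
    (Φ N : X → ℝ) (hΦ0 : ∀ x, 0 ≤ Φ x) (hN0 : ∀ x, 0 ≤ N x)
    (hN : ∀ (g : G) (x : X), N (g • x) = N x) (w : ℝ)
    (hΦ : ∀ x, HasSum (fun g : G => Φ (g • x)) w)
    (e : Y → X) (he : ∀ x : X, ∃! y : Y, ∃ g : G, g • e y = x)
    (hsum : Summable (fun y : Y => N (e y))) :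
    HasSum (fun x : X => Φ x * N x) (w * ∑' y : Y, N (e y)) := by
  rw [← (anB3o_equiv hfree e he).hasSum_iff]
  have hfun : ((fun x : X => Φ x * N x) ∘ (anB3o_equiv hfree e he)) =
      fun p : Y × G => Φ (p.2 • e p.1) * N (e p.1) := by
    funext p
    simp only [Function.comp_apply, anB3o_equiv_apply, hN]
  rw [hfun]
  have hinner : ∀ y : Y, HasSum (fun g : G => Φ (g • e y) * N (e y)) (w * N (e y)) :=
    fun y => (hΦ (e y)).mul_right _
  have hnonneg : 0 ≤ fun p : Y × G => Φ (p.2 • e p.1) * N (e p.1) :=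
    fun p => mul_nonneg (hΦ0 _) (hN0 _)
  have houter : HasSum (fun y : Y => w * N (e y)) (w * ∑' y : Y, N (e y)) :=
    hsum.hasSum.mul_left w
  have hS : Summable fun p : Y × G => Φ (p.2 • e p.1) * N (e p.1) := by
    rw [summable_prod_of_nonneg hnonneg]
    refine ⟨fun y => (hinner y).summable, ?_⟩
    have : (fun y : Y => ∑' g : G, Φ (g • e y) * N (e y)) = fun y => w * N (e y) :=
      funext fun y => (hinner y).tsum_eq
    simp only [this]
    exact houter.summable
  have hval : ∑' p : Y × G, Φ (p.2 • e p.1) * N (e p.1) = w * ∑' y : Y, N (e y) := by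
    rw [hS.tsum_prod' fun y => (hinner y).summable]
    have : (fun y : Y => ∑' g : G, Φ (g • e y) * N (e y)) = fun y => w * N (e y) :=
      funext fun y => (hinner y).tsum_eq
    simp only [this]
    exact houter.tsum_eq
  rw [← hval]
  exact hS.hasSum

/-- `Quotient.out` is a system of orbit representatives. -/
theorem anB3o_out_reps (x : X) :
    ∃! q : MulAction.orbitRel.Quotient G X, ∃ g : G, g • q.out = x := by
  refine ⟨Quotient.mk'' x, ?_, ?_⟩
  · have h : (MulAction.orbitRel G X).r (Quotient.mk'' x : MulAction.orbitRel.Quotient G X).out x :=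
      Quotient.exact' (Quotient.out_eq' _)
    rw [MulAction.orbitRel_apply, MulAction.mem_orbit_iff] at h
    obtain ⟨g, hg⟩ := h
    refine ⟨g⁻¹, ?_⟩
    rw [← hg, inv_smul_smul]
  · rintro q ⟨g, hg⟩
    rw [← Quotient.out_eq' q]
    apply Quotient.sound'
    change (MulAction.orbitRel G X).r q.out x
    rw [MulAction.orbitRel_apply, MulAction.mem_orbit_iff]
    refine ⟨g⁻¹, ?_⟩
    rw [← hg, inv_smul_smul]

/-- Orbit-sum lemma: for a free action, a non-negative invariant `N` and a non-negative `Φ` with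
`∑_g Φ (g • x) = w`, one has `∑_x Φ x * N x = w * ∑_{q ∈ G \ X} N q.out`. -/
theorem anB3o_hasSum_orbit (hfree : ∀ (g : G) (x : X), g • x = x → g = 1) (Φ N : X → ℝ)
    (hΦ0 : ∀ x, 0 ≤ Φ x) (hN0 : ∀ x, 0 ≤ N x) (hN : ∀ (g : G) (x : X), N (g • x) = N x)
    (w : ℝ) (hΦ : ∀ x, HasSum (fun g : G => Φ (g • x)) w)
    (hsum : Summable (fun q : MulAction.orbitRel.Quotient G X => N q.out)) :
    HasSum (fun x : X => Φ x * N x) (w * ∑' q : MulAction.orbitRel.Quotient G X, N q.out) :=
  anB3o_hasSum_of_reps hfree Φ N hΦ0 hN0 hN w hΦ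
    (fun q : MulAction.orbitRel.Quotient G X => q.out) anB3o_out_reps hsum

end

end Fermat.Agent.S14
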