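import Mathlib
import Fermat.Agent.S14.Defs
import Fermat.Agent.S14.ThaineDefs
import Fermat.Agent.S14.ThaineField
import Fermat.Agent.S14.ThainePow

/-!
# S14 (TH-L): the local half of Thaine's relation

Setting: `K = ℚ(ζ_p)`, `F = K(ζ_ℓ)`, `τ` a generator of `Gal(F/K)` with `τ η = η ^ g`, and
`β ∈ 𝓞 F`, `β ≠ 0`, with `ξ * τ β = β` for `ξ = 1 - ζ_p ζ_ℓ`.  Taking the ramification package
(TH-B) as hypotheses, we derive the conclusion of `ThaineStatement`.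
-/

set_option autoImplicit false
set_option linter.style.haveILetI false
set_option linter.unusedSectionVars false
set_option linter.unusedVariables false

open scoped NumberField nonZeroDivisors
open IsDedekindDomain

namespace Fermat.Agent.S14

/-! ## General lemmas on Dedekind domains -/

section Dedekind

variable {R : Type*} [CommRing R] [IsDedekindDomain R]

/-- The height one prime attached to an irreducible element of `Associates (Ideal R)`. -/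
theorem thL_exists_heightOne_of_irreducible (q : Associates (Ideal R)) (hq : Irreducible q) :
    ∃ v : HeightOneSpectrum R, q = Associates.mk v.asIdeal := by
  obtain ⟨Q, rfl⟩ := Associates.mk_surjective q
  have hQ : Irreducible Q := Associates.irreducible_mk.mp hq
  have hQp : Prime Q := UniqueFactorizationMonoid.irreducible_iff_prime.mp hQ
  exact ⟨⟨Q, Ideal.isPrime_of_prime hQp, hQp.ne_zero⟩, rfl⟩

/-- An ideal all of whose multiplicities are divisible by `k` is a `k`-th power. -/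
theorem thL_exists_pow_eq_of_dvd_count [DecidableEq (Associates (Ideal R))]
    [∀ q : Associates (Ideal R), Decidable (Irreducible q)] {A : Ideal R} (hA : A ≠ ⊥) {k : ℕ}
    (h : ∀ v : HeightOneSpectrum R,
      k ∣ (Associates.mk v.asIdeal).count (Associates.mk A).factors) :
    ∃ I : Ideal R, A = I ^ k := by
  have hA' : Associates.mk A ≠ 0 := by
    rw [Ne, Associates.mk_eq_zero]
    exact hA
  obtain ⟨b, hb⟩ := Associates.is_pow_of_dvd_count hA' (k := k) (fun q hq => by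
    obtain ⟨v, rfl⟩ := thL_exists_heightOne_of_irreducible q hq
    exact h v)
  obtain ⟨I, rfl⟩ := Associates.mk_surjective b
  rw [← Associates.mk_pow, Associates.mk_eq_mk_iff_associated, associated_iff_eq] at hb
  exact ⟨I, hb⟩

end Dedekind

/-! ## (L2) the valuation of the norm of an element generating a Galois-invariant ideal -/

section Norm

variable {K F : Type} [Field K] [NumberField K] [Field F] [NumberField F] [Algebra K F]

/-- If `ξ * τ β = β` with `β ≠ 0`, then `ξ` is a unit. -/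
theorem thL_isUnit_of_mul_eq (τ : F ≃ₐ[K] F) (ξ β : 𝓞 F) (hβ0 : β ≠ 0)
    (hβ : ξ * galRestrict (𝓞 K) K F (𝓞 F) τ β = β) : IsUnit ξ := by
  have h1 : Algebra.intNorm (𝓞 K) (𝓞 F) ξ *
      Algebra.intNorm (𝓞 K) (𝓞 F) (galRestrict (𝓞 K) K F (𝓞 F) τ β) =
      Algebra.intNorm (𝓞 K) (𝓞 F) β := by
    rw [← map_mul, hβ]
  rw [Algebra.intNorm_map_algEquiv] at h1
  have h2 : Algebra.intNorm (𝓞 K) (𝓞 F) β ≠ 0 := Algebra.intNorm_ne_zero.mpr hβ0
  have h3 : Algebra.intNorm (𝓞 K) (𝓞 F) ξ = 1 := by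
    have h4 : Algebra.intNorm (𝓞 K) (𝓞 F) ξ * Algebra.intNorm (𝓞 K) (𝓞 F) β =
        1 * Algebra.intNorm (𝓞 K) (𝓞 F) β := by rw [h1, one_mul]
    exact mul_right_cancel₀ h2 h4
  have h5 := Algebra.dvd_algebraMap_intNorm_self (𝓞 K) (𝓞 F) ξ
  rw [h3, map_one] at h5
  exact isUnit_of_dvd_one h5

/-- If `ξ * τ β = β` with `β ≠ 0` and `τ` generates `Gal(F/K)`, then all conjugates of `β` are
associated to `β`. -/
theorem thL_associated_galRestrict [IsGalois K F] (τ : F ≃ₐ[K] F)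
    (hτ : ∀ x, x ∈ Subgroup.zpowers τ) (ξ β : 𝓞 F) (hβ0 : β ≠ 0)
    (hβ : ξ * galRestrict (𝓞 K) K F (𝓞 F) τ β = β) (σ : F ≃ₐ[K] F) :
    Associated (galRestrict (𝓞 K) K F (𝓞 F) σ β) β := by
  have hξ : IsUnit ξ := thL_isUnit_of_mul_eq τ ξ β hβ0 hβ
  have h1 : Associated (galRestrict (𝓞 K) K F (𝓞 F) τ β) β := by
    obtain ⟨u, hu⟩ := hξ
    refine ⟨u, ?_⟩
    rw [hu, mul_comm]
    exact hβ
  have hσ : σ ∈ Submonoid.powers τ := mem_powers_iff_mem_zpowers.mpr (hτ σ)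
  obtain ⟨k, rfl⟩ := hσ
  show Associated (galRestrict (𝓞 K) K F (𝓞 F) (τ ^ k) β) β
  induction k with
  | zero => rw [pow_zero, map_one]; exact Associated.refl _
  | succ k ih =>
    rw [pow_succ, map_mul]
    have h2 : Associated (galRestrict (𝓞 K) K F (𝓞 F) (τ ^ k)
        (galRestrict (𝓞 K) K F (𝓞 F) τ β)) (galRestrict (𝓞 K) K F (𝓞 F) (τ ^ k) β) :=
      h1.map (galRestrict (𝓞 K) K F (𝓞 F) (τ ^ k))
    exact h2.trans ih

/-- The valuation of `N_{F/K} β` at a prime of `F`, for `β` generating an invariant ideal. -/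
theorem thL_exists_norm [IsGalois K F] (τ : F ≃ₐ[K] F)
    (hτ : ∀ x, x ∈ Subgroup.zpowers τ) (ξ β : 𝓞 F) (hβ0 : β ≠ 0)
    (hβ : ξ * galRestrict (𝓞 K) K F (𝓞 F) τ β = β) :
    ∃ b : 𝓞 K, b ≠ 0 ∧ Associated (algebraMap (𝓞 K) (𝓞 F) b) (β ^ Module.finrank K F) := by
  classical
  refine ⟨Algebra.intNorm (𝓞 K) (𝓞 F) β, Algebra.intNorm_ne_zero.mpr hβ0, ?_⟩
  have h1 : algebraMap (𝓞 K) (𝓞 F) (Algebra.intNorm (𝓞 K) (𝓞 F) β) =
      ∏ σ : F ≃ₐ[K] F, galRestrict (𝓞 K) K F (𝓞 F) σ β := by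
    apply FaithfulSMul.algebraMap_injective (𝓞 F) F
    rw [← IsScalarTower.algebraMap_apply, IsScalarTower.algebraMap_apply (𝓞 K) K F,
      Algebra.algebraMap_intNorm (K := K) (L := F), Algebra.norm_eq_prod_automorphisms, map_prod]
    refine Finset.prod_congr rfl fun σ _ => ?_
    rw [algebraMap_galRestrict_apply]
  rw [h1, ← Associates.mk_eq_mk_iff_associated, ← Associates.finsetProd_mk, Associates.mk_pow]
  have h2 : ∀ σ ∈ (Finset.univ : Finset (F ≃ₐ[K] F)),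
      Associates.mk (galRestrict (𝓞 K) K F (𝓞 F) σ β) = Associates.mk β := fun σ _ =>
    Associates.mk_eq_mk_iff_associated.mpr (thL_associated_galRestrict τ hτ ξ β hβ0 hβ σ)
  rw [Finset.prod_congr rfl h2, Finset.prod_const, Finset.card_univ,
    ← IsGalois.card_aut_eq_finrank K F, Nat.card_eq_fintype_card]

end Norm

/-! ## (L3) the congruence -/

section Dedekind2

variable {R : Type*} [CommRing R] [IsDedekindDomain R]

/-- The valuation of an element of `Q \ Q ^ 2`. -/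
theorem thL_intValuation_uniformizer (w : HeightOneSpectrum R) {x : R} (h1 : x ∈ w.asIdeal)
    (h2 : x ∉ w.asIdeal ^ 2) : w.intValuation x = WithZero.exp (-1 : ℤ) := by
  have hx0 : x ≠ 0 := by
    rintro rfl
    exact h2 (Submodule.zero_mem _)
  have h3 : w.intValuation x ≤ WithZero.exp (-((1 : ℕ) : ℤ)) := by
    rw [HeightOneSpectrum.intValuation_le_pow_iff_mem, pow_one]
    exact h1
  have h4 : ¬ w.intValuation x ≤ WithZero.exp (-((2 : ℕ) : ℤ)) := by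
    rw [HeightOneSpectrum.intValuation_le_pow_iff_mem]
    exact h2
  rw [w.intValuation_if_neg hx0] at h3 h4 ⊢
  rw [WithZero.exp_le_exp] at h3 h4
  rw [WithZero.exp_inj]
  push_cast at h3 h4 ⊢
  omega

/-- Powers of a uniformizer. -/
theorem thL_pow_notMem (w : HeightOneSpectrum R) {x : R} (h1 : x ∈ w.asIdeal)
    (h2 : x ∉ w.asIdeal ^ 2) (r : ℕ) : x ^ r ∉ w.asIdeal ^ (r + 1) := by
  rw [← HeightOneSpectrum.intValuation_le_pow_iff_mem, map_pow,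
    thL_intValuation_uniformizer w h1 h2, ← WithZero.exp_nsmul, WithZero.exp_le_exp]
  simp only [nsmul_eq_mul, Nat.cast_add, Nat.cast_one]
  omega

/-- The core of the congruence computation. -/
theorem thL_congr_core (Q : Ideal R) [hQ : Q.IsPrime] (hQ0 : Q ≠ ⊥) (τ : R →+* R)
    (hτQ : ∀ n : ℕ, ∀ x ∈ Q ^ n, τ x ∈ Q ^ n) (hτd : ∀ d : R, τ d - d ∈ Q)
    {ϖ s ξ β : R} (hϖ1 : ϖ ∈ Q) (hϖ2 : ϖ ∉ Q ^ 2) (hs : τ ϖ = ϖ * s)
    (hβ : ξ * τ β = β) {r : ℕ} (hr1 : β ∈ Q ^ r) (hr2 : β ∉ Q ^ (r + 1)) :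
    ξ * s ^ r - 1 ∈ Q := by
  have hϖr : ϖ ^ r ∉ Q ^ (r + 1) := thL_pow_notMem ⟨Q, hQ, hQ0⟩ hϖ1 hϖ2 r
  obtain ⟨d, e, he, hde⟩ := Ideal.exists_mul_add_mem_pow_succ hQ0 (ϖ ^ r) β
    (Ideal.pow_mem_pow hϖ1 r) hϖr hr1
  have hd : d ∉ Q := by
    intro hd
    apply hr2
    rw [← hde]
    refine Ideal.add_mem _ ?_ he
    rw [pow_succ]
    exact Ideal.mul_mem_mul (Ideal.pow_mem_pow hϖ1 r) hd
  have hτe : τ e ∈ Q ^ (r + 1) := hτQ _ e he
  have h1 : ϖ ^ r * (d - ξ * s ^ r * τ d) ∈ Q ^ (r + 1) := by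
    have h2 : ϖ ^ r * (d - ξ * s ^ r * τ d) = ξ * τ e - e := by
      have h3 : τ β = ϖ ^ r * s ^ r * τ d + τ e := by
        rw [← hde, map_add, map_mul, map_pow, hs, mul_pow]
      have h4 : ξ * (ϖ ^ r * s ^ r * τ d + τ e) = ϖ ^ r * d + e := by
        rw [← h3, hβ, hde]
      linear_combination -h4
    rw [h2]
    exact Ideal.sub_mem _ (Ideal.mul_mem_left _ _ hτe) he
  have h5 : d - ξ * s ^ r * τ d ∈ Q := Ideal.mem_prime_of_mul_mem_pow hQ0 hϖr h1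
  have h6 : d * (ξ * s ^ r - 1) ∈ Q := by
    have h7 : d * (ξ * s ^ r - 1) = -(d - ξ * s ^ r * τ d) - ξ * s ^ r * (τ d - d) := by ring
    rw [h7]
    exact Ideal.sub_mem _ (Ideal.neg_mem_iff _ |>.mpr h5) (Ideal.mul_mem_left _ _ (hτd d))
  exact (hQ.mem_or_mem h6).resolve_left hd

end Dedekind2

section Congr

variable {p ℓ : ℕ} [Fact p.Prime] [Fact ℓ.Prime] {K F : Type} [Field K] [NumberField K]
  [Field F] [NumberField F] [Algebra K F]

/-- (L3) the congruence `g ^ ((ℓ - 2) r) ≡ 1 - ζ` modulo the prime below `Q`. -/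
theorem thL_congr_nf (hB3 : ThTotRamStatement ℓ K F)
    (hB4 : ThUnifStatement ℓ F) {ζ : K} (hζ : IsPrimitiveRoot ζ p) {η : F}
    (hη : IsPrimitiveRoot η ℓ) (τ : F ≃ₐ[K] F) (g : ℕ)
    (hg : ∀ η' : F, η' ^ ℓ = 1 → τ η' = η' ^ g) (hgl : ¬ ℓ ∣ g) (β : 𝓞 F) (hβ0 : β ≠ 0)
    (hβ : haveI : NeZero p := ⟨(Fact.out : p.Prime).ne_zero⟩
      haveI : NeZero ℓ := ⟨(Fact.out : ℓ.Prime).ne_zero⟩
      (1 - algebraMap (𝓞 K) (𝓞 F) hζ.toInteger * hη.toInteger) *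
        galRestrict (𝓞 K) K F (𝓞 F) τ β = β)
    (Q : Ideal (𝓞 F)) [hQ : Q.IsPrime] (hℓQ : (ℓ : 𝓞 F) ∈ Q) (r : ℕ) (hr1 : β ∈ Q ^ r)
    (hr2 : β ∉ Q ^ (r + 1)) :
    haveI : NeZero p := ⟨(Fact.out : p.Prime).ne_zero⟩
    ((g : ℤ) : 𝓞 K) ^ ((ℓ - 2) * r) - (1 - hζ.toInteger) ∈ Q.under (𝓞 K) := by
  haveI : NeZero p := ⟨(Fact.out : p.Prime).ne_zero⟩
  haveI : NeZero ℓ := ⟨(Fact.out : ℓ.Prime).ne_zero⟩
  have hℓ : ℓ.Prime := Fact.out
  have hQ0 : Q ≠ ⊥ := by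
    rintro rfl
    rw [Ideal.mem_bot] at hℓQ
    exact (Nat.cast_ne_zero.mpr hℓ.ne_zero) hℓQ
  set τ' := galRestrict (𝓞 K) K F (𝓞 F) τ with hτ'
  let T : 𝓞 F →+* 𝓞 F := (τ' : 𝓞 F →ₐ[𝓞 K] 𝓞 F).toRingHom
  have hT : ∀ x, T x = τ' x := fun x => rfl
  have hTsurj : Function.Surjective T := τ'.surjective
  obtain ⟨hB3a, hB3b⟩ := hB3 Q hQ hℓQ
  have hcomap : Q.comap T = Q := by
    apply hB3a (Q.comap T) (Ideal.comap_isPrime T Q)
    ext x
    rw [Ideal.under_def, Ideal.under_def, Ideal.mem_comap, Ideal.mem_comap, Ideal.mem_comap, hT,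
      τ'.commutes]
  have hmap : Q.map T = Q := by
    have := Ideal.map_comap_of_surjective T hTsurj Q
    rwa [hcomap] at this
  have hτQ : ∀ n : ℕ, ∀ x ∈ Q ^ n, T x ∈ Q ^ n := fun n x hx => by
    have := Ideal.mem_map_of_mem T hx
    rwa [Ideal.map_pow, hmap] at this
  have hτd : ∀ d : 𝓞 F, T d - d ∈ Q := fun d => by
    obtain ⟨a, ha⟩ := hB3b d
    have h1 : T (d - algebraMap (𝓞 K) (𝓞 F) a) ∈ Q := by
      have := hτQ 1 (d - algebraMap (𝓞 K) (𝓞 F) a) (by rwa [pow_one])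
      rwa [pow_one] at this
    rw [map_sub, hT (algebraMap (𝓞 K) (𝓞 F) a), τ'.commutes] at h1
    have h2 : T d - d = (T d - algebraMap (𝓞 K) (𝓞 F) a) - (d - algebraMap (𝓞 K) (𝓞 F) a) := by
      ring
    rw [h2]
    exact Ideal.sub_mem _ h1 ha
  set H : 𝓞 F := hη.toInteger with hH
  set Z : 𝓞 F := algebraMap (𝓞 K) (𝓞 F) hζ.toInteger with hZ
  have hHprim : IsPrimitiveRoot H ℓ := hη.toInteger_isPrimitiveRoot
  obtain ⟨hϖ1, hϖ2⟩ := hB4 Q hQ hℓQ H hHprim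
  have hTH : T H = H ^ g := by
    apply FaithfulSMul.algebraMap_injective (𝓞 F) F
    rw [hT, hτ', algebraMap_galRestrict_apply, map_pow]
    exact hg _ hη.pow_eq_one
  have hs : T (1 - H) = (1 - H) * ∑ i ∈ Finset.range g, H ^ i := by
    rw [mul_neg_geom_sum, map_sub, map_one, hTH]
  have hcore := thL_congr_core Q hQ0 T hτQ hτd hϖ1 hϖ2 hs hβ hr1 hr2
  -- computations modulo `Q`
  have hφH : Ideal.Quotient.mk Q H = 1 := by
    have := Ideal.Quotient.eq_zero_iff_mem.mpr hϖ1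
    rw [map_sub, map_one, sub_eq_zero] at this
    exact this.symm
  have hφs : Ideal.Quotient.mk Q (∑ i ∈ Finset.range g, H ^ i) = (g : 𝓞 F ⧸ Q) := by
    rw [map_sum]
    simp only [map_pow, hφH, one_pow, Finset.sum_const, Finset.card_range, nsmul_eq_mul, mul_one]
  have hφ1 : (1 - Ideal.Quotient.mk Q Z) * (g : 𝓞 F ⧸ Q) ^ r = 1 := by
    have := Ideal.Quotient.eq_zero_iff_mem.mpr hcore
    rw [map_sub, map_mul, map_pow, hφs, map_sub, map_mul, hφH, map_one, mul_one, sub_eq_zero]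
      at this
    exact this
  have hφg : (g : 𝓞 F ⧸ Q) ^ (ℓ - 1) = 1 := by
    have h1 : ((g : ℤ)) ^ (ℓ - 1) ≡ 1 [ZMOD ℓ] := by
      apply Int.ModEq.pow_card_sub_one_eq_one hℓ
      rw [Int.isCoprime_iff_gcd_eq_one, Int.gcd_natCast_natCast, Nat.coprime_comm.mp]
      exact (Nat.Prime.coprime_iff_not_dvd hℓ).mpr hgl
    obtain ⟨k, hk⟩ := (Int.modEq_iff_dvd.mp h1.symm)
    have h2 : (((g : ℤ) ^ (ℓ - 1) - 1 : ℤ) : 𝓞 F ⧸ Q) = (((ℓ : ℤ) * k : ℤ) : 𝓞 F ⧸ Q) := by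
      rw [hk]
    have h3 : ((ℓ : ℕ) : 𝓞 F ⧸ Q) = 0 := by
      have := Ideal.Quotient.eq_zero_iff_mem.mpr hℓQ
      rwa [map_natCast] at this
    push_cast at h2
    rw [h3, zero_mul, sub_eq_zero] at h2
    exact h2
  have hℓ2 : ℓ - 1 = 1 + (ℓ - 2) := by have := hℓ.two_le; omega
  have hfinal : (g : 𝓞 F ⧸ Q) ^ ((ℓ - 2) * r) = 1 - Ideal.Quotient.mk Q Z := by
    calc (g : 𝓞 F ⧸ Q) ^ ((ℓ - 2) * r)
        = ((1 - Ideal.Quotient.mk Q Z) * (g : 𝓞 F ⧸ Q) ^ r) * (g : 𝓞 F ⧸ Q) ^ ((ℓ - 2) * r) := by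
          rw [hφ1, one_mul]
      _ = (1 - Ideal.Quotient.mk Q Z) * ((g : 𝓞 F ⧸ Q) ^ (ℓ - 1)) ^ r := by
          rw [hℓ2, ← pow_mul, add_mul, one_mul, pow_add]
          ring
      _ = 1 - Ideal.Quotient.mk Q Z := by rw [hφg, one_pow, mul_one]
  have e : algebraMap (𝓞 K) (𝓞 F) (((g : ℤ) : 𝓞 K) ^ ((ℓ - 2) * r) - (1 - hζ.toInteger)) =
      (g : 𝓞 F) ^ ((ℓ - 2) * r) - (1 - Z) := by
    rw [map_sub, map_pow, map_intCast, Int.cast_natCast, map_sub, map_one]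
  rw [Ideal.under_def, Ideal.mem_comap, e, ← Ideal.Quotient.eq_zero_iff_mem, map_sub, map_pow,
    map_natCast, map_sub, map_one, hfinal, sub_self]

end Congr

/-! ## (L2) valuations of the norm -/

section Dedekind3

variable {R : Type*} [CommRing R] [IsDedekindDomain R]

/-- Associated elements have the same valuation. -/
theorem thL_intValuation_eq_of_associated (w : HeightOneSpectrum R) {x y : R}
    (h : Associated x y) : w.intValuation x = w.intValuation y := by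
  obtain ⟨u, rfl⟩ := h
  have hu : w.intValuation (u : R) = 1 :=
    HeightOneSpectrum.intValuation_eq_one_iff.mpr fun hmem =>
      w.isPrime.ne_top (Ideal.eq_top_of_isUnit_mem _ hmem u.isUnit)
  rw [map_mul, hu, mul_one]

/-- The valuation of a nonzero element is `exp (-r)` for a natural number `r`. -/
theorem thL_exists_intValuation_eq (w : HeightOneSpectrum R) {x : R} (hx : x ≠ 0) :
    ∃ r : ℕ, w.intValuation x = WithZero.exp (-(r : ℤ)) := by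
  classical
  exact ⟨_, w.intValuation_if_neg hx⟩

/-- Membership in powers from the valuation. -/
theorem thL_mem_pow_of_intValuation (w : HeightOneSpectrum R) {x : R} {r : ℕ}
    (h : w.intValuation x = WithZero.exp (-(r : ℤ))) :
    x ∈ w.asIdeal ^ r ∧ x ∉ w.asIdeal ^ (r + 1) := by
  constructor
  · rw [← HeightOneSpectrum.intValuation_le_pow_iff_mem, h]
  · rw [← HeightOneSpectrum.intValuation_le_pow_iff_mem, h, WithZero.exp_le_exp]
    push_cast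
    omega

end Dedekind3

section Val

variable {K F : Type} [Field K] [NumberField K] [Field F] [NumberField F] [Algebra K F]

/-- (L2) the valuations of `b` with `(b) = (β) ^ (ℓ - 1)` in `𝓞 F`. -/
theorem thL_val_norm {ℓ : ℕ} (hℓ2 : 2 ≤ ℓ) (hB1 : ThRamStatement ℓ K F) {b : 𝓞 K} {β : 𝓞 F}
    (hb0 : b ≠ 0) (hβ0 : β ≠ 0)
    (hb : Associated (algebraMap (𝓞 K) (𝓞 F) b) (β ^ (ℓ - 1))) (v : HeightOneSpectrum (𝓞 K)) :
    ∃ (w : HeightOneSpectrum (𝓞 F)) (c : ℕ), w.asIdeal.under (𝓞 K) = v.asIdeal ∧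
      w.intValuation β = WithZero.exp (-(c : ℤ)) ∧
      ((ℓ : 𝓞 K) ∈ v.asIdeal → (ℓ : 𝓞 F) ∈ w.asIdeal ∧
        v.intValuation b = WithZero.exp (-(c : ℤ))) ∧
      ((ℓ : 𝓞 K) ∉ v.asIdeal → v.intValuation b = WithZero.exp (-(((ℓ - 1) * c : ℕ) : ℤ))) := by
  haveI := v.isPrime
  obtain ⟨Q, -, hQ, hQv⟩ := Ideal.exists_ideal_over_prime_of_isIntegral v.asIdeal
    (⊥ : Ideal (𝓞 F)) (by
      rw [← RingHom.ker_eq_comap_bot, (RingHom.injective_iff_ker_eq_bot _).mp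
        (FaithfulSMul.algebraMap_injective (𝓞 K) (𝓞 F))]
      exact bot_le)
  haveI : Q.LiesOver v.asIdeal := ⟨hQv.symm⟩
  have hQ0 : Q ≠ ⊥ := Ideal.ne_bot_of_liesOver_of_ne_bot v.ne_bot Q
  let w : HeightOneSpectrum (𝓞 F) := ⟨Q, hQ, hQ0⟩
  have hmem : (ℓ : 𝓞 F) ∈ Q ↔ (ℓ : 𝓞 K) ∈ v.asIdeal := by
    rw [← hQv, Ideal.mem_comap, map_natCast]
  obtain ⟨c, hc⟩ := thL_exists_intValuation_eq w hβ0
  obtain ⟨c', hc'⟩ := thL_exists_intValuation_eq v hb0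
  have h1 : w.intValuation (algebraMap (𝓞 K) (𝓞 F) b) = WithZero.exp (-(c : ℤ)) ^ (ℓ - 1) := by
    rw [thL_intValuation_eq_of_associated w hb, map_pow, hc]
  have hB := hB1 w v ‹_› b
  refine ⟨w, c, hQv, hc, fun hv => ⟨hmem.mpr hv, ?_⟩, fun hv => ?_⟩
  · have h2 := hB.1 (hmem.mpr hv)
    rw [h1, hc', ← WithZero.exp_nsmul, ← WithZero.exp_nsmul, WithZero.exp_inj] at h2
    rw [hc', WithZero.exp_inj]
    simp only [nsmul_eq_mul, mul_neg, neg_inj] at h2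
    have h3 : ((ℓ - 1 : ℕ) : ℤ) ≠ 0 := by
      have : 0 < ℓ - 1 := by omega
      exact_mod_cast this.ne'
    have := mul_left_cancel₀ h3 h2
    rw [neg_inj]
    exact this.symm
  · have h2 := hB.2 (fun h => hv (hmem.mp h))
    rw [h1, ← WithZero.exp_nsmul] at h2
    rw [← h2, WithZero.exp_inj]
    simp only [nsmul_eq_mul, mul_neg, Nat.cast_mul]

end Val

/-! ## (L4) assembly -/

section Main

variable {p ℓ : ℕ} [Fact p.Prime] [Fact ℓ.Prime] {K F : Type} [Field K] [NumberField K]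
  [IsCyclotomicExtension {p} ℚ K] [Field F] [NumberField F] [Algebra K F]
  [IsCyclotomicExtension {ℓ} K F]

/-- (TH-L) the local half of Thaine's relation. -/
theorem thL_thaine (hpl : p ≠ ℓ) (hl1 : ℓ % p = 1)
    (hB1 : ThRamStatement ℓ K F) (hB2 : ThSplitStatement ℓ K) (hB3 : ThTotRamStatement ℓ K F)
    (hB4 : ThUnifStatement ℓ F)
    {ζ : K} (hζ : IsPrimitiveRoot ζ p) {η : F} (hη : IsPrimitiveRoot η ℓ)
    (τ : F ≃ₐ[K] F) (hτ : ∀ x, x ∈ Subgroup.zpowers τ) (g : ℕ)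
    (hg : ∀ η' : F, η' ^ ℓ = 1 → τ η' = η' ^ g) (hgl : ¬ ℓ ∣ g)
    (β : 𝓞 F) (hβ0 : β ≠ 0)
    (hβ : haveI : NeZero p := ⟨(Fact.out : p.Prime).ne_zero⟩
      haveI : NeZero ℓ := ⟨(Fact.out : ℓ.Prime).ne_zero⟩
      (1 - algebraMap (𝓞 K) (𝓞 F) hζ.toInteger * hη.toInteger) *
        galRestrict (𝓞 K) K F (𝓞 F) τ β = β)
    (lam : Ideal (𝓞 K)) (hlam : lam.IsPrime) (hl : (ℓ : 𝓞 K) ∈ lam) :
    haveI : NeZero p := ⟨(Fact.out : p.Prime).ne_zero⟩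
    ∃ (n : (K ≃ₐ[ℚ] K) → ℕ) (g' : ℤ) (b₁ b₂ : 𝓞 K) (I₁ I₂ : Ideal (𝓞 K)),
      b₁ ≠ 0 ∧ b₂ ≠ 0 ∧ I₁ ≠ ⊥ ∧ I₂ ≠ ⊥ ∧
      Ideal.span {b₁} * I₁ ^ p * ∏ σ : K ≃ₐ[ℚ] K, (lam.map (galInt σ : 𝓞 K →+* 𝓞 K)) ^ n σ =
        Ideal.span {b₂} * I₂ ^ p ∧
      ∀ σ : K ≃ₐ[ℚ] K, (g' : 𝓞 K) ^ n σ - (1 - hζ.toInteger) ∈
        lam.map (galInt σ : 𝓞 K →+* 𝓞 K) := by
  haveI : NeZero p := ⟨(Fact.out : p.Prime).ne_zero⟩
  haveI : NeZero ℓ := ⟨(Fact.out : ℓ.Prime).ne_zero⟩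
  have hℓ : ℓ.Prime := Fact.out
  have hp : p.Prime := Fact.out
  have hℓ2 : 2 ≤ ℓ := hℓ.two_le
  haveI : IsGalois K F := IsCyclotomicExtension.isGalois {ℓ} K F
  have hfin : Module.finrank K F = ℓ - 1 := th_finrank K F hpl
  obtain ⟨b, hb0, hb⟩ := thL_exists_norm τ hτ _ β hβ0 hβ
  rw [hfin] at hb
  -- the primes `σ(λ)`
  have hℓK : (ℓ : 𝓞 K) ≠ 0 := Nat.cast_ne_zero.mpr hℓ.ne_zero
  have hprime : ∀ σ : K ≃ₐ[ℚ] K, (lam.map (galInt σ : 𝓞 K →+* 𝓞 K)).IsPrime := fun σ =>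
    Ideal.map_isPrime_of_equiv (galInt σ)
  have hmem : ∀ σ : K ≃ₐ[ℚ] K, (ℓ : 𝓞 K) ∈ lam.map (galInt σ : 𝓞 K →+* 𝓞 K) := fun σ => by
    have := Ideal.mem_map_of_mem (galInt σ : 𝓞 K →+* 𝓞 K) hl
    rwa [map_natCast] at this
  have hne : ∀ σ : K ≃ₐ[ℚ] K, lam.map (galInt σ : 𝓞 K →+* 𝓞 K) ≠ ⊥ := fun σ h => by
    have := hmem σ
    rw [h, Ideal.mem_bot] at this
    exact hℓK this
  let P : (K ≃ₐ[ℚ] K) → HeightOneSpectrum (𝓞 K) := fun σ =>
    ⟨lam.map (galInt σ : 𝓞 K →+* 𝓞 K), hprime σ, hne σ⟩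
  have hPinj : Function.Injective P := fun σ σ' h => by
    apply (hB2 lam hlam hl).2
    exact congrArg HeightOneSpectrum.asIdeal h
  -- valuations
  have hval := fun v => thL_val_norm hℓ2 hB1 hb0 hβ0 hb v
  choose w c hwv hwc hw1 hw2 using hval
  obtain ⟨I, hI0, hI⟩ := thA_exists_pow P hPinj b hb0 (ℓ - 1) (by omega) (fun σ => c (P σ))
    (fun σ => ((hw1 (P σ)) (hmem σ)).2) (fun v hv => ⟨c v, hw2 v (fun hmemv => by
      obtain ⟨σ, hσ⟩ := (hB2 lam hlam hl).1 v.asIdeal v.isPrime hmemv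
      exact hv σ (HeightOneSpectrum.ext hσ.symm))⟩)
  have hpdvd : p ∣ ℓ - 1 := by
    have := Nat.dvd_sub_mod (n := p) ℓ
    rwa [hl1] at this
  refine ⟨fun σ => (ℓ - 2) * c (P σ), (g : ℤ), b, 1, ⊤, I ^ ((ℓ - 1) / p), hb0, one_ne_zero,
    top_ne_bot, ?_, ?_, fun σ => ?_⟩
  · rw [← Ideal.zero_eq_bot]
    exact pow_ne_zero _ hI0
  · rw [Ideal.top_pow, Ideal.mul_top, Ideal.span_singleton_one, Ideal.top_mul, ← pow_mul,
      Nat.div_mul_cancel hpdvd, ← hI]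
    rfl
  · have h1 := hw1 (P σ) (hmem σ)
    have h2 := thL_mem_pow_of_intValuation (w (P σ)) (hwc (P σ))
    haveI := (w (P σ)).isPrime
    have h3 := thL_congr_nf hB3 hB4 hζ hη τ g hg hgl β hβ0 hβ (w (P σ)).asIdeal h1.1 (c (P σ))
      h2.1 h2.2
    rw [hwv (P σ)] at h3
    exact h3

end Main

end Fermat.Agent.S14
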