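import Mathlib
import Fermat.Agent.S14.ThaineDefs
import Fermat.Agent.S14.ThaineField
import Fermat.Agent.S14.ThaineRam

/-!
# S14 (TH-B3): the primes of `K = ℚ(ζ_p)` over `ℓ` are totally ramified in `F = K(ζ_ℓ)`

`thB3h_totRam : ThTotRamStatement ℓ K F` for `ℓ ≡ 1 mod p`.

Route: the fundamental identity `∑_{Q' ∣ q} e(Q'|q) f(Q'|q) = [F : K] = ℓ - 1` together with
`e(Q'|q) = ℓ - 1` at every prime `Q'` of `F` over `ℓ` (`thB_ramificationIdx`) forces a unique prime
over `q` with residue degree one.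
-/

set_option autoImplicit false

open scoped NumberField
open IsDedekindDomain Ideal

namespace Fermat.Agent.S14

/-- A sum of positive natural numbers over a finite type which equals `1` has exactly one term. -/
lemma thB3h_subsingleton_of_sum_eq_one {ι : Type*} [Fintype ι] (f : ι → ℕ) (hf : ∀ i, 0 < f i)
    (h : ∑ i, f i = 1) : (∀ i j : ι, i = j) ∧ ∀ i, f i = 1 := by
  classical
  have hle : ∀ i, f i ≤ 1 := by
    intro i
    rw [← h]
    exact Finset.single_le_sum (f := f) (fun j _ => Nat.zero_le _) (Finset.mem_univ i)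
  have h1 : ∀ i, f i = 1 := fun i => le_antisymm (hle i) (hf i)
  refine ⟨?_, h1⟩
  intro i j
  by_contra hij
  have h2 : f i + f j ≤ ∑ k, f k := by
    have h3 : ∑ k ∈ ({i, j} : Finset ι), f k ≤ ∑ k, f k :=
      Finset.sum_le_sum_of_subset (Finset.subset_univ _)
    rwa [Finset.sum_pair hij] at h3
  rw [h, h1 i, h1 j] at h2
  omega

/-- If the residue degree is one, then the residue field extension is trivial. -/
lemma thB3h_surjective_of_inertiaDeg_eq_one {R S : Type*} [CommRing R] [CommRing S] [Algebra R S]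
    (q : Ideal R) (Q : Ideal S) [Q.LiesOver q] [q.IsMaximal] [Q.IsMaximal]
    (h : Q.inertiaDeg R = 1) (x : S) : ∃ a : R, x - algebraMap R S a ∈ Q := by
  rw [Ideal.inertiaDeg_eq_of_isMaximal q Q] at h
  let _ : Field (R ⧸ q) := Ideal.Quotient.field q
  let _ : Field (S ⧸ Q) := Ideal.Quotient.field Q
  have hbt : (⊥ : Subalgebra (R ⧸ q) (S ⧸ Q)) = ⊤ := Subalgebra.bot_eq_top_of_finrank_eq_one h
  have hsurj : Function.Surjective (algebraMap (R ⧸ q) (S ⧸ Q)) :=
    Algebra.surjective_algebraMap_iff.mpr hbt.symm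
  obtain ⟨abar, ha⟩ := hsurj (Ideal.Quotient.mk Q x)
  obtain ⟨a, rfl⟩ := Ideal.Quotient.mk_surjective abar
  refine ⟨a, ?_⟩
  rw [← Ideal.Quotient.eq_zero_iff_mem, map_sub, ← ha, Ideal.Quotient.algebraMap_mk_of_liesOver,
    sub_self]

variable {p ℓ : ℕ} [hpF : Fact p.Prime] [hlF : Fact ℓ.Prime] {K F : Type} [Field K]
  [NumberField K] [hK : IsCyclotomicExtension {p} ℚ K] [Field F] [NumberField F] [Algebra K F]
  [hF : IsCyclotomicExtension {ℓ} K F]

include hpF hlF hK hF in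
/-- **(TH-B3)** the primes of `K` over `ℓ` are totally ramified in `F`. -/
theorem thB3h_totRam (hl : ℓ % p = 1) : ThTotRamStatement ℓ K F := by
  intro Q hQ hℓQ
  have hp : p.Prime := Fact.out
  have hℓ : ℓ.Prime := Fact.out
  have hpl : p ≠ ℓ := by
    rintro rfl
    rw [Nat.mod_self] at hl
    exact zero_ne_one hl
  have hℓ1 : 0 < ℓ - 1 := Nat.sub_pos_of_lt hℓ.one_lt
  set q : Ideal (𝓞 K) := Q.under (𝓞 K) with hq
  have hqprime : q.IsPrime := Ideal.IsPrime.under (𝓞 K) Q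
  have hℓq : (ℓ : 𝓞 K) ∈ q := by
    rw [hq, Ideal.under_def, Ideal.mem_comap, map_natCast]
    exact hℓQ
  have hq0 : q ≠ ⊥ := by
    intro h
    rw [h, Ideal.mem_bot] at hℓq
    exact hℓ.ne_zero (by exact_mod_cast hℓq)
  have hqmax : q.IsMaximal := hqprime.isMaximal hq0
  have hQ0 : Q ≠ ⊥ := by
    intro h
    rw [h, Ideal.mem_bot] at hℓQ
    exact hℓ.ne_zero (by exact_mod_cast hℓQ)
  have hQmax : Q.IsMaximal := hQ.isMaximal hQ0
  have hQq : Q.LiesOver q := ⟨rfl⟩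
  let _ : Fintype (q.primesOver (𝓞 F)) := (Algebra.QuasiFinite.finite_primesOver q).fintype
  have hsum := Ideal.sum_ramification_inertia_eq_finrank q (𝓞 F)
  have hrank : Module.finrank (𝓞 K) (𝓞 F) = ℓ - 1 := by
    rw [← IsFractionRing.finrank_eq (𝓞 K) K (𝓞 F) F]
    exact th_finrank K F hpl
  -- every prime over `q` contains `ℓ`, so it has ramification index `ℓ - 1`
  have hmem : ∀ Q' : q.primesOver (𝓞 F), (ℓ : 𝓞 F) ∈ Q'.1 := by
    intro Q'
    have h1 : Q'.1.LiesOver q := Q'.2.2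
    have h2 : (ℓ : 𝓞 K) ∈ Q'.1.under (𝓞 K) := by
      rw [← h1.over]; exact hℓq
    rw [Ideal.under_def, Ideal.mem_comap, map_natCast] at h2
    exact h2
  have he : ∀ Q' : q.primesOver (𝓞 F), Q'.1.ramificationIdx (𝓞 K) = ℓ - 1 := by
    intro Q'
    have : Q'.1.IsPrime := Q'.2.1
    have hQ'0 : Q'.1 ≠ ⊥ := by
      intro h
      have := hmem Q'
      rw [h, Ideal.mem_bot] at this
      exact hℓ.ne_zero (by exact_mod_cast this)
    exact (thB_ramificationIdx (p := p) (K := K) hl Q'.1 hQ'0).1 (hmem Q')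
  have hsum' : ∑ Q' : q.primesOver (𝓞 F), Q'.1.inertiaDeg (𝓞 K) = 1 := by
    have h1 : ∑ Q' : q.primesOver (𝓞 F), Q'.1.ramificationIdx (𝓞 K) * Q'.1.inertiaDeg (𝓞 K) =
        (ℓ - 1) * ∑ Q' : q.primesOver (𝓞 F), Q'.1.inertiaDeg (𝓞 K) := by
      rw [Finset.mul_sum]
      exact Finset.sum_congr rfl fun Q' _ => by rw [he Q']
    rw [h1, hrank] at hsum
    exact Nat.eq_of_mul_eq_mul_left hℓ1 (by rw [mul_one]; exact hsum)
  have hpos : ∀ Q' : q.primesOver (𝓞 F), 0 < Q'.1.inertiaDeg (𝓞 K) := by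
    intro Q'
    have : Q'.1.IsPrime := Q'.2.1
    exact Ideal.inertiaDeg_pos Q'.1 (𝓞 K)
  obtain ⟨huniq, hf⟩ := thB3h_subsingleton_of_sum_eq_one
    (fun Q' : q.primesOver (𝓞 F) => Q'.1.inertiaDeg (𝓞 K)) hpos hsum'
  constructor
  · intro Q' hQ' hunder
    have hQ'q : Q'.LiesOver q := ⟨hunder.symm⟩
    have := huniq ⟨Q', hQ', hQ'q⟩ ⟨Q, hQ, hQq⟩
    exact congrArg Subtype.val this
  · intro x
    have hfQ : Q.inertiaDeg (𝓞 K) = 1 := hf ⟨Q, hQ, hQq⟩
    exact thB3h_surjective_of_inertiaDeg_eq_one q Q hfQ x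

end Fermat.Agent.S14
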