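import Mathlib
import Fermat.Agent.S14.ThaineDefs
import Fermat.Agent.S14.ThaineField
import Fermat.Agent.S14.ThaineRam

/-!
# S14 (TH-B4): `1 - ζ_ℓ` is a uniformizer at the primes of `F = ℚ(ζ_p, ζ_ℓ)` above `ℓ`

`thB4_unif : ThUnifStatement ℓ F`: for every prime `Q` of `𝓞 F` containing `ℓ` and every primitive
`ℓ`-th root of unity `η ∈ 𝓞 F`, `1 - η ∈ Q` and `1 - η ∉ Q ^ 2`.

Proof: `ℓ = ∏_{0 < k < ℓ} (1 - η ^ k)` and all factors are associated to `1 - η`; the ramification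
index of `Q` over `ℓ` is `ℓ - 1`.
-/

set_option autoImplicit false

open scoped NumberField
open IsDedekindDomain Ideal

namespace Fermat.Agent.S14

section unif

variable {p ℓ : ℕ} [hpF : Fact p.Prime] [hlF : Fact ℓ.Prime] {K F : Type} [Field K]
  [NumberField K] [hK : IsCyclotomicExtension {p} ℚ K] [Field F] [NumberField F] [Algebra K F]
  [hF : IsCyclotomicExtension {ℓ} K F]

/-- If `ℓ 𝓞 F ⊆ Q ^ m` then `m ≤ e(Q | ℓ)`. -/
lemma thB4_le_ramificationIdx {L : Type*} [Field L] [NumberField L] {ℓ : ℕ} (hℓ : ℓ.Prime)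
    (Q : Ideal (𝓞 L)) [hQ : Q.IsPrime] [hQl : Q.LiesOver (span {(ℓ : ℤ)})] (hQ0 : Q ≠ ⊥) {m : ℕ}
    (h : (ℓ : 𝓞 L) ∈ Q ^ m) : m ≤ Q.ramificationIdx ℤ := by
  have hspan : span {(ℓ : ℤ)} ≠ ⊥ := by
    rw [Ne, Ideal.span_singleton_eq_bot]
    exact_mod_cast hℓ.ne_zero
  have hmap : (span {(ℓ : ℤ)}).map (algebraMap ℤ (𝓞 L)) ≠ ⊥ := Ideal.map_ne_bot_of_ne_bot hspan
  rw [← Ideal.ramificationIdx'_eq_ramificationIdx (span {(ℓ : ℤ)}) Q hspan,
    Ideal.IsDedekindDomain.ramificationIdx'_eq_multiplicity hmap hQ]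
  have hfin : FiniteMultiplicity Q ((span {(ℓ : ℤ)}).map (algebraMap ℤ (𝓞 L))) :=
    FiniteMultiplicity.of_prime_left (Ideal.prime_of_isPrime hQ0 hQ) hmap
  refine hfin.le_multiplicity_of_pow_dvd ?_
  rw [Ideal.dvd_iff_le, Ideal.map_span, Set.image_singleton, Ideal.span_singleton_le_iff_mem]
  simpa using h

include hpF hlF hK hF in
/-- **(TH-B4)** `1 - η` is a uniformizer at every prime of `F` above `ℓ`. -/
theorem thB4_unif (hl : ℓ % p = 1) : ThUnifStatement ℓ F := by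
  intro Q hQ hmem η hη
  have hp : p.Prime := Fact.out
  have hℓ : ℓ.Prime := Fact.out
  have : NeZero p := ⟨hp.ne_zero⟩
  have : NeZero (p * ℓ) := ⟨mul_ne_zero hp.ne_zero hℓ.ne_zero⟩
  have hpl : p ≠ ℓ := by
    rintro rfl
    rw [Nat.mod_self] at hl
    exact zero_ne_one hl
  have hlp : ¬ ℓ ∣ p := fun h => hpl ((Nat.prime_dvd_prime_iff_eq hℓ hp).mp h).symm
  have hcyc : IsCyclotomicExtension {p * ℓ} ℚ F := th_isCyclotomicExtension_mul K F hpl
  have hQl : Q.LiesOver (span {(ℓ : ℤ)}) := thB_liesOver hℓ Q hmem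
  have hQ0 : Q ≠ ⊥ := by
    rintro rfl
    have : (ℓ : 𝓞 F) = 0 := by simpa using hmem
    exact hℓ.ne_zero (by exact_mod_cast this)
  have he : Q.ramificationIdx ℤ = ℓ - 1 := by
    have := IsCyclotomicExtension.Rat.ramificationIdx_eq (p * ℓ) (m := p) (p := ℓ) (k := 0) F Q
      (by ring) hlp
    rwa [pow_zero, one_mul] at this
  obtain ⟨n, hn⟩ : ∃ n, ℓ = n + 1 := ⟨ℓ - 1, (Nat.sub_add_cancel hℓ.pos).symm⟩
  have hη' : IsPrimitiveRoot η (n + 1) := hn ▸ hη
  have hprod : ∏ k ∈ Finset.range n, (1 - η ^ (k + 1)) = (ℓ : 𝓞 F) := by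
    rw [hη'.prod_one_sub_pow_eq_order, hn]
    push_cast
    rfl
  have hassoc : ∀ k ∈ Finset.range n, Associated (η - 1) (η ^ (k + 1) - 1) := by
    intro k hk
    apply hη.associated_sub_one_pow_sub_one_of_coprime
    have hlt : k + 1 < ℓ := by
      have := Finset.mem_range.mp hk
      omega
    exact ((Nat.Prime.coprime_iff_not_dvd hℓ).mpr
      (Nat.not_dvd_of_pos_of_lt (Nat.succ_pos k) hlt)).symm
  constructor
  · -- `1 - η ∈ Q`
    rw [← hprod] at hmem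
    obtain ⟨k, hk, hkmem⟩ := (Ideal.IsPrime.prod_mem_iff (hp := hQ)).mp hmem
    have h1 : η ^ (k + 1) - 1 ∈ Q := by
      have := Q.neg_mem hkmem
      rwa [neg_sub] at this
    have h2 : η - 1 ∈ Q := by
      obtain ⟨u, hu⟩ := (hassoc k hk).symm
      rw [← hu]
      exact Q.mul_mem_right _ h1
    have := Q.neg_mem h2
    rwa [neg_sub] at this
  · -- `1 - η ∉ Q ^ 2`
    intro h2
    have hall : ∀ k ∈ Finset.range n, (1 - η ^ (k + 1)) ∈ Q ^ 2 := by
      intro k hk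
      obtain ⟨u, hu⟩ := hassoc k hk
      have h3 : η - 1 ∈ Q ^ 2 := by
        have := (Q ^ 2).neg_mem h2
        rwa [neg_sub] at this
      have h4 : η ^ (k + 1) - 1 ∈ Q ^ 2 := by
        rw [← hu]
        exact (Q ^ 2).mul_mem_right _ h3
      have := (Q ^ 2).neg_mem h4
      rwa [neg_sub] at this
    have hmem2 : (ℓ : 𝓞 F) ∈ Q ^ (2 * n) := by
      rw [← hprod, pow_mul]
      have := Ideal.prod_mem_prod hall
      rwa [Finset.prod_const, Finset.card_range] at this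
    have hle := thB4_le_ramificationIdx hℓ Q hQ0 hmem2
    rw [he, hn] at hle
    have hn0 : n = 0 := by omega
    rw [hn0] at hn
    exact hℓ.one_lt.ne' hn

end unif

end Fermat.Agent.S14
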